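/-
Item 84 (S58), piece 84-D2 (helper3), part A: PURE ALGEBRA.

Two-dimensional representations `r : G → End_F(W)` and `ρ : G → End_k(V)` (`F → k` fields of
characteristic `≠ 2`) with `tr ρ(σ) = ι (tr r(σ))` for all `σ`.  If `r` is irreducible over `F`
and there is `c ∈ G` with `c² = 1`, `det r(c) = -1`, then `ρ` is irreducible over `k`
(apply it to `k = ` an algebraic closure: ABSOLUTE irreducibility).

Proof: in an eigenbasis `e₊, e₋` of `r(c)`, the entry `m₀₀(σ) = (tr r(σ) + tr r(cσ))/2`; a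
stable line of `V` gives two characters `χ₁, χ₂` with `tr ρ = χ₁ + χ₂`, `{χ₁(c), χ₂(c)} = {1, -1}`,
so `ι ∘ m₀₀` is one of them, hence `m₀₀` is multiplicative, hence `m₀₁(σ) m₁₀(τ) = 0` for all
`σ, τ`, and `e₊` or `e₋` spans a stable line of `W`.  (No Burnside, no Brauer–Nesbitt.)

* `hrs_exists_chars`      : a stable line of `V` gives the two diagonal characters;
* `hrs_exists_eigenbasis` : the eigenbasis of an involution of determinant `-1`;
* `hrs_irreducible_of_trace_link` : the theorem.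
(complete proofs, standard axioms only)
-/
import Mathlib

set_option autoImplicit false

namespace Fermat.Agent.S58lib

open Module

section Mat

variable {R : Type*} [CommRing R]

theorem hrs_mul_apply (A B : Matrix (Fin 2) (Fin 2) R) (i j : Fin 2) :
    (A * B) i j = A i 0 * B 0 j + A i 1 * B 1 j := by
  rw [Matrix.mul_apply, Fin.sum_univ_two]

end Mat

section Chars

variable {G : Type*} [Monoid G]
variable {k : Type*} [Field k] {V : Type*} [AddCommGroup V] [Module k V]

/-- a stable line of a two-dimensional representation gives its two diagonal characters -/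
theorem hrs_exists_chars (hV : finrank k V = 2) (ρ : G →* Module.End k V)
    (U : Submodule k V) (hU : ∀ σ : G, ∀ x ∈ U, ρ σ x ∈ U) (h0 : U ≠ ⊥) (h1 : U ≠ ⊤) :
    ∃ χ₁ χ₂ : G → k, (∀ σ τ, χ₁ (σ * τ) = χ₁ σ * χ₁ τ) ∧ (∀ σ τ, χ₂ (σ * τ) = χ₂ σ * χ₂ τ) ∧
      χ₁ 1 = 1 ∧ χ₂ 1 = 1 ∧ ∀ σ, LinearMap.trace k V (ρ σ) = χ₁ σ + χ₂ σ := by
  classical
  obtain ⟨u, huU, hu0⟩ := Submodule.exists_mem_ne_zero_of_ne_bot h0
  obtain ⟨v, hvU⟩ : ∃ v : V, v ∉ U := by
    by_contra hcon
    push Not at hcon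
    exact h1 (Submodule.eq_top_iff'.2 hcon)
  have hli : LinearIndependent k ![u, v] := by
    rw [LinearIndependent.pair_iff]
    intro s t hst
    have ht : t = 0 := by
      by_contra ht
      apply hvU
      have hv : v = (-(t⁻¹ * s)) • u := by
        have h2 : t • v = -(s • u) := by
          rw [eq_neg_iff_add_eq_zero, add_comm]; exact hst
        calc v = t⁻¹ • (t • v) := by rw [smul_smul, inv_mul_cancel₀ ht, one_smul]
          _ = (-(t⁻¹ * s)) • u := by rw [h2, smul_neg, smul_smul, neg_smul]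
      rw [hv]
      exact U.smul_mem _ huU
    refine ⟨?_, ht⟩
    rw [ht, zero_smul, add_zero] at hst
    exact (smul_eq_zero.1 hst).resolve_right hu0
  have hcard : Fintype.card (Fin 2) = finrank k V := by rw [hV]; rfl
  set b : Basis (Fin 2) k V := basisOfLinearIndependentOfCardEqFinrank hli hcard with hb
  have hb0 : b 0 = u := by
    rw [hb, coe_basisOfLinearIndependentOfCardEqFinrank]; rfl
  have hb1 : b 1 = v := by
    rw [hb, coe_basisOfLinearIndependentOfCardEqFinrank]; rfl
  set N : G → Matrix (Fin 2) (Fin 2) k := fun σ => LinearMap.toMatrix b b (ρ σ) with hN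
  have hNmul : ∀ σ τ, N (σ * τ) = N σ * N τ := by
    intro σ τ
    simp only [hN]
    rw [map_mul, LinearMap.toMatrix_mul]
  have hN1 : N 1 = 1 := by
    simp only [hN]
    rw [map_one, LinearMap.toMatrix_one]
  have hN10 : ∀ σ, N σ 1 0 = 0 := by
    intro σ
    by_contra hne
    apply hvU
    have hsum : ρ σ u = N σ 0 0 • u + N σ 1 0 • v := by
      have h := b.sum_repr (ρ σ (b 0))
      rw [Fin.sum_univ_two] at h
      rw [← hb0, ← hb1]
      simp only [hN, LinearMap.toMatrix_apply]
      exact h.symm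
    have hv : v = (N σ 1 0)⁻¹ • (ρ σ u - N σ 0 0 • u) := by
      rw [hsum, add_sub_cancel_left, smul_smul, inv_mul_cancel₀ hne, one_smul]
    rw [hv]
    exact U.smul_mem _ (U.sub_mem (hU σ u huU) (U.smul_mem _ huU))
  refine ⟨fun σ => N σ 0 0, fun σ => N σ 1 1, ?_, ?_, ?_, ?_, ?_⟩
  · intro σ τ
    show N (σ * τ) 0 0 = N σ 0 0 * N τ 0 0
    rw [hNmul, hrs_mul_apply, hN10 τ, mul_zero, add_zero]
  · intro σ τ
    show N (σ * τ) 1 1 = N σ 1 1 * N τ 1 1
    rw [hNmul, hrs_mul_apply, hN10 σ, zero_mul, zero_add]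
  · show N 1 0 0 = 1
    rw [hN1]; rfl
  · show N 1 1 1 = 1
    rw [hN1]; rfl
  · intro σ
    rw [LinearMap.trace_eq_matrix_trace k b, Matrix.trace_fin_two]

end Chars

section Eigen

variable {F : Type*} [Field F] {W : Type*} [AddCommGroup W] [Module F W]

/-- an involution of determinant `-1` of a plane (characteristic `≠ 2`) has an eigenbasis -/
theorem hrs_exists_eigenbasis (h2 : (2 : F) ≠ 0) (hW : finrank F W = 2)
    (C : Module.End F W) (hC : C * C = 1) (hdet : LinearMap.det C = -1) :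
    ∃ b : Basis (Fin 2) F W, C (b 0) = b 0 ∧ C (b 1) = - b 1 := by
  classical
  have hCC : ∀ w : W, C (C w) = w := fun w => by
    have := congrArg (fun f : Module.End F W => f w) hC
    simpa using this
  have hne1 : (1 : F) ≠ -1 := by
    intro h
    apply h2
    have : (2 : F) = 1 + 1 := by norm_num
    rw [this]
    nth_rewrite 2 [h]
    ring
  -- `C ≠ -1`
  have hCm : ∃ w : W, w + C w ≠ 0 := by
    by_contra hcon
    push Not at hcon
    have hCeq : C = (-1 : F) • (1 : Module.End F W) := by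
      ext w
      have := hcon w
      rw [LinearMap.smul_apply, Module.End.one_apply, neg_smul, one_smul]
      exact (eq_neg_of_add_eq_zero_right this)
    rw [hCeq, LinearMap.det_smul, hW, map_one LinearMap.det] at hdet
    apply hne1
    rw [← hdet]; ring
  -- `C ≠ 1`
  have hCp : ∃ w : W, w - C w ≠ 0 := by
    by_contra hcon
    push Not at hcon
    have hCeq : C = 1 := by
      ext w
      have := hcon w
      simp only [Module.End.one_apply]
      exact (sub_eq_zero.1 this).symm
    rw [hCeq, map_one LinearMap.det] at hdet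
    exact hne1 hdet
  obtain ⟨w, hw⟩ := hCm
  obtain ⟨w', hw'⟩ := hCp
  set e₁ : W := w + C w with he₁
  set e₂ : W := w' - C w' with he₂
  have hCe₁ : C e₁ = e₁ := by
    rw [he₁, map_add, hCC, add_comm]
  have hCe₂ : C e₂ = - e₂ := by
    rw [he₂, map_sub, hCC, neg_sub]
  have hli : LinearIndependent F ![e₁, e₂] := by
    rw [LinearIndependent.pair_iff]
    intro s t hst
    have hst' : s • e₁ - t • e₂ = 0 := by
      have := congrArg C hst
      rw [map_add, map_smul, map_smul, hCe₁, hCe₂, map_zero, smul_neg] at this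
      rw [sub_eq_add_neg]; exact this
    have hs : (2 * s) • e₁ = 0 := by
      have : (2 * s) • e₁ = (s • e₁ + t • e₂) + (s • e₁ - t • e₂) := by
        rw [two_mul, add_smul]; abel
      rw [this, hst, hst', add_zero]
    have ht : (2 * t) • e₂ = 0 := by
      have : (2 * t) • e₂ = (s • e₁ + t • e₂) - (s • e₁ - t • e₂) := by
        rw [two_mul, add_smul]; abel
      rw [this, hst, hst', sub_zero]
    constructor
    · have := (smul_eq_zero.1 hs).resolve_right hw
      exact (mul_eq_zero.1 this).resolve_left h2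
    · have := (smul_eq_zero.1 ht).resolve_right hw'
      exact (mul_eq_zero.1 this).resolve_left h2
  have hcard : Fintype.card (Fin 2) = finrank F W := by rw [hW]; rfl
  refine ⟨basisOfLinearIndependentOfCardEqFinrank hli hcard, ?_, ?_⟩
  · rw [coe_basisOfLinearIndependentOfCardEqFinrank]
    exact hCe₁
  · rw [coe_basisOfLinearIndependentOfCardEqFinrank]
    exact hCe₂

end Eigen

section Main

variable {G : Type*} [Monoid G]
variable {F : Type*} [Field F] {W : Type*} [AddCommGroup W] [Module F W]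
variable {k : Type*} [Field k] {V : Type*} [AddCommGroup V] [Module k V]

/-- the line spanned by a basis vector of a plane is a proper nonzero subspace -/
theorem hrs_span_basis_ne (hW : finrank F W = 2) (b : Basis (Fin 2) F W) (i : Fin 2) :
    Submodule.span F {b i} ≠ ⊥ ∧ Submodule.span F {b i} ≠ ⊤ := by
  have hbi : b i ≠ 0 := b.ne_zero i
  constructor
  · intro h
    exact hbi ((Submodule.span_singleton_eq_bot).1 h)
  · intro h
    have h1 : finrank F (Submodule.span F {b i}) = 1 := finrank_span_singleton hbi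
    rw [h, finrank_top, hW] at h1
    omega

/-- **irreducibility from the trace link.** -/
theorem hrs_irreducible_of_trace_link (h2 : (2 : F) ≠ 0)
    (hW : finrank F W = 2) (r : G →* Module.End F W)
    (hirr : ∀ N : Submodule F W, (∀ σ : G, ∀ x ∈ N, r σ x ∈ N) → N = ⊥ ∨ N = ⊤)
    (c : G) (hc : c * c = 1) (hdet : LinearMap.det (r c) = -1)
    (ι : F →+* k) (hV : finrank k V = 2) (ρ : G →* Module.End k V)
    (hlink : ∀ σ : G, LinearMap.trace k V (ρ σ) = ι (LinearMap.trace F W (r σ)))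
    (U : Submodule k V) (hU : ∀ σ : G, ∀ x ∈ U, ρ σ x ∈ U) : U = ⊥ ∨ U = ⊤ := by
  classical
  by_contra hcon
  push Not at hcon
  obtain ⟨h0, h1⟩ := hcon
  obtain ⟨χ₁, χ₂, hχ₁, hχ₂, hχ₁1, hχ₂1, htr⟩ := hrs_exists_chars hV ρ U hU h0 h1
  have hCC : r c * r c = 1 := by rw [← map_mul, hc, map_one]
  obtain ⟨b, hb0, hb1⟩ := hrs_exists_eigenbasis h2 hW (r c) hCC hdet
  set M : G → Matrix (Fin 2) (Fin 2) F := fun σ => LinearMap.toMatrix b b (r σ) with hM
  have hMmul : ∀ σ τ, M (σ * τ) = M σ * M τ := by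
    intro σ τ
    simp only [hM]
    rw [map_mul, LinearMap.toMatrix_mul]
  have hMtr : ∀ σ, LinearMap.trace F W (r σ) = M σ 0 0 + M σ 1 1 := by
    intro σ
    rw [LinearMap.trace_eq_matrix_trace F b, Matrix.trace_fin_two]
  -- the matrix of `c`
  have hc00 : M c 0 0 = 1 := by
    simp only [hM, LinearMap.toMatrix_apply]
    rw [hb0, b.repr_self, Finsupp.single_eq_same]
  have hc10 : M c 1 0 = 0 := by
    simp only [hM, LinearMap.toMatrix_apply]
    rw [hb0, b.repr_self, Finsupp.single_eq_of_ne (by decide)]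
  have hc01 : M c 0 1 = 0 := by
    simp only [hM, LinearMap.toMatrix_apply]
    rw [hb1, map_neg, b.repr_self, Finsupp.neg_apply, Finsupp.single_eq_of_ne (by decide),
      neg_zero]
  have hc11 : M c 1 1 = -1 := by
    simp only [hM, LinearMap.toMatrix_apply]
    rw [hb1, map_neg, b.repr_self, Finsupp.neg_apply, Finsupp.single_eq_same]
  have hMc00 : ∀ σ, M (c * σ) 0 0 = M σ 0 0 := by
    intro σ
    rw [hMmul, hrs_mul_apply, hc00, hc01, one_mul, zero_mul, add_zero]
  have hMc11 : ∀ σ, M (c * σ) 1 1 = - M σ 1 1 := by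
    intro σ
    rw [hMmul, hrs_mul_apply, hc10, hc11, zero_mul, zero_add, neg_one_mul]
  -- the values of the characters at `c`
  have hι2 : (2 : k) ≠ 0 := by
    have : ι 2 ≠ 0 := (map_ne_zero ι).2 h2
    rwa [map_ofNat] at this
  have hχ₁c : χ₁ c * χ₁ c = 1 := by rw [← hχ₁, hc, hχ₁1]
  have hχ₂c : χ₂ c * χ₂ c = 1 := by rw [← hχ₂, hc, hχ₂1]
  have hsum : χ₁ c + χ₂ c = 0 := by
    rw [← htr, hlink, hMtr, hc00, hc11, add_neg_cancel, map_zero]
  have hχ₂c' : χ₂ c = - χ₁ c := eq_neg_of_add_eq_zero_right hsum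
  -- `2 ι (m₀₀ σ)` is `χ₁ σ + χ₂ σ + (χ₁ c χ₁ σ + χ₂ c χ₂ σ)`
  have hkey : ∀ σ, 2 * ι (M σ 0 0) = (χ₁ σ + χ₂ σ) + (χ₁ c * χ₁ σ + χ₂ c * χ₂ σ) := by
    intro σ
    have e1 := htr σ
    have e2 := htr (c * σ)
    rw [hlink, hMtr, map_add] at e1
    rw [hlink, hMtr, hMc00, hMc11, map_add, map_neg, hχ₁, hχ₂] at e2
    rw [← e1, ← e2]
    ring
  -- `m₀₀` is multiplicative
  have hχ₁pm : χ₁ c = 1 ∨ χ₁ c = -1 := by
    have : (χ₁ c - 1) * (χ₁ c + 1) = 0 := by
      have : (χ₁ c - 1) * (χ₁ c + 1) = χ₁ c * χ₁ c - 1 := by ring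
      rw [this, hχ₁c, sub_self]
    rcases mul_eq_zero.1 this with h | h
    · exact Or.inl (sub_eq_zero.1 h)
    · exact Or.inr (eq_neg_of_add_eq_zero_left h)
  have hm00 : ∀ σ τ, M (σ * τ) 0 0 = M σ 0 0 * M τ 0 0 := by
    rcases hχ₁pm with hε | hε
    · -- `ι ∘ m₀₀ = χ₁`
      have hval : ∀ σ, ι (M σ 0 0) = χ₁ σ := by
        intro σ
        have h := hkey σ
        rw [hχ₂c', hε] at h
        have h' : 2 * ι (M σ 0 0) = 2 * χ₁ σ := by rw [h]; ring
        exact mul_left_cancel₀ hι2 h'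
      intro σ τ
      apply ι.injective
      rw [map_mul, hval, hval, hval, hχ₁]
    · -- `ι ∘ m₀₀ = χ₂`
      have hval : ∀ σ, ι (M σ 0 0) = χ₂ σ := by
        intro σ
        have h := hkey σ
        rw [hχ₂c', hε] at h
        have h' : 2 * ι (M σ 0 0) = 2 * χ₂ σ := by rw [h]; ring
        exact mul_left_cancel₀ hι2 h'
      intro σ τ
      apply ι.injective
      rw [map_mul, hval, hval, hval, hχ₂]
  have hzero : ∀ σ τ, M σ 0 1 * M τ 1 0 = 0 := by
    intro σ τ
    have h := hm00 σ τ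
    rw [hMmul, hrs_mul_apply] at h
    exact add_left_cancel (a := M σ 0 0 * M τ 0 0) (by rw [h, add_zero])
  -- the image of a basis vector
  have himg : ∀ σ (j : Fin 2), r σ (b j) = M σ 0 j • b 0 + M σ 1 j • b 1 := by
    intro σ j
    have h := b.sum_repr (r σ (b j))
    rw [Fin.sum_univ_two] at h
    simp only [hM, LinearMap.toMatrix_apply]
    exact h.symm
  by_cases hex : ∃ τ₀, M τ₀ 1 0 ≠ 0
  · obtain ⟨τ₀, hτ₀⟩ := hex
    have h01 : ∀ σ, M σ 0 1 = 0 := fun σ => (mul_eq_zero.1 (hzero σ τ₀)).resolve_right hτ₀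
    have hst : ∀ σ : G, ∀ x ∈ Submodule.span F {b 1}, r σ x ∈ Submodule.span F {b 1} := by
      intro σ x hx
      obtain ⟨a, rfl⟩ := Submodule.mem_span_singleton.1 hx
      rw [map_smul, himg, h01, zero_smul, zero_add]
      exact Submodule.smul_mem _ _ (Submodule.smul_mem _ _ (Submodule.mem_span_singleton_self _))
    rcases hirr _ hst with h | h
    · exact (hrs_span_basis_ne hW b 1).1 h
    · exact (hrs_span_basis_ne hW b 1).2 h
  · push Not at hex
    have hst : ∀ σ : G, ∀ x ∈ Submodule.span F {b 0}, r σ x ∈ Submodule.span F {b 0} := by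
      intro σ x hx
      obtain ⟨a, rfl⟩ := Submodule.mem_span_singleton.1 hx
      rw [map_smul, himg, hex, zero_smul, add_zero]
      exact Submodule.smul_mem _ _ (Submodule.smul_mem _ _ (Submodule.mem_span_singleton_self _))
    rcases hirr _ hst with h | h
    · exact (hrs_span_basis_ne hW b 0).1 h
    · exact (hrs_span_basis_ne hW b 0).2 h

end Main

end Fermat.Agent.S58lib
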