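/-
Item 84 (S58), piece 84-D2 (helper3), parts B and C: INVOLUTIONS of an algebraically closed field.

* Part B ("Artin–Schreier light").  `K` algebraically closed of characteristic `0`, `c` a ring
  endomorphism with `c ∘ c = id`, `c ≠ id`.  Then `c i = -i` (`i² = -1`), sums of squares of
  `c`-fixed elements are squares of `c`-fixed elements, `-1` is not such a square, and
  **`c t · t = 1` for every root of unity `t` of odd order** (`hrs_involution_root_of_unity`),
  i.e. every involution of `ℚ̄` acts on `μ_p` (`p` odd) by inversion: the cyclotomic character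
  is `-1` at every involution.
* Part C.  **A complex conjugation exists**: `hrs_exists_involution : ∃ c : ℚ̄ ≃ₐ[ℚ] ℚ̄,
  c * c = 1 ∧ c ≠ 1`.
(complete proofs, standard axioms only)
-/
import Mathlib

set_option autoImplicit false
set_option linter.style.haveILetI false

namespace Fermat.Agent.S58lib

section ArtinSchreier

variable {K : Type*} [Field K] [IsAlgClosed K] [CharZero K]

/-- an involution `c ≠ id` maps `i` to `-i` -/
theorem hrs_conj_I (c : K →+* K) (hc : ∀ x, c (c x) = x) (hne : ∃ x, c x ≠ x)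
    (i : K) (hi : i * i = -1) : c i = - i := by
  obtain ⟨x₀, hx₀⟩ := hne
  set y : K := x₀ - c x₀ with hy
  have hy0 : y ≠ 0 := sub_ne_zero.2 (Ne.symm hx₀)
  have hcy : c y = - y := by
    rw [hy, map_sub, hc, neg_sub]
  have h2y : y ≠ - y := by
    intro h
    have h' : (2 : K) * y = 0 := by
      rw [two_mul]
      nth_rewrite 1 [h]
      exact neg_add_cancel y
    rcases mul_eq_zero.1 h' with h'' | h''
    · exact two_ne_zero h''
    · exact hy0 h''
  have hci2 : c i * c i = -1 := by rw [← map_mul, hi, map_neg, map_one]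
  have hprod : (c i - i) * (c i + i) = 0 := by
    have : (c i - i) * (c i + i) = c i * c i - i * i := by ring
    rw [this, hci2, hi, sub_self]
  rcases mul_eq_zero.1 hprod with h | h
  · exfalso
    have hci : c i = i := sub_eq_zero.1 h
    obtain ⟨z, hz⟩ := IsAlgClosed.exists_pow_nat_eq y (n := 2) (by norm_num)
    have hz' : z * z = y := by rw [← hz]; ring
    set n : K := z * c z with hn
    have hcn : c n = n := by rw [hn, map_mul, hc, mul_comm]
    have hn2 : n * n = - (y * y) := by
      have : n * n = (z * z) * c (z * z) := by rw [hn, map_mul]; ring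
      rw [this, hz', hcy]; ring
    have hin : (i * n) * (i * n) = y * y := by
      have : (i * n) * (i * n) = (i * i) * (n * n) := by ring
      rw [this, hi, hn2]; ring
    have hprod2 : (y - i * n) * (y + i * n) = 0 := by
      have : (y - i * n) * (y + i * n) = y * y - (i * n) * (i * n) := by ring
      rw [this, hin, sub_self]
    have hcin : c (i * n) = i * n := by rw [map_mul, hci, hcn]
    rcases mul_eq_zero.1 hprod2 with h1 | h1
    · have hyin : y = i * n := sub_eq_zero.1 h1
      apply h2y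
      rw [← hcy, hyin, hcin]
    · have hyin : y = - (i * n) := eq_neg_of_add_eq_zero_left h1
      apply h2y
      rw [← hcy, hyin, map_neg, hcin]
  · exact eq_neg_of_add_eq_zero_left h

/-- a sum of two squares of fixed elements is the square of a fixed element -/
theorem hrs_norm_sq (c : K →+* K) (hc : ∀ x, c (c x) = x) (hne : ∃ x, c x ≠ x)
    (a b : K) (ha : c a = a) (hb : c b = b) : ∃ w : K, c w = w ∧ w * w = a * a + b * b := by
  obtain ⟨i, hi⟩ := IsAlgClosed.exists_pow_nat_eq (-1 : K) (n := 2) (by norm_num)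
  have hi' : i * i = -1 := by rw [← hi]; ring
  have hci := hrs_conj_I c hc hne i hi'
  obtain ⟨u, hu⟩ := IsAlgClosed.exists_pow_nat_eq (a + b * i) (n := 2) (by norm_num)
  have hu' : u * u = a + b * i := by rw [← hu]; ring
  refine ⟨u * c u, ?_, ?_⟩
  · rw [map_mul, hc, mul_comm]
  · have h1 : (u * c u) * (u * c u) = (u * u) * c (u * u) := by rw [map_mul]; ring
    rw [h1, hu', map_add, map_mul, ha, hb, hci]
    have : (a + b * i) * (a + b * -i) = a * a - (b * b) * (i * i) := by ring
    rw [this, hi']; ring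

/-- a sum of squares of fixed elements is the square of a fixed element -/
theorem hrs_sum_sq (c : K →+* K) (hc : ∀ x, c (c x) = x) (hne : ∃ x, c x ≠ x)
    (f : ℕ → K) (hf : ∀ j, c (f j) = f j) (n : ℕ) :
    ∃ w : K, c w = w ∧ w * w = ∑ j ∈ Finset.range n, f j * f j := by
  induction n with
  | zero => exact ⟨0, map_zero c, by simp⟩
  | succ n ih =>
    obtain ⟨w, hw, hw2⟩ := ih
    obtain ⟨w', hw', hw'2⟩ := hrs_norm_sq c hc hne w (f n) hw (hf n)
    refine ⟨w', hw', ?_⟩
    rw [Finset.sum_range_succ, ← hw2]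
    exact hw'2

/-- `-1` is not the square of a fixed element -/
theorem hrs_neg_one_not_sq (c : K →+* K) (hc : ∀ x, c (c x) = x) (hne : ∃ x, c x ≠ x)
    (w : K) (hw : c w = w) : w * w ≠ -1 := by
  intro h
  have h1 := hrs_conj_I c hc hne w h
  rw [hw] at h1
  have h2 : (2 : K) * w = 0 := by
    rw [two_mul]
    nth_rewrite 1 [h1]
    exact neg_add_cancel w
  have hw0 : w = 0 := (mul_eq_zero.1 h2).resolve_left two_ne_zero
  rw [hw0, mul_zero] at h
  have : (1 : K) = 0 := by
    have := congrArg (fun x : K => -x) h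
    simpa using this.symm
  exact one_ne_zero this

/-- **an involution `≠ id` inverts the roots of unity of odd order.** -/
theorem hrs_involution_root_of_unity (c : K →+* K) (hc : ∀ x, c (c x) = x)
    (hne : ∃ x, c x ≠ x) (p : ℕ) (hp : Odd p) (t : K) (ht : t ^ p = 1) : c t * t = 1 := by
  obtain ⟨m, hm⟩ := hp
  set s : K := c t * t with hs
  have hcs : c s = s := by rw [hs, map_mul, hc, mul_comm]
  have hsp : s ^ p = 1 := by
    rw [hs, mul_pow, ← map_pow, ht, map_one, one_mul]
  by_contra hs1
  have hsum : ∑ j ∈ Finset.range p, s ^ j = 0 := by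
    have h1 := geom_sum_mul s p
    rw [hsp, sub_self] at h1
    rcases mul_eq_zero.1 h1 with h2 | h2
    · exact h2
    · exact absurd (sub_eq_zero.1 h2) hs1
  have hss : s ^ (2 * (m + 1)) = s := by
    have : 2 * (m + 1) = p + 1 := by omega
    rw [this, pow_succ, hsp, one_mul]
  set g : ℕ → K := fun j => s ^ ((m + 1) * j) with hg
  have hcg : ∀ j, c (g j) = g j := fun j => by
    simp only [hg]
    rw [map_pow, hcs]
  have hgg : ∀ j, g j * g j = s ^ j := fun j => by
    simp only [hg]
    rw [← pow_add, ← two_mul, ← mul_assoc, pow_mul, hss]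
  have hsum' : ∑ j ∈ Finset.range p, g j * g j = 0 := by
    rw [← hsum]
    exact Finset.sum_congr rfl fun j _ => hgg j
  rw [hm, Finset.sum_range_succ'] at hsum'
  have hg0 : g 0 * g 0 = 1 := by rw [hgg, pow_zero]
  rw [hg0] at hsum'
  obtain ⟨w, hw, hw2⟩ := hrs_sum_sq c hc hne (fun j => g (j + 1)) (fun j => hcg (j + 1)) (2 * m)
  apply hrs_neg_one_not_sq c hc hne w hw
  rw [hw2]
  exact eq_neg_of_add_eq_zero_left hsum'

/-- the same, in the form `c t = t ^ (p - 1)` -/
theorem hrs_involution_root_of_unity' (c : K →+* K) (hc : ∀ x, c (c x) = x)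
    (hne : ∃ x, c x ≠ x) (p : ℕ) (hp : Odd p) (t : K) (ht : t ^ p = 1) :
    c t = t ^ (p - 1) := by
  have h := hrs_involution_root_of_unity c hc hne p hp t ht
  have hp0 : p ≠ 0 := by
    rintro rfl
    exact (Nat.not_odd_iff_even.2 (by decide)) hp
  have ht0 : t ≠ 0 := by
    rintro rfl
    rw [zero_pow hp0] at ht
    exact zero_ne_one ht
  have h2 : t ^ (p - 1) * t = 1 := by
    rw [← pow_succ, Nat.sub_add_cancel (Nat.one_le_iff_ne_zero.2 hp0), ht]
  exact mul_right_cancel₀ ht0 (h.trans h2.symm)

end ArtinSchreier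

section ComplexConj

/-- **a complex conjugation of `ℚ̄`**: an involution `≠ 1` of `Gal(ℚ̄/ℚ)`. -/
theorem hrs_exists_involution :
    ∃ c : AlgebraicClosure ℚ ≃ₐ[ℚ] AlgebraicClosure ℚ, c * c = 1 ∧ c ≠ 1 := by
  classical
  haveI halg : Algebra.IsAlgebraic ℚ (AlgebraicClosure ℚ) := AlgebraicClosure.isAlgebraic ℚ
  have hgal : IsGalois ℚ (AlgebraicClosure ℚ) :=
    (inferInstance : @IsGalois ℚ _ (AlgebraicClosure ℚ) _ (AlgebraicClosure.instAlgebra ℚ))
  haveI hnorm : Normal ℚ (AlgebraicClosure ℚ) := hgal.to_normal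
  let ι : AlgebraicClosure ℚ →ₐ[ℚ] ℂ := IsAlgClosed.lift
  letI : Algebra (AlgebraicClosure ℚ) ℂ := ι.toRingHom.toAlgebra
  haveI : IsScalarTower ℚ (AlgebraicClosure ℚ) ℂ :=
    IsScalarTower.of_algebraMap_eq fun x => (ι.commutes x).symm
  have hinj : Function.Injective (algebraMap (AlgebraicClosure ℚ) ℂ) :=
    (algebraMap (AlgebraicClosure ℚ) ℂ).injective
  let χ : ℂ ≃ₐ[ℚ] ℂ := Complex.conjAe.restrictScalars ℚ
  have hχ : ∀ z : ℂ, χ z = (starRingEnd ℂ) z := fun z => rfl
  let c : AlgebraicClosure ℚ ≃ₐ[ℚ] AlgebraicClosure ℚ := χ.restrictNormal (AlgebraicClosure ℚ)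
  have hcom : ∀ x : AlgebraicClosure ℚ,
      algebraMap (AlgebraicClosure ℚ) ℂ (c x) = (starRingEnd ℂ) (algebraMap (AlgebraicClosure ℚ) ℂ x) :=
    fun x => (AlgEquiv.restrictNormal_commutes χ (AlgebraicClosure ℚ) x).trans (hχ _)
  refine ⟨c, ?_, ?_⟩
  · apply AlgEquiv.ext
    intro x
    apply hinj
    rw [AlgEquiv.mul_apply, hcom, hcom, Complex.conj_conj]
    rfl
  · intro h1
    obtain ⟨i, hi⟩ := IsAlgClosed.exists_pow_nat_eq (-1 : AlgebraicClosure ℚ) (n := 2)
      (by norm_num)
    have hci : c i = i := by rw [h1]; rfl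
    have h2 := hcom i
    rw [hci] at h2
    set z : ℂ := algebraMap (AlgebraicClosure ℚ) ℂ i with hz
    have hz2 : z ^ 2 = -1 := by
      rw [hz, ← map_pow, hi, map_neg, map_one]
    -- `conj z = z` means `z` is real, but then `z² ≥ 0`
    have hreal : z.im = 0 := by
      have := congrArg Complex.im h2
      rw [Complex.conj_im] at this
      linarith
    have hre : (z ^ 2).re = z.re ^ 2 := by
      rw [pow_two, Complex.mul_re, hreal]; ring
    rw [hz2] at hre
    have : (-1 : ℂ).re = -1 := by simp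
    rw [this] at hre
    nlinarith [sq_nonneg z.re]

end ComplexConj

end Fermat.Agent.S58lib
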