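/-
Item 84 (S58), piece 84-D2 (helper3): the hypothesis `hres` of S36 for the S58 assembly.

For a representation `r : G_ℚ → GL(T)`, `T` free of rank `2` over `ZMod p`, of finite level,
with Frobenius polynomials `X² - a_ℓ X + ℓ` at the primes `ℓ ∉ S` (`p ∈ S`), irreducible, `p` odd,
and a `GaloisRepAdic O`, `p ∈ 𝔪_O`, with the same Frobenius polynomials:
the residual representation of `ρ` is absolutely irreducible and odd.

* `hrs_pow_act`         : powers of an element acting by `t ↦ t ^ ℓ` on `μ_p`;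
* `hrs_det_of_cyclo`    : `det (r σ) = e` if `σ` acts by `t ↦ t ^ e` on `μ_p` (weak Chebotarev);
* `hrs_det_involution`  : `det (r c) = -1` for an involution `c ≠ 1`;
* `hrs_residual_isOdd`  : the residual representation is odd;
* `hrs_residual_isAbsolutelyIrreducible` : it is absolutely irreducible;
* `hrs_residual`        : both.
(complete proofs, standard axioms only)
-/
import Mathlib
import Fermat.Agent.S58lib.HResAlg
import Fermat.Agent.S58lib.HResConj
import Fermat.Agent.S58lib.ChebLink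
import Fermat.Agent.GalRep.Cyclo

set_option autoImplicit false
set_option linter.style.haveILetI false

open Polynomial TensorProduct
open Fermat.Agent.GalRep

namespace Fermat.Agent.S58lib

section Det

/-- powers of an element acting by `t ↦ t ^ ℓ` on the `p`-th roots of unity -/
theorem hrs_pow_act (p : ℕ) (τ : GQ) (ℓ : ℕ)
    (h : ∀ t : AlgebraicClosure ℚ, t ^ p = 1 → τ t = t ^ ℓ) (j : ℕ) :
    ∀ t : AlgebraicClosure ℚ, t ^ p = 1 → (τ ^ j) t = t ^ (ℓ ^ j) := by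
  induction j with
  | zero =>
    intro t _
    rw [pow_zero, pow_zero, pow_one]
    rfl
  | succ j ih =>
    intro t ht
    have ht' : (t ^ ℓ) ^ p = 1 := by rw [← pow_mul, mul_comm, pow_mul, ht, one_pow]
    rw [pow_succ, AlgEquiv.mul_apply, h t ht, ih (t ^ ℓ) ht', ← pow_mul, ← pow_succ']

variable {p : ℕ} [Fact p.Prime] {T : Type} [AddCommGroup T] [Module (ZMod p) T]
  [Module.Free (ZMod p) T] [Module.Finite (ZMod p) T]

/-- **the determinant is the cyclotomic character mod `p`**: if `σ` acts by `t ↦ t ^ e` on the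
`p`-th roots of unity then `det (r σ) = e`. -/
theorem hrs_det_of_cyclo (hT : Module.finrank (ZMod p) T = 2)
    (r : GQ →* Module.End (ZMod p) T) (hlev : GaloisFactorsThroughFiniteLevel r)
    (S : Finset ℕ) (hpS : p ∈ S) (a : ℕ → ℤ) (hr : ChlFrob r S a) (σ : GQ) (e : ℕ)
    (hσ : ∀ t : AlgebraicClosure ℚ, t ^ p = 1 → σ t = t ^ e) :
    LinearMap.det (r σ) = (e : ZMod p) := by
  have hpp : p.Prime := Fact.out
  haveI : NeZero p := ⟨hpp.ne_zero⟩
  obtain ⟨L₁, hL₁, k₁⟩ := hlev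
  haveI := hL₁
  obtain ⟨ζ, hζ⟩ := HasEnoughRootsOfUnity.exists_primitiveRoot (AlgebraicClosure ℚ) p
  have hint : IsIntegral ℚ ζ := (hζ.isIntegral hpp.pos).tower_top
  haveI hL₂ : FiniteDimensional ℚ (IntermediateField.adjoin ℚ {ζ}) :=
    IntermediateField.adjoin.finiteDimensional hint
  have hL : FiniteDimensional ℚ ↥(L₁ ⊔ IntermediateField.adjoin ℚ {ζ}) :=
    IntermediateField.finiteDimensional_sup L₁ (IntermediateField.adjoin ℚ {ζ})
  obtain ⟨ℓ, A, τ, k, k', hℓ, hℓS, hA, hτ, hτg, hgτ⟩ :=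
    weakCheb (L₁ ⊔ IntermediateField.adjoin ℚ {ζ}) hL S σ
  have hfix : ∀ x ∈ L₁ ⊔ IntermediateField.adjoin ℚ {ζ}, ((τ ^ k')⁻¹ * σ) x = x := by
    intro x hx
    rw [AlgEquiv.mul_apply, hgτ x hx]
    exact (τ ^ k').symm_apply_apply x
  have hσ' : σ = τ ^ k' * ((τ ^ k')⁻¹ * σ) := (mul_inv_cancel_left _ _).symm
  have e₁ : r σ = r τ ^ k' := by
    have h := k₁ ((τ ^ k')⁻¹ * σ) (fun x hx => hfix x
      ((le_sup_left : L₁ ≤ L₁ ⊔ IntermediateField.adjoin ℚ {ζ}) hx))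
    conv_lhs => rw [hσ']
    rw [map_mul, h, mul_one, map_pow]
  have c₁ := hr ℓ hℓ hℓS A hA τ hτ
  rw [← Int.cast_natCast (R := ZMod p) ℓ] at c₁
  have hdetτ : LinearMap.det (r τ) = ((ℓ : ℤ) : ZMod p) := (chl_trace_det hT _ c₁).2
  have hℓp : ℓ ≠ p := fun h => hℓS (h ▸ hpS)
  have hcop : Nat.Coprime p ℓ := (Nat.coprime_primes hpp hℓ).mpr (Ne.symm hℓp)
  obtain ⟨hτd, hfrob⟩ := hτ
  have hτact : ∀ t : AlgebraicClosure ℚ, t ^ p = 1 → τ t = t ^ ℓ := fun t ht =>
    cyclo_map_root_of_residue p A hA hcop τ hτd ℓ hfrob 1 t (by rwa [pow_one])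
  have hζL : ζ ∈ L₁ ⊔ IntermediateField.adjoin ℚ {ζ} :=
    (le_sup_right : IntermediateField.adjoin ℚ {ζ} ≤ L₁ ⊔ IntermediateField.adjoin ℚ {ζ})
      (IntermediateField.mem_adjoin_simple_self ℚ ζ)
  have h1 : σ ζ = ζ ^ (ℓ ^ k') := by
    rw [hgτ ζ hζL]
    exact hrs_pow_act p τ ℓ hτact k' ζ hζ.pow_eq_one
  have h2 : ζ ^ e = ζ ^ (ℓ ^ k') := by rw [← hσ ζ hζ.pow_eq_one, h1]
  have hζ0 : ζ ≠ 0 := hζ.ne_zero hpp.ne_zero
  have h3 : ζ ^ ((e : ℤ) - ((ℓ ^ k' : ℕ) : ℤ)) = 1 := by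
    rw [zpow_sub₀ hζ0, zpow_natCast, zpow_natCast, h2]
    exact div_self (pow_ne_zero _ hζ0)
  have h4 : (p : ℤ) ∣ (e : ℤ) - ((ℓ ^ k' : ℕ) : ℤ) := (hζ.zpow_eq_one_iff_dvd _).1 h3
  have h5 : ((e : ℤ) : ZMod p) = (((ℓ ^ k' : ℕ) : ℤ) : ZMod p) :=
    (ZMod.intCast_eq_intCast_iff_dvd_sub _ _ _).2 (by
      have := dvd_neg.2 h4
      rwa [neg_sub] at this)
  rw [e₁, map_pow, hdetτ]
  rw [Int.cast_natCast] at h5 ⊢
  rw [h5]
  push_cast
  rfl

/-- **oddness at finite level**: an involution `c ≠ 1` of `ℚ̄` has determinant `-1`. -/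
theorem hrs_det_involution (hp2 : p ≠ 2) (hT : Module.finrank (ZMod p) T = 2)
    (r : GQ →* Module.End (ZMod p) T) (hlev : GaloisFactorsThroughFiniteLevel r)
    (S : Finset ℕ) (hpS : p ∈ S) (a : ℕ → ℤ) (hr : ChlFrob r S a) (c : GQ)
    (hc : c * c = 1) (hc1 : c ≠ 1) :
    LinearMap.det (r c) = -1 := by
  have hpp : p.Prime := Fact.out
  have hodd : Odd p := hpp.odd_of_ne_two hp2
  have hcc : ∀ x, c (c x) = x := fun x => by
    have h := congrArg (fun f : GQ => f x) hc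
    exact h
  have hne : ∃ x, c x ≠ x := by
    by_contra h
    push Not at h
    exact hc1 (AlgEquiv.ext h)
  have h := hrs_det_of_cyclo hT r hlev S hpS a hr c (p - 1) (fun t ht =>
    hrs_involution_root_of_unity' c.toAlgHom.toRingHom hcc hne p hodd t ht)
  rw [h, Nat.cast_sub hpp.one_le, ZMod.natCast_self, zero_sub, Nat.cast_one]

end Det

section Residual

variable {O : Type} [CommRing O] [IsLocalRing O]
variable {p : ℕ} [Fact p.Prime] {T : Type} [AddCommGroup T] [Module (ZMod p) T]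
  [Module.Free (ZMod p) T] [Module.Finite (ZMod p) T]

/-- the ring homomorphism `ZMod p → O / 𝔪` if `p ∈ 𝔪` -/
theorem hrs_exists_iota (hpO : (p : O) ∈ IsLocalRing.maximalIdeal O) :
    Nonempty (ZMod p →+* IsLocalRing.ResidueField O) := by
  have hpp : p.Prime := Fact.out
  have h0 : ((p : ℕ) : IsLocalRing.ResidueField O) = 0 := by
    rw [← map_natCast (IsLocalRing.residue O) p]
    exact (IsLocalRing.residue_eq_zero_iff _).2 hpO
  haveI : CharP (IsLocalRing.ResidueField O) p := (CharP.charP_iff_prime_eq_zero hpp).2 h0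
  exact ⟨ZMod.castHom dvd_rfl _⟩

omit [Module.Free (ZMod p) T] [Module.Finite (ZMod p) T] in
theorem hrs_two_ne_zero (hp2 : p ≠ 2) : (2 : ZMod p) ≠ 0 := by
  have hpp : p.Prime := Fact.out
  intro h
  have h1 : ((2 : ℕ) : ZMod p) = 0 := by exact_mod_cast h
  have h2 : p ∣ 2 := (ZMod.natCast_eq_zero_iff 2 p).1 h1
  exact hp2 ((Nat.prime_dvd_prime_iff_eq hpp Nat.prime_two).1 h2)

/-- **the residual representation is odd.** -/
theorem hrs_residual_isOdd (hp2 : p ≠ 2) (hpO : (p : O) ∈ IsLocalRing.maximalIdeal O)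
    (ρ : GaloisRepAdic O) (hT : Module.finrank (ZMod p) T = 2)
    (r : GQ →* Module.End (ZMod p) T) (hlev : GaloisFactorsThroughFiniteLevel r)
    (S : Finset ℕ) (hpS : p ∈ S) (a : ℕ → ℤ) (hρ : ChlFrob ρ.ρ S a) (hr : ChlFrob r S a) :
    ρ.residual.IsOdd := by
  obtain ⟨ι⟩ := hrs_exists_iota (O := O) (p := p) hpO
  intro c hc hc1
  rw [chl_residual_det ρ hT r hlev S a hρ hr ι c,
    hrs_det_involution hp2 hT r hlev S hpS a hr c hc hc1, map_neg, map_one]

/-- **the residual representation is absolutely irreducible.** -/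
theorem hrs_residual_isAbsolutelyIrreducible (hp2 : p ≠ 2)
    (hpO : (p : O) ∈ IsLocalRing.maximalIdeal O)
    (ρ : GaloisRepAdic O) (hT : Module.finrank (ZMod p) T = 2)
    (r : GQ →* Module.End (ZMod p) T) (hlev : GaloisFactorsThroughFiniteLevel r)
    (hirr : ∀ N : Submodule (ZMod p) T, (∀ σ : GQ, ∀ x ∈ N, r σ x ∈ N) → N = ⊥ ∨ N = ⊤)
    (S : Finset ℕ) (hpS : p ∈ S) (a : ℕ → ℤ) (hρ : ChlFrob ρ.ρ S a) (hr : ChlFrob r S a) :
    ρ.residual.IsAbsolutelyIrreducible := by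
  obtain ⟨ι⟩ := hrs_exists_iota (O := O) (p := p) hpO
  obtain ⟨c, hc, hc1⟩ := hrs_exists_involution
  have hdet := hrs_det_involution hp2 hT r hlev S hpS a hr c hc hc1
  have h2 : (2 : ZMod p) ≠ 0 := hrs_two_ne_zero hp2
  intro U hU
  refine hrs_irreducible_of_trace_link h2 hT r hirr c hc hdet
    ((algebraMap (IsLocalRing.ResidueField O)
      (AlgebraicClosure (IsLocalRing.ResidueField O))).comp ι)
    (ρ.residual.baseChange (AlgebraicClosure (IsLocalRing.ResidueField O))).finrank_eq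
    (ρ.residual.baseChange (AlgebraicClosure (IsLocalRing.ResidueField O))).ρ
    (fun σ => ?_) U hU
  have h1 := LinearMap.trace_baseChange (ρ.residual.ρ σ)
    (AlgebraicClosure (IsLocalRing.ResidueField O))
  rw [chl_residual_trace ρ hT r hlev S a hρ hr ι σ] at h1
  exact h1

/-- **hres**: the residual representation is absolutely irreducible and odd. -/
theorem hrs_residual (hp2 : p ≠ 2) (hpO : (p : O) ∈ IsLocalRing.maximalIdeal O)
    (ρ : GaloisRepAdic O) (hT : Module.finrank (ZMod p) T = 2)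
    (r : GQ →* Module.End (ZMod p) T) (hlev : GaloisFactorsThroughFiniteLevel r)
    (hirr : ∀ N : Submodule (ZMod p) T, (∀ σ : GQ, ∀ x ∈ N, r σ x ∈ N) → N = ⊥ ∨ N = ⊤)
    (S : Finset ℕ) (hpS : p ∈ S) (a : ℕ → ℤ) (hρ : ChlFrob ρ.ρ S a) (hr : ChlFrob r S a) :
    ρ.residual.IsAbsolutelyIrreducible ∧ ρ.residual.IsOdd :=
  ⟨hrs_residual_isAbsolutelyIrreducible hp2 hpO ρ hT r hlev hirr S hpS a hρ hr,
    hrs_residual_isOdd hp2 hpO ρ hT r hlev S hpS a hρ hr⟩

/-- the Frobenius condition is monotone in `S` -/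
theorem hrs_chlFrob_mono {R : Type} [CommRing R] {V : Type} [AddCommGroup V] [Module R V]
    [Module.Free R V] [Module.Finite R V] (r : GQ →* Module.End R V) {S S' : Finset ℕ}
    (hS : S ⊆ S') (a : ℕ → ℤ) (h : ChlFrob r S a) : ChlFrob r S' a :=
  fun ℓ hℓ hℓS A hA σ hσ => h ℓ hℓ (fun hmem => hℓS (hS hmem)) A hA σ hσ

/-- **hres**, with independent exceptional sets for `ρ` and `r`. -/
theorem hrs_residual' (hp2 : p ≠ 2) (hpO : (p : O) ∈ IsLocalRing.maximalIdeal O)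
    (ρ : GaloisRepAdic O) (hT : Module.finrank (ZMod p) T = 2)
    (r : GQ →* Module.End (ZMod p) T) (hlev : GaloisFactorsThroughFiniteLevel r)
    (hirr : ∀ N : Submodule (ZMod p) T, (∀ σ : GQ, ∀ x ∈ N, r σ x ∈ N) → N = ⊥ ∨ N = ⊤)
    (S S₀ : Finset ℕ) (a : ℕ → ℤ) (hρ : ChlFrob ρ.ρ S a) (hr : ChlFrob r S₀ a) :
    ρ.residual.IsAbsolutelyIrreducible ∧ ρ.residual.IsOdd := by
  classical
  have h1 : S ⊆ insert p (S ∪ S₀) :=
    (Finset.subset_union_left).trans (Finset.subset_insert _ _)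
  have h2 : S₀ ⊆ insert p (S ∪ S₀) :=
    (Finset.subset_union_right).trans (Finset.subset_insert _ _)
  exact hrs_residual hp2 hpO ρ hT r hlev hirr (insert p (S ∪ S₀)) (Finset.mem_insert_self _ _) a
    (hrs_chlFrob_mono ρ.ρ h1 a hρ) (hrs_chlFrob_mono r h2 a hr)

end Residual

end Fermat.Agent.S58lib
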