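import Mathlib

/-!
# Item 84, piece P5'' (helper28): counting Frobenius-fixed and Frobenius-antifixed points

`E` is a Weierstrass curve over `ZMod ℓ`, `K` a field over `ZMod ℓ`, and
`cntFrob E K` is the Frobenius endomorphism `(x, y) ↦ (x ^ ℓ, y ^ ℓ)` of `E(K)`.

* `cnt_card_fixed` : the number of Frobenius-fixed points of `E(K)` is `Nat.card E(𝔽_ℓ)`;
* `cnt_card_add` : for `E` elliptic and `K` algebraically closed,
  `#{Fr T = T} + #{Fr T = -T} = 2 * ℓ + 2` (count over the fibres of the `x`-coordinate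
  `E(K) → ℙ¹(K)` above `ℙ¹(𝔽_ℓ)`).
-/

set_option linter.style.haveILetI false
set_option linter.unusedSectionVars false
set_option linter.deprecated false

open WeierstrassCurve WeierstrassCurve.Affine

namespace Fermat.Agent.S58lib

variable {ℓ : ℕ} [Fact ℓ.Prime] (E : WeierstrassCurve (ZMod ℓ)) (K : Type*) [Field K]
  [DecidableEq K] [Algebra (ZMod ℓ) K]

noncomputable def cntFrob : (E⁄K).toAffine.Point →+ (E⁄K).toAffine.Point :=
  Affine.Point.map (W' := E.toAffine) (FiniteField.frobeniusAlgHom (ZMod ℓ) K)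

omit [DecidableEq K] in
theorem cnt_charP : CharP K ℓ :=
  charP_of_injective_algebraMap (algebraMap (ZMod ℓ) K).injective ℓ

omit [DecidableEq K] in
/-- `x ^ ℓ = x` in `K` iff `x` comes from `ZMod ℓ`. -/
theorem cnt_pow_eq_iff (x : K) : x ^ ℓ = x ↔ ∃ a : ZMod ℓ, algebraMap (ZMod ℓ) K a = x := by
  have := cnt_charP (ℓ := ℓ) K
  constructor
  · intro h
    obtain ⟨n, hn⟩ := (mem_bot_iff_intCast ℓ K).mp ((Subfield.mem_bot_iff_pow_eq_self K ℓ).mpr h)
    exact ⟨(n : ZMod ℓ), by rw [map_intCast]; exact hn⟩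
  · rintro ⟨a, rfl⟩
    rw [← map_pow, ZMod.pow_card]

theorem cnt_frob_zero : cntFrob E K 0 = 0 := map_zero _

theorem cnt_frob_some {x y : K} (h : (E⁄K).toAffine.Nonsingular x y) :
    ∃ h', cntFrob E K (.some x y h) = .some (x ^ ℓ) (y ^ ℓ) h' := by
  have h1 : ∀ z : K, FiniteField.frobeniusAlgHom (ZMod ℓ) K z = z ^ ℓ := by
    intro z
    rw [FiniteField.frobeniusAlgHom_apply, ZMod.card]
  have := Affine.Point.map_some (W' := E.toAffine) (FiniteField.frobeniusAlgHom (ZMod ℓ) K) h
  simp only [h1] at this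
  exact ⟨_, this⟩

/-- Representatives of the points of `ℙ¹(𝔽_ℓ)` in `K²`. -/
noncomputable def cntRep : Option (ZMod ℓ) → Fin 2 → K
  | none => ![1, 0]
  | some a => ![algebraMap (ZMod ℓ) K a, 1]

omit [DecidableEq K] in
theorem cntRep_injective : Function.Injective (cntRep (ℓ := ℓ) K) := by
  rintro (_ | a) (_ | b) h
  · rfl
  · have := congrFun h 1
    simp [cntRep] at this
  · have := congrFun h 1
    simp [cntRep] at this
  · have := congrFun h 0
    simp only [cntRep, Matrix.cons_val_zero] at this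
    rw [(algebraMap (ZMod ℓ) K).injective this]

theorem cnt_xRep_frob (T : (E⁄K).toAffine.Point) :
    (cntFrob E K T).xRep = fun i => (T.xRep i) ^ ℓ := by
  have hℓ : ℓ ≠ 0 := (Fact.out : ℓ.Prime).ne_zero
  rcases T with _ | ⟨x, y, h⟩
  · rw [← Point.zero_def, cnt_frob_zero]
    funext i
    fin_cases i <;> simp [hℓ]
  · obtain ⟨h', e⟩ := cnt_frob_some E K h
    rw [e]
    funext i
    fin_cases i <;> simp

theorem cnt_xRep_mem_range_iff (T : (E⁄K).toAffine.Point) :
    (∃ a, T.xRep = cntRep (ℓ := ℓ) K a) ↔ (cntFrob E K T).xRep = T.xRep := by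
  have hℓ : ℓ ≠ 0 := (Fact.out : ℓ.Prime).ne_zero
  rw [cnt_xRep_frob]
  constructor
  · rintro ⟨a, ha⟩
    rw [ha]
    rcases a with _ | a
    · funext i
      fin_cases i <;> simp [cntRep, hℓ]
    · funext i
      fin_cases i
      · simp only [cntRep, Fin.zero_eta, Matrix.cons_val_zero]
        exact (cnt_pow_eq_iff K _).mpr ⟨a, rfl⟩
      · simp [cntRep]
  · intro h
    rcases T with _ | ⟨x, y, hxy⟩
    · exact ⟨none, rfl⟩
    · have h0 := congrFun h 0
      simp only [Point.xRep_some, Matrix.cons_val_zero] at h0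
      obtain ⟨a, ha⟩ := (cnt_pow_eq_iff K x).mp h0
      exact ⟨some a, by simp [cntRep, ha]⟩

theorem cnt_fix_or_neg_iff (T : (E⁄K).toAffine.Point) :
    (cntFrob E K T = T ∨ cntFrob E K T = -T) ↔ ∃ a, T.xRep = cntRep (ℓ := ℓ) K a := by
  rw [cnt_xRep_mem_range_iff E K T, Point.xRep_eq_xRep_iff]

omit [DecidableEq K] in
theorem cnt_nonsingular_iff (x y : ZMod ℓ) :
    (E⁄K).toAffine.Nonsingular (algebraMap (ZMod ℓ) K x) (algebraMap (ZMod ℓ) K y)
      ↔ E.toAffine.Nonsingular x y :=
  Affine.map_nonsingular E.toAffine (algebraMap (ZMod ℓ) K).injective x y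

/-- The inclusion `E(𝔽_ℓ) → E(K)`. -/
noncomputable def cntIota : E.toAffine.Point → (E⁄K).toAffine.Point
  | .zero => .zero
  | .some x y h => .some (algebraMap (ZMod ℓ) K x) (algebraMap (ZMod ℓ) K y)
      ((cnt_nonsingular_iff E K x y).mpr h)

omit [DecidableEq K] in
theorem cntIota_zero : cntIota E K .zero = .zero := rfl

omit [DecidableEq K] in
theorem cntIota_some {x y : ZMod ℓ} (h : E.toAffine.Nonsingular x y) :
    cntIota E K (.some x y h) = .some (algebraMap (ZMod ℓ) K x) (algebraMap (ZMod ℓ) K y)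
      ((cnt_nonsingular_iff E K x y).mpr h) := rfl

omit [DecidableEq K] in
theorem cntIota_injective : Function.Injective (cntIota E K) := by
  rintro (_ | ⟨x, y, h⟩) (_ | ⟨x', y', h'⟩) e
  · rfl
  · rw [cntIota_zero, cntIota_some] at e
    exact absurd e (by simp)
  · rw [cntIota_zero, cntIota_some] at e
    exact absurd e (by simp)
  · rw [cntIota_some, cntIota_some] at e
    obtain ⟨e1, e2⟩ := Point.some.inj e
    have h1 := (algebraMap (ZMod ℓ) K).injective e1
    have h2 := (algebraMap (ZMod ℓ) K).injective e2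
    subst h1 h2
    rfl

theorem cnt_frob_iota (P : E.toAffine.Point) : cntFrob E K (cntIota E K P) = cntIota E K P := by
  rcases P with _ | ⟨x, y, h⟩
  · exact cnt_frob_zero E K
  · obtain ⟨h', e⟩ := cnt_frob_some E K ((cnt_nonsingular_iff E K x y).mpr h)
    rw [cntIota_some, e]
    congr 1
    · exact (cnt_pow_eq_iff K _).mpr ⟨x, rfl⟩
    · exact (cnt_pow_eq_iff K _).mpr ⟨y, rfl⟩

theorem cnt_fixed_mem_range (T : (E⁄K).toAffine.Point) (hT : cntFrob E K T = T) :
    ∃ P, cntIota E K P = T := by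
  rcases T with _ | ⟨x, y, h⟩
  · exact ⟨.zero, rfl⟩
  · obtain ⟨h', e⟩ := cnt_frob_some E K h
    rw [e] at hT
    obtain ⟨hx, hy⟩ := Point.some.inj hT
    obtain ⟨a, ha⟩ := (cnt_pow_eq_iff K x).mp hx
    obtain ⟨b, hb⟩ := (cnt_pow_eq_iff K y).mp hy
    subst ha hb
    exact ⟨.some a b ((cnt_nonsingular_iff E K a b).mp h), rfl⟩

theorem cnt_card_fixed' :
    Nat.card {T : (E⁄K).toAffine.Point // cntFrob E K T = T} = Nat.card E.toAffine.Point := by
  symm
  refine Nat.card_congr (Equiv.ofBijective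
    (fun P => (⟨cntIota E K P, cnt_frob_iota E K P⟩ :
      {T : (E⁄K).toAffine.Point // cntFrob E K T = T})) ⟨?_, ?_⟩)
  · intro P Q h
    exact cntIota_injective E K (congrArg Subtype.val h)
  · rintro ⟨T, hT⟩
    obtain ⟨P, hP⟩ := cnt_fixed_mem_range E K T hT
    exact ⟨P, Subtype.ext hP⟩

theorem cnt_card_fixed [E.IsElliptic] :
    Nat.card {T : (E⁄K).toAffine.Point // cntFrob E K T = T} = Nat.card E.toAffine.Point :=
  cnt_card_fixed' E K

/-- Abstract count on a `±`-orbit. -/
theorem cnt_pair_count {G : Type*} [AddCommGroup G] (f : G →+ G) (T₀ : G)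
    (h : f T₀ = T₀ ∨ f T₀ = -T₀) :
    Nat.card {T : G // (T = T₀ ∨ T = -T₀) ∧ f T = T}
      + Nat.card {T : G // (T = T₀ ∨ T = -T₀) ∧ f T = -T} = 2 := by
  change Set.ncard {T : G | (T = T₀ ∨ T = -T₀) ∧ f T = T}
      + Set.ncard {T : G | (T = T₀ ∨ T = -T₀) ∧ f T = -T} = 2
  by_cases hT : T₀ = -T₀
  · have hf : f T₀ = T₀ := by
      rcases h with h | h
      · exact h
      · rw [h, ← hT]
    have e1 : {T : G | (T = T₀ ∨ T = -T₀) ∧ f T = T} = {T₀} := by
      ext T
      simp only [Set.mem_setOf_eq, Set.mem_singleton_iff]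
      constructor
      · rintro ⟨h1 | h1, -⟩
        · exact h1
        · rw [h1, ← hT]
      · rintro rfl
        exact ⟨Or.inl rfl, hf⟩
    have e2 : {T : G | (T = T₀ ∨ T = -T₀) ∧ f T = -T} = {T₀} := by
      ext T
      simp only [Set.mem_setOf_eq, Set.mem_singleton_iff]
      constructor
      · rintro ⟨h1 | h1, -⟩
        · exact h1
        · rw [h1, ← hT]
      · rintro rfl
        exact ⟨Or.inl rfl, by rw [hf]; exact hT⟩
    rw [e1, e2, Set.ncard_singleton]
  · have hT' : -T₀ ≠ T₀ := fun h => hT h.symm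
    rcases h with h | h
    · have e1 : {T : G | (T = T₀ ∨ T = -T₀) ∧ f T = T} = {T₀, -T₀} := by
        ext T
        simp only [Set.mem_setOf_eq, Set.mem_insert_iff, Set.mem_singleton_iff]
        constructor
        · rintro ⟨h1, -⟩
          exact h1
        · rintro (rfl | rfl)
          · exact ⟨Or.inl rfl, h⟩
          · exact ⟨Or.inr rfl, by rw [map_neg, h]⟩
      have e2 : {T : G | (T = T₀ ∨ T = -T₀) ∧ f T = -T} = ∅ := by
        ext T
        simp only [Set.mem_setOf_eq, Set.mem_empty_iff_false, iff_false, not_and]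
        rintro (rfl | rfl) h2
        · exact hT (h.symm.trans h2)
        · rw [map_neg, h, neg_neg] at h2
          exact hT' h2
      rw [e1, e2, Set.ncard_pair hT, Set.ncard_empty]
    · have e1 : {T : G | (T = T₀ ∨ T = -T₀) ∧ f T = T} = ∅ := by
        ext T
        simp only [Set.mem_setOf_eq, Set.mem_empty_iff_false, iff_false, not_and]
        rintro (rfl | rfl) h2
        · exact hT (h2.symm.trans h)
        · rw [map_neg, h, neg_neg] at h2
          exact hT h2
      have e2 : {T : G | (T = T₀ ∨ T = -T₀) ∧ f T = -T} = {T₀, -T₀} := by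
        ext T
        simp only [Set.mem_setOf_eq, Set.mem_insert_iff, Set.mem_singleton_iff]
        constructor
        · rintro ⟨h1, -⟩
          exact h1
        · rintro (rfl | rfl)
          · exact ⟨Or.inl rfl, h⟩
          · exact ⟨Or.inr rfl, by rw [map_neg, h]⟩
      rw [e1, e2, Set.ncard_pair hT, Set.ncard_empty]

theorem cnt_isElliptic [E.IsElliptic] : (E⁄K).IsElliptic :=
  inferInstanceAs (E.map (algebraMap (ZMod ℓ) K)).IsElliptic

/-- Over an algebraically closed field every `x` is the `x`-coordinate of a point. -/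
theorem cnt_exists_point [E.IsElliptic] [IsAlgClosed K] (a : Option (ZMod ℓ)) :
    ∃ T : (E⁄K).toAffine.Point, T.xRep = cntRep (ℓ := ℓ) K a := by
  haveI := cnt_isElliptic E K
  rcases a with _ | a
  · exact ⟨0, rfl⟩
  · set x : K := algebraMap (ZMod ℓ) K a with hx
    let W := (E⁄K).toAffine
    let q : Polynomial K := Polynomial.X ^ 2 + Polynomial.C (W.a₁ * x + W.a₃) * Polynomial.X
      - Polynomial.C (x ^ 3 + W.a₂ * x ^ 2 + W.a₄ * x + W.a₆)
    have hq : q.degree ≠ 0 := by
      have : q.degree = 2 := by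
        have h1 : (Polynomial.C (W.a₁ * x + W.a₃) * Polynomial.X
            - Polynomial.C (x ^ 3 + W.a₂ * x ^ 2 + W.a₄ * x + W.a₆)).degree < 2 := by
          refine lt_of_le_of_lt (Polynomial.degree_sub_le _ _) ?_
          refine max_lt ?_ ?_
          · refine lt_of_le_of_lt (Polynomial.degree_C_mul_X_le _) ?_
            norm_num
          · refine lt_of_le_of_lt Polynomial.degree_C_le ?_
            norm_num
        have h2 : q = Polynomial.X ^ 2 + (Polynomial.C (W.a₁ * x + W.a₃) * Polynomial.X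
            - Polynomial.C (x ^ 3 + W.a₂ * x ^ 2 + W.a₄ * x + W.a₆)) := by
          simp only [q]; ring
        rw [h2, Polynomial.degree_add_eq_left_of_degree_lt]
        · simp
        · simpa using h1
      rw [this]; norm_num
    obtain ⟨y, hy⟩ := IsAlgClosed.exists_root q hq
    have heq : W.Equation x y := by
      rw [Affine.equation_iff]
      have : Polynomial.eval y q = 0 := hy
      simp only [q, Polynomial.eval_sub, Polynomial.eval_add, Polynomial.eval_pow,
        Polynomial.eval_X, Polynomial.eval_mul, Polynomial.eval_C] at this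
      linear_combination this
    exact ⟨.some x y (Affine.equation_iff_nonsingular.mp heq), by simp [cntRep, hx]⟩

theorem cnt_fibre_finite (a : Option (ZMod ℓ)) :
    {T : (E⁄K).toAffine.Point | T.xRep = cntRep (ℓ := ℓ) K a}.Finite := by
  by_cases h : ∃ T₀ : (E⁄K).toAffine.Point, T₀.xRep = cntRep (ℓ := ℓ) K a
  · obtain ⟨T₀, h0⟩ := h
    refine Set.Finite.subset (Set.toFinite {T₀, -T₀}) ?_
    intro T hT
    simp only [Set.mem_setOf_eq] at hT
    simp only [Set.mem_insert_iff, Set.mem_singleton_iff]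
    exact Point.xRep_eq_xRep_iff.mp (hT.trans h0.symm)
  · push_neg at h
    have : {T : (E⁄K).toAffine.Point | T.xRep = cntRep (ℓ := ℓ) K a} = ∅ := by
      ext T
      simp only [Set.mem_setOf_eq, Set.mem_empty_iff_false, iff_false]
      exact h T
    rw [this]
    exact Set.finite_empty

instance cnt_fibre_finite' (a : Option (ZMod ℓ)) (p : (E⁄K).toAffine.Point → Prop) :
    Finite {T : (E⁄K).toAffine.Point // T.xRep = cntRep (ℓ := ℓ) K a ∧ p T} :=
  Set.finite_coe_iff.mpr ((cnt_fibre_finite E K a).subset (fun _ h => h.1))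

theorem cnt_fibre_card [E.IsElliptic] [IsAlgClosed K] (a : Option (ZMod ℓ)) :
    Nat.card {T : (E⁄K).toAffine.Point // T.xRep = cntRep (ℓ := ℓ) K a ∧ cntFrob E K T = T}
      + Nat.card {T : (E⁄K).toAffine.Point //
          T.xRep = cntRep (ℓ := ℓ) K a ∧ cntFrob E K T = -T} = 2 := by
  obtain ⟨T₀, h0⟩ := cnt_exists_point E K a
  have hf := (cnt_fix_or_neg_iff E K T₀).mpr ⟨a, h0⟩
  have key := cnt_pair_count (cntFrob E K) T₀ hf
  have e : ∀ T : (E⁄K).toAffine.Point, T.xRep = cntRep (ℓ := ℓ) K a ↔ (T = T₀ ∨ T = -T₀) := by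
    intro T
    rw [← h0, Point.xRep_eq_xRep_iff]
  simp only [e]
  exact key

/-- Fibrewise count over `ℙ¹(𝔽_ℓ)`. -/
theorem cnt_card_fibrewise (p : (E⁄K).toAffine.Point → Prop)
    (hp : ∀ T, p T → ∃ a, T.xRep = cntRep (ℓ := ℓ) K a) :
    Nat.card {T : (E⁄K).toAffine.Point // p T}
      = ∑ a : Option (ZMod ℓ),
          Nat.card {T : (E⁄K).toAffine.Point // T.xRep = cntRep (ℓ := ℓ) K a ∧ p T} := by
  rw [← Nat.card_sigma]
  refine Nat.card_congr ?_
  refine
    { toFun := fun T => ⟨Classical.choose (hp T.1 T.2), T.1, Classical.choose_spec (hp T.1 T.2), T.2⟩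
      invFun := fun s => ⟨s.2.1, s.2.2.2⟩
      left_inv := fun T => rfl
      right_inv := ?_ }
  rintro ⟨a, T, h1, h2⟩
  refine Sigma.subtype_ext ?_ rfl
  exact cntRep_injective K ((Classical.choose_spec (hp T h2)).symm.trans h1)

theorem cnt_card_add [E.IsElliptic] [IsAlgClosed K] :
    Nat.card {T : (E⁄K).toAffine.Point // cntFrob E K T = T}
      + Nat.card {T : (E⁄K).toAffine.Point // cntFrob E K T = -T} = 2 * ℓ + 2 := by
  rw [cnt_card_fibrewise E K (fun T => cntFrob E K T = T)
      (fun T h => (cnt_fix_or_neg_iff E K T).mp (Or.inl h)),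
    cnt_card_fibrewise E K (fun T => cntFrob E K T = -T)
      (fun T h => (cnt_fix_or_neg_iff E K T).mp (Or.inr h)),
    ← Finset.sum_add_distrib]
  simp only [cnt_fibre_card E K]
  rw [Finset.sum_const, Finset.card_univ, Fintype.card_option, ZMod.card]
  simp only [smul_eq_mul]
  ring

end Fermat.Agent.S58lib
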