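import Mathlib

/-!
# Item 84, piece P4 (helper7), part 1: the hub definitions

`W` is a Weierstrass curve over `ZMod ℓ`, `k` a field over `ZMod ℓ`.
* `oddL ℓ W k` : the function field `L = k(x)(y)` of `W` over `k`;
* `oddX`, `oddY` : the coordinate functions, `oddGen` : the generic point `(x, y)` of `W(L)`;
* `oddFr` : the Frobenius endomorphism of the points over a field over `ZMod ℓ`
  (`Point.map` of `FiniteField.frobeniusAlgHom (ZMod ℓ) K'`).
-/

set_option autoImplicit false

open WeierstrassCurve Polynomial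

open scoped Classical

attribute [local instance 1100] Classical.propDecidable

noncomputable section

namespace Fermat.Agent.S58lib

variable (ℓ : ℕ) [Fact ℓ.Prime] (W : WeierstrassCurve (ZMod ℓ))
variable (k : Type) [Field k] [Algebra (ZMod ℓ) k]

/-- The coordinate ring of `W` over `k`. -/
abbrev oddA : Type := (W.baseChange k).toAffine.CoordinateRing

/-- The function field of `W` over `k`. -/
abbrev oddL : Type := (W.baseChange k).toAffine.FunctionField

/-- A field over `ZMod ℓ` has characteristic `ℓ`. -/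
theorem odd_charP (K' : Type*) [Field K'] [Algebra (ZMod ℓ) K'] : CharP K' ℓ :=
  charP_of_injective_algebraMap (algebraMap (ZMod ℓ) K').injective ℓ

/-- The Frobenius endomorphism of the group of points.  (`DecidableEq K'` is an instance argument:
for `K' = oddL ℓ W k` instance search finds `FractionRing.instDecidableEq`, not the classical one.) -/
def oddFr (K' : Type*) [Field K'] [Algebra (ZMod ℓ) K'] [DecidableEq K'] :
    (W.baseChange K').toAffine.Point →+ (W.baseChange K').toAffine.Point :=
  Affine.Point.map (W' := W) (FiniteField.frobeniusAlgHom (ZMod ℓ) K')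

theorem oddFrob_apply (K' : Type*) [Field K'] [Algebra (ZMod ℓ) K'] (z : K') :
    FiniteField.frobeniusAlgHom (ZMod ℓ) K' z = z ^ ℓ := by
  rw [FiniteField.coe_frobeniusAlgHom, ZMod.card]

theorem oddFr_zero (K' : Type*) [Field K'] [Algebra (ZMod ℓ) K'] [DecidableEq K'] :
    oddFr ℓ W K' 0 = 0 := map_zero _

/-- The coordinate function `x`. -/
def oddX : oddL ℓ W k :=
  algebraMap (oddA ℓ W k) (oddL ℓ W k) (Affine.CoordinateRing.mk _ (C X))

/-- The coordinate function `y`. -/
def oddY : oddL ℓ W k :=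
  algebraMap (oddA ℓ W k) (oddL ℓ W k) (Affine.CoordinateRing.mk _ X)

theorem odd_algebraMap_zmod (c : ZMod ℓ) :
    algebraMap (ZMod ℓ) (oddL ℓ W k) c
      = algebraMap (oddA ℓ W k) (oddL ℓ W k)
          (Affine.CoordinateRing.mk _ (C (C (algebraMap (ZMod ℓ) k c)))) := by
  rw [IsScalarTower.algebraMap_apply (ZMod ℓ) (oddA ℓ W k) (oddL ℓ W k)]
  rfl

/-- The generic point lies on the curve. -/
theorem odd_equation : (W.baseChange (oddL ℓ W k)).toAffine.Equation (oddX ℓ W k) (oddY ℓ W k) := by
  rw [Affine.equation_iff]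
  have h0 : Affine.CoordinateRing.mk (W.baseChange k).toAffine (W.baseChange k).toAffine.polynomial
      = 0 := AdjoinRoot.mk_self
  have h1 := congrArg (algebraMap (oddA ℓ W k) (oddL ℓ W k)) h0
  rw [map_zero] at h1
  have e1 : (W.baseChange (oddL ℓ W k)).toAffine.a₁ = algebraMap (oddA ℓ W k) (oddL ℓ W k)
      (Affine.CoordinateRing.mk _ (C (C (W.baseChange k).toAffine.a₁))) :=
    odd_algebraMap_zmod ℓ W k W.a₁
  have e2 : (W.baseChange (oddL ℓ W k)).toAffine.a₂ = algebraMap (oddA ℓ W k) (oddL ℓ W k)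
      (Affine.CoordinateRing.mk _ (C (C (W.baseChange k).toAffine.a₂))) :=
    odd_algebraMap_zmod ℓ W k W.a₂
  have e3 : (W.baseChange (oddL ℓ W k)).toAffine.a₃ = algebraMap (oddA ℓ W k) (oddL ℓ W k)
      (Affine.CoordinateRing.mk _ (C (C (W.baseChange k).toAffine.a₃))) :=
    odd_algebraMap_zmod ℓ W k W.a₃
  have e4 : (W.baseChange (oddL ℓ W k)).toAffine.a₄ = algebraMap (oddA ℓ W k) (oddL ℓ W k)
      (Affine.CoordinateRing.mk _ (C (C (W.baseChange k).toAffine.a₄))) :=
    odd_algebraMap_zmod ℓ W k W.a₄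
  have e6 : (W.baseChange (oddL ℓ W k)).toAffine.a₆ = algebraMap (oddA ℓ W k) (oddL ℓ W k)
      (Affine.CoordinateRing.mk _ (C (C (W.baseChange k).toAffine.a₆))) :=
    odd_algebraMap_zmod ℓ W k W.a₆
  rw [e1, e2, e3, e4, e6]
  unfold oddX oddY
  simp only [Affine.polynomial, map_sub, map_add, map_mul, map_pow] at h1
  linear_combination h1

/-- The generic point is nonsingular. -/
theorem odd_nonsingular [W.IsElliptic] :
    (W.baseChange (oddL ℓ W k)).toAffine.Nonsingular (oddX ℓ W k) (oddY ℓ W k) := by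
  have : (W.baseChange (oddL ℓ W k)).IsElliptic :=
    inferInstanceAs (W.map (algebraMap (ZMod ℓ) (oddL ℓ W k))).IsElliptic
  exact (Affine.equation_iff_nonsingular (W := (W.baseChange (oddL ℓ W k)))).mp
    (odd_equation ℓ W k)

/-- The generic point `(x, y)`. -/
def oddGen [W.IsElliptic] : (W.baseChange (oddL ℓ W k)).toAffine.Point :=
  Affine.Point.some _ _ (odd_nonsingular ℓ W k)

end Fermat.Agent.S58lib
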