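import Mathlib
import Fermat.Prelude.Def_FLTPrelim_Modularity
import Fermat.Agent.S58lib.OddDefs

/-!
# Item 84 (helper6): the interface of the Hasse package

* `HasseQ ℓ E a`  : the relation `Fr² − a Fr + ℓ = 0` on `E(K)` for every algebraically closed
  field `K` over `ZMod ℓ`;
* `HasseKB ℓ E a` : the kernel bound `#{T ∈ E(K) : Fr T = m T} ≤ m² − a m + ℓ`;
* `brgFr W κ f`   : the endomorphism `(x, y) ↦ (f x, f y)` of the points of
  `W.map (Int.castRingHom κ)` (the shape used by `RedHom`).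

Producer: `FrobQ.lean` (`a = E.traceOfFrobenius`).  Transfer to `W.map (Int.castRingHom κ)`:
`Bridge.lean`.  Consumer: `H2Transfer.lean` (with `CoreKAlg.lean`).
-/

set_option autoImplicit false

open WeierstrassCurve Polynomial

open scoped Classical

attribute [local instance 1100] Classical.propDecidable

noncomputable section

namespace Fermat.Agent.S58lib

/-- the statement (Q) for a curve over `ZMod ℓ`, over all algebraically closed fields -/
def HasseQ (ℓ : ℕ) [Fact ℓ.Prime] (E : WeierstrassCurve (ZMod ℓ)) (a : ℤ) : Prop :=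
  ∀ (K : Type) [Field K] [Algebra (ZMod ℓ) K] [IsAlgClosed K]
    (T : (E.baseChange K).toAffine.Point),
    oddFr ℓ E K (oddFr ℓ E K T) + (ℓ : ℤ) • T = a • oddFr ℓ E K T

/-- the statement (KB) for a curve over `ZMod ℓ`, over all algebraically closed fields -/
def HasseKB (ℓ : ℕ) [Fact ℓ.Prime] (E : WeierstrassCurve (ZMod ℓ)) (a : ℤ) : Prop :=
  ∀ (K : Type) [Field K] [Algebra (ZMod ℓ) K] [IsAlgClosed K] (m : ℤ)
    (A : Finset (E.baseChange K).toAffine.Point),
    (∀ T ∈ A, oddFr ℓ E K T = m • T) → (A.card : ℤ) ≤ m ^ 2 - a * m + ℓ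

/-- the endomorphism `(x, y) ↦ (f x, f y)` of the points of `W.map (Int.castRingHom κ)` -/
def brgFr (W : WeierstrassCurve ℤ) (κ : Type) [Field κ] (f : κ →+* κ) :
    (W.map (Int.castRingHom κ)).toAffine.Point →+ (W.map (Int.castRingHom κ)).toAffine.Point :=
  Affine.Point.map (W' := W) (S := ℤ) (F := κ) (K := κ) f.toIntAlgHom

/-- the conclusion of the bridge: (Q) and (KB) on the points of `W.map (Int.castRingHom κ)` -/
def HasseOn (W : WeierstrassCurve ℤ) (ℓ : ℕ) (κ : Type) [Field κ] (f : κ →+* κ) (a : ℤ) : Prop :=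
  (∀ T : (W.map (Int.castRingHom κ)).toAffine.Point,
      brgFr W κ f (brgFr W κ f T) + (ℓ : ℤ) • T = a • brgFr W κ f T) ∧
    (∀ (m : ℤ) (A : Finset (W.map (Int.castRingHom κ)).toAffine.Point),
      (∀ T ∈ A, brgFr W κ f T = m • T) → (A.card : ℤ) ≤ m ^ 2 - a * m + ℓ)

end Fermat.Agent.S58lib
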