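import Fermat.Agent.S58lib.OddDefs

/-!
# Item 84, piece FDG (helper28): the field-degree bound

`L = k(W)` is the function field of `W` over `k` (`oddL`), `x = oddX`.

* `fdg_transcendental_X` : `x` is transcendental over `k`;
* `fdg_finrank` : `[L : k(x)] = 2` (for the algebra structure given by `ι : k(t) → L`, `t ↦ x`);
* `fdg_card_le` : at most `2 · deg u` `k`-algebra endomorphisms of `L` fix `ι u`,
  for `u ∈ k(t)` non-constant (`AlgHom.card_le` + `RatFunc.finrank_eq_max_natDegree`).
-/

set_option autoImplicit false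
set_option linter.style.haveILetI false

open WeierstrassCurve Polynomial

open scoped Classical

noncomputable section

namespace Fermat.Agent.S58lib

/-- Abstract bound: `k ⊆ E ⊆ F → L`; the `k`-endomorphisms of `L` fixing the image of `E`
are at most `[F : E] · [L : F]`. -/
theorem fdg_card_le_abstract {k F L : Type*} [Field k] [Field F] [Field L] [Algebra k F]
    [Algebra k L] (ι : F →ₐ[k] L) (E : IntermediateField k F) (d : ℕ) (hd : 0 < d)
    (hE : Module.finrank E F = d)
    (hL : letI := ι.toRingHom.toAlgebra; Module.finrank F L = 2)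
    (S : Finset (L →ₐ[k] L)) (hS : ∀ f ∈ S, ∀ r : E, f (ι r) = ι r) :
    S.card ≤ 2 * d := by
  letI algFL : Algebra F L := ι.toRingHom.toAlgebra
  haveI : IsScalarTower E F L := inferInstance
  haveI h1 : FiniteDimensional E F := Module.finite_of_finrank_pos (by rw [hE]; exact hd)
  haveI h2 : FiniteDimensional F L := Module.finite_of_finrank_pos (by rw [hL]; norm_num)
  haveI h3 : FiniteDimensional E L := Module.Finite.trans (R := E) F L
  have hfin : Module.finrank E L = 2 * d := by
    rw [← Module.finrank_mul_finrank E F L, hE, hL, mul_comm]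
  have hmap : ∀ f : S, ∃ g : L →ₐ[E] L, ∀ z, g z = f.1 z := by
    rintro ⟨f, hf⟩
    exact ⟨{ toRingHom := f.toRingHom, commutes' := fun r => hS f hf r }, fun _ => rfl⟩
  choose φ hφ using hmap
  have hinj : Function.Injective φ := by
    intro f g h
    apply Subtype.ext
    apply AlgHom.ext
    intro z
    rw [← hφ f z, ← hφ g z, h]
  have := Fintype.card_le_of_injective φ hinj
  rw [Fintype.card_coe] at this
  exact (this.trans AlgHom.card_le).trans_eq hfin

/-- An endomorphism fixing `ι u` fixes `ι r` for every `r ∈ k⟮u⟯`. -/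
theorem fdg_fix_adjoin {k F L : Type*} [Field k] [Field F] [Field L] [Algebra k F]
    [Algebra k L] (ι : F →ₐ[k] L) (u : F) (f : L →ₐ[k] L) (hf : f (ι u) = ι u)
    (r : IntermediateField.adjoin k {u}) : f (ι r) = ι r := by
  obtain ⟨r, hr⟩ := r
  show f (ι r) = ι r
  induction hr using IntermediateField.adjoin_induction with
  | mem x hx =>
    rw [Set.mem_singleton_iff] at hx
    rw [hx, hf]
  | algebraMap x => rw [AlgHom.commutes, AlgHom.commutes]
  | add x y _ _ hx hy => rw [map_add, map_add, hx, hy]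
  | inv x _ hx => rw [map_inv₀, map_inv₀, hx]
  | mul x y _ _ hx hy => rw [map_mul, map_mul, hx, hy]

variable (ℓ : ℕ) [Fact ℓ.Prime] (W : WeierstrassCurve (ZMod ℓ))
variable (k : Type) [Field k] [Algebra (ZMod ℓ) k]

theorem fdg_algebraMap_X :
    algebraMap k[X] (oddA ℓ W k) X = Affine.CoordinateRing.mk _ (C X) := rfl

theorem fdg_aeval_X (p : k[X]) :
    aeval (oddX ℓ W k) p
      = algebraMap (oddA ℓ W k) (oddL ℓ W k) (algebraMap k[X] (oddA ℓ W k) p) := by
  unfold oddX
  rw [aeval_algebraMap_apply]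
  congr 1
  have h : (aeval (Affine.CoordinateRing.mk (W.baseChange k).toAffine (C X)) : k[X] →ₐ[k] oddA ℓ W k)
      = IsScalarTower.toAlgHom k k[X] (oddA ℓ W k) := by
    apply Polynomial.algHom_ext
    rw [aeval_X]
    rfl
  exact DFunLike.congr_fun h p

/-- `x` is transcendental over `k` -/
theorem fdg_transcendental_X : Transcendental k (oddX ℓ W k) := by
  rw [transcendental_iff_injective]
  intro p q h
  rw [fdg_aeval_X, fdg_aeval_X] at h
  exact FaithfulSMul.algebraMap_injective k[X] (oddA ℓ W k)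
    (IsFractionRing.injective (oddA ℓ W k) (oddL ℓ W k) h)

theorem fdg_iota_algebraMap (ι : RatFunc k →ₐ[k] oddL ℓ W k) (hι : ι RatFunc.X = oddX ℓ W k)
    (p : k[X]) :
    ι (algebraMap k[X] (RatFunc k) p) = algebraMap k[X] (oddL ℓ W k) p := by
  rw [← RatFunc.aeval_X_left_eq_algebraMap, ← Polynomial.aeval_algHom_apply, hι, fdg_aeval_X,
    ← IsScalarTower.algebraMap_apply]

theorem fdg_finrank_coord : Module.finrank k[X] (oddA ℓ W k) = 2 := by
  rw [Module.finrank_eq_card_basis (Affine.CoordinateRing.basis (W.baseChange k).toAffine),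
    Fintype.card_fin]

theorem fdg_finrank (ι : RatFunc k →ₐ[k] oddL ℓ W k) (hι : ι RatFunc.X = oddX ℓ W k) :
    letI := ι.toRingHom.toAlgebra
    Module.finrank (RatFunc k) (oddL ℓ W k) = 2 := by
  letI algFL : Algebra (RatFunc k) (oddL ℓ W k) := ι.toRingHom.toAlgebra
  haveI : IsScalarTower k[X] (RatFunc k) (oddL ℓ W k) :=
    IsScalarTower.of_algebraMap_eq (fun p => (fdg_iota_algebraMap ℓ W k ι hι p).symm)
  rw [IsFractionRing.finrank_eq k[X] (RatFunc k) (oddA ℓ W k) (oddL ℓ W k)]
  exact fdg_finrank_coord ℓ W k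

/-- FIELD-DEGREE BOUND: at most `2 · deg u` `k`-algebra endomorphisms of `L = k(W)` fix `ι u`
(`u ∈ k(t)` non-constant, `ι : k(t) → L`, `t ↦ x`). -/
theorem fdg_card_le (ι : RatFunc k →ₐ[k] oddL ℓ W k) (hι : ι RatFunc.X = oddX ℓ W k)
    (u : RatFunc k) (hu : ¬ ∃ c : k, u = RatFunc.C c)
    (S : Finset (oddL ℓ W k →ₐ[k] oddL ℓ W k)) (hS : ∀ f ∈ S, f (ι u) = ι u) :
    S.card ≤ 2 * max u.num.natDegree u.denom.natDegree := by
  have hd := RatFunc.finrank_eq_max_natDegree (f := u)
  have hpos : 0 < max u.num.natDegree u.denom.natDegree := by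
    rw [Nat.pos_iff_ne_zero]
    intro h0
    rw [Nat.max_eq_zero_iff, ← RatFunc.eq_C_iff] at h0
    exact hu h0
  exact fdg_card_le_abstract ι (IntermediateField.adjoin k {u}) _ hpos hd
    (fdg_finrank ℓ W k ι hι) S (fun f hf r => fdg_fix_adjoin ι u f (hS f hf) r)

end Fermat.Agent.S58lib
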