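import Fermat.Agent.S58lib.OddDefs

/-!
# Item 84, piece P4 (helper7), part 2: the involution `σ` of `L = k(E)` and `k(x) ⊆ L`

* `oddSigmaA` : the `k[X]`-algebra involution of the coordinate ring, `Y ↦ -Y - (a₁ X + a₃)`;
* `oddSigma` : the induced `k`-algebra endomorphism of `L`;
* `oddIota` : `RatFunc k →ₐ[k] L`, `X ↦ x`;
* `odd_decomp` : every element of `L` is `ι r + ι s * y`;
* `odd_fixed` : the elements fixed by `σ` are those of `k(x)` (for an elliptic curve).
-/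

set_option autoImplicit false

open WeierstrassCurve Polynomial

open scoped Classical

attribute [local instance 1100] Classical.propDecidable

noncomputable section

namespace Fermat.Agent.S58lib

variable (ℓ : ℕ) [Fact ℓ.Prime] (W : WeierstrassCurve (ZMod ℓ))
variable (k : Type) [Field k] [Algebra (ZMod ℓ) k]

/-- `h = a₁ X + a₃` as an element of `k[X]`. -/
def oddHpol : k[X] := C (W.baseChange k).a₁ * X + C (W.baseChange k).a₃

/-- `f = X³ + a₂ X² + a₄ X + a₆` as an element of `k[X]`. -/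
def oddFpol : k[X] :=
  X ^ 3 + C (W.baseChange k).a₂ * X ^ 2 + C (W.baseChange k).a₄ * X + C (W.baseChange k).a₆

/-- `y` in the coordinate ring. -/
def oddYA : oddA ℓ W k := Affine.CoordinateRing.mk _ X

/-- the image of `p ∈ k[X]` in the coordinate ring -/
def oddCA (p : k[X]) : oddA ℓ W k := Affine.CoordinateRing.mk _ (C p)

theorem oddCA_eq_algebraMap (p : k[X]) : oddCA ℓ W k p = algebraMap k[X] (oddA ℓ W k) p := rfl

theorem oddCA_mul (p q : k[X]) : oddCA ℓ W k (p * q) = oddCA ℓ W k p * oddCA ℓ W k q := by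
  simp only [oddCA, map_mul]

theorem oddCA_add (p q : k[X]) : oddCA ℓ W k (p + q) = oddCA ℓ W k p + oddCA ℓ W k q := by
  simp only [oddCA, map_add]

theorem oddCA_zero : oddCA ℓ W k 0 = 0 := by
  simp only [oddCA, map_zero]

/-- The equation in the coordinate ring: `y² + h y = f`. -/
theorem oddYA_sq : oddYA ℓ W k ^ 2 + oddCA ℓ W k (oddHpol ℓ W k) * oddYA ℓ W k
    = oddCA ℓ W k (oddFpol ℓ W k) := by
  have h0 : Affine.CoordinateRing.mk (W.baseChange k).toAffine (W.baseChange k).toAffine.polynomial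
      = 0 := AdjoinRoot.mk_self
  unfold oddYA oddCA oddHpol oddFpol
  simp only [Affine.polynomial, map_sub, map_add, map_mul, map_pow] at h0 ⊢
  linear_combination h0

/-- The conjugate of `y`. -/
def oddYA' : oddA ℓ W k := - oddYA ℓ W k - oddCA ℓ W k (oddHpol ℓ W k)

theorem oddYA'_sq : oddYA' ℓ W k ^ 2 + oddCA ℓ W k (oddHpol ℓ W k) * oddYA' ℓ W k
    = oddCA ℓ W k (oddFpol ℓ W k) := by
  unfold oddYA'
  linear_combination oddYA_sq ℓ W k

theorem odd_eval₂_polynomial (z : oddA ℓ W k)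
    (hz : z ^ 2 + oddCA ℓ W k (oddHpol ℓ W k) * z = oddCA ℓ W k (oddFpol ℓ W k)) :
    ((W.baseChange k).toAffine.polynomial).eval₂ (Algebra.ofId k[X] (oddA ℓ W k)) z = 0 := by
  have e : ∀ p : k[X], ((Algebra.ofId k[X] (oddA ℓ W k) : k[X] →ₐ[k[X]] oddA ℓ W k) :
      k[X] →+* oddA ℓ W k) p = Affine.CoordinateRing.mk (W.baseChange k).toAffine (C p) :=
    fun p => rfl
  unfold oddHpol oddFpol at hz
  simp only [Affine.polynomial, eval₂_sub, eval₂_add, eval₂_mul, eval₂_pow, eval₂_X, eval₂_C]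
  simp only [e]
  simp only [oddCA, map_add, map_mul, map_pow] at hz ⊢
  linear_combination hz

/-- The involution of the coordinate ring. -/
def oddSigmaA : oddA ℓ W k →ₐ[k[X]] oddA ℓ W k :=
  AdjoinRoot.liftAlgHom _ (Algebra.ofId k[X] (oddA ℓ W k)) (oddYA' ℓ W k)
    (odd_eval₂_polynomial ℓ W k _ (oddYA'_sq ℓ W k))

theorem oddSigmaA_Y : oddSigmaA ℓ W k (oddYA ℓ W k) = oddYA' ℓ W k := by
  unfold oddSigmaA oddYA
  exact AdjoinRoot.liftAlgHom_root _ _ _ _

theorem oddSigmaA_C (p : k[X]) : oddSigmaA ℓ W k (oddCA ℓ W k p) = oddCA ℓ W k p := by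
  rw [oddCA_eq_algebraMap, AlgHom.commutes]

theorem oddSigmaA_Y' : oddSigmaA ℓ W k (oddYA' ℓ W k) = oddYA ℓ W k := by
  unfold oddYA'
  rw [map_sub, map_neg, oddSigmaA_Y, oddSigmaA_C]
  unfold oddYA'
  ring

/-- Every element of the coordinate ring is `p + q y`. -/
theorem oddA_decomp (z : oddA ℓ W k) :
    ∃ p q : k[X], z = oddCA ℓ W k p + oddCA ℓ W k q * oddYA ℓ W k := by
  obtain ⟨p, q, h⟩ := Affine.CoordinateRing.exists_smul_basis_eq (W' := (W.baseChange k).toAffine) z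
  refine ⟨p, q, ?_⟩
  rw [← h, Affine.CoordinateRing.smul, Affine.CoordinateRing.smul, mul_one]
  rfl

theorem oddA_indep (p q : k[X]) (h : oddCA ℓ W k p + oddCA ℓ W k q * oddYA ℓ W k = 0) :
    p = 0 ∧ q = 0 := by
  apply Affine.CoordinateRing.smul_basis_eq_zero (W' := (W.baseChange k).toAffine)
  rw [Affine.CoordinateRing.smul, Affine.CoordinateRing.smul, mul_one]
  exact h

theorem oddSigmaA_invol (z : oddA ℓ W k) : oddSigmaA ℓ W k (oddSigmaA ℓ W k z) = z := by
  obtain ⟨p, q, rfl⟩ := oddA_decomp ℓ W k z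
  simp only [map_add, map_mul, oddSigmaA_C, oddSigmaA_Y, oddSigmaA_Y']

theorem oddSigmaA_injective : Function.Injective (oddSigmaA ℓ W k) :=
  Function.LeftInverse.injective (oddSigmaA_invol ℓ W k)

/-- The norm `z σ(z)` lies in `k[X]`. -/
theorem oddA_norm (p q : k[X]) :
    (oddCA ℓ W k p + oddCA ℓ W k q * oddYA ℓ W k)
      * oddSigmaA ℓ W k (oddCA ℓ W k p + oddCA ℓ W k q * oddYA ℓ W k)
      = oddCA ℓ W k (p ^ 2 - p * q * oddHpol ℓ W k - q ^ 2 * oddFpol ℓ W k) := by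
  simp only [map_add, map_mul, oddSigmaA_C, oddSigmaA_Y]
  unfold oddYA'
  have h := oddYA_sq ℓ W k
  simp only [oddCA, map_sub, map_mul, map_pow] at h ⊢
  linear_combination (- (Affine.CoordinateRing.mk (W.baseChange k).toAffine) (C q) ^ 2) * h

/-! ### The fields `k(x) ⊆ L` -/

theorem odd_algebraMap_AL_injective :
    Function.Injective (algebraMap (oddA ℓ W k) (oddL ℓ W k)) :=
  IsFractionRing.injective _ _

theorem odd_algebraMap_polyA_injective :
    Function.Injective (algebraMap k[X] (oddA ℓ W k)) :=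
  FaithfulSMul.algebraMap_injective _ _

theorem odd_algebraMap_polyL_injective :
    Function.Injective (algebraMap k[X] (oddL ℓ W k)) := by
  rw [IsScalarTower.algebraMap_eq k[X] (oddA ℓ W k) (oddL ℓ W k)]
  exact (odd_algebraMap_AL_injective ℓ W k).comp (odd_algebraMap_polyA_injective ℓ W k)

/-- The embedding of `k(x)` into `L`. -/
def oddIota : RatFunc k →ₐ[k] oddL ℓ W k :=
  IsFractionRing.liftAlgHom (A := k[X]) (K := RatFunc k)
    (g := IsScalarTower.toAlgHom k k[X] (oddL ℓ W k)) (odd_algebraMap_polyL_injective ℓ W k)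

theorem oddIota_algebraMap (p : k[X]) :
    oddIota ℓ W k (algebraMap k[X] (RatFunc k) p)
      = algebraMap (oddA ℓ W k) (oddL ℓ W k) (oddCA ℓ W k p) := by
  exact IsFractionRing.lift_algebraMap (A := k[X]) (K := RatFunc k)
    (g := ((IsScalarTower.toAlgHom k k[X] (oddL ℓ W k) : k[X] →ₐ[k] oddL ℓ W k) :
      k[X] →+* oddL ℓ W k)) (odd_algebraMap_polyL_injective ℓ W k) p

theorem oddIota_injective : Function.Injective (oddIota ℓ W k) :=
  (oddIota ℓ W k).toRingHom.injective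

theorem oddIota_X : oddIota ℓ W k RatFunc.X = oddX ℓ W k := by
  rw [← RatFunc.algebraMap_X, oddIota_algebraMap]
  rfl

/-- The involution `σ` of `L`. -/
def oddSigma : oddL ℓ W k →ₐ[k] oddL ℓ W k :=
  IsFractionRing.liftAlgHom (A := oddA ℓ W k) (K := oddL ℓ W k)
    (g := (IsScalarTower.toAlgHom k (oddA ℓ W k) (oddL ℓ W k)).comp
      ((oddSigmaA ℓ W k).restrictScalars k))
    ((odd_algebraMap_AL_injective ℓ W k).comp (oddSigmaA_injective ℓ W k))

theorem oddSigma_algebraMap (a : oddA ℓ W k) :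
    oddSigma ℓ W k (algebraMap (oddA ℓ W k) (oddL ℓ W k) a)
      = algebraMap (oddA ℓ W k) (oddL ℓ W k) (oddSigmaA ℓ W k a) := by
  exact IsFractionRing.lift_algebraMap (A := oddA ℓ W k) (K := oddL ℓ W k)
    (g := (((IsScalarTower.toAlgHom k (oddA ℓ W k) (oddL ℓ W k)).comp
      ((oddSigmaA ℓ W k).restrictScalars k) : oddA ℓ W k →ₐ[k] oddL ℓ W k) :
      oddA ℓ W k →+* oddL ℓ W k))
    ((odd_algebraMap_AL_injective ℓ W k).comp (oddSigmaA_injective ℓ W k)) a

theorem oddSigma_invol (z : oddL ℓ W k) : oddSigma ℓ W k (oddSigma ℓ W k z) = z := by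
  obtain ⟨a, b, _, rfl⟩ := IsFractionRing.div_surjective (oddA ℓ W k) z
  rw [map_div₀, map_div₀, oddSigma_algebraMap, oddSigma_algebraMap, oddSigma_algebraMap,
    oddSigma_algebraMap, oddSigmaA_invol, oddSigmaA_invol]

theorem oddSigma_iota (r : RatFunc k) : oddSigma ℓ W k (oddIota ℓ W k r) = oddIota ℓ W k r := by
  obtain ⟨p, q, _, rfl⟩ := IsFractionRing.div_surjective k[X] r
  rw [map_div₀, map_div₀, oddIota_algebraMap, oddIota_algebraMap, oddSigma_algebraMap,
    oddSigma_algebraMap, oddSigmaA_C, oddSigmaA_C]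

theorem oddY_eq : oddY ℓ W k = algebraMap (oddA ℓ W k) (oddL ℓ W k) (oddYA ℓ W k) := rfl

theorem oddX_eq : oddX ℓ W k = algebraMap (oddA ℓ W k) (oddL ℓ W k) (oddCA ℓ W k X) := rfl

theorem oddSigma_X : oddSigma ℓ W k (oddX ℓ W k) = oddX ℓ W k := by
  rw [oddX_eq, oddSigma_algebraMap, oddSigmaA_C]

theorem oddSigma_Y : oddSigma ℓ W k (oddY ℓ W k)
    = - oddY ℓ W k - oddIota ℓ W k (algebraMap k[X] (RatFunc k) (oddHpol ℓ W k)) := by
  rw [oddY_eq, oddSigma_algebraMap, oddSigmaA_Y, oddIota_algebraMap]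
  unfold oddYA'
  rw [map_sub, map_neg]

/-- Every element of `L` is `ι r + ι s * y`. -/
theorem odd_decomp (z : oddL ℓ W k) :
    ∃ r s : RatFunc k, z = oddIota ℓ W k r + oddIota ℓ W k s * oddY ℓ W k := by
  obtain ⟨a, b, hb, rfl⟩ := IsFractionRing.div_surjective (oddA ℓ W k) z
  have hb0 : b ≠ 0 := nonZeroDivisors.ne_zero hb
  obtain ⟨p, q, hpq⟩ := oddA_decomp ℓ W k b
  obtain ⟨p', q', hpq'⟩ := oddA_decomp ℓ W k (a * oddSigmaA ℓ W k b)
  set N : k[X] := p ^ 2 - p * q * oddHpol ℓ W k - q ^ 2 * oddFpol ℓ W k with hN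
  have hnorm : b * oddSigmaA ℓ W k b = oddCA ℓ W k N := by
    rw [hpq]
    exact oddA_norm ℓ W k p q
  have hσb : oddSigmaA ℓ W k b ≠ 0 := fun h0 =>
    hb0 (oddSigmaA_injective ℓ W k (by rw [h0, map_zero]))
  have hN0 : oddCA ℓ W k N ≠ 0 := by
    rw [← hnorm]
    exact mul_ne_zero hb0 hσb
  have hbL : algebraMap (oddA ℓ W k) (oddL ℓ W k) b ≠ 0 := fun h0 =>
    hb0 (odd_algebraMap_AL_injective ℓ W k (by rw [h0, map_zero]))
  have hσbL : algebraMap (oddA ℓ W k) (oddL ℓ W k) (oddSigmaA ℓ W k b) ≠ 0 := fun h0 =>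
    hσb (odd_algebraMap_AL_injective ℓ W k (by rw [h0, map_zero]))
  have hNL : algebraMap (oddA ℓ W k) (oddL ℓ W k) (oddCA ℓ W k N) ≠ 0 := fun h0 =>
    hN0 (odd_algebraMap_AL_injective ℓ W k (by rw [h0, map_zero]))
  refine ⟨algebraMap k[X] (RatFunc k) p' / algebraMap k[X] (RatFunc k) N,
    algebraMap k[X] (RatFunc k) q' / algebraMap k[X] (RatFunc k) N, ?_⟩
  rw [map_div₀, map_div₀, oddIota_algebraMap, oddIota_algebraMap, oddIota_algebraMap, oddY_eq]
  have h1 := congrArg (algebraMap (oddA ℓ W k) (oddL ℓ W k)) hnorm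
  have h2 := congrArg (algebraMap (oddA ℓ W k) (oddL ℓ W k)) hpq'
  rw [map_mul] at h1 h2
  rw [map_add, map_mul] at h2
  rw [← h1]
  field_simp
  linear_combination h2

/-- `1, y` are linearly independent over `k(x)`. -/
theorem odd_indep (r s : RatFunc k)
    (h : oddIota ℓ W k r + oddIota ℓ W k s * oddY ℓ W k = 0) : r = 0 ∧ s = 0 := by
  obtain ⟨p₁, d₁, hd₁, rfl⟩ := IsFractionRing.div_surjective k[X] r
  obtain ⟨p₂, d₂, hd₂, rfl⟩ := IsFractionRing.div_surjective k[X] s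
  have hd₁0 : d₁ ≠ 0 := nonZeroDivisors.ne_zero hd₁
  have hd₂0 : d₂ ≠ 0 := nonZeroDivisors.ne_zero hd₂
  have inj := (odd_algebraMap_AL_injective ℓ W k).comp (odd_algebraMap_polyA_injective ℓ W k)
  have hL : ∀ d : k[X], d ≠ 0 →
      algebraMap (oddA ℓ W k) (oddL ℓ W k) (oddCA ℓ W k d) ≠ 0 := fun d hd h0 =>
    hd (inj (show algebraMap (oddA ℓ W k) (oddL ℓ W k) (algebraMap k[X] (oddA ℓ W k) d)
      = algebraMap (oddA ℓ W k) (oddL ℓ W k) (algebraMap k[X] (oddA ℓ W k) 0) by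
        rw [map_zero, map_zero]; exact h0))
  rw [map_div₀, map_div₀, oddIota_algebraMap, oddIota_algebraMap, oddIota_algebraMap,
    oddIota_algebraMap, oddY_eq] at h
  have h1 := hL d₁ hd₁0
  have h2 := hL d₂ hd₂0
  have h3 : algebraMap (oddA ℓ W k) (oddL ℓ W k)
      (oddCA ℓ W k (p₁ * d₂) + oddCA ℓ W k (p₂ * d₁) * oddYA ℓ W k) = 0 := by
    rw [oddCA_mul, oddCA_mul, map_add, map_mul, map_mul, map_mul]
    field_simp at h
    linear_combination h
  have h4 := odd_algebraMap_AL_injective ℓ W k (h3.trans (map_zero _).symm)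
  obtain ⟨e1, e2⟩ := oddA_indep ℓ W k _ _ h4
  have f1 : p₁ = 0 := by
    rcases mul_eq_zero.mp e1 with h | h
    · exact h
    · exact absurd h hd₂0
  have f2 : p₂ = 0 := by
    rcases mul_eq_zero.mp e2 with h | h
    · exact h
    · exact absurd h hd₁0
  subst f1 f2
  simp

end Fermat.Agent.S58lib
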