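/-
Item 84 (S58), HASSE package, piece P2 (helper14): **heights of `x`-coordinates in `K(t)`**.

`K` a field (the constants), `K[X]` the polynomial ring, `RatFunc K = K(t)`.

* `phtDeg p`     : the maximal `natDegree` of a triple `p : Fin 3 → K[X]`;
* `PhtCop p`     : the triple is coprime (`Ideal.span (Set.range p) = ⊤`);
* `PhtRep v p`   : `p` is a coprime polynomial representative of the projective point
  `v : Fin 3 → K(t)` (`v = d • p`, `d ≠ 0`);  `phtRep_unique` : the degree of a representative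
  only depends on `v`;
* `phtH x = max (deg num) (deg denom)` : the height of `x ∈ K(t)`
  (`= [K(t) : K(x)]`, Mathlib `RatFunc.finrank_eq_max_natDegree`);
* **Gauss lemma** `phtRep_sym2` : `(x₁ x₂ : x₁ + x₂ : 1)` has a representative of degree
  `phtH x₁ + phtH x₂`; `phtRep_one` : `(x : 1 : 0)` has one of degree `phtH x`;
* **doubling** `pht_cop_addSubMap`, `pht_deg_addSubMap` : for an elliptic curve `W` over `K`
  (constant coefficients) the quadratic map `addSubMap` sends a coprime triple to a coprime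
  triple of exactly twice the degree (Mathlib's certificate `addSubMapCoeff_condition`);
* **`pht_doubling`** : if `addSubMap v = c • w` then `deg (rep w) = 2 deg (rep v)`;
* **`pht_parallelogram`** : the exact parallelogram law on `x`-coordinates
  (`Option (RatFunc K)`, `none = O`).
-/
import Mathlib

set_option autoImplicit false
set_option linter.unusedSectionVars false
set_option linter.unusedVariables false

noncomputable section

namespace Fermat.Agent.S58lib

open Polynomial

variable {K : Type*} [Field K]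

/-! ### degrees of triples -/

/-- the maximal degree of a triple of polynomials -/
def phtDeg (p : Fin 3 → K[X]) : ℕ :=
  max (p 0).natDegree (max (p 1).natDegree (p 2).natDegree)

theorem natDegree_le_phtDeg (p : Fin 3 → K[X]) (i : Fin 3) : (p i).natDegree ≤ phtDeg p := by
  unfold phtDeg
  fin_cases i
  · exact le_max_left _ _
  · exact (le_max_left _ _).trans (le_max_right _ _)
  · exact (le_max_right _ _).trans (le_max_right _ _)

theorem phtDeg_le {p : Fin 3 → K[X]} {m : ℕ} (h : ∀ i, (p i).natDegree ≤ m) : phtDeg p ≤ m :=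
  max_le (h 0) (max_le (h 1) (h 2))

theorem exists_natDegree_eq_phtDeg (p : Fin 3 → K[X]) : ∃ i, (p i).natDegree = phtDeg p := by
  unfold phtDeg
  rcases le_total (p 0).natDegree (max (p 1).natDegree (p 2).natDegree) with h | h
  · rw [max_eq_right h]
    rcases le_total (p 1).natDegree (p 2).natDegree with h' | h'
    · exact ⟨2, (max_eq_right h').symm⟩
    · exact ⟨1, (max_eq_left h').symm⟩
  · exact ⟨0, (max_eq_left h).symm⟩

/-! ### coprime triples and representatives -/

/-- the triple is coprime -/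
def PhtCop (p : Fin 3 → K[X]) : Prop := Ideal.span (Set.range p) = ⊤

theorem phtCop_iff {p : Fin 3 → K[X]} : PhtCop p ↔ ∃ c : Fin 3 → K[X], ∑ i, c i * p i = 1 := by
  unfold PhtCop
  rw [Ideal.eq_top_iff_one, Ideal.mem_span_range_iff_exists_fun]

theorem PhtCop.exists_ne_zero {p : Fin 3 → K[X]} (hp : PhtCop p) : ∃ i, p i ≠ 0 := by
  by_contra h
  have h' : ∀ i, p i = 0 := fun i => by
    by_contra hi
    exact h ⟨i, hi⟩
  obtain ⟨c, hc⟩ := phtCop_iff.mp hp
  simp [h'] at hc

/-- `p` is a coprime polynomial representative of the projective point `v` -/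
def PhtRep (v : Fin 3 → RatFunc K) (p : Fin 3 → K[X]) : Prop :=
  PhtCop p ∧ ∃ d : RatFunc K, d ≠ 0 ∧ ∀ i, v i = d * algebraMap K[X] (RatFunc K) (p i)

theorem PhtRep.smul {v : Fin 3 → RatFunc K} {p : Fin 3 → K[X]} (h : PhtRep v p)
    {c : RatFunc K} (hc : c ≠ 0) : PhtRep (fun i => c * v i) p := by
  obtain ⟨h1, d, hd, hv⟩ := h
  exact ⟨h1, c * d, mul_ne_zero hc hd, fun i => by
    show c * v i = _
    rw [hv i, mul_assoc]⟩

/-- two representatives of the same point differ by a unit -/
theorem phtRep_unit {v : Fin 3 → RatFunc K} {p p' : Fin 3 → K[X]}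
    (h : PhtRep v p) (h' : PhtRep v p') : ∃ u : K[X], IsUnit u ∧ ∀ i, p' i = u * p i := by
  obtain ⟨hc, d, hd, hv⟩ := h
  obtain ⟨hc', d', hd', hv'⟩ := h'
  have hinj := IsFractionRing.injective K[X] (RatFunc K)
  -- cross relations
  have hcross : ∀ i j, p i * p' j = p' i * p j := by
    intro i j
    apply hinj
    have h1 := hv i
    have h2 := hv' i
    have h3 := hv j
    have h4 := hv' j
    have e : d * d' * (algebraMap K[X] (RatFunc K) (p i) * algebraMap K[X] (RatFunc K) (p' j))
        = d * d' * (algebraMap K[X] (RatFunc K) (p' i) * algebraMap K[X] (RatFunc K) (p j)) := by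
      calc d * d' * (algebraMap K[X] (RatFunc K) (p i) * algebraMap K[X] (RatFunc K) (p' j))
          = (d * algebraMap K[X] (RatFunc K) (p i)) *
              (d' * algebraMap K[X] (RatFunc K) (p' j)) := by ring
        _ = v i * v j := by rw [← h1, ← h4]
        _ = (d' * algebraMap K[X] (RatFunc K) (p' i)) *
              (d * algebraMap K[X] (RatFunc K) (p j)) := by rw [← h2, ← h3]
        _ = _ := by ring
    rw [map_mul, map_mul]
    exact mul_left_cancel₀ (mul_ne_zero hd hd') e
  obtain ⟨c, hc1⟩ := phtCop_iff.mp hc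
  obtain ⟨c', hc1'⟩ := phtCop_iff.mp hc'
  -- `p' i = u p i`, `p i = u' p' i`
  have hu : ∀ i, p' i = (∑ j, c j * p' j) * p i := by
    intro i
    calc p' i = p' i * ∑ j, c j * p j := by rw [hc1, mul_one]
      _ = ∑ j, c j * (p' i * p j) := by
        rw [Finset.mul_sum]; exact Finset.sum_congr rfl fun j _ => by ring
      _ = ∑ j, c j * (p i * p' j) := by
        exact Finset.sum_congr rfl fun j _ => by rw [hcross i j]
      _ = _ := by rw [Finset.sum_mul]; exact Finset.sum_congr rfl fun j _ => by ring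
  have hu' : ∀ i, p i = (∑ j, c' j * p j) * p' i := by
    intro i
    calc p i = p i * ∑ j, c' j * p' j := by rw [hc1', mul_one]
      _ = ∑ j, c' j * (p i * p' j) := by
        rw [Finset.mul_sum]; exact Finset.sum_congr rfl fun j _ => by ring
      _ = ∑ j, c' j * (p' i * p j) := by
        exact Finset.sum_congr rfl fun j _ => by rw [hcross i j]
      _ = _ := by rw [Finset.sum_mul]; exact Finset.sum_congr rfl fun j _ => by ring
  obtain ⟨i₀, hi₀⟩ := hc'.exists_ne_zero
  refine ⟨∑ j, c j * p' j, ?_, hu⟩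
  have hone : (∑ j, c j * p' j) * (∑ j, c' j * p j) = 1 := by
    have e : p' i₀ = ((∑ j, c j * p' j) * (∑ j, c' j * p j)) * p' i₀ := by
      conv_lhs => rw [hu i₀, hu' i₀]
      ring
    have e' : (1 - (∑ j, c j * p' j) * (∑ j, c' j * p j)) * p' i₀ = 0 := by
      rw [sub_mul, one_mul, ← e, sub_self]
    rcases mul_eq_zero.mp e' with h0 | h0
    · exact (sub_eq_zero.mp h0).symm
    · exact absurd h0 hi₀
  exact IsUnit.of_mul_eq_one _ hone

/-- the degree of a representative only depends on the point -/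
theorem phtRep_unique {v : Fin 3 → RatFunc K} {p p' : Fin 3 → K[X]}
    (h : PhtRep v p) (h' : PhtRep v p') : phtDeg p' = phtDeg p := by
  obtain ⟨u, hu, hpp⟩ := phtRep_unit h h'
  obtain ⟨r, hr, rfl⟩ := Polynomial.isUnit_iff.mp hu
  have hr0 : r ≠ 0 := hr.ne_zero
  have : ∀ i, (p' i).natDegree = (p i).natDegree := fun i => by
    rw [hpp i, natDegree_C_mul hr0]
  unfold phtDeg
  rw [this 0, this 1, this 2]

/-! ### heights of rational functions and the Gauss lemma -/

/-- the height of a rational function: `max (deg num) (deg denom)` -/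
def phtH (x : RatFunc K) : ℕ := max x.num.natDegree x.denom.natDegree

/-- the symmetric triple of two coprime pairs is coprime -/
theorem phtCop_sym2 {a₁ b₁ a₂ b₂ : K[X]} (h₁ : IsCoprime a₁ b₁) (h₂ : IsCoprime a₂ b₂) :
    PhtCop ![a₁ * a₂, a₁ * b₂ + a₂ * b₁, b₁ * b₂] := by
  unfold PhtCop
  set I : Ideal K[X] := Ideal.span (Set.range ![a₁ * a₂, a₁ * b₂ + a₂ * b₁, b₁ * b₂]) with hI
  have hS : a₁ * a₂ ∈ I := Ideal.subset_span ⟨0, rfl⟩
  have hT : a₁ * b₂ + a₂ * b₁ ∈ I := Ideal.subset_span ⟨1, rfl⟩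
  have hU : b₁ * b₂ ∈ I := Ideal.subset_span ⟨2, rfl⟩
  obtain ⟨u, v, huv⟩ := h₂
  have ha : a₁ ^ 2 ∈ I := by
    have e : a₁ ^ 2 = (u * a₁) * (a₁ * a₂) + v * (a₁ * (a₁ * b₂ + a₂ * b₁) - b₁ * (a₁ * a₂)) := by
      linear_combination (-(a₁ ^ 2)) * huv
    rw [e]
    exact I.add_mem (I.mul_mem_left _ hS)
      (I.mul_mem_left _ (I.sub_mem (I.mul_mem_left _ hT) (I.mul_mem_left _ hS)))
  have hb : b₁ ^ 2 ∈ I := by
    have e : b₁ ^ 2 = u * (b₁ * (a₁ * b₂ + a₂ * b₁) - a₁ * (b₁ * b₂)) + (v * b₁) * (b₁ * b₂) := by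
      linear_combination (-(b₁ ^ 2)) * huv
    rw [e]
    exact I.add_mem (I.mul_mem_left _ (I.sub_mem (I.mul_mem_left _ hT) (I.mul_mem_left _ hU)))
      (I.mul_mem_left _ hU)
  obtain ⟨u', v', huv'⟩ := (h₁.pow (m := 2) (n := 2))
  rw [Ideal.eq_top_iff_one, ← huv']
  exact I.add_mem (I.mul_mem_left _ ha) (I.mul_mem_left _ hb)

/-- the degree of the symmetric triple -/
theorem phtDeg_sym2 {a₁ b₁ a₂ b₂ : K[X]} (hb₁ : b₁ ≠ 0) (hb₂ : b₂ ≠ 0) :
    phtDeg ![a₁ * a₂, a₁ * b₂ + a₂ * b₁, b₁ * b₂] =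
      max a₁.natDegree b₁.natDegree + max a₂.natDegree b₂.natDegree := by
  set m₁ := max a₁.natDegree b₁.natDegree with hm₁
  set m₂ := max a₂.natDegree b₂.natDegree with hm₂
  have ha₁ : a₁.natDegree ≤ m₁ := le_max_left _ _
  have hb₁' : b₁.natDegree ≤ m₁ := le_max_right _ _
  have ha₂ : a₂.natDegree ≤ m₂ := le_max_left _ _
  have hb₂' : b₂.natDegree ≤ m₂ := le_max_right _ _
  apply le_antisymm
  · apply phtDeg_le
    intro i
    fin_cases i
    · show (a₁ * a₂).natDegree ≤ _
      exact natDegree_mul_le.trans (add_le_add ha₁ ha₂)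
    · show (a₁ * b₂ + a₂ * b₁).natDegree ≤ _
      refine (natDegree_add_le _ _).trans (max_le ?_ ?_)
      · exact natDegree_mul_le.trans (add_le_add ha₁ hb₂')
      · exact natDegree_mul_le.trans ((add_le_add ha₂ hb₁').trans (by omega))
    · show (b₁ * b₂).natDegree ≤ _
      exact natDegree_mul_le.trans (add_le_add hb₁' hb₂')
  · by_cases c₁ : b₁.natDegree = m₁
    · by_cases c₂ : b₂.natDegree = m₂
      · -- the third entry
        have := natDegree_le_phtDeg ![a₁ * a₂, a₁ * b₂ + a₂ * b₁, b₁ * b₂] 2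
        have e : (![a₁ * a₂, a₁ * b₂ + a₂ * b₁, b₁ * b₂] 2).natDegree = m₁ + m₂ := by
          show (b₁ * b₂).natDegree = _
          rw [natDegree_mul hb₁ hb₂, c₁, c₂]
        omega
      · -- `deg b₂ < m₂ = deg a₂`, `deg b₁ = m₁`: the middle entry, leading term `a₂ b₁`
        have hlt : b₂.natDegree < m₂ := lt_of_le_of_ne hb₂' c₂
        have ha₂e : a₂.natDegree = m₂ := by
          rcases max_choice a₂.natDegree b₂.natDegree with h | h
          · exact h.symm
          · omega
        have ha₂0 : a₂ ≠ 0 := by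
          rintro rfl
          simp at ha₂e
          omega
        have h1 : (a₂ * b₁).natDegree = m₁ + m₂ := by
          rw [natDegree_mul ha₂0 hb₁, ha₂e, c₁, add_comm]
        have h2 : (a₁ * b₂).natDegree < (a₂ * b₁).natDegree := by
          rw [h1]
          exact lt_of_le_of_lt natDegree_mul_le (by omega)
        have := natDegree_le_phtDeg ![a₁ * a₂, a₁ * b₂ + a₂ * b₁, b₁ * b₂] 1
        have e : (![a₁ * a₂, a₁ * b₂ + a₂ * b₁, b₁ * b₂] 1).natDegree = m₁ + m₂ := by
          show (a₁ * b₂ + a₂ * b₁).natDegree = _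
          rw [natDegree_add_eq_right_of_natDegree_lt h2, h1]
        omega
    · have hlt₁ : b₁.natDegree < m₁ := lt_of_le_of_ne hb₁' c₁
      have ha₁e : a₁.natDegree = m₁ := by
        rcases max_choice a₁.natDegree b₁.natDegree with h | h
        · exact h.symm
        · omega
      have ha₁0 : a₁ ≠ 0 := by
        rintro rfl
        simp at ha₁e
        omega
      by_cases c₂ : b₂.natDegree = m₂
      · -- the middle entry, leading term `a₁ b₂`
        have h1 : (a₁ * b₂).natDegree = m₁ + m₂ := by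
          rw [natDegree_mul ha₁0 hb₂, ha₁e, c₂]
        have h2 : (a₂ * b₁).natDegree < (a₁ * b₂).natDegree := by
          rw [h1]
          exact lt_of_le_of_lt natDegree_mul_le (by omega)
        have := natDegree_le_phtDeg ![a₁ * a₂, a₁ * b₂ + a₂ * b₁, b₁ * b₂] 1
        have e : (![a₁ * a₂, a₁ * b₂ + a₂ * b₁, b₁ * b₂] 1).natDegree = m₁ + m₂ := by
          show (a₁ * b₂ + a₂ * b₁).natDegree = _
          rw [natDegree_add_eq_left_of_natDegree_lt h2, h1]
        omega
      · -- the first entry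
        have hlt₂ : b₂.natDegree < m₂ := lt_of_le_of_ne hb₂' c₂
        have ha₂e : a₂.natDegree = m₂ := by
          rcases max_choice a₂.natDegree b₂.natDegree with h | h
          · exact h.symm
          · omega
        have ha₂0 : a₂ ≠ 0 := by
          rintro rfl
          simp at ha₂e
          omega
        have := natDegree_le_phtDeg ![a₁ * a₂, a₁ * b₂ + a₂ * b₁, b₁ * b₂] 0
        have e : (![a₁ * a₂, a₁ * b₂ + a₂ * b₁, b₁ * b₂] 0).natDegree = m₁ + m₂ := by
          show (a₁ * a₂).natDegree = _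
          rw [natDegree_mul ha₁0 ha₂0, ha₁e, ha₂e]
        omega

/-- **Gauss lemma**: the representative of `(x₁ x₂ : x₁ + x₂ : 1)` -/
theorem phtRep_sym2 (x₁ x₂ : RatFunc K) :
    PhtRep ![x₁ * x₂, x₁ + x₂, 1]
      ![x₁.num * x₂.num, x₁.num * x₂.denom + x₂.num * x₁.denom, x₁.denom * x₂.denom] := by
  refine ⟨phtCop_sym2 (RatFunc.isCoprime_num_denom x₁) (RatFunc.isCoprime_num_denom x₂),
    (algebraMap K[X] (RatFunc K) (x₁.denom * x₂.denom))⁻¹, ?_, ?_⟩
  · apply inv_ne_zero
    rw [map_mul]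
    exact mul_ne_zero (RatFunc.algebraMap_ne_zero (RatFunc.denom_ne_zero x₁))
      (RatFunc.algebraMap_ne_zero (RatFunc.denom_ne_zero x₂))
  · have hd₁ : algebraMap K[X] (RatFunc K) x₁.denom ≠ 0 :=
      RatFunc.algebraMap_ne_zero (RatFunc.denom_ne_zero x₁)
    have hd₂ : algebraMap K[X] (RatFunc K) x₂.denom ≠ 0 :=
      RatFunc.algebraMap_ne_zero (RatFunc.denom_ne_zero x₂)
    have e₁ := RatFunc.num_div_denom x₁
    have e₂ := RatFunc.num_div_denom x₂
    intro i
    fin_cases i
    · show x₁ * x₂ = _ * algebraMap K[X] (RatFunc K) (x₁.num * x₂.num)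
      conv_lhs => rw [← e₁, ← e₂]
      rw [map_mul, map_mul]
      field_simp
    · show x₁ + x₂ = _ * algebraMap K[X] (RatFunc K) (x₁.num * x₂.denom + x₂.num * x₁.denom)
      conv_lhs => rw [← e₁, ← e₂]
      rw [map_add, map_mul, map_mul, map_mul]
      field_simp
    · show (1 : RatFunc K) = _ * algebraMap K[X] (RatFunc K) (x₁.denom * x₂.denom)
      rw [inv_mul_cancel₀]
      rw [map_mul]
      exact mul_ne_zero hd₁ hd₂

theorem phtDeg_rep_sym2 (x₁ x₂ : RatFunc K) :
    phtDeg ![x₁.num * x₂.num, x₁.num * x₂.denom + x₂.num * x₁.denom, x₁.denom * x₂.denom]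
      = phtH x₁ + phtH x₂ :=
  phtDeg_sym2 (RatFunc.denom_ne_zero x₁) (RatFunc.denom_ne_zero x₂)

/-- the representative of `(x : 1 : 0)` -/
theorem phtRep_one (x : RatFunc K) : PhtRep ![x, 1, 0] ![x.num, x.denom, 0] := by
  refine ⟨?_, (algebraMap K[X] (RatFunc K) x.denom)⁻¹,
    inv_ne_zero (RatFunc.algebraMap_ne_zero (RatFunc.denom_ne_zero x)), ?_⟩
  · obtain ⟨u, v, huv⟩ := RatFunc.isCoprime_num_denom x
    rw [phtCop_iff]
    refine ⟨![u, v, 0], ?_⟩
    rw [Fin.sum_univ_three]
    simpa using huv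
  · have hd : algebraMap K[X] (RatFunc K) x.denom ≠ 0 :=
      RatFunc.algebraMap_ne_zero (RatFunc.denom_ne_zero x)
    have e := RatFunc.num_div_denom x
    intro i
    fin_cases i
    · show x = _ * algebraMap K[X] (RatFunc K) x.num
      conv_lhs => rw [← e]
      field_simp
    · show (1 : RatFunc K) = _ * algebraMap K[X] (RatFunc K) x.denom
      rw [inv_mul_cancel₀ hd]
    · show (0 : RatFunc K) = _ * algebraMap K[X] (RatFunc K) 0
      rw [map_zero, mul_zero]

theorem phtDeg_rep_one (x : RatFunc K) : phtDeg ![x.num, x.denom, 0] = phtH x := by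
  unfold phtDeg phtH
  simp

/-- the representative of `(1 : 0 : 0)` -/
theorem phtRep_zero : PhtRep (![1, 0, 0] : Fin 3 → RatFunc K) ![1, 0, 0] := by
  refine ⟨?_, 1, one_ne_zero, ?_⟩
  · rw [phtCop_iff]
    refine ⟨![1, 0, 0], ?_⟩
    rw [Fin.sum_univ_three]
    simp
  · intro i
    fin_cases i <;> simp

theorem phtDeg_rep_zero : phtDeg (![1, 0, 0] : Fin 3 → K[X]) = 0 := by
  unfold phtDeg
  simp

/-! ### `addSubMap`: base change, explicit form, homogeneity -/

theorem pht_map_addSubMap {R A : Type*} [CommRing R] [CommRing A] (W : WeierstrassCurve R)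
    (f : R →+* A) (i : Fin 3) :
    (W.map f).addSubMap i = MvPolynomial.map f (W.addSubMap i) := by
  fin_cases i <;>
    simp [WeierstrassCurve.addSubMap, WeierstrassCurve.map_b₂, WeierstrassCurve.map_b₄,
      WeierstrassCurve.map_b₆, WeierstrassCurve.map_b₈, map_ofNat]

set_option maxHeartbeats 1600000 in
theorem pht_map_addSubMapCoeff {R A : Type*} [CommRing R] [CommRing A] (W : WeierstrassCurve R)
    (f : R →+* A) (ij : Fin 3 × Fin 3) :
    (W.map f).addSubMapCoeff ij = MvPolynomial.map f (W.addSubMapCoeff ij) := by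
  obtain ⟨i, j⟩ := ij
  fin_cases i <;> fin_cases j <;>
    simp [WeierstrassCurve.addSubMapCoeff, WeierstrassCurve.map_b₂, WeierstrassCurve.map_b₄,
      WeierstrassCurve.map_b₆, WeierstrassCurve.map_b₈, map_ofNat]

theorem pht_eval_addSubMap {R : Type*} [CommRing R] (W : WeierstrassCurve R) (v : Fin 3 → R)
    (i : Fin 3) :
    MvPolynomial.eval v (W.addSubMap i) =
      ![v 0 ^ 2 - W.b₄ * v 0 * v 2 - W.b₆ * v 1 * v 2 - W.b₈ * v 2 ^ 2,
        2 * v 1 * v 0 + W.b₂ * v 0 * v 2 + W.b₄ * v 1 * v 2 + W.b₆ * v 2 ^ 2,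
        v 1 ^ 2 - 4 * v 0 * v 2] i := by
  fin_cases i <;> simp [WeierstrassCurve.addSubMap]

/-- `addSubMap` is homogeneous of degree `2` (evaluation form) -/
theorem pht_eval_addSubMap_smul {R : Type*} [CommRing R] (W : WeierstrassCurve R)
    (v : Fin 3 → R) (d : R) (i : Fin 3) :
    MvPolynomial.eval (fun j => d * v j) (W.addSubMap i) =
      d ^ 2 * MvPolynomial.eval v (W.addSubMap i) := by
  rw [pht_eval_addSubMap, pht_eval_addSubMap]
  fin_cases i
  · show (d * v 0) ^ 2 - W.b₄ * (d * v 0) * (d * v 2) - W.b₆ * (d * v 1) * (d * v 2)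
      - W.b₈ * (d * v 2) ^ 2 = d ^ 2 * (v 0 ^ 2 - W.b₄ * v 0 * v 2 - W.b₆ * v 1 * v 2
      - W.b₈ * v 2 ^ 2)
    ring
  · show 2 * (d * v 1) * (d * v 0) + W.b₂ * (d * v 0) * (d * v 2) + W.b₄ * (d * v 1) * (d * v 2)
      + W.b₆ * (d * v 2) ^ 2 = d ^ 2 * (2 * v 1 * v 0 + W.b₂ * v 0 * v 2 + W.b₄ * v 1 * v 2
      + W.b₆ * v 2 ^ 2)
    ring
  · show (d * v 1) ^ 2 - 4 * (d * v 0) * (d * v 2) = d ^ 2 * (v 1 ^ 2 - 4 * v 0 * v 2)
    ring

/-- `addSubMap` commutes with ring homomorphisms (evaluation form) -/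
theorem pht_eval_addSubMap_map {R A : Type*} [CommRing R] [CommRing A] (W : WeierstrassCurve R)
    (f : R →+* A) (v : Fin 3 → R) (i : Fin 3) :
    MvPolynomial.eval (fun j => f (v j)) ((W.map f).addSubMap i) =
      f (MvPolynomial.eval v (W.addSubMap i)) := by
  rw [pht_map_addSubMap, MvPolynomial.eval_map]
  exact (MvPolynomial.eval₂_comp f v (W.addSubMap i)).symm

/-! ### degree bounds for forms with constant coefficients -/

/-- a form of degree `d` with constant coefficients, evaluated at polynomials of degree `≤ m`,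
has degree `≤ d m` -/
theorem pht_natDegree_eval₂_le (G : MvPolynomial (Fin 3) K) {d : ℕ} (hG : G.IsHomogeneous d)
    (p : Fin 3 → K[X]) {m : ℕ} (hp : ∀ i, (p i).natDegree ≤ m) :
    (MvPolynomial.eval₂ (Polynomial.C : K →+* K[X]) p G).natDegree ≤ d * m := by
  rw [MvPolynomial.eval₂_eq']
  apply natDegree_sum_le_of_forall_le
  intro s hs
  have hs' : MvPolynomial.coeff s G ≠ 0 := MvPolynomial.mem_support_iff.mp hs
  have hdeg : ∑ i, s i = d := by
    have h1 := hG hs'
    have h2 : (Finsupp.weight (1 : Fin 3 → ℕ)) s = Finsupp.degree s := by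
      rw [Finsupp.degree_eq_weight_one]
      rfl
    rw [← h1, h2, Finsupp.degree_eq_sum]
  calc (Polynomial.C (MvPolynomial.coeff s G) * ∏ i, p i ^ s i).natDegree
      ≤ (∏ i, p i ^ s i).natDegree := natDegree_C_mul_le _ _
    _ ≤ ∑ i, (p i ^ s i).natDegree := natDegree_prod_le _ _
    _ ≤ ∑ i, s i * m := Finset.sum_le_sum fun i _ =>
        natDegree_pow_le.trans (Nat.mul_le_mul_left _ (hp i))
    _ = (∑ i, s i) * m := (Finset.sum_mul _ _ _).symm
    _ = d * m := by rw [hdeg]

/-! ### the doubling property -/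

section Doubling

variable (W : WeierstrassCurve K) [W.IsElliptic]

/-- the image of a polynomial triple under `addSubMap` (constant coefficients) -/
def phtImg (p : Fin 3 → K[X]) : Fin 3 → K[X] :=
  fun i => MvPolynomial.eval p ((W.map (Polynomial.C : K →+* K[X])).addSubMap i)

omit [W.IsElliptic] in
theorem pht_natDegree_img_le (p : Fin 3 → K[X]) (i : Fin 3) :
    (phtImg W p i).natDegree ≤ 2 * phtDeg p := by
  unfold phtImg
  rw [pht_map_addSubMap, MvPolynomial.eval_map]
  exact pht_natDegree_eval₂_le _ (WeierstrassCurve.isHomogeneous_addSubMap W i) p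
    (natDegree_le_phtDeg p)

/-- the certificate, with degree bounds -/
theorem pht_cert (p : Fin 3 → K[X]) (i : Fin 3) :
    ∃ g : Fin 3 → K[X], (∀ j, (g j).natDegree ≤ 2 * phtDeg p) ∧
      ∑ j, g j * phtImg W p j = p i ^ 4 := by
  refine ⟨fun j => MvPolynomial.eval p
    (MvPolynomial.C (↑(W.map (Polynomial.C : K →+* K[X])).Δ'⁻¹ : K[X]) *
      (W.map (Polynomial.C : K →+* K[X])).addSubMapCoeff (i, j)), ?_, ?_⟩
  · intro j
    show (MvPolynomial.eval p _).natDegree ≤ _
    rw [map_mul, MvPolynomial.eval_C, pht_map_addSubMapCoeff, MvPolynomial.eval_map]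
    have hu : ((↑(W.map (Polynomial.C : K →+* K[X])).Δ'⁻¹ : K[X])).natDegree = 0 :=
      Polynomial.natDegree_eq_zero_of_isUnit (Units.isUnit _)
    refine natDegree_mul_le.trans ?_
    rw [hu, zero_add]
    exact pht_natDegree_eval₂_le _ (WeierstrassCurve.isHomogeneous_addSubMapCoeff W (i, j)) p
      (natDegree_le_phtDeg p)
  · exact WeierstrassCurve.addSubMapCoeff_condition (W.map (Polynomial.C : K →+* K[X])) p i

/-- `addSubMap` maps coprime triples to coprime triples -/
theorem pht_cop_img {p : Fin 3 → K[X]} (hp : PhtCop p) : PhtCop (phtImg W p) := by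
  unfold PhtCop at hp ⊢
  have h4 := Ideal.span_pow_eq_top (Set.range p) hp 4
  rw [eq_top_iff, ← h4]
  apply Ideal.span_le.mpr
  rintro _ ⟨_, ⟨i, rfl⟩, rfl⟩
  obtain ⟨g, -, hg⟩ := pht_cert W p i
  show p i ^ 4 ∈ Ideal.span (Set.range (phtImg W p))
  rw [← hg]
  exact Ideal.sum_mem _ fun j _ => Ideal.mul_mem_left _ _ (Ideal.subset_span ⟨j, rfl⟩)

/-- `addSubMap` doubles the degree exactly -/
theorem pht_deg_img (p : Fin 3 → K[X]) : phtDeg (phtImg W p) = 2 * phtDeg p := by
  apply le_antisymm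
  · exact phtDeg_le (pht_natDegree_img_le W p)
  · obtain ⟨i, hi⟩ := exists_natDegree_eq_phtDeg p
    obtain ⟨g, hgd, hg⟩ := pht_cert W p i
    have h1 : (p i ^ 4).natDegree = 4 * phtDeg p := by
      rw [natDegree_pow, hi]
    have h2 : (∑ j, g j * phtImg W p j).natDegree ≤ 2 * phtDeg p + phtDeg (phtImg W p) := by
      apply natDegree_sum_le_of_forall_le
      intro j _
      exact natDegree_mul_le.trans (add_le_add (hgd j) (natDegree_le_phtDeg _ j))
    rw [hg, h1] at h2
    omega

/-- **doubling**: if `addSubMap v = c • w` then the representatives of `w` have twice the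
degree of the representatives of `v` -/
theorem pht_doubling {v w : Fin 3 → RatFunc K} {c : RatFunc K} (hc : c ≠ 0)
    {p q : Fin 3 → K[X]} (hp : PhtRep v p) (hq : PhtRep w q)
    (h : ∀ i, MvPolynomial.eval v ((W.map (algebraMap K (RatFunc K))).addSubMap i) = c * w i) :
    phtDeg q = 2 * phtDeg p := by
  obtain ⟨hcop, d, hd, hv⟩ := hp
  have hW : W.map (algebraMap K (RatFunc K)) =
      (W.map (Polynomial.C : K →+* K[X])).map (algebraMap K[X] (RatFunc K)) := by
    rw [WeierstrassCurve.map_map]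
    congr 1
  have hv' : v = fun j => d * algebraMap K[X] (RatFunc K) (p j) := funext hv
  have key : ∀ i, c * w i = d ^ 2 * algebraMap K[X] (RatFunc K) (phtImg W p i) := by
    intro i
    rw [← h i, hv', pht_eval_addSubMap_smul, hW, pht_eval_addSubMap_map]
    rfl
  have hq' : PhtRep w (phtImg W p) := by
    refine ⟨pht_cop_img W hcop, c⁻¹ * d ^ 2, mul_ne_zero (inv_ne_zero hc) (pow_ne_zero 2 hd), ?_⟩
    intro i
    rw [mul_assoc, ← key i, ← mul_assoc, inv_mul_cancel₀ hc, one_mul]
  rw [phtRep_unique hq' hq, pht_deg_img]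

end Doubling

/-! ### the parallelogram law on `x`-coordinates -/

/-- height on `P^1(K(t)) = Option (RatFunc K)`, `none = ∞` -/
def phtHo : Option (RatFunc K) → ℕ
  | none => 0
  | some r => phtH r

/-- `Sym^2` coordinates, the same conventions as Mathlib's `Point.sym2x` -/
def phtSym : Option (RatFunc K) → Option (RatFunc K) → (Fin 3 → RatFunc K)
  | none, none => ![1, 0, 0]
  | none, some b => ![b, 1, 0]
  | some a, none => ![a, 1, 0]
  | some a, some b => ![a * b, a + b, 1]

/-- the Gauss lemma for `phtSym` -/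
theorem pht_exists_rep_sym (a b : Option (RatFunc K)) :
    ∃ p : Fin 3 → K[X], PhtRep (phtSym a b) p ∧ phtDeg p = phtHo a + phtHo b := by
  rcases a with _ | a <;> rcases b with _ | b
  · exact ⟨_, phtRep_zero, by rw [phtDeg_rep_zero]; rfl⟩
  · exact ⟨_, phtRep_one b, by rw [phtDeg_rep_one]; show _ = 0 + phtH b; rw [zero_add]⟩
  · exact ⟨_, phtRep_one a, by rw [phtDeg_rep_one]; rfl⟩
  · exact ⟨_, phtRep_sym2 a b, phtDeg_rep_sym2 a b⟩

/-- **the exact parallelogram law on `x`-coordinates**: `Wk` over the constant field, `Δ ≠ 0` -/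
theorem pht_par (Wk : WeierstrassCurve K) (hΔ : Wk.Δ ≠ 0) (x₁ x₂ x₃ x₄ : Option (RatFunc K))
    (c : RatFunc K) (hc : c ≠ 0)
    (h : (fun i => MvPolynomial.eval (phtSym x₁ x₂) ((Wk.baseChange (RatFunc K)).addSubMap i))
      = c • phtSym x₃ x₄) :
    phtHo x₃ + phtHo x₄ = 2 * phtHo x₁ + 2 * phtHo x₂ := by
  have : Wk.IsElliptic := ⟨isUnit_iff_ne_zero.mpr hΔ⟩
  obtain ⟨p, hp, hpd⟩ := pht_exists_rep_sym x₁ x₂
  obtain ⟨q, hq, hqd⟩ := pht_exists_rep_sym x₃ x₄
  have := pht_doubling Wk hc hp hq (fun i => by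
    have := congrFun h i
    simpa [WeierstrassCurve.baseChange] using this)
  rw [← hqd, this, hpd]
  ring

/-! ### elementary properties of the height -/

/-- the height of a quotient of coprime polynomials -/
theorem phtH_div {a b : K[X]} (hab : IsCoprime a b) (hb : b ≠ 0) :
    phtH (algebraMap K[X] (RatFunc K) a / algebraMap K[X] (RatFunc K) b) =
      max a.natDegree b.natDegree := by
  set x : RatFunc K := algebraMap K[X] (RatFunc K) a / algebraMap K[X] (RatFunc K) b with hx
  have hb' : algebraMap K[X] (RatFunc K) b ≠ 0 := RatFunc.algebraMap_ne_zero hb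
  have h1 : PhtRep ![x, 1, 0] ![a, b, 0] := by
    refine ⟨?_, (algebraMap K[X] (RatFunc K) b)⁻¹, inv_ne_zero hb', ?_⟩
    · obtain ⟨u, v, huv⟩ := hab
      rw [phtCop_iff]
      refine ⟨![u, v, 0], ?_⟩
      rw [Fin.sum_univ_three]
      simpa using huv
    · intro i
      fin_cases i
      · show x = _ * algebraMap K[X] (RatFunc K) a
        rw [hx]
        field_simp
      · show (1 : RatFunc K) = _ * algebraMap K[X] (RatFunc K) b
        rw [inv_mul_cancel₀ hb']
      · show (0 : RatFunc K) = _ * algebraMap K[X] (RatFunc K) 0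
        rw [map_zero, mul_zero]
  have h2 := phtRep_unique (phtRep_one x) h1
  rw [phtDeg_rep_one] at h2
  rw [← h2]
  unfold phtDeg
  simp

theorem phtH_pow (r : RatFunc K) (n : ℕ) : phtH (r ^ n) = n * phtH r := by
  have e := RatFunc.num_div_denom r
  have h1 : r ^ n = algebraMap K[X] (RatFunc K) (r.num ^ n) /
      algebraMap K[X] (RatFunc K) (r.denom ^ n) := by
    rw [map_pow, map_pow, ← div_pow, e]
  rw [h1, phtH_div ((RatFunc.isCoprime_num_denom r).pow) (pow_ne_zero n (RatFunc.denom_ne_zero r)),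
    natDegree_pow, natDegree_pow]
  unfold phtH
  rcases le_total r.num.natDegree r.denom.natDegree with h | h
  · rw [max_eq_right h, max_eq_right (Nat.mul_le_mul_left n h)]
  · rw [max_eq_left h, max_eq_left (Nat.mul_le_mul_left n h)]

theorem phtH_X : phtH (RatFunc.X : RatFunc K) = 1 := by
  unfold phtH
  rw [RatFunc.num_X, RatFunc.denom_X]
  simp

theorem phtH_C (c : K) : phtH (RatFunc.C c : RatFunc K) = 0 := by
  unfold phtH
  rw [RatFunc.num_C, RatFunc.denom_C]
  simp

theorem phtH_eq_zero_iff (r : RatFunc K) : phtH r = 0 ↔ ∃ c : K, r = RatFunc.C c := by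
  constructor
  · intro h
    unfold phtH at h
    have hn : r.num.natDegree = 0 := by
      have := le_max_left r.num.natDegree r.denom.natDegree
      omega
    have hd : r.denom.natDegree = 0 := by
      have := le_max_right r.num.natDegree r.denom.natDegree
      omega
    obtain ⟨a, ha⟩ := Polynomial.natDegree_eq_zero.mp hn
    obtain ⟨b, hb⟩ := Polynomial.natDegree_eq_zero.mp hd
    have hb0 : b ≠ 0 := by
      rintro rfl
      rw [map_zero] at hb
      exact RatFunc.denom_ne_zero r hb.symm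
    refine ⟨a / b, ?_⟩
    have e := RatFunc.num_div_denom r
    rw [← e, ← ha, ← hb, map_div₀]
    rfl
  · rintro ⟨c, rfl⟩
    exact phtH_C c

end Fermat.Agent.S58lib

end
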