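/-
Item 84 (S58), HASSE package, piece MULT (helper14): the height `phtH` on `K(t)` is
multiplicative under composition.

* `phc_H_comp c v hc u : phtH (c u) = phtH u * phtH v` for a `K`-algebra endomorphism `c` of
  `K(t)` with `c t = v` (substitution `t ↦ v`);
* `phc_exists v hv` : the substitution `t ↦ v` exists for non-constant `v`;
* `phc_ext` : a `K`-algebra homomorphism from `K(t)` to a field is determined by the image of `t`.
-/
import Mathlib
import Fermat.Agent.S58lib.PolyHeight

set_option autoImplicit false
set_option linter.unusedSectionVars false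
set_option linter.unusedVariables false

noncomputable section

namespace Fermat.Agent.S58lib

open Polynomial IntermediateField

variable {K : Type*} [Field K]

/-- the height is the degree of `K(t)` over `K(f)` -/
theorem phc_finrank (f : RatFunc K) : Module.finrank K⟮f⟯ (RatFunc K) = phtH f :=
  RatFunc.finrank_eq_max_natDegree f

/-- a `K`-algebra homomorphism from `K(t)` to a field is determined by the image of `t` -/
theorem phc_ext {A : Type*} [Field A] [Algebra K A] (c c' : RatFunc K →ₐ[K] A)
    (h : c RatFunc.X = c' RatFunc.X) : c = c' := by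
  apply IsLocalization.algHom_ext (nonZeroDivisors K[X])
  apply Polynomial.algHom_ext
  show c (algebraMap K[X] (RatFunc K) Polynomial.X) = c' (algebraMap K[X] (RatFunc K) Polynomial.X)
  rw [RatFunc.algebraMap_X]
  exact h

/-- a `K`-algebra endomorphism of `K(t)` maps constants to constants -/
theorem phc_map_C (c : RatFunc K →ₐ[K] RatFunc K) (a : K) : c (RatFunc.C a) = RatFunc.C a := by
  have h : (RatFunc.C a : RatFunc K) = algebraMap K (RatFunc K) a := rfl
  rw [h, c.commutes]

/-- **MULT**: the height is multiplicative under composition -/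
theorem phc_H_comp (c : RatFunc K →ₐ[K] RatFunc K) (v : RatFunc K) (hc : c RatFunc.X = v)
    (u : RatFunc K) : phtH (c u) = phtH u * phtH v := by
  by_cases hu : ∃ a : K, u = RatFunc.C a
  · obtain ⟨a, rfl⟩ := hu
    rw [phc_map_C, phtH_C, zero_mul]
  · have hEv : (⊤ : IntermediateField K (RatFunc K)).map c = K⟮v⟯ := by
      rw [← RatFunc.adjoin_X, adjoin_map, Set.image_singleton, hc]
    have hEu : (K⟮u⟯ : IntermediateField K (RatFunc K)).map c = K⟮c u⟯ := by
      rw [adjoin_map, Set.image_singleton]
    have hle : (K⟮c u⟯ : IntermediateField K (RatFunc K)) ≤ K⟮v⟯ := by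
      rw [← hEv, ← hEu]
      exact IntermediateField.map_mono c le_top
    have h1 := relfinrank_mul_finrank_top hle
    rw [phc_finrank, phc_finrank] at h1
    have h2 : (K⟮c u⟯ : IntermediateField K (RatFunc K)).relfinrank K⟮v⟯ = phtH u := by
      rw [← hEv, ← hEu, relfinrank_map_map, relfinrank_top_right, phc_finrank]
    rw [← h1, h2]

/-- the substitution `t ↦ v` exists for non-constant `v` -/
theorem phc_exists (v : RatFunc K) (hv : ¬ ∃ c : K, v = RatFunc.C c) :
    ∃ c : RatFunc K →ₐ[K] RatFunc K, c RatFunc.X = v := by
  have htr : Transcendental K v := RatFunc.transcendental_of_ne_C v hv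
  have hinj : Function.Injective (Polynomial.aeval v : K[X] →ₐ[K] RatFunc K) :=
    transcendental_iff_injective.mp htr
  refine ⟨IsFractionRing.liftAlgHom (K := RatFunc K) hinj, ?_⟩
  have : (RatFunc.X : RatFunc K) = algebraMap K[X] (RatFunc K) Polynomial.X :=
    (RatFunc.algebraMap_X (K := K)).symm
  rw [this, IsFractionRing.liftAlgHom_apply, IsFractionRing.lift_algebraMap]
  simp

end Fermat.Agent.S58lib

end
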