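import Mathlib
import Fermat.Agent.S58lib.OddDefs

/-!
# Item 84, piece P5' (helper6), part 1: pull-back along a non-constant point

`W` is a Weierstrass curve over `ZMod ℓ`, `k` a field over `ZMod ℓ`, `L = k(W)` the function field
(`oddL`), `oddGen` the generic point.

* `trlEval x₀ y₀ h : k[W] →ₐ[k] L` : evaluation of the coordinate ring at a point `(x₀, y₀)` of
  `W(L)`;
* `trlStar x₀ y₀ h hx : L →ₐ[k] L` : its extension to `L` when `x₀` is transcendental over `k`
  (the pull-back `β^*` along the point `β = (x₀, y₀)`);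
* `trlStar_gen` : `Point.map (trlStar …) oddGen = (x₀, y₀)`.
-/

set_option autoImplicit false

open WeierstrassCurve Polynomial

open scoped Classical Polynomial.Bivariate

attribute [local instance 1100] Classical.propDecidable

noncomputable section

namespace Fermat.Agent.S58lib

variable (ℓ : ℕ) [Fact ℓ.Prime] (W : WeierstrassCurve (ZMod ℓ))
variable (k : Type) [Field k] [Algebra (ZMod ℓ) k]

/-- the coefficients of the curve over `L` come from `k` -/
theorem trl_coeff (c : ZMod ℓ) :
    algebraMap (ZMod ℓ) (oddL ℓ W k) c = algebraMap k (oddL ℓ W k) (algebraMap (ZMod ℓ) k c) :=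
  IsScalarTower.algebraMap_apply (ZMod ℓ) k (oddL ℓ W k) c

variable {ℓ W k}

/-- the Weierstrass polynomial over `k` vanishes at a point of `W(L)` -/
theorem trl_eval₂_polynomial {x₀ y₀ : oddL ℓ W k}
    (h : (W.baseChange (oddL ℓ W k)).toAffine.Equation x₀ y₀) :
    (W.baseChange k).toAffine.polynomial.eval₂
      ((Polynomial.aeval x₀ : k[X] →ₐ[k] oddL ℓ W k) : k[X] →+* oddL ℓ W k) y₀ = 0 := by
  rw [Affine.equation_iff] at h
  have e1 : (W.baseChange (oddL ℓ W k)).toAffine.a₁
      = algebraMap k (oddL ℓ W k) (W.baseChange k).toAffine.a₁ := trl_coeff ℓ W k W.a₁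
  have e2 : (W.baseChange (oddL ℓ W k)).toAffine.a₂
      = algebraMap k (oddL ℓ W k) (W.baseChange k).toAffine.a₂ := trl_coeff ℓ W k W.a₂
  have e3 : (W.baseChange (oddL ℓ W k)).toAffine.a₃
      = algebraMap k (oddL ℓ W k) (W.baseChange k).toAffine.a₃ := trl_coeff ℓ W k W.a₃
  have e4 : (W.baseChange (oddL ℓ W k)).toAffine.a₄
      = algebraMap k (oddL ℓ W k) (W.baseChange k).toAffine.a₄ := trl_coeff ℓ W k W.a₄
  have e6 : (W.baseChange (oddL ℓ W k)).toAffine.a₆
      = algebraMap k (oddL ℓ W k) (W.baseChange k).toAffine.a₆ := trl_coeff ℓ W k W.a₆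
  rw [e1, e2, e3, e4, e6] at h
  simp only [Affine.polynomial, eval₂_sub, eval₂_add, eval₂_mul, eval₂_pow, eval₂_X, eval₂_C,
    RingHom.coe_coe, aeval_X, aeval_C, map_add, map_mul, map_pow]
  linear_combination h

/-- evaluation of the coordinate ring at a point of `W(L)` -/
def trlEval (x₀ y₀ : oddL ℓ W k) (h : (W.baseChange (oddL ℓ W k)).toAffine.Equation x₀ y₀) :
    oddA ℓ W k →ₐ[k] oddL ℓ W k :=
  AdjoinRoot.liftAlgHom (W.baseChange k).toAffine.polynomial (Polynomial.aeval x₀) y₀
    (trl_eval₂_polynomial h)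

theorem trlEval_mk {x₀ y₀ : oddL ℓ W k}
    (h : (W.baseChange (oddL ℓ W k)).toAffine.Equation x₀ y₀) (f : k[X][Y]) :
    trlEval x₀ y₀ h (Affine.CoordinateRing.mk _ f)
      = f.eval₂ ((Polynomial.aeval x₀ : k[X] →ₐ[k] oddL ℓ W k) : k[X] →+* oddL ℓ W k) y₀ :=
  rfl

theorem trlEval_X {x₀ y₀ : oddL ℓ W k}
    (h : (W.baseChange (oddL ℓ W k)).toAffine.Equation x₀ y₀) :
    trlEval x₀ y₀ h (Affine.CoordinateRing.mk _ (C X)) = x₀ := by
  rw [trlEval_mk, eval₂_C]
  simp

theorem trlEval_Y {x₀ y₀ : oddL ℓ W k}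
    (h : (W.baseChange (oddL ℓ W k)).toAffine.Equation x₀ y₀) :
    trlEval x₀ y₀ h (Affine.CoordinateRing.mk _ X) = y₀ := by
  rw [trlEval_mk, eval₂_X]

theorem trlEval_algebraMap {x₀ y₀ : oddL ℓ W k}
    (h : (W.baseChange (oddL ℓ W k)).toAffine.Equation x₀ y₀) (p : k[X]) :
    trlEval x₀ y₀ h (algebraMap k[X] (oddA ℓ W k) p) = Polynomial.aeval x₀ p := by
  have : algebraMap k[X] (oddA ℓ W k) p = Affine.CoordinateRing.mk _ (C p) := rfl
  rw [this, trlEval_mk, eval₂_C]
  rfl

/-- evaluation at a point with transcendental `x`-coordinate is injective -/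
theorem trlEval_injective {x₀ y₀ : oddL ℓ W k}
    (h : (W.baseChange (oddL ℓ W k)).toAffine.Equation x₀ y₀) (hx : Transcendental k x₀) :
    Function.Injective (trlEval x₀ y₀ h) := by
  rw [← AlgHom.coe_toRingHom, RingHom.injective_iff_ker_eq_bot]
  haveI : Module.Finite k[X] (oddA ℓ W k) :=
    Module.Finite.of_basis (Affine.CoordinateRing.basis (W.baseChange k).toAffine)
  haveI : Algebra.IsIntegral k[X] (oddA ℓ W k) := Algebra.IsIntegral.of_finite _ _
  apply Ideal.eq_bot_of_comap_eq_bot (R := k[X])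
  rw [eq_bot_iff]
  intro p hp
  rw [Ideal.mem_comap, RingHom.mem_ker, AlgHom.coe_toRingHom, trlEval_algebraMap] at hp
  rw [Ideal.mem_bot]
  exact (transcendental_iff.mp hx) p hp

/-- the pull-back `β^* : L →ₐ[k] L` along a point `β = (x₀, y₀)` of `W(L)` with transcendental
`x`-coordinate -/
def trlStar (x₀ y₀ : oddL ℓ W k) (h : (W.baseChange (oddL ℓ W k)).toAffine.Equation x₀ y₀)
    (hx : Transcendental k x₀) : oddL ℓ W k →ₐ[k] oddL ℓ W k :=
  IsFractionRing.liftAlgHom (K := oddL ℓ W k) (trlEval_injective h hx)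

theorem trlStar_algebraMap {x₀ y₀ : oddL ℓ W k}
    (h : (W.baseChange (oddL ℓ W k)).toAffine.Equation x₀ y₀) (hx : Transcendental k x₀)
    (a : oddA ℓ W k) :
    trlStar x₀ y₀ h hx (algebraMap (oddA ℓ W k) (oddL ℓ W k) a) = trlEval x₀ y₀ h a := by
  unfold trlStar
  rw [IsFractionRing.liftAlgHom_apply, IsFractionRing.lift_algebraMap]
  rfl

theorem trlStar_X {x₀ y₀ : oddL ℓ W k}
    (h : (W.baseChange (oddL ℓ W k)).toAffine.Equation x₀ y₀) (hx : Transcendental k x₀) :
    trlStar x₀ y₀ h hx (oddX ℓ W k) = x₀ := by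
  unfold oddX
  rw [trlStar_algebraMap, trlEval_X]

theorem trlStar_Y {x₀ y₀ : oddL ℓ W k}
    (h : (W.baseChange (oddL ℓ W k)).toAffine.Equation x₀ y₀) (hx : Transcendental k x₀) :
    trlStar x₀ y₀ h hx (oddY ℓ W k) = y₀ := by
  unfold oddY
  rw [trlStar_algebraMap, trlEval_Y]


/-! ## points -/

theorem trl_some_congr {F : Type*} [Field F] {E : WeierstrassCurve F} {x x' y y' : F}
    (h : E.toAffine.Nonsingular x y) (hx : x = x') (hy : y = y') :
    ∃ h' : E.toAffine.Nonsingular x' y',
      (Affine.Point.some x y h : E.toAffine.Point) = Affine.Point.some x' y' h' := by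
  subst hx hy
  exact ⟨h, rfl⟩

variable (ℓ W k) in
/-- the constant points: `W(k) → W(L)` -/
def trlConst : (W.baseChange k).toAffine.Point →+ (W.baseChange (oddL ℓ W k)).toAffine.Point :=
  Affine.Point.baseChange (W' := W) k (oddL ℓ W k)

theorem trlConst_injective : Function.Injective (trlConst ℓ W k) :=
  Affine.Point.map_injective _

theorem trlConst_some {a b : k} (h : (W.baseChange k).toAffine.Nonsingular a b) :
    ∃ h' : (W.baseChange (oddL ℓ W k)).toAffine.Nonsingular
        (algebraMap k (oddL ℓ W k) a) (algebraMap k (oddL ℓ W k) b),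
      trlConst ℓ W k (Affine.Point.some a b h) = Affine.Point.some _ _ h' :=
  ⟨_, rfl⟩

/-- a `k`-algebra endomorphism of `L` fixes the constant points -/
theorem trl_map_const (f : oddL ℓ W k →ₐ[k] oddL ℓ W k) (T : (W.baseChange k).toAffine.Point) :
    Affine.Point.map (W' := W) f (trlConst ℓ W k T) = trlConst ℓ W k T :=
  Affine.Point.map_baseChange (W' := W) f T

/-- `Point.map` of a `k`-algebra endomorphism commutes with Frobenius -/
theorem trl_map_fr (f : oddL ℓ W k →ₐ[k] oddL ℓ W k)
    (P : (W.baseChange (oddL ℓ W k)).toAffine.Point) :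
    Affine.Point.map (W' := W) f (oddFr ℓ W (oddL ℓ W k) P)
      = oddFr ℓ W (oddL ℓ W k) (Affine.Point.map (W' := W) f P) := by
  rcases P with _ | ⟨x, y, h⟩
  · rfl
  · unfold oddFr
    rw [Affine.Point.map_some, Affine.Point.map_some, Affine.Point.map_some,
      Affine.Point.map_some, Affine.Point.some.injEq]
    rw [oddFrob_apply, oddFrob_apply, oddFrob_apply, oddFrob_apply, map_pow, map_pow]
    exact ⟨rfl, rfl⟩

/-- Frobenius on constant points -/
theorem trl_fr_const (T : (W.baseChange k).toAffine.Point) :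
    oddFr ℓ W (oddL ℓ W k) (trlConst ℓ W k T) = trlConst ℓ W k (oddFr ℓ W k T) := by
  rcases T with _ | ⟨x, y, h⟩
  · rfl
  · unfold oddFr trlConst Affine.Point.baseChange
    rw [Affine.Point.map_some, Affine.Point.map_some, Affine.Point.map_some,
      Affine.Point.map_some, Affine.Point.some.injEq]
    rw [oddFrob_apply, oddFrob_apply, oddFrob_apply, oddFrob_apply, map_pow, map_pow]
    exact ⟨rfl, rfl⟩

/-- a point of `W(L)` is constant if it comes from `W(k)` -/
def TrlConstPt (P : (W.baseChange (oddL ℓ W k)).toAffine.Point) : Prop :=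
  P ∈ (trlConst ℓ W k).range

theorem trlConstPt_zero : TrlConstPt (0 : (W.baseChange (oddL ℓ W k)).toAffine.Point) :=
  zero_mem _

theorem TrlConstPt.add {P Q : (W.baseChange (oddL ℓ W k)).toAffine.Point}
    (hP : TrlConstPt P) (hQ : TrlConstPt Q) : TrlConstPt (P + Q) :=
  add_mem hP hQ

theorem TrlConstPt.neg {P : (W.baseChange (oddL ℓ W k)).toAffine.Point}
    (hP : TrlConstPt P) : TrlConstPt (-P) :=
  neg_mem hP

theorem TrlConstPt.sub {P Q : (W.baseChange (oddL ℓ W k)).toAffine.Point}
    (hP : TrlConstPt P) (hQ : TrlConstPt Q) : TrlConstPt (P - Q) :=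
  sub_mem hP hQ

theorem trlConstPt_const (T : (W.baseChange k).toAffine.Point) : TrlConstPt (trlConst ℓ W k T) :=
  ⟨T, rfl⟩

/-- an element of `L` algebraic over the algebraically closed field `k` lies in `k` -/
theorem trl_mem_range_of_isAlgebraic [IsAlgClosed k] {z : oddL ℓ W k} (hz : IsAlgebraic k z) :
    ∃ a : k, algebraMap k (oddL ℓ W k) a = z := by
  have hi : IsIntegral k z := hz.isIntegral
  have hdeg : (minpoly k z).degree = 1 :=
    IsAlgClosed.degree_eq_one_of_irreducible k (minpoly.irreducible hi)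
  have := minpoly.mem_range_of_degree_eq_one k z hdeg
  exact this

/-- a point with algebraic `x`-coordinate is constant -/
theorem trl_const_of_isAlgebraic [IsAlgClosed k] {x y : oddL ℓ W k}
    (h : (W.baseChange (oddL ℓ W k)).toAffine.Nonsingular x y) (hx : IsAlgebraic k x) :
    TrlConstPt (Affine.Point.some x y h) := by
  obtain ⟨a, rfl⟩ := trl_mem_range_of_isAlgebraic hx
  have hy : IsAlgebraic k y := by
    have heq := trl_eval₂_polynomial h.1
    have e1 : ((W.baseChange k).toAffine.polynomial.map (Polynomial.evalRingHom a)).eval₂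
        (algebraMap k (oddL ℓ W k)) y = 0 := by
      rw [Polynomial.eval₂_map]
      have : (algebraMap k (oddL ℓ W k)).comp (Polynomial.evalRingHom a)
          = ((Polynomial.aeval (algebraMap k (oddL ℓ W k) a) : k[X] →ₐ[k] oddL ℓ W k) :
              k[X] →+* oddL ℓ W k) := by
        ext p
        · simp
        · simp
      rw [this]
      exact heq
    refine ⟨(W.baseChange k).toAffine.polynomial.map (Polynomial.evalRingHom a), ?_, ?_⟩
    · have hm : ((W.baseChange k).toAffine.polynomial.map (Polynomial.evalRingHom a)).Monic :=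
        (Affine.monic_polynomial).map _
      exact hm.ne_zero
    · rw [Polynomial.aeval_def]
      exact e1
  obtain ⟨b, rfl⟩ := trl_mem_range_of_isAlgebraic hy
  have hab : (W.baseChange k).toAffine.Nonsingular a b :=
    (Affine.baseChange_nonsingular (W := W) (f := Algebra.ofId k (oddL ℓ W k))
      (algebraMap k (oddL ℓ W k)).injective a b).mp h
  exact ⟨Affine.Point.some a b hab, rfl⟩

/-- a non-constant point has transcendental `x`-coordinate -/
theorem trl_transcendental [IsAlgClosed k] {x y : oddL ℓ W k}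
    (h : (W.baseChange (oddL ℓ W k)).toAffine.Nonsingular x y)
    (hP : ¬ TrlConstPt (Affine.Point.some x y h)) : Transcendental k x :=
  fun hx => hP (trl_const_of_isAlgebraic h hx)

/-- **pull-back along a non-constant point**: every non-constant point of `W(L)` is the image of
the generic point under `Point.map` of a `k`-algebra endomorphism of `L`. -/
theorem trl_exists_star [IsAlgClosed k] [W.IsElliptic]
    (P : (W.baseChange (oddL ℓ W k)).toAffine.Point) (hP : ¬ TrlConstPt P) :
    ∃ f : oddL ℓ W k →ₐ[k] oddL ℓ W k, Affine.Point.map (W' := W) f (oddGen ℓ W k) = P := by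
  rcases P with _ | ⟨x, y, h⟩
  · exact absurd trlConstPt_zero hP
  · refine ⟨trlStar x y h.1 (trl_transcendental h hP), ?_⟩
    unfold oddGen
    rw [Affine.Point.map_some, Affine.Point.some.injEq]
    exact ⟨trlStar_X h.1 _, trlStar_Y h.1 _⟩

end Fermat.Agent.S58lib
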