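import Mathlib
import Fermat.Agent.S58lib.Translate
import Fermat.Agent.S58lib.FieldDeg
import Fermat.Agent.S58lib.OddSigma
import Fermat.Agent.S58lib.PolyComp

/-!
# Item 84, piece KBD (helper28): translations, the translation trick and the kernel bound

`L = k(W)` (`oddL`), `P_gen = oddGen`, `trlConst : W(k) → W(L)` the constant points.

* `kbd_translate` : for `T ∈ W(k)` there is `τ_T : L →ₐ[k] L` with `τ_T(P_gen) = P_gen + T`;
* `kbd_trick` : a natural endomorphism whose value at `P_gen` is constant vanishes on `W(k)`;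
* `kbd_kb` : KERNEL BOUND, `#{T ∈ W(k) : ψ T = 0} ≤ deg x(ψ P_gen)`;
* `kbd_star_iota` : pull-back along `(ι v, ·)` acts on `ι(k(t))` as the substitution `t ↦ v`;
* `kbd_sigma_gen` : `σ(P_gen) = -P_gen`, `kbd_gen_not_const`.
-/

set_option autoImplicit false

open WeierstrassCurve Polynomial

open scoped Classical Polynomial.Bivariate

attribute [local instance 1100] Classical.propDecidable

noncomputable section

namespace Fermat.Agent.S58lib

variable {ℓ : ℕ} [Fact ℓ.Prime] {W : WeierstrassCurve (ZMod ℓ)}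
variable {k : Type} [Field k] [Algebra (ZMod ℓ) k]

/-- the generic point is not constant -/
theorem kbd_gen_not_const [W.IsElliptic] : ¬ TrlConstPt (oddGen ℓ W k) := by
  rintro ⟨T, hT⟩
  rcases T with _ | ⟨a, b, h⟩
  · have h0 : trlConst ℓ W k (Affine.Point.zero) = 0 := map_zero _
    rw [h0] at hT
    exact Affine.Point.some_ne_zero _ hT.symm
  · obtain ⟨h', e⟩ := trlConst_some (ℓ := ℓ) (W := W) (k := k) h
    rw [e] at hT
    unfold oddGen at hT
    rw [Affine.Point.some.injEq] at hT
    have htr := fdg_transcendental_X ℓ W k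
    rw [← hT.1] at htr
    exact htr (isAlgebraic_algebraMap a)

/-- translations: for `T ∈ W(k)` there is `τ_T : L →ₐ[k] L` with `τ_T(P_gen) = P_gen + T` -/
theorem kbd_translate [IsAlgClosed k] [W.IsElliptic] (T : (W.baseChange k).toAffine.Point) :
    ∃ f : oddL ℓ W k →ₐ[k] oddL ℓ W k,
      Affine.Point.map (W' := W) f (oddGen ℓ W k) = oddGen ℓ W k + trlConst ℓ W k T := by
  apply trl_exists_star
  intro hc
  apply kbd_gen_not_const (ℓ := ℓ) (W := W) (k := k)
  have := hc.sub (trlConstPt_const (ℓ := ℓ) (W := W) (k := k) T)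
  rwa [add_sub_cancel_right] at this

/-- **translation trick**: a natural endomorphism `ψ` whose value at the generic point is a
constant point vanishes on `W(k)`. -/
theorem kbd_trick [IsAlgClosed k] [W.IsElliptic]
    (ψL : (W.baseChange (oddL ℓ W k)).toAffine.Point →+ (W.baseChange (oddL ℓ W k)).toAffine.Point)
    (ψk : (W.baseChange k).toAffine.Point →+ (W.baseChange k).toAffine.Point)
    (hnat : ∀ (f : oddL ℓ W k →ₐ[k] oddL ℓ W k) P,
      Affine.Point.map (W' := W) f (ψL P) = ψL (Affine.Point.map (W' := W) f P))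
    (hconst : ∀ T, ψL (trlConst ℓ W k T) = trlConst ℓ W k (ψk T))
    (hG : TrlConstPt (ψL (oddGen ℓ W k))) : ∀ T, ψk T = 0 := by
  intro T
  obtain ⟨c, hc⟩ := hG
  obtain ⟨f, hf⟩ := kbd_translate (ℓ := ℓ) (W := W) (k := k) T
  have h1 : Affine.Point.map (W' := W) f (ψL (oddGen ℓ W k))
      = ψL (oddGen ℓ W k) + trlConst ℓ W k (ψk T) := by
    rw [hnat, hf, map_add, hconst]
  have h2 : Affine.Point.map (W' := W) f (ψL (oddGen ℓ W k)) = ψL (oddGen ℓ W k) := by
    rw [← hc]
    exact trl_map_const f c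
  rw [h2] at h1
  have h3 : trlConst ℓ W k (ψk T) = 0 := by
    have := h1.symm
    rwa [add_eq_left] at this
  apply trlConst_injective (ℓ := ℓ) (W := W) (k := k)
  rw [h3, map_zero]

/-- **MULT on points**: pull-back along `β = (ι v, ·)` acts on `ι(k(t))` as the substitution
`t ↦ v`. -/
theorem kbd_star_iota (f : oddL ℓ W k →ₐ[k] oddL ℓ W k) (v : RatFunc k)
    (hf : f (oddX ℓ W k) = oddIota ℓ W k v)
    (c : RatFunc k →ₐ[k] RatFunc k) (hc : c RatFunc.X = v) (u : RatFunc k) :
    f (oddIota ℓ W k u) = oddIota ℓ W k (c u) := by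
  have h : f.comp (oddIota ℓ W k) = (oddIota ℓ W k).comp c := by
    apply phc_ext
    rw [AlgHom.comp_apply, AlgHom.comp_apply, oddIota_X, hf, hc]
  exact DFunLike.congr_fun h u

theorem kbd_iota_C (a : k) : oddIota ℓ W k (RatFunc.C a) = algebraMap k (oddL ℓ W k) a := by
  rw [← RatFunc.algebraMap_eq_C, AlgHom.commutes]

theorem kbd_sigma_Y : oddSigma ℓ W k (oddY ℓ W k)
    = (W.baseChange (oddL ℓ W k)).toAffine.negY (oddX ℓ W k) (oddY ℓ W k) := by
  rw [oddSigma_Y]
  unfold oddHpol Affine.negY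
  rw [map_add, map_mul, RatFunc.algebraMap_C, RatFunc.algebraMap_C, RatFunc.algebraMap_X,
    map_add, map_mul, oddIota_X, kbd_iota_C, kbd_iota_C]
  have e1 : (W.baseChange (oddL ℓ W k)).toAffine.a₁
      = algebraMap k (oddL ℓ W k) (W.baseChange k).a₁ := trl_coeff ℓ W k W.a₁
  have e3 : (W.baseChange (oddL ℓ W k)).toAffine.a₃
      = algebraMap k (oddL ℓ W k) (W.baseChange k).a₃ := trl_coeff ℓ W k W.a₃
  rw [e1, e3]
  ring

/-- `σ` acts on the generic point as `-1` -/
theorem kbd_sigma_gen [W.IsElliptic] :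
    Affine.Point.map (W' := W) (oddSigma ℓ W k) (oddGen ℓ W k) = - oddGen ℓ W k := by
  unfold oddGen
  rw [Affine.Point.map_some, Affine.Point.neg_some, Affine.Point.some.injEq]
  exact ⟨oddSigma_X ℓ W k, kbd_sigma_Y⟩

theorem kbd_fix_of_map_eq (f : oddL ℓ W k →ₐ[k] oddL ℓ W k) {x y : oddL ℓ W k}
    (h : (W.baseChange (oddL ℓ W k)).toAffine.Nonsingular x y)
    (e : Affine.Point.map (W' := W) f (Affine.Point.some x y h) = Affine.Point.some x y h) :
    f x = x := by
  rw [Affine.Point.map_some, Affine.Point.some.injEq] at e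
  exact e.1

/-- **KERNEL BOUND**: if `ψ(P_gen) = (ι u, y₁)` with `u ∈ k(t)` non-constant, then `ψ` has at most
`deg u` zeros on `W(k)`. -/
theorem kbd_kb [IsAlgClosed k] [W.IsElliptic]
    (ψL : (W.baseChange (oddL ℓ W k)).toAffine.Point →+ (W.baseChange (oddL ℓ W k)).toAffine.Point)
    (ψk : (W.baseChange k).toAffine.Point →+ (W.baseChange k).toAffine.Point)
    (hnat : ∀ (f : oddL ℓ W k →ₐ[k] oddL ℓ W k) P,
      Affine.Point.map (W' := W) f (ψL P) = ψL (Affine.Point.map (W' := W) f P))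
    (hconst : ∀ T, ψL (trlConst ℓ W k T) = trlConst ℓ W k (ψk T))
    (h2 : ¬ TrlConstPt ((2 : ℤ) • oddGen ℓ W k))
    (u : RatFunc k) (hnc : ¬ ∃ c : k, u = RatFunc.C c) (y₁ : oddL ℓ W k)
    (h₁ : (W.baseChange (oddL ℓ W k)).toAffine.Nonsingular (oddIota ℓ W k u) y₁)
    (hψ : ψL (oddGen ℓ W k) = Affine.Point.some _ _ h₁)
    (A : Finset (W.baseChange k).toAffine.Point) (hA : ∀ T ∈ A, ψk T = 0) :
    A.card ≤ max u.num.natDegree u.denom.natDegree := by
  choose F hF using (kbd_translate (ℓ := ℓ) (W := W) (k := k))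
  let G : (W.baseChange k).toAffine.Point → (oddL ℓ W k →ₐ[k] oddL ℓ W k) :=
    fun T => (F T).comp (oddSigma ℓ W k)
  have hG : ∀ T, Affine.Point.map (W' := W) (G T) (oddGen ℓ W k)
      = - (oddGen ℓ W k + trlConst ℓ W k T) := by
    intro T
    show Affine.Point.map (W' := W) ((F T).comp (oddSigma ℓ W k)) (oddGen ℓ W k) = _
    rw [← Affine.Point.map_map, kbd_sigma_gen, map_neg, hF]
  have hFinj : Function.Injective F := by
    intro T T' h
    have h1 := hF T
    rw [h, hF T'] at h1
    exact trlConst_injective (ℓ := ℓ) (W := W) (k := k) (add_left_cancel h1.symm)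
  have hGinj : Function.Injective G := by
    intro T T' h
    have h1 := hG T
    rw [h, hG T'] at h1
    exact trlConst_injective (ℓ := ℓ) (W := W) (k := k) (add_left_cancel (neg_injective h1.symm))
  have hdisj : Disjoint (A.image F) (A.image G) := by
    rw [Finset.disjoint_left]
    intro f hf hg
    obtain ⟨T, -, rfl⟩ := Finset.mem_image.mp hf
    obtain ⟨T', -, hT'⟩ := Finset.mem_image.mp hg
    have h1 := hG T'
    rw [hT', hF T] at h1
    apply h2
    have h3 : (2 : ℤ) • oddGen ℓ W k = trlConst ℓ W k (- T - T') := by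
      rw [map_sub, map_neg, two_zsmul]
      have h4 : oddGen ℓ W k + trlConst ℓ W k T + (oddGen ℓ W k + trlConst ℓ W k T') = 0 := by
        rw [h1, neg_add_cancel]
      have h5 : oddGen ℓ W k + oddGen ℓ W k + (trlConst ℓ W k T + trlConst ℓ W k T') = 0 := by
        rw [← h4]; abel
      rw [eq_sub_iff_add_eq, eq_neg_iff_add_eq_zero, ← h5]
      abel
    rw [h3]
    exact trlConstPt_const _
  have hfixF : ∀ T ∈ A, F T (oddIota ℓ W k u) = oddIota ℓ W k u := by
    intro T hT
    apply kbd_fix_of_map_eq (F T) h₁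
    rw [← hψ, hnat, hF, map_add, hconst, hA T hT, map_zero, add_zero]
  have hfixG : ∀ T ∈ A, G T (oddIota ℓ W k u) = oddIota ℓ W k u := by
    intro T hT
    show (F T) (oddSigma ℓ W k (oddIota ℓ W k u)) = _
    rw [oddSigma_iota, hfixF T hT]
  have hcard := fdg_card_le ℓ W k (oddIota ℓ W k) (oddIota_X ℓ W k) u hnc
    (A.image F ∪ A.image G) (by
      intro f hf
      rcases Finset.mem_union.mp hf with hf | hf
      · obtain ⟨T, hT, rfl⟩ := Finset.mem_image.mp hf
        exact hfixF T hT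
      · obtain ⟨T, hT, rfl⟩ := Finset.mem_image.mp hf
        exact hfixG T hT)
  rw [Finset.card_union_of_disjoint hdisj, Finset.card_image_of_injective _ hFinj,
    Finset.card_image_of_injective _ hGinj, ← two_mul] at hcard
  exact Nat.le_of_mul_le_mul_left hcard two_pos

end Fermat.Agent.S58lib
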