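import Fermat.Agent.S58lib.OddSigma

/-!
# Item 84, piece P4 (helper7), part 3: the fixed field of `σ` and the odd subgroup

* `odd_fixed` : `σ z = z → z ∈ range ι` (for an elliptic curve);
* `oddSig` : the action of `σ` on the points of `W(L)`;
* `oddSub` : the subgroup of odd points `{P | σ P = -P}`;
* `oddGen_mem`, `oddFr_mem` : the generic point is odd, Frobenius preserves odd points;
* `odd_x_mem` : the `x`-coordinate of an odd point lies in `k(x)`.
-/

set_option autoImplicit false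

open WeierstrassCurve Polynomial

open scoped Classical

attribute [local instance 1100] Classical.propDecidable

noncomputable section

namespace Fermat.Agent.S58lib

variable (ℓ : ℕ) [Fact ℓ.Prime] (W : WeierstrassCurve (ZMod ℓ))
variable (k : Type) [Field k] [Algebra (ZMod ℓ) k]

theorem odd_isElliptic (K' : Type*) [Field K'] [Algebra (ZMod ℓ) K'] [W.IsElliptic] :
    (W.baseChange K').IsElliptic :=
  inferInstanceAs (W.map (algebraMap (ZMod ℓ) K')).IsElliptic

theorem odd_Δ_ne_zero (K' : Type*) [Field K'] [Algebra (ZMod ℓ) K'] [W.IsElliptic] :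
    (W.baseChange K').Δ ≠ 0 :=
  haveI := odd_isElliptic ℓ W K'
  (W.baseChange K').isUnit_Δ.ne_zero

/-- In characteristic `2` a curve with `a₁ = a₃ = 0` is singular. -/
theorem odd_not_char_two [W.IsElliptic] (h2 : (2 : k) = 0)
    (h1 : (W.baseChange k).a₁ = 0) (h3 : (W.baseChange k).a₃ = 0) : False := by
  apply odd_Δ_ne_zero ℓ W k
  simp only [WeierstrassCurve.Δ, WeierstrassCurve.b₂, WeierstrassCurve.b₄, WeierstrassCurve.b₆,
    WeierstrassCurve.b₈, h1, h3]
  linear_combination (-8 * (W.baseChange k).a₂ ^ 2 * (4 * (W.baseChange k).a₂ *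
    (W.baseChange k).a₆ - (W.baseChange k).a₄ ^ 2) - 32 * (W.baseChange k).a₄ ^ 3
    - 216 * (W.baseChange k).a₆ ^ 2
    + 144 * (W.baseChange k).a₂ * (W.baseChange k).a₄ * (W.baseChange k).a₆) * h2

/-- The fixed field of `σ` is `k(x)`. -/
theorem odd_fixed [W.IsElliptic] (z : oddL ℓ W k) (hz : oddSigma ℓ W k z = z) :
    ∃ r : RatFunc k, oddIota ℓ W k r = z := by
  obtain ⟨r, s, rfl⟩ := odd_decomp ℓ W k z
  by_cases hs : s = 0
  · exact ⟨r, by rw [hs, map_zero, zero_mul, add_zero]⟩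
  exfalso
  rw [map_add, map_mul, oddSigma_iota, oddSigma_iota, oddSigma_Y] at hz
  have h0 : oddIota ℓ W k (-(s * algebraMap k[X] (RatFunc k) (oddHpol ℓ W k)))
      + oddIota ℓ W k (-(2 * s)) * oddY ℓ W k = 0 := by
    rw [map_neg, map_neg, map_mul, map_mul, map_ofNat]
    linear_combination hz
  obtain ⟨e1, e2⟩ := odd_indep ℓ W k _ _ h0
  have e1' : algebraMap k[X] (RatFunc k) (oddHpol ℓ W k) = 0 := by
    rcases mul_eq_zero.mp (neg_eq_zero.mp e1) with h | h
    · exact absurd h hs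
    · exact h
  have e2' : (2 : RatFunc k) = 0 := by
    rcases mul_eq_zero.mp (neg_eq_zero.mp e2) with h | h
    · exact h
    · exact absurd h hs
  have hH : oddHpol ℓ W k = 0 :=
    (IsFractionRing.injective k[X] (RatFunc k)) (by rw [e1', map_zero])
  have h2 : (2 : k) = 0 := by
    apply (algebraMap k (RatFunc k)).injective
    rw [map_ofNat, map_zero]
    exact e2'
  have c1 := congrArg (fun p => Polynomial.coeff p 1) hH
  have c0 := congrArg (fun p => Polynomial.coeff p 0) hH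
  simp only [oddHpol, coeff_add, coeff_C_mul, coeff_X_one, coeff_X_zero, mul_one, mul_zero,
    coeff_C_zero, coeff_zero, zero_add] at c1 c0
  rw [coeff_C_ne_zero (by norm_num), add_zero] at c1
  exact odd_not_char_two ℓ W k h2 c1 c0

/-! ### The odd subgroup -/

/-- The action of `σ` on the points of `W(L)`. -/
def oddSig : (W.baseChange (oddL ℓ W k)).toAffine.Point →+
    (W.baseChange (oddL ℓ W k)).toAffine.Point :=
  Affine.Point.map (W' := W) (oddSigma ℓ W k)

/-- The subgroup of odd points: `σ P = -P`. -/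
def oddSub : AddSubgroup (W.baseChange (oddL ℓ W k)).toAffine.Point :=
  (oddSig ℓ W k + AddMonoidHom.id _).ker

theorem mem_oddSub (P : (W.baseChange (oddL ℓ W k)).toAffine.Point) :
    P ∈ oddSub ℓ W k ↔ oddSig ℓ W k P = -P := by
  unfold oddSub
  rw [AddMonoidHom.mem_ker, AddMonoidHom.add_apply, AddMonoidHom.id_apply, add_eq_zero_iff_eq_neg]

theorem oddSig_some {x y : oddL ℓ W k}
    (h : (W.baseChange (oddL ℓ W k)).toAffine.Nonsingular x y) :
    ∃ h', oddSig ℓ W k (Affine.Point.some x y h)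
      = Affine.Point.some (oddSigma ℓ W k x) (oddSigma ℓ W k y) h' :=
  ⟨_, Affine.Point.map_some (W' := W) (oddSigma ℓ W k) h⟩

theorem oddFrK_some (K' : Type*) [Field K'] [Algebra (ZMod ℓ) K'] [DecidableEq K'] {x y : K'}
    (h : (W.baseChange K').toAffine.Nonsingular x y) :
    ∃ h', oddFr ℓ W K' (Affine.Point.some x y h) = Affine.Point.some (x ^ ℓ) (y ^ ℓ) h' := by
  have h1 := Affine.Point.map_some (W' := W) (FiniteField.frobeniusAlgHom (ZMod ℓ) K') h
  have hx := oddFrob_apply ℓ K' x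
  have hy := oddFrob_apply ℓ K' y
  unfold oddFr
  rw [← hx, ← hy]
  exact ⟨_, h1⟩

/-- `σ` commutes with Frobenius on points. -/
theorem oddSig_fr (P : (W.baseChange (oddL ℓ W k)).toAffine.Point) :
    oddSig ℓ W k (oddFr ℓ W (oddL ℓ W k) P) = oddFr ℓ W (oddL ℓ W k) (oddSig ℓ W k P) := by
  rcases P with _ | ⟨x, y, h⟩
  · rfl
  · obtain ⟨h1, e1⟩ := oddFrK_some ℓ W (oddL ℓ W k) h
    obtain ⟨h2, e2⟩ := oddSig_some ℓ W k h
    rw [e1, e2]
    obtain ⟨h3, e3⟩ := oddSig_some ℓ W k h1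
    obtain ⟨h4, e4⟩ := oddFrK_some ℓ W (oddL ℓ W k) h2
    rw [e3, e4]
    simp only [map_pow]

theorem oddFr_mem (P : (W.baseChange (oddL ℓ W k)).toAffine.Point) (hP : P ∈ oddSub ℓ W k) :
    oddFr ℓ W (oddL ℓ W k) P ∈ oddSub ℓ W k := by
  rw [mem_oddSub] at hP ⊢
  rw [oddSig_fr, hP, map_neg]

/-- the coefficients of `W` over `L` come from the coordinate ring -/
theorem odd_hpol_eq : oddIota ℓ W k (algebraMap k[X] (RatFunc k) (oddHpol ℓ W k))
    = (W.baseChange (oddL ℓ W k)).a₁ * oddX ℓ W k + (W.baseChange (oddL ℓ W k)).a₃ := by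
  rw [oddIota_algebraMap]
  have e1 : (W.baseChange (oddL ℓ W k)).a₁ = algebraMap (oddA ℓ W k) (oddL ℓ W k)
      (Affine.CoordinateRing.mk _ (C (C (W.baseChange k).a₁))) :=
    odd_algebraMap_zmod ℓ W k W.a₁
  have e3 : (W.baseChange (oddL ℓ W k)).a₃ = algebraMap (oddA ℓ W k) (oddL ℓ W k)
      (Affine.CoordinateRing.mk _ (C (C (W.baseChange k).a₃))) :=
    odd_algebraMap_zmod ℓ W k W.a₃
  rw [e1, e3]
  unfold oddX oddCA oddHpol
  simp only [map_add, map_mul]

theorem oddGen_mem [W.IsElliptic] : oddGen ℓ W k ∈ oddSub ℓ W k := by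
  rw [mem_oddSub]
  unfold oddGen
  obtain ⟨h', e⟩ := oddSig_some ℓ W k (odd_nonsingular ℓ W k)
  rw [e, Affine.Point.neg_some]
  simp only [Affine.Point.some.injEq]
  refine ⟨oddSigma_X ℓ W k, ?_⟩
  rw [oddSigma_Y, odd_hpol_eq]
  unfold Affine.negY
  ring

/-- The `x`-coordinate of an odd point lies in `k(x)`. -/
theorem odd_x_mem [W.IsElliptic] {x y : oddL ℓ W k}
    (h : (W.baseChange (oddL ℓ W k)).toAffine.Nonsingular x y)
    (hP : Affine.Point.some x y h ∈ oddSub ℓ W k) : ∃ r : RatFunc k, oddIota ℓ W k r = x := by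
  rw [mem_oddSub] at hP
  obtain ⟨h', e⟩ := oddSig_some ℓ W k h
  rw [e, Affine.Point.neg_some] at hP
  simp only [Affine.Point.some.injEq] at hP
  exact odd_fixed ℓ W k x hP.1

end Fermat.Agent.S58lib
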