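/-
Item 84 (S58), HASSE package, piece P4-par (helper14, for helper7): **transport of the exact
parallelogram law** to the `x`-rational points of `E(L)`, `L = k(E)`.

* `oddXo P`   : the `x`-coordinate of `P` in `P^1(k(t)) = Option (RatFunc k)`
  (`none` for `0` and for points whose `x` is not in `k(x)`);
* `oddH P = phtHo (oddXo P)` : the height;
* `OddRat P`  : `P = 0` or `x(P) ∈ k(x)`;
* `odd_par_rat` : `h(P + Q) + h(P - Q) = 2 h(P) + 2 h(Q)` when `P, Q, P + Q, P - Q` are
  `x`-rational (from `Ladder.addSubMap_sym2x` over `L` and `pht_par` over `k(t)`);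
* `oddH_gen`, `oddRat_gen`, `oddRat_fr`, `oddH_fr`, `oddH_eq_zero`, `oddRat_neg`, `oddH_neg`.
-/
import Mathlib
import Fermat.Agent.S58lib.OddSigma
import Fermat.Agent.S58lib.PolyHeight
import Fermat.Agent.Ladder.AddSub

set_option autoImplicit false
set_option linter.unusedSectionVars false
set_option linter.unusedVariables false

open WeierstrassCurve Polynomial

open scoped Classical

-- the group law on `E(L)` must use the SAME `DecidableEq` instance as `oddFr` (classical),
-- not `FractionRing.instDecidableEq`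
attribute [local instance 1100] Classical.propDecidable

noncomputable section

namespace Fermat.Agent.S58lib

variable (ℓ : ℕ) [Fact ℓ.Prime] (W : WeierstrassCurve (ZMod ℓ)) [W.IsElliptic]
variable (k : Type) [Field k] [Algebra (ZMod ℓ) k]

/-- `x`-coordinate in `P^1(k(x))`: `none` for `0` and for points whose `x` is not in `k(x)` -/
def oddXo : (W.baseChange (oddL ℓ W k)).toAffine.Point → Option (RatFunc k)
  | .zero => none
  | .some x _ _ => if h : ∃ r, oddIota ℓ W k r = x then some h.choose else none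

/-- the height of a point -/
def oddH (P : (W.baseChange (oddL ℓ W k)).toAffine.Point) : ℕ := phtHo (oddXo ℓ W k P)

/-- `x`-rational points -/
def OddRat (P : (W.baseChange (oddL ℓ W k)).toAffine.Point) : Prop :=
  P = 0 ∨ ∃ (r : RatFunc k) (x y : oddL ℓ W k)
    (h : (W.baseChange (oddL ℓ W k)).toAffine.Nonsingular x y),
    P = .some x y h ∧ oddIota ℓ W k r = x

theorem oddXo_zero : oddXo ℓ W k 0 = none := rfl

theorem oddXo_some {x y : oddL ℓ W k}
    (h : (W.baseChange (oddL ℓ W k)).toAffine.Nonsingular x y) (r : RatFunc k)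
    (hr : oddIota ℓ W k r = x) : oddXo ℓ W k (.some x y h) = some r := by
  have hex : ∃ r, oddIota ℓ W k r = x := ⟨r, hr⟩
  show (if h : ∃ r, oddIota ℓ W k r = x then some h.choose else none) = some r
  rw [dif_pos hex]
  congr 1
  exact oddIota_injective ℓ W k (hex.choose_spec.trans hr.symm)

theorem oddH_zero : oddH ℓ W k 0 = 0 := rfl

theorem oddH_some {x y : oddL ℓ W k}
    (h : (W.baseChange (oddL ℓ W k)).toAffine.Nonsingular x y) (r : RatFunc k)
    (hr : oddIota ℓ W k r = x) : oddH ℓ W k (.some x y h) = phtH r := by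
  unfold oddH
  rw [oddXo_some ℓ W k h r hr]
  rfl

theorem oddRat_zero : OddRat ℓ W k 0 := Or.inl rfl

theorem oddRat_some {x y : oddL ℓ W k}
    (h : (W.baseChange (oddL ℓ W k)).toAffine.Nonsingular x y) (r : RatFunc k)
    (hr : oddIota ℓ W k r = x) : OddRat ℓ W k (.some x y h) :=
  Or.inr ⟨r, x, y, h, rfl, hr⟩

/-- the `Sym^2` coordinates of two `x`-rational points come from `k(t)` -/
theorem odd_sym2x (P Q : (W.baseChange (oddL ℓ W k)).toAffine.Point)
    (hP : OddRat ℓ W k P) (hQ : OddRat ℓ W k Q) :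
    P.sym2x Q = fun i => oddIota ℓ W k (phtSym (oddXo ℓ W k P) (oddXo ℓ W k Q) i) := by
  rcases hP with rfl | ⟨r₁, x₁, y₁, h₁, rfl, hr₁⟩ <;>
    rcases hQ with rfl | ⟨r₂, x₂, y₂, h₂, rfl, hr₂⟩
  · rw [Affine.Point.sym2x_zero_zero, oddXo_zero]
    funext i
    fin_cases i <;> simp [phtSym]
  · rw [Affine.Point.sym2x_zero_some, oddXo_zero, oddXo_some ℓ W k h₂ r₂ hr₂]
    funext i
    fin_cases i <;> simp [phtSym, hr₂]
  · rw [Affine.Point.sym2x_some_zero, oddXo_zero, oddXo_some ℓ W k h₁ r₁ hr₁]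
    funext i
    fin_cases i <;> simp [phtSym, hr₁]
  · rw [Affine.Point.sym2x_some_some, oddXo_some ℓ W k h₁ r₁ hr₁, oddXo_some ℓ W k h₂ r₂ hr₂]
    funext i
    fin_cases i <;> simp [phtSym, hr₁, hr₂]

/-- one of the entries of `phtSym` is `1` -/
theorem phtSym_exists_one {K : Type*} [Field K] (a b : Option (RatFunc K)) :
    ∃ i, phtSym a b i = 1 := by
  rcases a with _ | a <;> rcases b with _ | b
  · exact ⟨0, rfl⟩
  · exact ⟨1, rfl⟩
  · exact ⟨1, rfl⟩
  · exact ⟨2, rfl⟩

/-- the curve over `L` is the base change of the curve over `k(t)` -/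
theorem odd_curve_eq :
    (W.baseChange (oddL ℓ W k)) =
      ((W.baseChange k).baseChange (RatFunc k)).map (oddIota ℓ W k : RatFunc k →+* oddL ℓ W k) := by
  show W.map (algebraMap (ZMod ℓ) (oddL ℓ W k)) =
    ((W.map (algebraMap (ZMod ℓ) k)).map (algebraMap k (RatFunc k))).map
      (oddIota ℓ W k : RatFunc k →+* oddL ℓ W k)
  rw [WeierstrassCurve.map_map, WeierstrassCurve.map_map]
  congr 1
  exact Subsingleton.elim _ _

/-- **the exact parallelogram law** on `x`-rational points -/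
theorem odd_par_rat (P Q : (W.baseChange (oddL ℓ W k)).toAffine.Point)
    (hP : OddRat ℓ W k P) (hQ : OddRat ℓ W k Q) (hs : OddRat ℓ W k (P + Q))
    (hd : OddRat ℓ W k (P - Q)) :
    oddH ℓ W k (P + Q) + oddH ℓ W k (P - Q) = 2 * oddH ℓ W k P + 2 * oddH ℓ W k Q := by
  have : (W.baseChange (oddL ℓ W k)).IsElliptic :=
    inferInstanceAs (W.map (algebraMap (ZMod ℓ) (oddL ℓ W k))).IsElliptic
  have : (W.baseChange k).IsElliptic :=
    inferInstanceAs (W.map (algebraMap (ZMod ℓ) k)).IsElliptic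
  have hΔ : (W.baseChange k).Δ ≠ 0 := (W.baseChange k).isUnit_Δ.ne_zero
  obtain ⟨c, hc, h⟩ := Fermat.Agent.Ladder.addSubMap_sym2x (W.baseChange (oddL ℓ W k)) P Q
  rw [odd_sym2x ℓ W k P Q hP hQ, odd_sym2x ℓ W k (P + Q) (P - Q) hs hd] at h
  set v := phtSym (oddXo ℓ W k P) (oddXo ℓ W k Q) with hv
  set w := phtSym (oddXo ℓ W k (P + Q)) (oddXo ℓ W k (P - Q)) with hw
  -- the evaluation comes from `k(t)`
  have hev : ∀ i, MvPolynomial.eval (fun j => oddIota ℓ W k (v j))
      ((W.baseChange (oddL ℓ W k)).addSubMap i) =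
      oddIota ℓ W k (MvPolynomial.eval v
        (((W.baseChange k).baseChange (RatFunc k)).addSubMap i)) := by
    intro i
    rw [odd_curve_eq ℓ W k]
    exact pht_eval_addSubMap_map ((W.baseChange k).baseChange (RatFunc k))
      (oddIota ℓ W k : RatFunc k →+* oddL ℓ W k) v i
  have h' : ∀ i, oddIota ℓ W k (MvPolynomial.eval v
      (((W.baseChange k).baseChange (RatFunc k)).addSubMap i)) = c * oddIota ℓ W k (w i) := by
    intro i
    rw [← hev i]
    exact congrFun h i
  -- `c` comes from `k(t)`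
  obtain ⟨i₀, hi₀⟩ := phtSym_exists_one (oddXo ℓ W k (P + Q)) (oddXo ℓ W k (P - Q))
  set c₀ := MvPolynomial.eval v (((W.baseChange k).baseChange (RatFunc k)).addSubMap i₀) with hc₀
  have hcc : c = oddIota ℓ W k c₀ := by
    have := h' i₀
    rw [← hw] at hi₀
    rw [hi₀, map_one, mul_one] at this
    exact this.symm
  have hc₀0 : c₀ ≠ 0 := by
    intro h0
    rw [h0, map_zero] at hcc
    exact hc hcc
  have key : (fun i => MvPolynomial.eval v
      (((W.baseChange k).baseChange (RatFunc k)).addSubMap i)) = c₀ • w := by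
    funext i
    apply oddIota_injective ℓ W k
    rw [h' i, hcc]
    simp
  have := pht_par (W.baseChange k) hΔ _ _ _ _ c₀ hc₀0 key
  exact this

/-! ### the generic point, Frobenius, negation, constant points -/

theorem oddRat_gen : OddRat ℓ W k (oddGen ℓ W k) :=
  oddRat_some ℓ W k _ RatFunc.X (oddIota_X ℓ W k)

theorem oddH_gen : oddH ℓ W k (oddGen ℓ W k) = 1 := by
  unfold oddGen
  rw [oddH_some ℓ W k _ RatFunc.X (oddIota_X ℓ W k), phtH_X]

omit [W.IsElliptic] in
theorem odd_some_congr {a b a' b' : oddL ℓ W k}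
    (h1 : (W.baseChange (oddL ℓ W k)).toAffine.Nonsingular a b) (ha : a = a') (hb : b = b') :
    ∃ h' : (W.baseChange (oddL ℓ W k)).toAffine.Nonsingular a' b',
      (Affine.Point.some a b h1 : (W.baseChange (oddL ℓ W k)).toAffine.Point)
        = Affine.Point.some a' b' h' := by
  subst ha hb
  exact ⟨h1, rfl⟩

theorem oddFr_some {x y : oddL ℓ W k}
    (h : (W.baseChange (oddL ℓ W k)).toAffine.Nonsingular x y) :
    ∃ h' : (W.baseChange (oddL ℓ W k)).toAffine.Nonsingular (x ^ ℓ) (y ^ ℓ),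
      oddFr ℓ W (oddL ℓ W k) (.some x y h) = .some (x ^ ℓ) (y ^ ℓ) h' := by
  have hx := oddFrob_apply ℓ (oddL ℓ W k) x
  have hy := oddFrob_apply ℓ (oddL ℓ W k) y
  have e := Affine.Point.map_some (W' := W)
    (FiniteField.frobeniusAlgHom (ZMod ℓ) (oddL ℓ W k)) h
  obtain ⟨h', e'⟩ := odd_some_congr ℓ W k _ hx hy
  exact ⟨h', e.trans e'⟩

theorem oddRat_fr (P : (W.baseChange (oddL ℓ W k)).toAffine.Point) (hP : OddRat ℓ W k P) :
    OddRat ℓ W k (oddFr ℓ W (oddL ℓ W k) P) := by
  rcases hP with rfl | ⟨r, x, y, h, rfl, hr⟩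
  · rw [oddFr_zero]
    exact oddRat_zero ℓ W k
  · obtain ⟨h', e⟩ := oddFr_some ℓ W k h
    rw [e]
    exact oddRat_some ℓ W k h' (r ^ ℓ) (by rw [map_pow, hr])

theorem oddH_fr (P : (W.baseChange (oddL ℓ W k)).toAffine.Point) (hP : OddRat ℓ W k P) :
    oddH ℓ W k (oddFr ℓ W (oddL ℓ W k) P) = ℓ * oddH ℓ W k P := by
  rcases hP with rfl | ⟨r, x, y, h, rfl, hr⟩
  · rw [oddFr_zero, oddH_zero, mul_zero]
  · obtain ⟨h', e⟩ := oddFr_some ℓ W k h
    rw [e, oddH_some ℓ W k h' (r ^ ℓ) (by rw [map_pow, hr]), oddH_some ℓ W k h r hr, phtH_pow]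

theorem oddRat_neg (P : (W.baseChange (oddL ℓ W k)).toAffine.Point) (hP : OddRat ℓ W k P) :
    OddRat ℓ W k (-P) := by
  rcases hP with rfl | ⟨r, x, y, h, rfl, hr⟩
  · rw [neg_zero]
    exact oddRat_zero ℓ W k
  · rw [Affine.Point.neg_some]
    exact oddRat_some ℓ W k _ r hr

theorem oddH_neg (P : (W.baseChange (oddL ℓ W k)).toAffine.Point) (hP : OddRat ℓ W k P) :
    oddH ℓ W k (-P) = oddH ℓ W k P := by
  rcases hP with rfl | ⟨r, x, y, h, rfl, hr⟩
  · rw [neg_zero]
  · rw [Affine.Point.neg_some, oddH_some ℓ W k _ r hr, oddH_some ℓ W k h r hr]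

/-- a point of height `0` is constant -/
theorem oddH_eq_zero (P : (W.baseChange (oddL ℓ W k)).toAffine.Point) (hP : OddRat ℓ W k P)
    (h0 : oddH ℓ W k P = 0) :
    P = 0 ∨ ∃ (c : k) (x y : oddL ℓ W k)
      (h : (W.baseChange (oddL ℓ W k)).toAffine.Nonsingular x y),
      P = .some x y h ∧ algebraMap k (oddL ℓ W k) c = x := by
  rcases hP with rfl | ⟨r, x, y, h, rfl, hr⟩
  · exact Or.inl rfl
  · right
    rw [oddH_some ℓ W k h r hr] at h0
    obtain ⟨c, rfl⟩ := (phtH_eq_zero_iff r).mp h0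
    refine ⟨c, x, y, h, rfl, ?_⟩
    rw [← hr]
    exact ((oddIota ℓ W k).commutes c).symm

/-- the height of a constant point is `0` -/
theorem oddH_const {x y : oddL ℓ W k}
    (h : (W.baseChange (oddL ℓ W k)).toAffine.Nonsingular x y) (c : k)
    (hc : algebraMap k (oddL ℓ W k) c = x) : oddH ℓ W k (.some x y h) = 0 := by
  rw [oddH_some ℓ W k h (RatFunc.C c) (by rw [← hc]; exact (oddIota ℓ W k).commutes c), phtH_C]

end Fermat.Agent.S58lib

end
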