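import Mathlib
import Fermat.Agent.S58lib.KernelBound
import Fermat.Agent.S58lib.OddPar
import Fermat.Agent.S58lib.OddFixed
import Fermat.Agent.S58lib.Count
import Fermat.Agent.S58lib.HasseDefs

/-!
# Item 84, piece FROBQ (i) (helper28): `h(P_gen − Fr P_gen) = #W(𝔽_ℓ)`

`L = k(W)`, `P_gen = oddGen`, `Fr = oddFr`, `h = oddH`, `k` algebraically closed over `ZMod ℓ`.

* `frnPsiL a b`, `frnPsiK a b` : the endomorphism `a + b·Fr` of `W(L)`, `W(k)`; naturality
  (`frn_hnat`), constants (`frn_hconst`), odd points (`frnPsiL_mem`);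
* `frn_kb`, `frn_card_le` : KERNEL BOUND `#ker(a + b·Fr | W(k)) ≤ h((a + b·Fr) P_gen)` when
  `(a + b·Fr) P_gen` is not constant;
* `frn_oddH_const` : constant points have height `0`; `frn_two_not_const`;
* `frn_H_sub` : `h(P_gen − Fr P_gen) = #{T : Fr T = T}`, `frn_H_add` : `h(P_gen + Fr P_gen) =
  #{T : Fr T = −T}`, `frn_card_fixed`, `frn_H_sub_trace` : `h(P_gen − Fr P_gen) = ℓ + 1 − a_ℓ`.
-/

set_option autoImplicit false
set_option linter.unusedSectionVars false

open WeierstrassCurve Polynomial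

open scoped Classical Polynomial.Bivariate

attribute [local instance 1100] Classical.propDecidable

noncomputable section

namespace Fermat.Agent.S58lib

variable (ℓ : ℕ) [Fact ℓ.Prime] (W : WeierstrassCurve (ZMod ℓ)) [W.IsElliptic]
variable (k : Type) [Field k] [Algebra (ZMod ℓ) k]

/-- odd points have `x`-coordinate in `k(t)` -/
theorem frn_oddRat_of_mem (P : (W.baseChange (oddL ℓ W k)).toAffine.Point)
    (hP : P ∈ oddSub ℓ W k) : OddRat ℓ W k P := by
  rcases P with _ | ⟨x, y, h⟩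
  · exact Or.inl rfl
  · obtain ⟨r, hr⟩ := odd_x_mem ℓ W k h hP
    exact oddRat_some ℓ W k h r hr

/-- constant points have height `0` -/
theorem frn_oddH_const (Q : (W.baseChange (oddL ℓ W k)).toAffine.Point)
    (hQ : TrlConstPt Q) : oddH ℓ W k Q = 0 := by
  obtain ⟨T, rfl⟩ := hQ
  rcases T with _ | ⟨a, b, h⟩
  · exact oddH_zero ℓ W k
  · obtain ⟨h', e⟩ := trlConst_some (ℓ := ℓ) (W := W) (k := k) h
    rw [e]
    exact oddH_const ℓ W k h' a rfl

/-- `ψ = a + b·Fr` on `W(L)` -/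
def frnPsiL (a b : ℤ) : (W.baseChange (oddL ℓ W k)).toAffine.Point →+
    (W.baseChange (oddL ℓ W k)).toAffine.Point :=
  a • AddMonoidHom.id _ + b • oddFr ℓ W (oddL ℓ W k)

/-- `ψ = a + b·Fr` on `W(k)` -/
def frnPsiK (a b : ℤ) : (W.baseChange k).toAffine.Point →+ (W.baseChange k).toAffine.Point :=
  a • AddMonoidHom.id _ + b • oddFr ℓ W k

theorem frnPsiL_apply (a b : ℤ) (P : (W.baseChange (oddL ℓ W k)).toAffine.Point) :
    frnPsiL ℓ W k a b P = a • P + b • oddFr ℓ W (oddL ℓ W k) P := rfl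

theorem frnPsiK_apply (a b : ℤ) (T : (W.baseChange k).toAffine.Point) :
    frnPsiK ℓ W k a b T = a • T + b • oddFr ℓ W k T := rfl

theorem frn_hnat (a b : ℤ) (f : oddL ℓ W k →ₐ[k] oddL ℓ W k)
    (P : (W.baseChange (oddL ℓ W k)).toAffine.Point) :
    Affine.Point.map (W' := W) f (frnPsiL ℓ W k a b P)
      = frnPsiL ℓ W k a b (Affine.Point.map (W' := W) f P) := by
  rw [frnPsiL_apply, frnPsiL_apply, map_add, map_zsmul, map_zsmul, trl_map_fr]

theorem frn_hconst (a b : ℤ) (T : (W.baseChange k).toAffine.Point) :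
    frnPsiL ℓ W k a b (trlConst ℓ W k T) = trlConst ℓ W k (frnPsiK ℓ W k a b T) := by
  rw [frnPsiL_apply, frnPsiK_apply, map_add, map_zsmul, map_zsmul, trl_fr_const]

theorem frnPsiL_mem (a b : ℤ) (P : (W.baseChange (oddL ℓ W k)).toAffine.Point)
    (hP : P ∈ oddSub ℓ W k) : frnPsiL ℓ W k a b P ∈ oddSub ℓ W k := by
  rw [frnPsiL_apply]
  exact add_mem (zsmul_mem hP a) (zsmul_mem (oddFr_mem ℓ W k P hP) b)

theorem frnPsiL_gen_mem (a b : ℤ) : frnPsiL ℓ W k a b (oddGen ℓ W k) ∈ oddSub ℓ W k :=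
  frnPsiL_mem ℓ W k a b _ (oddGen_mem ℓ W k)

/-- `h(2 P_gen) = 4` -/
theorem frn_oddH_two : oddH ℓ W k (oddGen ℓ W k + oddGen ℓ W k) = 4 := by
  have hP := frn_oddRat_of_mem ℓ W k _ (oddGen_mem ℓ W k)
  have h2 := frn_oddRat_of_mem ℓ W k _ (add_mem (oddGen_mem ℓ W k) (oddGen_mem ℓ W k))
  have h0 : OddRat ℓ W k (oddGen ℓ W k - oddGen ℓ W k) := by
    rw [sub_self]; exact oddRat_zero ℓ W k
  have := odd_par_rat ℓ W k _ _ hP hP h2 h0
  rw [sub_self, oddH_zero, oddH_gen, add_zero] at this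
  exact this

/-- `2 P_gen` is not constant -/
theorem frn_two_not_const : ¬ TrlConstPt ((2 : ℤ) • oddGen ℓ W k) := by
  intro h
  have h1 := frn_oddH_const ℓ W k _ h
  rw [two_zsmul, frn_oddH_two] at h1
  exact absurd h1 (by norm_num)

/-- **kernel bound for `ψ = a + b·Fr`** in terms of the height. -/
theorem frn_kb [IsAlgClosed k] (a b : ℤ)
    (hnc : ¬ TrlConstPt (frnPsiL ℓ W k a b (oddGen ℓ W k)))
    (A : Finset (W.baseChange k).toAffine.Point) (hA : ∀ T ∈ A, frnPsiK ℓ W k a b T = 0) :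
    A.card ≤ oddH ℓ W k (frnPsiL ℓ W k a b (oddGen ℓ W k)) := by
  have hmem := frnPsiL_gen_mem ℓ W k a b
  generalize hQ : frnPsiL ℓ W k a b (oddGen ℓ W k) = Q at hmem hnc
  rcases Q with _ | ⟨x, y, h⟩
  · exact absurd trlConstPt_zero hnc
  · obtain ⟨u, hu⟩ := odd_x_mem ℓ W k h hmem
    subst hu
    have hunc : ¬ ∃ c : k, u = RatFunc.C c := by
      rintro ⟨c, rfl⟩
      apply hnc
      apply trl_const_of_isAlgebraic h
      rw [kbd_iota_C]
      exact isAlgebraic_algebraMap c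
    rw [oddH_some ℓ W k h u rfl]
    exact kbd_kb (frnPsiL ℓ W k a b) (frnPsiK ℓ W k a b) (frn_hnat ℓ W k a b)
      (frn_hconst ℓ W k a b) (frn_two_not_const ℓ W k) u hunc y h hQ A hA

/-- the same with `Nat.card` of the kernel -/
theorem frn_card_le [IsAlgClosed k] (a b : ℤ)
    (hnc : ¬ TrlConstPt (frnPsiL ℓ W k a b (oddGen ℓ W k))) :
    Nat.card {T : (W.baseChange k).toAffine.Point // frnPsiK ℓ W k a b T = 0}
      ≤ oddH ℓ W k (frnPsiL ℓ W k a b (oddGen ℓ W k)) := by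
  by_cases hfin : Finite {T : (W.baseChange k).toAffine.Point // frnPsiK ℓ W k a b T = 0}
  · have hsf : {T : (W.baseChange k).toAffine.Point | frnPsiK ℓ W k a b T = 0}.Finite :=
      Set.finite_coe_iff.mp hfin
    have h1 := frn_kb ℓ W k a b hnc hsf.toFinset (fun T hT => by
      rw [Set.Finite.mem_toFinset] at hT
      exact hT)
    have h2 : Nat.card {T : (W.baseChange k).toAffine.Point // frnPsiK ℓ W k a b T = 0}
        = hsf.toFinset.card := by
      rw [← Set.ncard_eq_toFinset_card _ hsf]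
      rfl
    rw [h2]
    exact h1
  · rw [not_finite_iff_infinite] at hfin
    rw [Nat.card_eq_zero_of_infinite]
    exact Nat.zero_le _

/-- every `x ∈ k` is the `x`-coordinate of a point (`k` algebraically closed) -/
theorem frn_exists_point [IsAlgClosed k] (x : k) :
    ∃ y : k, (W.baseChange k).toAffine.Nonsingular x y := by
  have hell := odd_isElliptic ℓ W k
  let E := (W.baseChange k).toAffine
  let q : Polynomial k := Polynomial.X ^ 2 + Polynomial.C (E.a₁ * x + E.a₃) * Polynomial.X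
    - Polynomial.C (x ^ 3 + E.a₂ * x ^ 2 + E.a₄ * x + E.a₆)
  have hq : q.degree ≠ 0 := by
    have : q.degree = 2 := by
      have h1 : (Polynomial.C (E.a₁ * x + E.a₃) * Polynomial.X
          - Polynomial.C (x ^ 3 + E.a₂ * x ^ 2 + E.a₄ * x + E.a₆)).degree < 2 := by
        refine lt_of_le_of_lt (Polynomial.degree_sub_le _ _) ?_
        refine max_lt ?_ ?_
        · refine lt_of_le_of_lt (Polynomial.degree_C_mul_X_le _) ?_
          norm_num
        · refine lt_of_le_of_lt Polynomial.degree_C_le ?_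
          norm_num
      have h2 : q = Polynomial.X ^ 2 + (Polynomial.C (E.a₁ * x + E.a₃) * Polynomial.X
          - Polynomial.C (x ^ 3 + E.a₂ * x ^ 2 + E.a₄ * x + E.a₆)) := by
        simp only [q]; ring
      rw [h2, Polynomial.degree_add_eq_left_of_degree_lt]
      · simp
      · simpa using h1
    rw [this]; norm_num
  obtain ⟨y, hy⟩ := IsAlgClosed.exists_root q hq
  have heq : E.Equation x y := by
    rw [Affine.equation_iff]
    have : Polynomial.eval y q = 0 := hy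
    simp only [q, Polynomial.eval_sub, Polynomial.eval_add, Polynomial.eval_pow,
      Polynomial.eval_X, Polynomial.eval_mul, Polynomial.eval_C] at this
    linear_combination this
  exact ⟨y, Affine.equation_iff_nonsingular.mp heq⟩

/-- there is a point of `W(k)` with `Fr T ≠ ± T` (`k` algebraically closed) -/
theorem frn_exists_nonfixed [IsAlgClosed k] :
    ∃ T : (W.baseChange k).toAffine.Point, oddFr ℓ W k T ≠ T ∧ oddFr ℓ W k T ≠ -T := by
  have hinf : Infinite k := IsAlgClosed.instInfinite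
  obtain ⟨x, hx⟩ : ∃ x : k, x ∉ Set.range (algebraMap (ZMod ℓ) k) :=
    (Set.finite_range (algebraMap (ZMod ℓ) k)).exists_notMem
  obtain ⟨y, h⟩ := frn_exists_point ℓ W k x
  have hxl : x ^ ℓ ≠ x := fun e => hx ((cnt_pow_eq_iff k x).mp e)
  obtain ⟨h', e⟩ := oddFrK_some ℓ W k h
  refine ⟨Affine.Point.some x y h, ?_, ?_⟩
  · rw [e, Ne, Affine.Point.some.injEq]
    exact fun h1 => hxl h1.1
  · rw [e, Affine.Point.neg_some, Ne, Affine.Point.some.injEq]
    exact fun h1 => hxl h1.1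

theorem frn_cntFrob_eq : cntFrob W k = oddFr ℓ W k := rfl

theorem frn_nonconst_sub [IsAlgClosed k] :
    ¬ TrlConstPt (frnPsiL ℓ W k 1 (-1) (oddGen ℓ W k)) := by
  intro hc
  have h := kbd_trick (frnPsiL ℓ W k 1 (-1)) (frnPsiK ℓ W k 1 (-1)) (frn_hnat ℓ W k 1 (-1))
    (frn_hconst ℓ W k 1 (-1)) hc
  obtain ⟨T, hT, -⟩ := frn_exists_nonfixed ℓ W k
  apply hT
  have := h T
  rw [frnPsiK_apply, one_zsmul, neg_one_zsmul, ← sub_eq_add_neg, sub_eq_zero] at this
  exact this.symm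

theorem frn_nonconst_add [IsAlgClosed k] :
    ¬ TrlConstPt (frnPsiL ℓ W k 1 1 (oddGen ℓ W k)) := by
  intro hc
  have h := kbd_trick (frnPsiL ℓ W k 1 1) (frnPsiK ℓ W k 1 1) (frn_hnat ℓ W k 1 1)
    (frn_hconst ℓ W k 1 1) hc
  obtain ⟨T, -, hT⟩ := frn_exists_nonfixed ℓ W k
  apply hT
  have := h T
  rw [frnPsiK_apply, one_zsmul, one_zsmul, add_comm, add_eq_zero_iff_eq_neg] at this
  exact this

theorem frn_psiL_sub : frnPsiL ℓ W k 1 (-1) (oddGen ℓ W k)
    = oddGen ℓ W k - oddFr ℓ W (oddL ℓ W k) (oddGen ℓ W k) := by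
  rw [frnPsiL_apply, one_zsmul, neg_one_zsmul, ← sub_eq_add_neg]

theorem frn_psiL_add : frnPsiL ℓ W k 1 1 (oddGen ℓ W k)
    = oddGen ℓ W k + oddFr ℓ W (oddL ℓ W k) (oddGen ℓ W k) := by
  rw [frnPsiL_apply, one_zsmul, one_zsmul]

theorem frn_card_sub :
    Nat.card {T : (W.baseChange k).toAffine.Point // frnPsiK ℓ W k 1 (-1) T = 0}
      = Nat.card {T : (W.baseChange k).toAffine.Point // oddFr ℓ W k T = T} := by
  refine Nat.card_congr (Equiv.subtypeEquivRight (fun T => ?_))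
  rw [frnPsiK_apply, one_zsmul, neg_one_zsmul, ← sub_eq_add_neg, sub_eq_zero]
  exact eq_comm

theorem frn_card_add :
    Nat.card {T : (W.baseChange k).toAffine.Point // frnPsiK ℓ W k 1 1 T = 0}
      = Nat.card {T : (W.baseChange k).toAffine.Point // oddFr ℓ W k T = -T} := by
  refine Nat.card_congr (Equiv.subtypeEquivRight (fun T => ?_))
  rw [frnPsiK_apply, one_zsmul, one_zsmul, add_comm, add_eq_zero_iff_eq_neg]

/-- the parallelogram law at `(P_gen, Fr P_gen)` -/
theorem frn_par : oddH ℓ W k (oddGen ℓ W k + oddFr ℓ W (oddL ℓ W k) (oddGen ℓ W k))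
    + oddH ℓ W k (oddGen ℓ W k - oddFr ℓ W (oddL ℓ W k) (oddGen ℓ W k)) = 2 + 2 * ℓ := by
  have hP := oddGen_mem ℓ W k
  have hF := oddFr_mem ℓ W k _ hP
  have := odd_par_rat ℓ W k _ _ (frn_oddRat_of_mem ℓ W k _ hP) (frn_oddRat_of_mem ℓ W k _ hF)
    (frn_oddRat_of_mem ℓ W k _ (add_mem hP hF)) (frn_oddRat_of_mem ℓ W k _ (sub_mem hP hF))
  rw [oddH_fr ℓ W k _ (frn_oddRat_of_mem ℓ W k _ hP), oddH_gen, mul_one, mul_one] at this
  exact this

theorem frn_count [IsAlgClosed k] :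
    Nat.card {T : (W.baseChange k).toAffine.Point // oddFr ℓ W k T = T}
      + Nat.card {T : (W.baseChange k).toAffine.Point // oddFr ℓ W k T = -T} = 2 * ℓ + 2 :=
  cnt_card_add W k

/-- **(i)**: `h(P_gen − Fr P_gen) = #{T ∈ W(k) : Fr T = T}` -/
theorem frn_H_sub [IsAlgClosed k] :
    oddH ℓ W k (oddGen ℓ W k - oddFr ℓ W (oddL ℓ W k) (oddGen ℓ W k))
      = Nat.card {T : (W.baseChange k).toAffine.Point // oddFr ℓ W k T = T} := by
  have h1 := frn_card_le ℓ W k 1 (-1) (frn_nonconst_sub ℓ W k)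
  have h2 := frn_card_le ℓ W k 1 1 (frn_nonconst_add ℓ W k)
  rw [frn_card_sub, frn_psiL_sub] at h1
  rw [frn_card_add, frn_psiL_add] at h2
  have h3 := frn_par ℓ W k
  have h4 := frn_count ℓ W k
  linarith

/-- **(i')**: `h(P_gen + Fr P_gen) = #{T ∈ W(k) : Fr T = −T}` -/
theorem frn_H_add [IsAlgClosed k] :
    oddH ℓ W k (oddGen ℓ W k + oddFr ℓ W (oddL ℓ W k) (oddGen ℓ W k))
      = Nat.card {T : (W.baseChange k).toAffine.Point // oddFr ℓ W k T = -T} := by
  have h1 := frn_card_le ℓ W k 1 (-1) (frn_nonconst_sub ℓ W k)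
  have h2 := frn_card_le ℓ W k 1 1 (frn_nonconst_add ℓ W k)
  rw [frn_card_sub, frn_psiL_sub] at h1
  rw [frn_card_add, frn_psiL_add] at h2
  have h3 := frn_par ℓ W k
  have h4 := frn_count ℓ W k
  linarith

/-- the number of Frobenius-fixed points is `#W(𝔽_ℓ)` -/
theorem frn_card_fixed :
    Nat.card {T : (W.baseChange k).toAffine.Point // oddFr ℓ W k T = T}
      = Nat.card W.toAffine.Point :=
  cnt_card_fixed W k

/-- **(i)** in terms of the trace of Frobenius of the Prelude -/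
theorem frn_H_sub_trace [IsAlgClosed k] :
    (oddH ℓ W k (oddGen ℓ W k - oddFr ℓ W (oddL ℓ W k) (oddGen ℓ W k)) : ℤ)
      = (ℓ : ℤ) + 1 - W.traceOfFrobenius := by
  rw [frn_H_sub, frn_card_fixed]
  unfold WeierstrassCurve.traceOfFrobenius WeierstrassCurve.card
  rw [Nat.card_zmod]
  ring

end Fermat.Agent.S58lib
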