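import Mathlib

/-!
# Item 84, piece P3 (helper7): from the parallelogram law to the quadratic relation

`QfaPar d` is the parallelogram law for an integer valued function `d` on an abelian group.
It makes `qfaB d P Q = d (P + Q) - d P - d Q` biadditive and `d` a quadratic form.
`qfa_hasse` is the abstract form of the computation `deg (φ² - aφ + ℓ) = 0`.
-/

set_option autoImplicit false

namespace Fermat.Agent.S58lib

variable {Γ : Type*} [AddCommGroup Γ]

/-- The parallelogram law. -/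
def QfaPar (d : Γ → ℤ) : Prop :=
  ∀ P Q : Γ, d (P + Q) + d (P - Q) = 2 * d P + 2 * d Q

/-- The pairing attached to `d`. -/
def qfaB (d : Γ → ℤ) (P Q : Γ) : ℤ := d (P + Q) - d P - d Q

variable {d : Γ → ℤ}

theorem qfa_zero (h : QfaPar d) : d 0 = 0 := by
  have := h 0 0
  simp only [add_zero, sub_zero] at this
  linarith

theorem qfa_neg (h : QfaPar d) (P : Γ) : d (-P) = d P := by
  have h1 := h 0 P
  have h0 := qfa_zero h
  simp only [zero_add, zero_sub] at h1
  linarith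

theorem qfa_sub_comm (h : QfaPar d) (P Q : Γ) : d (P - Q) = d (Q - P) := by
  rw [← qfa_neg h (P - Q), neg_sub]

theorem qfa_cube (h : QfaPar d) (P Q R : Γ) :
    d (P + Q + R) = d (P + Q) + d (P + R) + d (Q + R) - d P - d Q - d R := by
  have e1 := h (P + Q) R
  have e2 := h (P + R) Q
  have e3 := h (Q + R) P
  have e4 := h P (Q - R)
  have e5 := h R (P - Q)
  have e6 := h Q (P - R)
  have f1 := h Q R
  have f2 := h P Q
  have f3 := h P R
  have a1 : P + R + Q = P + Q + R := by abel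
  have a2 : Q + R + P = P + Q + R := by abel
  have a3 : P + (Q - R) = P + Q - R := by abel
  have a4 : P - (Q - R) = P + R - Q := by abel
  have a5 : R + (P - Q) = P + R - Q := by abel
  have a6 : R - (P - Q) = Q + R - P := by abel
  have a7 : Q + (P - R) = P + Q - R := by abel
  have a8 : Q - (P - R) = Q + R - P := by abel
  rw [a1] at e2
  rw [a2] at e3
  rw [a3, a4] at e4
  rw [a5, a6] at e5
  rw [a7, a8] at e6
  linarith

theorem qfaB_comm (P Q : Γ) : qfaB d P Q = qfaB d Q P := by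
  unfold qfaB
  rw [add_comm P Q]
  ring

theorem qfaB_add_left (h : QfaPar d) (P Q R : Γ) :
    qfaB d (P + Q) R = qfaB d P R + qfaB d Q R := by
  unfold qfaB
  have := qfa_cube h P Q R
  linarith

theorem qfaB_add_right (h : QfaPar d) (P Q R : Γ) :
    qfaB d P (Q + R) = qfaB d P Q + qfaB d P R := by
  rw [qfaB_comm, qfaB_add_left h, qfaB_comm Q, qfaB_comm R]

theorem qfaB_zero_left (h : QfaPar d) (Q : Γ) : qfaB d 0 Q = 0 := by
  unfold qfaB
  rw [zero_add, qfa_zero h]
  ring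

/-- The pairing as an additive map in the first variable. -/
def qfaBHom (h : QfaPar d) (Q : Γ) : Γ →+ ℤ where
  toFun P := qfaB d P Q
  map_zero' := qfaB_zero_left h Q
  map_add' P P' := qfaB_add_left h P P' Q

theorem qfaB_zsmul_left (h : QfaPar d) (n : ℤ) (P Q : Γ) :
    qfaB d (n • P) Q = n * qfaB d P Q := by
  have := map_zsmul (qfaBHom h Q) n P
  simpa [qfaBHom] using this

theorem qfaB_zsmul_right (h : QfaPar d) (n : ℤ) (P Q : Γ) :
    qfaB d P (n • Q) = n * qfaB d P Q := by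
  rw [qfaB_comm, qfaB_zsmul_left h, qfaB_comm]

theorem qfaB_self (h : QfaPar d) (P : Γ) : qfaB d P P = 2 * d P := by
  unfold qfaB
  have := h P P
  rw [sub_self, qfa_zero h] at this
  linarith

theorem qfa_add (d : Γ → ℤ) (P Q : Γ) : d (P + Q) = d P + d Q + qfaB d P Q := by
  unfold qfaB
  ring

theorem qfa_zsmul (h : QfaPar d) (n : ℤ) (P : Γ) : d (n • P) = n ^ 2 * d P := by
  have h1 := qfaB_self h (n • P)
  rw [qfaB_zsmul_left h, qfaB_zsmul_right h, qfaB_self h] at h1
  linarith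

/-- The value of `d` on a combination of three elements. -/
theorem qfa_lin3 (h : QfaPar d) (a b c : ℤ) (X Y Z : Γ) :
    d (a • X + b • Y + c • Z) = a ^ 2 * d X + b ^ 2 * d Y + c ^ 2 * d Z
      + a * b * qfaB d X Y + a * c * qfaB d X Z + b * c * qfaB d Y Z := by
  rw [qfa_add d, qfa_add d, qfaB_add_left h, qfa_zsmul h, qfa_zsmul h, qfa_zsmul h,
    qfaB_zsmul_left h, qfaB_zsmul_right h, qfaB_zsmul_left h, qfaB_zsmul_right h,
    qfaB_zsmul_left h, qfaB_zsmul_right h]
  ring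

/-- **Abstract Hasse relation.**  If `d` satisfies the parallelogram law, `d ∘ φ = ℓ d`,
`d P = 1`, `d (φ P - P) = N` and `d (φ² P - P) = N * d (φ P + P)`, then
`d (φ² P - (ℓ + 1 - N) φ P + ℓ P) = 0`. -/
theorem qfa_hasse (h : QfaPar d) (φ : Γ →+ Γ) (ℓ N : ℤ) (hφ : ∀ Q, d (φ Q) = ℓ * d Q)
    (P : Γ) (hP : d P = 1) (hN : d (φ P - P) = N)
    (hmul : d (φ (φ P) - P) = N * d (φ P + P)) :
    d (φ (φ P) - (ℓ + 1 - N) • φ P + ℓ • P) = 0 := by
  have hΦ : d (φ P) = ℓ := by rw [hφ, hP, mul_one]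
  have hΦ2 : d (φ (φ P)) = ℓ ^ 2 := by rw [hφ, hΦ]; ring
  have p1 := h (φ P) P
  have hplus : d (φ P + P) = 2 * ℓ + 2 - N := by linarith
  have b1 : qfaB d (φ P) P = ℓ + 1 - N := by unfold qfaB; linarith
  have b2 : qfaB d (φ (φ P)) (φ P) = ℓ * (ℓ + 1 - N) := by
    unfold qfaB
    rw [← map_add, hφ, hplus, hΦ2, hΦ]
    ring
  have p2 := h (φ (φ P)) P
  have b3 : qfaB d (φ (φ P)) P = (ℓ + 1 - N) ^ 2 - 2 * ℓ := by
    unfold qfaB
    rw [hmul, hplus] at p2
    rw [hΦ2, hP] at p2 ⊢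
    linear_combination p2
  have e : φ (φ P) - (ℓ + 1 - N) • φ P + ℓ • P
      = (1 : ℤ) • φ (φ P) + (-(ℓ + 1 - N)) • φ P + ℓ • P := by
    rw [one_smul, neg_smul, sub_eq_add_neg]
  rw [e, qfa_lin3 h, hΦ2, hΦ, hP, b1, b2, b3]
  ring

end Fermat.Agent.S58lib
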