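import Fermat.Agent.S58lib.OddFixed
import Fermat.Agent.S58lib.OddPar
import Fermat.Agent.S58lib.KernelBound
import Fermat.Agent.S58lib.QuadAlg

/-!
# Item 84, FROBQ (helper7): the setup

`Γ = ↥(oddSub ℓ W k)` is the group of odd points of `W(L)`, `L = k(E)`.
* `hssD` : the height on `Γ` (integer valued), `hss_par : QfaPar hssD`;
* `hssφ` : Frobenius on `Γ`, `hssP` : the generic point, `hssD_φ`, `hssD_P`;
* `hssPsi K' c₀ c₁ c₂ = c₀ + c₁ Fr + c₂ Fr²` on the points over `K'`, with naturality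
  (`hssPsi_nat`), compatibility with constants (`hssPsi_const`) and `hssPsi_gen`;
* `hss_kb_gen`, `hss_trick_gen` : the kernel bound and the translation trick for `hssPsi`.
-/

set_option autoImplicit false

open WeierstrassCurve Polynomial

open scoped Classical

attribute [local instance 1100] Classical.propDecidable

noncomputable section

namespace Fermat.Agent.S58lib

variable (ℓ : ℕ) [Fact ℓ.Prime] (W : WeierstrassCurve (ZMod ℓ)) [W.IsElliptic]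
variable (k : Type) [Field k] [Algebra (ZMod ℓ) k]

/-- odd points are `x`-rational -/
theorem hss_rat (Q : (W.baseChange (oddL ℓ W k)).toAffine.Point) (hQ : Q ∈ oddSub ℓ W k) :
    OddRat ℓ W k Q := by
  rcases Q with _ | ⟨x, y, h⟩
  · exact oddRat_zero ℓ W k
  · obtain ⟨r, hr⟩ := odd_x_mem ℓ W k h hQ
    exact oddRat_some ℓ W k h r hr

/-- the height on the group of odd points -/
def hssD (Q : ↥(oddSub ℓ W k)) : ℤ := (oddH ℓ W k Q.1 : ℤ)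

theorem hssD_nonneg (Q : ↥(oddSub ℓ W k)) : 0 ≤ hssD ℓ W k Q := Int.natCast_nonneg _

/-- the parallelogram law on the odd points -/
theorem hss_par : QfaPar (hssD ℓ W k) := by
  intro P Q
  have h := odd_par_rat ℓ W k P.1 Q.1 (hss_rat ℓ W k _ P.2) (hss_rat ℓ W k _ Q.2)
    (hss_rat ℓ W k _ (P + Q).2) (hss_rat ℓ W k _ (P - Q).2)
  unfold hssD
  exact_mod_cast h

/-- Frobenius on the odd points -/
def hssφ : ↥(oddSub ℓ W k) →+ ↥(oddSub ℓ W k) :=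
  ((oddFr ℓ W (oddL ℓ W k)).comp (oddSub ℓ W k).subtype).codRestrict (oddSub ℓ W k)
    (fun Q => oddFr_mem ℓ W k Q.1 Q.2)

theorem hssφ_val (Q : ↥(oddSub ℓ W k)) :
    (hssφ ℓ W k Q).1 = oddFr ℓ W (oddL ℓ W k) Q.1 := rfl

/-- the generic point as an odd point -/
def hssP : ↥(oddSub ℓ W k) := ⟨oddGen ℓ W k, oddGen_mem ℓ W k⟩

theorem hssP_val : (hssP ℓ W k).1 = oddGen ℓ W k := rfl

theorem hssD_φ (Q : ↥(oddSub ℓ W k)) : hssD ℓ W k (hssφ ℓ W k Q) = ℓ * hssD ℓ W k Q := by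
  unfold hssD
  rw [hssφ_val, oddH_fr ℓ W k Q.1 (hss_rat ℓ W k _ Q.2)]
  push_cast
  ring

theorem hssD_P : hssD ℓ W k (hssP ℓ W k) = 1 := by
  unfold hssD
  rw [hssP_val, oddH_gen]
  rfl

/-! ### The endomorphisms `c₀ + c₁ Fr + c₂ Fr²` -/

/-- `c₀ + c₁ Fr + c₂ Fr²` on the points over `K'` -/
def hssPsi (K' : Type) [Field K'] [Algebra (ZMod ℓ) K'] (c₀ c₁ c₂ : ℤ) :
    (W.baseChange K').toAffine.Point →+ (W.baseChange K').toAffine.Point :=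
  c₀ • AddMonoidHom.id _ + c₁ • oddFr ℓ W K' + c₂ • (oddFr ℓ W K').comp (oddFr ℓ W K')

omit [W.IsElliptic] in
theorem hssPsi_apply (K' : Type) [Field K'] [Algebra (ZMod ℓ) K'] (c₀ c₁ c₂ : ℤ)
    (T : (W.baseChange K').toAffine.Point) :
    hssPsi ℓ W K' c₀ c₁ c₂ T
      = c₀ • T + c₁ • oddFr ℓ W K' T + c₂ • oddFr ℓ W K' (oddFr ℓ W K' T) := rfl

omit [W.IsElliptic] in
theorem hssPsi_nat (c₀ c₁ c₂ : ℤ) (f : oddL ℓ W k →ₐ[k] oddL ℓ W k)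
    (P : (W.baseChange (oddL ℓ W k)).toAffine.Point) :
    Affine.Point.map (W' := W) f (hssPsi ℓ W (oddL ℓ W k) c₀ c₁ c₂ P)
      = hssPsi ℓ W (oddL ℓ W k) c₀ c₁ c₂ (Affine.Point.map (W' := W) f P) := by
  rw [hssPsi_apply, hssPsi_apply, map_add, map_add, map_zsmul, map_zsmul, map_zsmul,
    trl_map_fr, trl_map_fr, trl_map_fr]

omit [W.IsElliptic] in
theorem hssPsi_const (c₀ c₁ c₂ : ℤ) (T : (W.baseChange k).toAffine.Point) :
    hssPsi ℓ W (oddL ℓ W k) c₀ c₁ c₂ (trlConst ℓ W k T)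
      = trlConst ℓ W k (hssPsi ℓ W k c₀ c₁ c₂ T) := by
  rw [hssPsi_apply, hssPsi_apply, map_add, map_add, map_zsmul, map_zsmul, map_zsmul]
  simp only [trl_fr_const]

/-- the value at the generic point, as an element of `Γ` -/
theorem hssPsi_gen (c₀ c₁ c₂ : ℤ) :
    hssPsi ℓ W (oddL ℓ W k) c₀ c₁ c₂ (oddGen ℓ W k)
      = (c₀ • hssP ℓ W k + c₁ • hssφ ℓ W k (hssP ℓ W k)
          + c₂ • hssφ ℓ W k (hssφ ℓ W k (hssP ℓ W k)) : ↥(oddSub ℓ W k)).1 := by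
  rw [hssPsi_apply]
  simp only [AddSubgroup.coe_add, AddSubgroup.coe_zsmul, hssφ_val, hssP_val]

theorem hssPsi_gen_mem (c₀ c₁ c₂ : ℤ) :
    hssPsi ℓ W (oddL ℓ W k) c₀ c₁ c₂ (oddGen ℓ W k) ∈ oddSub ℓ W k := by
  rw [hssPsi_gen]
  exact Subtype.property _

/-- the height of the value at the generic point -/
theorem hssPsi_gen_H (c₀ c₁ c₂ : ℤ) :
    (oddH ℓ W k (hssPsi ℓ W (oddL ℓ W k) c₀ c₁ c₂ (oddGen ℓ W k)) : ℤ)
      = hssD ℓ W k (c₀ • hssP ℓ W k + c₁ • hssφ ℓ W k (hssP ℓ W k)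
          + c₂ • hssφ ℓ W k (hssφ ℓ W k (hssP ℓ W k))) := by
  unfold hssD
  rw [← hssPsi_gen]

/-! ### Constant points have height `0` -/

theorem hss_H_const (Q : (W.baseChange (oddL ℓ W k)).toAffine.Point)
    (hQ : TrlConstPt Q) : oddH ℓ W k Q = 0 := by
  obtain ⟨T, rfl⟩ := hQ
  rcases T with _ | ⟨a, b, h⟩
  · exact oddH_zero ℓ W k
  · obtain ⟨h', e⟩ := trlConst_some (ℓ := ℓ) (W := W) (k := k) h
    rw [e]
    exact oddH_const ℓ W k h' a rfl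

/-- an odd point of height `0` is constant -/
theorem hss_const_of_H [IsAlgClosed k] (Q : (W.baseChange (oddL ℓ W k)).toAffine.Point)
    (hQ : Q ∈ oddSub ℓ W k) (h0 : oddH ℓ W k Q = 0) : TrlConstPt Q := by
  rcases oddH_eq_zero ℓ W k Q (hss_rat ℓ W k Q hQ) h0 with rfl | ⟨c, x, y, h, rfl, hc⟩
  · exact trlConstPt_zero
  · apply trl_const_of_isAlgebraic h
    rw [← hc]
    exact isAlgebraic_algebraMap c

/-- `2 P_gen` is not constant -/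
theorem hss_two_not_const : ¬ TrlConstPt ((2 : ℤ) • oddGen ℓ W k) := by
  intro hc
  have h0 := hss_H_const ℓ W k _ hc
  have h1 : ((2 : ℤ) • oddGen ℓ W k) = ((2 : ℤ) • hssP ℓ W k : ↥(oddSub ℓ W k)).1 := by
    rw [AddSubgroup.coe_zsmul, hssP_val]
  have h2 := qfa_zsmul (hss_par ℓ W k) 2 (hssP ℓ W k)
  rw [hssD_P] at h2
  unfold hssD at h2
  rw [← h1, h0] at h2
  norm_num at h2

/-- an odd point of positive height has a non-constant `x`-coordinate in `k(x)` -/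
theorem hss_exists_rep (Q : (W.baseChange (oddL ℓ W k)).toAffine.Point)
    (hQ : Q ∈ oddSub ℓ W k) (hpos : oddH ℓ W k Q ≠ 0) :
    ∃ (u : RatFunc k) (y₁ : oddL ℓ W k)
      (h₁ : (W.baseChange (oddL ℓ W k)).toAffine.Nonsingular (oddIota ℓ W k u) y₁),
      Q = Affine.Point.some _ _ h₁ ∧ phtH u = oddH ℓ W k Q ∧ ¬ ∃ c : k, u = RatFunc.C c := by
  rcases Q with _ | ⟨x, y, h⟩
  · exact absurd (oddH_zero ℓ W k) hpos
  · obtain ⟨r, hr⟩ := odd_x_mem ℓ W k h hQ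
    subst hr
    refine ⟨r, y, h, rfl, (oddH_some ℓ W k h r rfl).symm, ?_⟩
    rintro ⟨c, rfl⟩
    apply hpos
    rw [oddH_some ℓ W k h (RatFunc.C c) rfl, phtH_C]

/-- **kernel bound** for `ψ = c₀ + c₁ Fr + c₂ Fr²` -/
theorem hss_kb_gen [IsAlgClosed k] (c₀ c₁ c₂ : ℤ)
    (hpos : oddH ℓ W k (hssPsi ℓ W (oddL ℓ W k) c₀ c₁ c₂ (oddGen ℓ W k)) ≠ 0)
    (A : Finset (W.baseChange k).toAffine.Point)
    (hA : ∀ T ∈ A, hssPsi ℓ W k c₀ c₁ c₂ T = 0) :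
    A.card ≤ oddH ℓ W k (hssPsi ℓ W (oddL ℓ W k) c₀ c₁ c₂ (oddGen ℓ W k)) := by
  obtain ⟨u, y₁, h₁, e, hu, hnc⟩ :=
    hss_exists_rep ℓ W k _ (hssPsi_gen_mem ℓ W k c₀ c₁ c₂) hpos
  rw [← hu]
  exact kbd_kb (hssPsi ℓ W (oddL ℓ W k) c₀ c₁ c₂) (hssPsi ℓ W k c₀ c₁ c₂)
    (hssPsi_nat ℓ W k c₀ c₁ c₂) (hssPsi_const ℓ W k c₀ c₁ c₂) (hss_two_not_const ℓ W k)
    u hnc y₁ h₁ e A hA

/-- **translation trick** for `ψ = c₀ + c₁ Fr + c₂ Fr²` -/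
theorem hss_trick_gen [IsAlgClosed k] (c₀ c₁ c₂ : ℤ)
    (h0 : oddH ℓ W k (hssPsi ℓ W (oddL ℓ W k) c₀ c₁ c₂ (oddGen ℓ W k)) = 0)
    (T : (W.baseChange k).toAffine.Point) : hssPsi ℓ W k c₀ c₁ c₂ T = 0 :=
  kbd_trick (hssPsi ℓ W (oddL ℓ W k) c₀ c₁ c₂) (hssPsi ℓ W k c₀ c₁ c₂)
    (hssPsi_nat ℓ W k c₀ c₁ c₂) (hssPsi_const ℓ W k c₀ c₁ c₂)
    (hss_const_of_H ℓ W k _ (hssPsi_gen_mem ℓ W k c₀ c₁ c₂) h0) T

end Fermat.Agent.S58lib
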