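import Mathlib
import Fermat.Agent.S58lib.FrobN
import Fermat.Agent.S58lib.FrobSetup

/-!
# Item 84, piece FROBQ (i) (helper28), in the shape of `FrobSetup.lean`

`Γ = ↥(oddSub ℓ W k)`, `d = hssD`, `φ = hssφ`, `P = hssP` (helper7's setup).

* `frn_hssD_sub` : `d(φ P − P) = ℓ + 1 − a_ℓ` (the hypothesis `hN` of `qfa_hasse`);
* `frn_hssD_sub'` : `d(P − φ P) = ℓ + 1 − a_ℓ`;
* `frn_hssD_add` : `d(φ P + P) = #{T ∈ W(k) : Fr T = −T}`;
* `frn_hssD_add_sub` : `d(φ P + P) + d(φ P − P) = 2 ℓ + 2`.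
-/

set_option autoImplicit false
set_option linter.unusedSectionVars false

open WeierstrassCurve Polynomial

open scoped Classical Polynomial.Bivariate

attribute [local instance 1100] Classical.propDecidable

noncomputable section

namespace Fermat.Agent.S58lib

variable (ℓ : ℕ) [Fact ℓ.Prime] (W : WeierstrassCurve (ZMod ℓ)) [W.IsElliptic]
variable (k : Type) [Field k] [Algebra (ZMod ℓ) k]

theorem frn_hssD_sub' [IsAlgClosed k] :
    hssD ℓ W k (hssP ℓ W k - hssφ ℓ W k (hssP ℓ W k)) = (ℓ : ℤ) + 1 - W.traceOfFrobenius := by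
  unfold hssD
  rw [AddSubgroup.coe_sub, hssφ_val, hssP_val]
  exact frn_H_sub_trace ℓ W k

/-- `hN` of `qfa_hasse`: `d(φ P − P) = ℓ + 1 − a_ℓ = #W(𝔽_ℓ)` -/
theorem frn_hssD_sub [IsAlgClosed k] :
    hssD ℓ W k (hssφ ℓ W k (hssP ℓ W k) - hssP ℓ W k) = (ℓ : ℤ) + 1 - W.traceOfFrobenius := by
  rw [qfa_sub_comm (hss_par ℓ W k)]
  exact frn_hssD_sub' ℓ W k

theorem frn_hssD_add [IsAlgClosed k] :
    hssD ℓ W k (hssφ ℓ W k (hssP ℓ W k) + hssP ℓ W k)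
      = (Nat.card {T : (W.baseChange k).toAffine.Point // oddFr ℓ W k T = -T} : ℤ) := by
  unfold hssD
  rw [add_comm, AddSubgroup.coe_add, hssφ_val, hssP_val, frn_H_add]

theorem frn_hssD_add_sub :
    hssD ℓ W k (hssφ ℓ W k (hssP ℓ W k) + hssP ℓ W k)
      + hssD ℓ W k (hssφ ℓ W k (hssP ℓ W k) - hssP ℓ W k) = 2 * (ℓ : ℤ) + 2 := by
  have h := hss_par ℓ W k (hssφ ℓ W k (hssP ℓ W k)) (hssP ℓ W k)
  rw [hssD_φ, hssD_P] at h
  linarith

end Fermat.Agent.S58lib
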