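/-
Item 84 (S58), HASSE package, piece FROBQ (iv) (helper15): the **kernel bound** `HasseKB`.

`L = k(W)`, `P_gen` the generic point, `Fr` the Frobenius, `h = oddH` the height on the odd
points.  From the single input `h(P_gen - Fr P_gen) = ℓ + 1 - a` (piece (i) of FROBQ):

* `fkb_par`   : the parallelogram law for `h` on the odd subgroup;
* `fkb_qf`    : (QF) `h(m P_gen + n Fr P_gen) = m² + a m n + ℓ n²`;
* `fkb_hasse` : the Hasse inequality `a² < 4 ℓ`;
* `fkb_kb`    : `#{T ∈ W(k) : Fr T = m T} ≤ m² - a m + ℓ`  (`kbd_kb` at `ψ = m - Fr`);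
* `fkb_hasseKB` : `HasseKB ℓ E a`;
* `fkb_hss_KB`  : **`HasseKB ℓ E E.traceOfFrobenius`**, unconditionally (with (i) = `frn_hssD_sub'`
  of helper28).
-/
import Mathlib
import Fermat.Agent.S58lib.KernelBound
import Fermat.Agent.S58lib.OddPar
import Fermat.Agent.S58lib.OddFixed
import Fermat.Agent.S58lib.QuadAlg
import Fermat.Agent.S58lib.HasseDefs
import Fermat.Agent.S58lib.FrobSetup
import Fermat.Agent.S58lib.FrobNSetup

set_option autoImplicit false
set_option linter.unusedSectionVars false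
set_option linter.unusedVariables false

open WeierstrassCurve Polynomial

open scoped Classical

attribute [local instance 1100] Classical.propDecidable

noncomputable section

namespace Fermat.Agent.S58lib

variable (ℓ : ℕ) [Fact ℓ.Prime] (W : WeierstrassCurve (ZMod ℓ)) [W.IsElliptic]
variable (k : Type) [Field k] [Algebra (ZMod ℓ) k]

/-- odd points are `x`-rational -/
theorem fkb_oddRat (P : (W.baseChange (oddL ℓ W k)).toAffine.Point) (hP : P ∈ oddSub ℓ W k) :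
    OddRat ℓ W k P := by
  rcases P with _ | ⟨x, y, h⟩
  · exact oddRat_zero ℓ W k
  · obtain ⟨r, hr⟩ := odd_x_mem ℓ W k h hP
    exact oddRat_some ℓ W k h r hr

/-- the height on the odd subgroup, with integer values -/
def fkbD (P : oddSub ℓ W k) : ℤ :=
  (oddH ℓ W k (P : (W.baseChange (oddL ℓ W k)).toAffine.Point) : ℤ)

theorem fkbD_nonneg (P : oddSub ℓ W k) : 0 ≤ fkbD ℓ W k P := Int.natCast_nonneg _

/-- the parallelogram law on the odd subgroup -/
theorem fkb_par : QfaPar (fkbD ℓ W k) := by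
  intro P Q
  have h := odd_par_rat ℓ W k (P : (W.baseChange (oddL ℓ W k)).toAffine.Point)
    (Q : (W.baseChange (oddL ℓ W k)).toAffine.Point)
    (fkb_oddRat ℓ W k _ P.2) (fkb_oddRat ℓ W k _ Q.2)
    (fkb_oddRat ℓ W k _ (P + Q).2) (fkb_oddRat ℓ W k _ (P - Q).2)
  unfold fkbD
  rw [AddSubgroup.coe_add, AddSubgroup.coe_sub]
  exact_mod_cast h

/-- Frobenius on the odd subgroup -/
def fkbFr : oddSub ℓ W k →+ oddSub ℓ W k :=
  AddMonoidHom.codRestrict ((oddFr ℓ W (oddL ℓ W k)).comp (oddSub ℓ W k).subtype)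
    (oddSub ℓ W k) (fun P => oddFr_mem ℓ W k _ P.2)

theorem coe_fkbFr (P : oddSub ℓ W k) :
    ((fkbFr ℓ W k P : oddSub ℓ W k) : (W.baseChange (oddL ℓ W k)).toAffine.Point)
      = oddFr ℓ W (oddL ℓ W k) (P : (W.baseChange (oddL ℓ W k)).toAffine.Point) := rfl

/-- the generic point, as an odd point -/
def fkbGen : oddSub ℓ W k := ⟨oddGen ℓ W k, oddGen_mem ℓ W k⟩

theorem fkbD_gen : fkbD ℓ W k (fkbGen ℓ W k) = 1 := by
  unfold fkbD fkbGen
  rw [oddH_gen]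
  rfl

theorem fkbD_fr (P : oddSub ℓ W k) : fkbD ℓ W k (fkbFr ℓ W k P) = ℓ * fkbD ℓ W k P := by
  unfold fkbD
  rw [coe_fkbFr, oddH_fr ℓ W k _ (fkb_oddRat ℓ W k _ P.2)]
  push_cast
  rfl

/-- the value of a quadratic form on a combination of two elements -/
theorem fkb_lin2 {Γ : Type*} [AddCommGroup Γ] {d : Γ → ℤ} (h : QfaPar d) (a b : ℤ) (X Y : Γ) :
    d (a • X + b • Y) = a ^ 2 * d X + b ^ 2 * d Y + a * b * qfaB d X Y := by
  rw [qfa_add d, qfa_zsmul h, qfa_zsmul h, qfaB_zsmul_left h, qfaB_zsmul_right h]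
  ring

section QF

variable (a : ℤ)
  (hN : (oddH ℓ W k (oddGen ℓ W k - oddFr ℓ W (oddL ℓ W k) (oddGen ℓ W k)) : ℤ) = ℓ + 1 - a)

include hN in
/-- the pairing of `P_gen` and `Fr P_gen` is `a` -/
theorem fkb_pairing :
    qfaB (fkbD ℓ W k) (fkbGen ℓ W k) (fkbFr ℓ W k (fkbGen ℓ W k)) = a := by
  have hpar := fkb_par ℓ W k
  have h1 : fkbD ℓ W k (fkbGen ℓ W k - fkbFr ℓ W k (fkbGen ℓ W k)) = ℓ + 1 - a := by
    unfold fkbD
    rw [AddSubgroup.coe_sub, coe_fkbFr]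
    exact hN
  have h2 := hpar (fkbGen ℓ W k) (fkbFr ℓ W k (fkbGen ℓ W k))
  rw [h1, fkbD_fr, fkbD_gen] at h2
  unfold qfaB
  rw [fkbD_fr, fkbD_gen]
  linarith

include hN in
/-- **(QF)**: `h(m P_gen + n Fr P_gen) = m² + a m n + ℓ n²` -/
theorem fkb_qf (m n : ℤ) :
    fkbD ℓ W k (m • fkbGen ℓ W k + n • fkbFr ℓ W k (fkbGen ℓ W k))
      = m ^ 2 + a * m * n + ℓ * n ^ 2 := by
  rw [fkb_lin2 (fkb_par ℓ W k), fkb_pairing ℓ W k a hN, fkbD_fr, fkbD_gen]
  ring

include hN in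
/-- **the Hasse inequality** `a² < 4 ℓ` -/
theorem fkb_hasse : a ^ 2 < 4 * (ℓ : ℤ) := by
  have h1 := fkbD_nonneg ℓ W k (a • fkbGen ℓ W k + (-2 : ℤ) • fkbFr ℓ W k (fkbGen ℓ W k))
  rw [fkb_qf ℓ W k a hN] at h1
  have hle : a ^ 2 ≤ 4 * (ℓ : ℤ) := by nlinarith
  refine lt_of_le_of_ne hle ?_
  intro heq
  have hp : Prime (ℓ : ℤ) := Nat.prime_iff_prime_int.mp (Fact.out : ℓ.Prime)
  have h2 : (2 : ℤ) ∣ a := by
    have : (2 : ℤ) ∣ a ^ 2 := ⟨2 * (ℓ : ℤ), by rw [heq]; ring⟩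
    exact Int.prime_two.dvd_of_dvd_pow this
  obtain ⟨b, rfl⟩ := h2
  have h3 : (ℓ : ℤ) = b * b := by nlinarith
  exact hp.irreducible.not_isSquare ⟨b, h3⟩

include hN in
/-- positivity of the quadratic form at `(m, -1)` -/
theorem fkb_pos (m : ℤ) : 0 < m ^ 2 - a * m + (ℓ : ℤ) := by
  have h := fkb_hasse ℓ W k a hN
  nlinarith [sq_nonneg (2 * m - a)]

include hN in
/-- the height of `m P_gen - Fr P_gen` -/
theorem fkb_height (m : ℤ) :
    (oddH ℓ W k (m • oddGen ℓ W k - oddFr ℓ W (oddL ℓ W k) (oddGen ℓ W k)) : ℤ)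
      = m ^ 2 - a * m + (ℓ : ℤ) := by
  have h := fkb_qf ℓ W k a hN m (-1)
  have e : ((m • fkbGen ℓ W k + (-1 : ℤ) • fkbFr ℓ W k (fkbGen ℓ W k) : oddSub ℓ W k) :
      (W.baseChange (oddL ℓ W k)).toAffine.Point)
      = m • oddGen ℓ W k - oddFr ℓ W (oddL ℓ W k) (oddGen ℓ W k) := by
    rw [AddSubgroup.coe_add, AddSubgroup.coe_zsmul, AddSubgroup.coe_zsmul, coe_fkbFr,
      neg_smul, one_smul, ← sub_eq_add_neg]
    rfl
  unfold fkbD at h
  rw [e] at h
  rw [h]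
  ring

end QF

/-- a constant point has height `0` -/
theorem fkb_oddH_const (T : (W.baseChange k).toAffine.Point) :
    oddH ℓ W k (trlConst ℓ W k T) = 0 := by
  rcases T with _ | ⟨x, y, h⟩
  · have h0 : trlConst ℓ W k (Affine.Point.zero) = 0 := map_zero _
    rw [h0, oddH_zero]
  · obtain ⟨h', e⟩ := trlConst_some (ℓ := ℓ) (W := W) (k := k) h
    rw [e]
    exact oddH_const ℓ W k h' x rfl

/-- `2 P_gen` is not a constant point -/
theorem fkb_two_gen : ¬ TrlConstPt ((2 : ℤ) • oddGen ℓ W k) := by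
  rintro ⟨T, hT⟩
  have h1 : fkbD ℓ W k ((2 : ℤ) • fkbGen ℓ W k) = 4 := by
    rw [qfa_zsmul (fkb_par ℓ W k), fkbD_gen]
    norm_num
  unfold fkbD at h1
  rw [AddSubgroup.coe_zsmul] at h1
  have h2 : oddH ℓ W k ((2 : ℤ) • oddGen ℓ W k) = 0 := by
    rw [← hT]
    exact fkb_oddH_const ℓ W k T
  have h3 : ((fkbGen ℓ W k : oddSub ℓ W k) : (W.baseChange (oddL ℓ W k)).toAffine.Point)
      = oddGen ℓ W k := rfl
  rw [h3, h2] at h1
  norm_num at h1

/-- **the kernel bound** at `ψ = m - Fr` -/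
theorem fkb_kb [IsAlgClosed k] (a : ℤ)
    (hN : (oddH ℓ W k (oddGen ℓ W k - oddFr ℓ W (oddL ℓ W k) (oddGen ℓ W k)) : ℤ)
      = ℓ + 1 - a)
    (m : ℤ) (A : Finset (W.baseChange k).toAffine.Point)
    (hA : ∀ T ∈ A, oddFr ℓ W k T = m • T) :
    (A.card : ℤ) ≤ m ^ 2 - a * m + ℓ := by
  set ψL : (W.baseChange (oddL ℓ W k)).toAffine.Point →+
      (W.baseChange (oddL ℓ W k)).toAffine.Point :=
    m • AddMonoidHom.id _ - oddFr ℓ W (oddL ℓ W k) with hψL
  set ψk : (W.baseChange k).toAffine.Point →+ (W.baseChange k).toAffine.Point :=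
    m • AddMonoidHom.id _ - oddFr ℓ W k with hψk
  have hψLa : ∀ P, ψL P = m • P - oddFr ℓ W (oddL ℓ W k) P := fun P => rfl
  have hψka : ∀ T, ψk T = m • T - oddFr ℓ W k T := fun T => rfl
  have hnat : ∀ (f : oddL ℓ W k →ₐ[k] oddL ℓ W k) P,
      Affine.Point.map (W' := W) f (ψL P) = ψL (Affine.Point.map (W' := W) f P) := by
    intro f P
    rw [hψLa, hψLa, map_sub, map_zsmul, trl_map_fr]
  have hconst : ∀ T, ψL (trlConst ℓ W k T) = trlConst ℓ W k (ψk T) := by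
    intro T
    rw [hψLa, hψka, map_sub, map_zsmul, trl_fr_const]
  have hH := fkb_height ℓ W k a hN m
  have hpos := fkb_pos ℓ W k a hN m
  have hmem : ψL (oddGen ℓ W k) ∈ oddSub ℓ W k := by
    rw [hψLa]
    exact sub_mem ((oddSub ℓ W k).zsmul_mem (oddGen_mem ℓ W k) m)
      (oddFr_mem ℓ W k _ (oddGen_mem ℓ W k))
  have hHψ : (oddH ℓ W k (ψL (oddGen ℓ W k)) : ℤ) = m ^ 2 - a * m + (ℓ : ℤ) := by
    rw [hψLa]
    exact hH
  have hA' : ∀ T ∈ A, ψk T = 0 := by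
    intro T hT
    rw [hψka, hA T hT, sub_self]
  -- the shape of `ψ(P_gen)`
  rcases hP : ψL (oddGen ℓ W k) with _ | ⟨x, y, h₁⟩
  · exfalso
    rw [hP] at hHψ
    have h0 : oddH ℓ W k (Affine.Point.zero) = 0 := oddH_zero ℓ W k
    rw [h0] at hHψ
    rw [← hHψ] at hpos
    exact lt_irrefl _ (by exact_mod_cast hpos)
  · rw [hP] at hmem hHψ
    obtain ⟨r, hr⟩ := odd_x_mem ℓ W k h₁ hmem
    subst hr
    rw [oddH_some ℓ W k h₁ r rfl] at hHψ
    have hnc : ¬ ∃ c : k, r = RatFunc.C c := by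
      intro hc
      have h0 := (phtH_eq_zero_iff r).mpr hc
      rw [h0] at hHψ
      rw [← hHψ] at hpos
      exact lt_irrefl _ (by exact_mod_cast hpos)
    have hcard := kbd_kb (ℓ := ℓ) (W := W) (k := k) ψL ψk hnat hconst (fkb_two_gen ℓ W k)
      r hnc y h₁ hP A hA'
    have hcard' : A.card ≤ phtH r := hcard
    rw [← hHψ]
    exact_mod_cast hcard'

/-- **`HasseKB`** from piece (i) of FROBQ over every algebraically closed field -/
theorem fkb_hasseKB (a : ℤ)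
    (hN : ∀ (K : Type) [Field K] [Algebra (ZMod ℓ) K] [IsAlgClosed K],
      (oddH ℓ W K (oddGen ℓ W K - oddFr ℓ W (oddL ℓ W K) (oddGen ℓ W K)) : ℤ) = ℓ + 1 - a) :
    HasseKB ℓ W a := by
  intro K _ _ _ m A hA
  exact fkb_kb ℓ W K a (hN K) m A hA

/-- **`HasseKB` for the trace of Frobenius**, from piece (i) of FROBQ in the shape of
`FrobSetup.lean`: `hssD (P - φ P) = #W(𝔽_ℓ)`. -/
theorem fkb_hasseKB_card
    (hi : ∀ (K : Type) [Field K] [Algebra (ZMod ℓ) K] [IsAlgClosed K],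
      hssD ℓ W K (hssP ℓ W K - hssφ ℓ W K (hssP ℓ W K)) = (Nat.card W.toAffine.Point : ℤ)) :
    HasseKB ℓ W W.traceOfFrobenius := by
  apply fkb_hasseKB ℓ W W.traceOfFrobenius
  intro K _ _ _
  have h := hi K
  unfold hssD at h
  rw [AddSubgroup.coe_sub, hssφ_val, hssP_val] at h
  rw [h]
  unfold WeierstrassCurve.traceOfFrobenius WeierstrassCurve.card
  rw [Nat.card_zmod]
  ring

/-- **the kernel bound `HasseKB` for the trace of Frobenius**, unconditionally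
(piece (i) = `frn_hssD_sub'`, helper28). -/
theorem fkb_hss_KB : HasseKB ℓ W W.traceOfFrobenius := by
  apply fkb_hasseKB ℓ W W.traceOfFrobenius
  intro K _ _ _
  have h := frn_hssD_sub' ℓ W K
  unfold hssD at h
  rw [AddSubgroup.coe_sub, hssφ_val, hssP_val] at h
  exact h

end Fermat.Agent.S58lib

end
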