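/-
Item 84 (S58), HASSE package, FROBQ part (ii) (helper14, for helper7): **MULT on points**.

`hsm_mult` : for an odd non-constant point `Q` of `E(L)`, `L = k(E)`, and a `k`-algebra
endomorphism `f` of `L` with `f_* P_gen = Q` (the pull-back `Q^*`), the height of the odd point
`R` is multiplied by the height of `Q`:  `h(f_* R) = h(R) h(Q)`.

Also: `hsm_star_iota` (`f ∘ ι = ι ∘ c` for the substitution `c : t ↦ v`, `f x = ι v`),
`hsm_map_some`.
-/
import Mathlib
import Fermat.Agent.S58lib.OddFixed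
import Fermat.Agent.S58lib.OddPar
import Fermat.Agent.S58lib.PolyComp

set_option autoImplicit false
set_option linter.unusedSectionVars false
set_option linter.unusedVariables false

open WeierstrassCurve Polynomial

open scoped Classical

attribute [local instance 1100] Classical.propDecidable

noncomputable section

namespace Fermat.Agent.S58lib

variable (ℓ : ℕ) [Fact ℓ.Prime] (W : WeierstrassCurve (ZMod ℓ)) [W.IsElliptic]
variable (k : Type) [Field k] [Algebra (ZMod ℓ) k]

/-- if `f x = ι v` and `c` is the substitution `t ↦ v`, then `f ∘ ι = ι ∘ c` -/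
theorem hsm_star_iota (f : oddL ℓ W k →ₐ[k] oddL ℓ W k) (v : RatFunc k)
    (hfx : f (oddX ℓ W k) = oddIota ℓ W k v) (c : RatFunc k →ₐ[k] RatFunc k)
    (hc : c RatFunc.X = v) (u : RatFunc k) :
    f (oddIota ℓ W k u) = oddIota ℓ W k (c u) := by
  have h : f.comp (oddIota ℓ W k) = (oddIota ℓ W k).comp c := by
    apply phc_ext
    show f (oddIota ℓ W k RatFunc.X) = oddIota ℓ W k (c RatFunc.X)
    rw [oddIota_X, hfx, hc]
  exact congrArg (fun g : RatFunc k →ₐ[k] oddL ℓ W k => g u) h

omit [W.IsElliptic] in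
/-- the image of an affine point under `Point.map` -/
theorem hsm_map_some (f : oddL ℓ W k →ₐ[k] oddL ℓ W k) {x y : oddL ℓ W k}
    (h : (W.baseChange (oddL ℓ W k)).toAffine.Nonsingular x y) :
    ∃ h' : (W.baseChange (oddL ℓ W k)).toAffine.Nonsingular (f x) (f y),
      Affine.Point.map (W' := W) f (Affine.Point.some x y h) = Affine.Point.some (f x) (f y) h' :=
  ⟨_, Affine.Point.map_some (W' := W) f h⟩

/-- **MULT**: pull-back along an odd non-constant point multiplies heights of odd points -/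
theorem hsm_mult (Q R : (W.baseChange (oddL ℓ W k)).toAffine.Point)
    (hQ : Q ∈ oddSub ℓ W k) (hR : R ∈ oddSub ℓ W k) (hQnc : oddH ℓ W k Q ≠ 0)
    (f : oddL ℓ W k →ₐ[k] oddL ℓ W k)
    (hf : Affine.Point.map (W' := W) f (oddGen ℓ W k) = Q) :
    oddH ℓ W k (Affine.Point.map (W' := W) f R) = oddH ℓ W k R * oddH ℓ W k Q := by
  -- the point `Q`
  rcases Q with _ | ⟨xQ, yQ, hQ'⟩
  · exact absurd (oddH_zero ℓ W k) hQnc
  obtain ⟨v, hv⟩ := odd_x_mem ℓ W k hQ' hQ
  have hHQ : oddH ℓ W k (Affine.Point.some xQ yQ hQ') = phtH v := oddH_some ℓ W k hQ' v hv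
  have hvnc : ¬ ∃ a : k, v = RatFunc.C a := by
    rintro ⟨a, rfl⟩
    rw [hHQ, phtH_C] at hQnc
    exact hQnc rfl
  obtain ⟨c, hc⟩ := phc_exists v hvnc
  -- `f x = ι v`
  have hfx : f (oddX ℓ W k) = oddIota ℓ W k v := by
    obtain ⟨h', e⟩ := hsm_map_some ℓ W k f (odd_nonsingular ℓ W k)
    have e' : Affine.Point.map (W' := W) f (oddGen ℓ W k)
        = Affine.Point.some (f (oddX ℓ W k)) (f (oddY ℓ W k)) h' := e
    rw [hf] at e'
    simp only [Affine.Point.some.injEq] at e'
    rw [hv, e'.1]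
  -- the point `R`
  rcases R with _ | ⟨xR, yR, hR'⟩
  · have h0 : Affine.Point.map (W' := W) f
        (Affine.Point.zero : (W.baseChange (oddL ℓ W k)).toAffine.Point) = 0 := map_zero _
    rw [h0]
    show oddH ℓ W k 0 = oddH ℓ W k 0 * _
    rw [oddH_zero, zero_mul]
  obtain ⟨u, hu⟩ := odd_x_mem ℓ W k hR' hR
  obtain ⟨h', e⟩ := hsm_map_some ℓ W k f hR'
  have hfu : oddIota ℓ W k (c u) = f xR := by
    rw [← hu]
    exact (hsm_star_iota ℓ W k f v hfx c hc u).symm
  rw [e, oddH_some ℓ W k h' (c u) hfu, oddH_some ℓ W k hR' u hu, hHQ, phc_H_comp c v hc u]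

end Fermat.Agent.S58lib

end
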