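import Mathlib
import Fermat.Agent.S58lib.FrobNSetup
import Fermat.Agent.S58lib.FrobMult

/-!
# Item 84, piece FROBQ (helper28): the hypothesis `hmul` of `qfa_hasse`

`Γ = ↥(oddSub ℓ W k)`, `d = hssD`, `φ = hssφ`, `P = hssP` (helper7's setup), `k` algebraically
closed.

* `frm_H_mul` : `h(Fr² P_gen − P_gen) = h(Fr P_gen − P_gen) · h(P_gen + Fr P_gen)`
  (MULT `hsm_mult` along the pull-back by `Q = P_gen + Fr P_gen`);
* `frm_hmul` : `d(φ(φ P) − P) = d(φ P − P) · d(φ P + P)`;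
* `frm_hmul_N` : `d(φ(φ P) − P) = (ℓ + 1 − a_ℓ) · d(φ P + P)` (exactly `hmul` of `qfa_hasse`
  with `N = ℓ + 1 − a_ℓ`);
* `frm_hasse_zero` : `d(φ(φ P) − a_ℓ • φ P + ℓ • P) = 0`.
-/

set_option autoImplicit false
set_option linter.unusedSectionVars false

open WeierstrassCurve Polynomial

open scoped Classical Polynomial.Bivariate

attribute [local instance 1100] Classical.propDecidable

noncomputable section

namespace Fermat.Agent.S58lib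

variable (ℓ : ℕ) [Fact ℓ.Prime] (W : WeierstrassCurve (ZMod ℓ)) [W.IsElliptic]
variable (k : Type) [Field k] [Algebra (ZMod ℓ) k]

/-- `P_gen + Fr P_gen` has positive height -/
theorem frm_H_add_ne_zero [IsAlgClosed k] :
    oddH ℓ W k (oddGen ℓ W k + oddFr ℓ W (oddL ℓ W k) (oddGen ℓ W k)) ≠ 0 := by
  intro h0
  have hmem : oddGen ℓ W k + oddFr ℓ W (oddL ℓ W k) (oddGen ℓ W k) ∈ oddSub ℓ W k :=
    add_mem (oddGen_mem ℓ W k) (oddFr_mem ℓ W k _ (oddGen_mem ℓ W k))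
  have hc := hss_const_of_H ℓ W k _ hmem h0
  rw [← frn_psiL_add] at hc
  exact frn_nonconst_add ℓ W k hc

/-- **MULT at `Fr² − 1 = (Fr − 1)(Fr + 1)`** -/
theorem frm_H_mul [IsAlgClosed k] :
    oddH ℓ W k (oddFr ℓ W (oddL ℓ W k) (oddFr ℓ W (oddL ℓ W k) (oddGen ℓ W k)) - oddGen ℓ W k)
      = oddH ℓ W k (oddFr ℓ W (oddL ℓ W k) (oddGen ℓ W k) - oddGen ℓ W k)
        * oddH ℓ W k (oddGen ℓ W k + oddFr ℓ W (oddL ℓ W k) (oddGen ℓ W k)) := by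
  have hP := oddGen_mem ℓ W k
  have hF := oddFr_mem ℓ W k _ hP
  have hQ : oddGen ℓ W k + oddFr ℓ W (oddL ℓ W k) (oddGen ℓ W k) ∈ oddSub ℓ W k :=
    add_mem hP hF
  have hR : oddFr ℓ W (oddL ℓ W k) (oddGen ℓ W k) - oddGen ℓ W k ∈ oddSub ℓ W k :=
    sub_mem hF hP
  have hQnc := frm_H_add_ne_zero ℓ W k
  have hQc : ¬ TrlConstPt (oddGen ℓ W k + oddFr ℓ W (oddL ℓ W k) (oddGen ℓ W k)) :=
    fun hc => hQnc (hss_H_const ℓ W k _ hc)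
  obtain ⟨f, hf⟩ := trl_exists_star (ℓ := ℓ) (W := W) (k := k) _ hQc
  have hm := hsm_mult ℓ W k _ _ hQ hR hQnc f hf
  have e : Affine.Point.map (W' := W) f
      (oddFr ℓ W (oddL ℓ W k) (oddGen ℓ W k) - oddGen ℓ W k)
      = oddFr ℓ W (oddL ℓ W k) (oddFr ℓ W (oddL ℓ W k) (oddGen ℓ W k)) - oddGen ℓ W k := by
    rw [map_sub, trl_map_fr, hf, map_add]
    abel
  rw [e] at hm
  exact hm

/-- `hmul` of `qfa_hasse`, multiplicative form -/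
theorem frm_hmul [IsAlgClosed k] :
    hssD ℓ W k (hssφ ℓ W k (hssφ ℓ W k (hssP ℓ W k)) - hssP ℓ W k)
      = hssD ℓ W k (hssφ ℓ W k (hssP ℓ W k) - hssP ℓ W k)
        * hssD ℓ W k (hssφ ℓ W k (hssP ℓ W k) + hssP ℓ W k) := by
  unfold hssD
  rw [AddSubgroup.coe_sub, AddSubgroup.coe_sub, AddSubgroup.coe_add, hssφ_val, hssφ_val,
    hssP_val, frm_H_mul, add_comm (oddFr ℓ W (oddL ℓ W k) (oddGen ℓ W k))]
  push_cast
  rfl

/-- `hmul` of `qfa_hasse` with `N = ℓ + 1 − a_ℓ` -/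
theorem frm_hmul_N [IsAlgClosed k] :
    hssD ℓ W k (hssφ ℓ W k (hssφ ℓ W k (hssP ℓ W k)) - hssP ℓ W k)
      = ((ℓ : ℤ) + 1 - W.traceOfFrobenius)
        * hssD ℓ W k (hssφ ℓ W k (hssP ℓ W k) + hssP ℓ W k) := by
  rw [frm_hmul, frn_hssD_sub]

/-- the height of `(Fr² − a_ℓ Fr + ℓ) P_gen` is `0` -/
theorem frm_hasse_zero [IsAlgClosed k] :
    hssD ℓ W k (hssφ ℓ W k (hssφ ℓ W k (hssP ℓ W k))
      - W.traceOfFrobenius • hssφ ℓ W k (hssP ℓ W k) + (ℓ : ℤ) • hssP ℓ W k) = 0 := by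
  have h := qfa_hasse (hss_par ℓ W k) (hssφ ℓ W k) (ℓ : ℤ) ((ℓ : ℤ) + 1 - W.traceOfFrobenius)
    (hssD_φ ℓ W k) (hssP ℓ W k) (hssD_P ℓ W k) (frn_hssD_sub ℓ W k) (frm_hmul_N ℓ W k)
  have e : (ℓ : ℤ) + 1 - ((ℓ : ℤ) + 1 - W.traceOfFrobenius) = W.traceOfFrobenius := by ring
  rw [e] at h
  exact h

end Fermat.Agent.S58lib

namespace Fermat.Agent.S58lib

variable (ℓ : ℕ) [Fact ℓ.Prime] (W : WeierstrassCurve (ZMod ℓ)) [W.IsElliptic]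

/-- **(Q)**: `Fr² − a_ℓ Fr + ℓ = 0` on `W(K)` for every algebraically closed `K` over `ZMod ℓ`
(`= hss_Q`). -/
theorem frm_hasseQ : HasseQ ℓ W W.traceOfFrobenius := by
  intro K _ _ _ T
  have h0 : oddH ℓ W K (hssPsi ℓ W (oddL ℓ W K) (ℓ : ℤ) (-W.traceOfFrobenius) 1
      (oddGen ℓ W K)) = 0 := by
    have h1 := hssPsi_gen_H ℓ W K (ℓ : ℤ) (-W.traceOfFrobenius) 1
    have h2 := frm_hasse_zero ℓ W K
    have e : ((ℓ : ℤ) • hssP ℓ W K + (-W.traceOfFrobenius) • hssφ ℓ W K (hssP ℓ W K)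
        + (1 : ℤ) • hssφ ℓ W K (hssφ ℓ W K (hssP ℓ W K)))
        = hssφ ℓ W K (hssφ ℓ W K (hssP ℓ W K))
          - W.traceOfFrobenius • hssφ ℓ W K (hssP ℓ W K) + (ℓ : ℤ) • hssP ℓ W K := by
      rw [one_zsmul, neg_zsmul]
      abel
    rw [e, h2] at h1
    exact_mod_cast h1
  have h3 := hss_trick_gen ℓ W K (ℓ : ℤ) (-W.traceOfFrobenius) 1 h0 T
  rw [hssPsi_apply, one_zsmul, neg_zsmul] at h3
  have h4 : oddFr ℓ W K (oddFr ℓ W K T) + (ℓ : ℤ) • T - W.traceOfFrobenius • oddFr ℓ W K T = 0 := by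
    rw [← h3]
    abel
  exact sub_eq_zero.mp h4

end Fermat.Agent.S58lib
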