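/-
Item 84 (S58), piece 84-D1 (helper10): THE CHEBOTAREV LINK.

Two Galois representations of rank `2` (over possibly different rings) which factor through
finite levels and have the characteristic polynomial `X² - a_ℓ X + ℓ` at the Frobenius elements
at almost all primes `ℓ` (`a_ℓ ∈ ℤ`) have, at EVERY `σ ∈ G_ℚ`, characteristic polynomials
`X² - t X + d` with COMMON integers `t, d` (weak Chebotarev + the Lucas recursion for the traces
of the powers of a `2 × 2` matrix).

* `chlLucas`, `chl_charpoly_rank_two`, `chl_trace_pow`, `chl_charpoly_pow`: the `2 × 2` algebra;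
* `chl_core`: the link for two representations of finite level;
* `chlModRep`, `chl_link`: the link between an adic representation `ρ` modulo `𝔪 ^ n` and a
  representation over `ZMod (lam ^ n)`;
* `chl_link_const`: if the finite-level characteristic polynomials of `σ` are `X² - t₀ X + d₀`
  for all `n`, then `charpoly (ρ σ) = X² - t₀ X + d₀`;
* `chl_unipotent`: corollary (i), `charpoly (ρ σ) = (X - 1)²`.
Declarations are prefixed `chl`.  No sorry.
-/
import Mathlib
import Fermat.Agent.GalRep.Interface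
import Fermat.Agent.Cheb.WeakQbar

set_option autoImplicit false
set_option linter.style.haveILetI false
set_option linter.unusedSectionVars false
set_option linter.unusedVariables false

noncomputable section

open Polynomial TensorProduct
open Fermat.Agent.GalRep

namespace Fermat.Agent.S58lib

/-- the Lucas sequence `tr (M ^ k)` of a `2 × 2` matrix of trace `t` and determinant `d` -/
def chlLucas (t d : ℤ) : ℕ → ℤ
  | 0 => 2
  | 1 => t
  | (k + 2) => t * chlLucas t d (k + 1) - d * chlLucas t d k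

theorem chlLucas_zero (t d : ℤ) : chlLucas t d 0 = 2 := by
  unfold chlLucas; rfl

theorem chlLucas_one (t d : ℤ) : chlLucas t d 1 = t := by
  unfold chlLucas; rfl

theorem chlLucas_add_two (t d : ℤ) (k : ℕ) :
    chlLucas t d (k + 2) = t * chlLucas t d (k + 1) - d * chlLucas t d k := by
  conv_lhs => unfold chlLucas

section Alg

variable {R : Type*} [CommRing R] {V : Type*} [AddCommGroup V] [Module R V]
  [Module.Free R V] [Module.Finite R V]

/-- the characteristic polynomial of an endomorphism of a free module of rank `2` -/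
theorem chl_charpoly_rank_two (hV : Module.finrank R V = 2) (f : Module.End R V) :
    LinearMap.charpoly f = X ^ 2 - C (LinearMap.trace R V f) * X + C (LinearMap.det f) := by
  nontriviality R
  let b := Module.finBasisOfFinrankEq R V hV
  rw [← LinearMap.charpoly_toMatrix f b, Matrix.charpoly_fin_two,
    LinearMap.trace_eq_matrix_trace R b f, ← LinearMap.det_toMatrix b f]

/-- the coefficients of `X² - t X + d` -/
theorem chl_coeff_eq {t d t' d' : R}
    (h : (X ^ 2 - C t * X + C d : R[X]) = X ^ 2 - C t' * X + C d') : t = t' ∧ d = d' := by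
  have h1 := congrArg (fun p : R[X] => p.coeff 1) h
  have h0 := congrArg (fun p : R[X] => p.coeff 0) h
  simp only [coeff_add, coeff_sub, coeff_X_pow, coeff_C_mul, coeff_X_one, coeff_C,
    coeff_X_zero] at h1 h0
  simp at h1 h0
  exact ⟨h1, h0⟩

/-- trace and determinant from the characteristic polynomial -/
theorem chl_trace_det (hV : Module.finrank R V = 2) (f : Module.End R V) {t d : R}
    (hf : LinearMap.charpoly f = X ^ 2 - C t * X + C d) :
    LinearMap.trace R V f = t ∧ LinearMap.det f = d := by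
  rw [chl_charpoly_rank_two hV f] at hf
  exact chl_coeff_eq hf

/-- Cayley–Hamilton in rank `2` -/
theorem chl_cayley (f : Module.End R V) {t d : R}
    (hf : LinearMap.charpoly f = X ^ 2 - C t * X + C d) :
    f ^ 2 = t • f - d • (1 : Module.End R V) := by
  have h := LinearMap.aeval_self_charpoly f
  rw [hf] at h
  simp only [map_add, map_sub, map_mul, map_pow, aeval_X, aeval_C] at h
  rw [Algebra.algebraMap_eq_smul_one, Algebra.algebraMap_eq_smul_one, smul_mul_assoc,
    one_mul] at h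
  rw [eq_sub_iff_add_eq, ← sub_eq_zero]
  rw [← h]
  abel

/-- the traces of the powers: the Lucas recursion -/
theorem chl_trace_pow (hV : Module.finrank R V = 2) (f : Module.End R V) (t d : ℤ)
    (hf : LinearMap.charpoly f = X ^ 2 - C (t : R) * X + C (d : R)) (k : ℕ) :
    LinearMap.trace R V (f ^ k) = (chlLucas t d k : R) ∧
      LinearMap.trace R V (f ^ (k + 1)) = (chlLucas t d (k + 1) : R) := by
  induction k with
  | zero =>
    refine ⟨?_, ?_⟩
    · rw [pow_zero, LinearMap.trace_one, hV, chlLucas_zero]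
      push_cast
      rfl
    · rw [zero_add, pow_one, chlLucas_one]
      exact (chl_trace_det hV f hf).1
  | succ k ih =>
    refine ⟨ih.2, ?_⟩
    have hc := chl_cayley f hf
    have e : f ^ (k + 1 + 1) = (t : R) • f ^ (k + 1) - (d : R) • f ^ k := by
      have : f ^ (k + 1 + 1) = f ^ k * f ^ 2 := by
        rw [← pow_add]
      rw [this, hc, mul_sub, mul_smul_comm, mul_smul_comm, mul_one, ← pow_succ]
    rw [e, map_sub, map_smul, map_smul, ih.1, ih.2, chlLucas_add_two]
    push_cast
    simp only [smul_eq_mul]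

/-- the characteristic polynomial of a power -/
theorem chl_charpoly_pow (hV : Module.finrank R V = 2) (f : Module.End R V) (t d : ℤ)
    (hf : LinearMap.charpoly f = X ^ 2 - C (t : R) * X + C (d : R)) (k : ℕ) :
    LinearMap.charpoly (f ^ k) =
      X ^ 2 - C ((chlLucas t d k : ℤ) : R) * X + C (((d ^ k : ℤ)) : R) := by
  rw [chl_charpoly_rank_two hV (f ^ k), (chl_trace_pow hV f t d hf k).1, map_pow,
    (chl_trace_det hV f hf).2]
  push_cast
  rfl

end Alg

section Core

/-- the Frobenius condition: `charpoly (r Frob_ℓ) = X² - a_ℓ X + ℓ` at all primes `ℓ ∉ S` -/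
def ChlFrob {R : Type} [CommRing R] {V : Type} [AddCommGroup V] [Module R V]
    [Module.Free R V] [Module.Finite R V] (r : GQ →* Module.End R V) (S : Finset ℕ)
    (a : ℕ → ℤ) : Prop :=
  ∀ ℓ : ℕ, ℓ.Prime → ℓ ∉ S →
    ∀ A : ValuationSubring (AlgebraicClosure ℚ), A.LiesOverPrime ℓ →
      ∀ σ : GQ, A.IsFrobeniusAt σ ℓ →
        LinearMap.charpoly (r σ) = X ^ 2 - C ((a ℓ : ℤ) : R) * X + C ((ℓ : ℕ) : R)

variable {R₁ R₂ : Type} [CommRing R₁] [CommRing R₂] {V₁ V₂ : Type}
  [AddCommGroup V₁] [AddCommGroup V₂] [Module R₁ V₁] [Module R₂ V₂]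
  [Module.Free R₁ V₁] [Module.Free R₂ V₂] [Module.Finite R₁ V₁] [Module.Finite R₂ V₂]

/-- **the Chebotarev link** for two representations of rank `2` and of finite level: common
integers `t, d` with `charpoly (r_i σ) = X² - t X + d`. -/
theorem chl_core (hV₁ : Module.finrank R₁ V₁ = 2) (hV₂ : Module.finrank R₂ V₂ = 2)
    (r₁ : GQ →* Module.End R₁ V₁) (r₂ : GQ →* Module.End R₂ V₂)
    (h₁ : GaloisFactorsThroughFiniteLevel r₁) (h₂ : GaloisFactorsThroughFiniteLevel r₂)
    (S : Finset ℕ) (a : ℕ → ℤ) (hF₁ : ChlFrob r₁ S a) (hF₂ : ChlFrob r₂ S a) (σ : GQ) :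
    ∃ t d : ℤ, LinearMap.charpoly (r₁ σ) = X ^ 2 - C (t : R₁) * X + C (d : R₁) ∧
      LinearMap.charpoly (r₂ σ) = X ^ 2 - C (t : R₂) * X + C (d : R₂) := by
  obtain ⟨L₁, hL₁, k₁⟩ := h₁
  obtain ⟨L₂, hL₂, k₂⟩ := h₂
  haveI := hL₁
  haveI := hL₂
  have hL : FiniteDimensional ℚ ↥(L₁ ⊔ L₂) := IntermediateField.finiteDimensional_sup L₁ L₂
  obtain ⟨ℓ, A, τ, k, k', hℓ, hℓS, hA, hτ, hτg, hgτ⟩ := weakCheb (L₁ ⊔ L₂) hL S σ
  have hfix : ∀ x ∈ L₁ ⊔ L₂, ((τ ^ k')⁻¹ * σ) x = x := by
    intro x hx
    rw [AlgEquiv.mul_apply, hgτ x hx]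
    exact (τ ^ k').symm_apply_apply x
  have hσ : σ = τ ^ k' * ((τ ^ k')⁻¹ * σ) := (mul_inv_cancel_left _ _).symm
  have e₁ : r₁ σ = r₁ τ ^ k' := by
    have h := k₁ ((τ ^ k')⁻¹ * σ) (fun x hx => hfix x ((le_sup_left : L₁ ≤ L₁ ⊔ L₂) hx))
    conv_lhs => rw [hσ]
    rw [map_mul, h, mul_one, map_pow]
  have e₂ : r₂ σ = r₂ τ ^ k' := by
    have h := k₂ ((τ ^ k')⁻¹ * σ) (fun x hx => hfix x ((le_sup_right : L₂ ≤ L₁ ⊔ L₂) hx))
    conv_lhs => rw [hσ]
    rw [map_mul, h, mul_one, map_pow]
  have c₁ := hF₁ ℓ hℓ hℓS A hA τ hτ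
  have c₂ := hF₂ ℓ hℓ hℓS A hA τ hτ
  rw [← Int.cast_natCast (R := R₁) ℓ] at c₁
  rw [← Int.cast_natCast (R := R₂) ℓ] at c₂
  refine ⟨chlLucas (a ℓ) (ℓ : ℤ) k', (ℓ : ℤ) ^ k', ?_, ?_⟩
  · rw [e₁]
    exact chl_charpoly_pow hV₁ (r₁ τ) (a ℓ) (ℓ : ℤ) c₁ k'
  · rw [e₂]
    exact chl_charpoly_pow hV₂ (r₂ τ) (a ℓ) (ℓ : ℤ) c₂ k'

/-- the image of `X² - t X + d` under a ring homomorphism -/
theorem chl_map_quad {R R' : Type*} [CommRing R] [CommRing R'] (φ : R →+* R') (t d : ℤ) :
    (X ^ 2 - C (t : R) * X + C (d : R) : R[X]).map φ = X ^ 2 - C (t : R') * X + C (d : R') := by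
  rw [Polynomial.map_add, Polynomial.map_sub, Polynomial.map_mul, Polynomial.map_pow,
    Polynomial.map_X, Polynomial.map_C, Polynomial.map_C, map_intCast φ t, map_intCast φ d]

end Core

section Residual

variable {O : Type} [CommRing O] [IsLocalRing O]

/-- the Frobenius condition passes to the residual representation -/
theorem chl_frob_residual (ρ : GaloisRepAdic O) (S : Finset ℕ) (a : ℕ → ℤ)
    (hρ : ChlFrob ρ.ρ S a) : ChlFrob ρ.residual.ρ S a := by
  intro ℓ hℓ hℓS A hA σ hσ
  have h := hρ ℓ hℓ hℓS A hA σ hσ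
  have h2 := LinearMap.charpoly_baseChange (A := IsLocalRing.ResidueField O) (ρ.ρ σ)
  refine Eq.trans h2 ?_
  rw [h, ← Int.cast_natCast (R := O) ℓ, chl_map_quad, Int.cast_natCast]

variable {p : ℕ} {T : Type} [AddCommGroup T] [Module (ZMod p) T] [Module.Free (ZMod p) T]
  [Module.Finite (ZMod p) T]

/-- **the link at `n = 1`**: the residual representation of `ρ` and a representation `r` over
`ZMod p` with the same Frobenius polynomials have the same characteristic polynomials. -/
theorem chl_residual (ρ : GaloisRepAdic O) (hT : Module.finrank (ZMod p) T = 2)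
    (r : GQ →* Module.End (ZMod p) T) (hlev : GaloisFactorsThroughFiniteLevel r)
    (S : Finset ℕ) (a : ℕ → ℤ) (hρ : ChlFrob ρ.ρ S a) (hr : ChlFrob r S a)
    (ι : ZMod p →+* IsLocalRing.ResidueField O) (σ : GQ) :
    LinearMap.charpoly (ρ.residual.ρ σ) = (LinearMap.charpoly (r σ)).map ι := by
  obtain ⟨t, d, h1, h2⟩ := chl_core ρ.residual.finrank_eq hT ρ.residual.ρ r
    ρ.residual.factorsThroughFiniteLevel hlev S a (chl_frob_residual ρ S a hρ) hr σ
  rw [h1, h2, chl_map_quad]

/-- the link at `n = 1`, traces -/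
theorem chl_residual_trace (ρ : GaloisRepAdic O) (hT : Module.finrank (ZMod p) T = 2)
    (r : GQ →* Module.End (ZMod p) T) (hlev : GaloisFactorsThroughFiniteLevel r)
    (S : Finset ℕ) (a : ℕ → ℤ) (hρ : ChlFrob ρ.ρ S a) (hr : ChlFrob r S a)
    (ι : ZMod p →+* IsLocalRing.ResidueField O) (σ : GQ) :
    LinearMap.trace (IsLocalRing.ResidueField O) ρ.residual.V (ρ.residual.ρ σ)
      = ι (LinearMap.trace (ZMod p) T (r σ)) := by
  obtain ⟨t, d, h1, h2⟩ := chl_core ρ.residual.finrank_eq hT ρ.residual.ρ r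
    ρ.residual.factorsThroughFiniteLevel hlev S a (chl_frob_residual ρ S a hρ) hr σ
  rw [(chl_trace_det ρ.residual.finrank_eq _ h1).1, (chl_trace_det hT _ h2).1, map_intCast]

/-- the link at `n = 1`, determinants -/
theorem chl_residual_det (ρ : GaloisRepAdic O) (hT : Module.finrank (ZMod p) T = 2)
    (r : GQ →* Module.End (ZMod p) T) (hlev : GaloisFactorsThroughFiniteLevel r)
    (S : Finset ℕ) (a : ℕ → ℤ) (hρ : ChlFrob ρ.ρ S a) (hr : ChlFrob r S a)
    (ι : ZMod p →+* IsLocalRing.ResidueField O) (σ : GQ) :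
    LinearMap.det (ρ.residual.ρ σ) = ι (LinearMap.det (r σ)) := by
  obtain ⟨t, d, h1, h2⟩ := chl_core ρ.residual.finrank_eq hT ρ.residual.ρ r
    ρ.residual.factorsThroughFiniteLevel hlev S a (chl_frob_residual ρ S a hρ) hr σ
  rw [(chl_trace_det ρ.residual.finrank_eq _ h1).2, (chl_trace_det hT _ h2).2, map_intCast]

end Residual

end Fermat.Agent.S58lib

end
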