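/-
Item 84 (S58), piece 84-I (helper13): the coefficient data `S`, `O'`, `chig`, `iota` of the
statements S35 / S36 for a newform with rational integer eigenvalues.  Complete proofs.

* `opr_range_int`: a character of the Hecke algebra away from `S` (`S` containing the primes of the
  level) with integer values at the `T_ℓ` has integer values everywhere;
* `oprIota`: the ring homomorphism `chig.range → O'` of such a character, for any ring `O'`;
  `oprIota_apply`, `oprIota_T`;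
* `oprChi`: the character of a newform (`ecChar` of item 72), `oprChi_T`;
* `oprS`: the finite set `{lam} ∪ {primes dividing N}`;
* `opr_int_W`, `oprIotaW`, `oprIotaW_T`, `opr_algebraMap_iotaW_T`: the case of the newform `f₀` of
  level `M ∣ N` with `a_ℓ(f₀) = a_ℓ(W)` at the good primes `ℓ ∤ N` (`MinLevel.lean`);
* `opr_lam_mem_maximalIdeal`: `O' = ℤ_[lam]` satisfies the hypothesis `hlamO'`.
-/
import Mathlib
import Fermat.Agent.GalRep.EigenChar
import Fermat.Agent.GalRep.CompleteDVR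
import Fermat.Prelude.Def_CuspForm_Newforms
import Fermat.Prelude.Def_FLTPrelim_Modularity

set_option autoImplicit false
set_option linter.style.longLine false
set_option linter.unusedSectionVars false
set_option linter.unusedVariables false

noncomputable section

namespace Fermat.Agent.S58lib

open CuspForm ModularFormClass Fermat.Agent.GalRep

/-! ### Characters with integer values -/

/-- A character of the Hecke algebra away from `S`, where `S` contains the primes dividing the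
level, with integer values at the generators `T_ℓ`, has integer values. -/
theorem opr_range_int {M : ℕ} [NeZero M] (S : Set ℕ) (chig : CuspForm.heckeAlgebra M 2 S →+* ℂ)
    (hMS : ∀ q : ℕ, q.Prime → q ∣ M → q ∈ S)
    (hT : ∀ (ℓ : ℕ) (hℓ : ℓ.Prime) (hℓM : ¬ ℓ ∣ M) (hℓS : ℓ ∉ S),
      ∃ n : ℤ, chig (CuspForm.heckeAlgebra.T hℓ hℓM hℓS) = (n : ℂ))
    (t : CuspForm.heckeAlgebra M 2 S) : ∃ n : ℤ, chig t = (n : ℂ) := by
  obtain ⟨t, ht⟩ := t
  induction ht using Algebra.adjoin_induction with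
  | mem x hx =>
    rcases hx with ⟨ℓ, hℓ, hℓN, hℓS, rfl⟩ | ⟨q, hqN, hq, hqS, rfl⟩
    · exact hT ℓ hℓ hℓN hℓS
    · exact absurd (hMS q hq hqN) hqS
  | algebraMap r =>
    refine ⟨r, ?_⟩
    have h1 : (⟨algebraMap ℤ _ r, Subalgebra.algebraMap_mem _ r⟩ : CuspForm.heckeAlgebra M 2 S)
        = ((r : ℤ) : CuspForm.heckeAlgebra M 2 S) := by
      apply Subtype.ext
      simp
    rw [h1, map_intCast]
  | add x y hx hy hx' hy' =>
    obtain ⟨n, hn⟩ := hx'
    obtain ⟨m, hm⟩ := hy'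
    refine ⟨n + m, ?_⟩
    have h1 : (⟨x + y, Subalgebra.add_mem _ hx hy⟩ : CuspForm.heckeAlgebra M 2 S)
        = ⟨x, hx⟩ + ⟨y, hy⟩ := rfl
    rw [h1, map_add, hn, hm]
    push_cast
    rfl
  | mul x y hx hy hx' hy' =>
    obtain ⟨n, hn⟩ := hx'
    obtain ⟨m, hm⟩ := hy'
    refine ⟨n * m, ?_⟩
    have h1 : (⟨x * y, Subalgebra.mul_mem _ hx hy⟩ : CuspForm.heckeAlgebra M 2 S)
        = ⟨x, hx⟩ * ⟨y, hy⟩ := rfl
    rw [h1, map_mul, hn, hm]
    push_cast
    rfl

section Iota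

variable {M : ℕ} [NeZero M] {S : Set ℕ} (chig : CuspForm.heckeAlgebra M 2 S →+* ℂ)
  (h : ∀ t : CuspForm.heckeAlgebra M 2 S, ∃ n : ℤ, chig t = (n : ℂ))

include h in
theorem opr_range_exists (x : chig.range) : ∃ n : ℤ, (x : ℂ) = (n : ℂ) := by
  obtain ⟨x, t, rfl⟩ := x
  exact h t

/-- the integer underlying a value of an integer valued character -/
def oprInt (x : chig.range) : ℤ := Classical.choose (opr_range_exists chig h x)

theorem oprInt_spec (x : chig.range) : (x : ℂ) = ((oprInt chig h x : ℤ) : ℂ) :=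
  Classical.choose_spec (opr_range_exists chig h x)

theorem oprInt_eq (x : chig.range) (n : ℤ) (hn : (x : ℂ) = (n : ℂ)) : oprInt chig h x = n := by
  have h1 := oprInt_spec chig h x
  rw [hn] at h1
  exact (Int.cast_injective h1).symm

/-- the ring homomorphism `chig.range → ℤ` of an integer valued character -/
def oprIntHom : chig.range →+* ℤ where
  toFun := oprInt chig h
  map_one' := oprInt_eq chig h 1 1 (by simp)
  map_zero' := oprInt_eq chig h 0 0 (by simp)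
  map_mul' x y := oprInt_eq chig h (x * y) _ (by
    rw [Subring.coe_mul, oprInt_spec chig h x, oprInt_spec chig h y]
    push_cast
    rw [← oprInt_spec chig h x, ← oprInt_spec chig h y])
  map_add' x y := oprInt_eq chig h (x + y) _ (by
    rw [Subring.coe_add, oprInt_spec chig h x, oprInt_spec chig h y]
    push_cast
    rw [← oprInt_spec chig h x, ← oprInt_spec chig h y])

/-- **`iota`**: the ring homomorphism `chig.range → O'` of an integer valued character, for any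
ring `O'`. -/
def oprIota (O' : Type) [CommRing O'] : chig.range →+* O' :=
  (Int.castRingHom O').comp (oprIntHom chig h)

theorem oprIota_apply (O' : Type) [CommRing O'] (t : CuspForm.heckeAlgebra M 2 S) (n : ℤ)
    (hn : chig t = (n : ℂ)) :
    (oprIota chig h O').comp chig.rangeRestrict t = (n : O') := by
  show (Int.castRingHom O') (oprInt chig h (chig.rangeRestrict t)) = (n : O')
  rw [oprInt_eq chig h (chig.rangeRestrict t) n hn]
  rfl

theorem oprIota_coe (O' : Type) [CommRing O'] (x : chig.range) (n : ℤ)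
    (hn : (x : ℂ) = (n : ℂ)) : oprIota chig h O' x = (n : O') := by
  show (Int.castRingHom O') (oprInt chig h x) = (n : O')
  rw [oprInt_eq chig h x n hn]
  rfl

/-- compatibility with a ring homomorphism `O' → O''` -/
theorem opr_map_iota (O' O'' : Type) [CommRing O'] [CommRing O''] (φ : O' →+* O'')
    (x : chig.range) : φ (oprIota chig h O' x) = oprIota chig h O'' x := by
  show φ ((Int.castRingHom O') (oprInt chig h x)) = (Int.castRingHom O'') (oprInt chig h x)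
  simp

end Iota

/-! ### The character of a newform -/

/-- the character of the Hecke algebra away from `S` attached to a newform -/
def oprChi {M : ℕ} [NeZero M] {f₀ : CuspForm (CongruenceSubgroup.Gamma0 M) 2}
    (hf₀ : f₀.IsNewform) (S : Set ℕ) : CuspForm.heckeAlgebra M 2 S →+* ℂ :=
  ecChar hf₀.isNormalizedEigenform S

/-- `hchig` of S35 / S36 -/
theorem oprChi_T {M : ℕ} [NeZero M] {f₀ : CuspForm (CongruenceSubgroup.Gamma0 M) 2}
    (hf₀ : f₀.IsNewform) (S : Set ℕ) (ℓ : ℕ) (hℓ : ℓ.Prime) (hℓM : ¬ ℓ ∣ M) (hℓS : ℓ ∉ S) :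
    oprChi hf₀ S (CuspForm.heckeAlgebra.T hℓ hℓM hℓS) = ModularFormClass.qCoeff f₀ ℓ :=
  ecChar_T hf₀.isNormalizedEigenform S hℓ hℓM hℓS

/-! ### The set `S` -/

/-- the finite set `{lam} ∪ {primes dividing N}` -/
def oprS (N lam : ℕ) : Finset ℕ := insert lam N.primeFactors

theorem opr_lam_mem_S (N lam : ℕ) : lam ∈ oprS N lam := Finset.mem_insert_self _ _

theorem opr_prime_mem_S {N : ℕ} (hN : N ≠ 0) (lam : ℕ) (q : ℕ) (hq : q.Prime) (hqN : q ∣ N) :
    q ∈ oprS N lam :=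
  Finset.mem_insert_of_mem (Nat.mem_primeFactors.2 ⟨hq, hqN, hN⟩)

theorem opr_prime_mem_S_of_dvd {N M : ℕ} (hN : N ≠ 0) (hMN : M ∣ N) (lam : ℕ) (q : ℕ)
    (hq : q.Prime) (hqM : q ∣ M) : q ∈ oprS N lam :=
  opr_prime_mem_S hN lam q hq (hqM.trans hMN)

theorem opr_not_dvd_of_not_mem_S {N : ℕ} (hN : N ≠ 0) (lam : ℕ) (ℓ : ℕ) (hℓ : ℓ.Prime)
    (hℓS : ℓ ∉ oprS N lam) : ¬ ℓ ∣ N := fun h => hℓS (opr_prime_mem_S hN lam ℓ hℓ h)

theorem opr_ne_lam_of_not_mem_S (N lam : ℕ) (ℓ : ℕ) (hℓS : ℓ ∉ oprS N lam) : ℓ ≠ lam :=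
  fun h => hℓS (h ▸ opr_lam_mem_S N lam)

/-! ### The newform of an elliptic curve -/

section Curve

variable (W : WeierstrassCurve ℤ) {N M : ℕ} [NeZero M]
  (hbad : ∀ ℓ : ℕ, ℓ.Prime → (ℓ : ℤ) ∣ W.Δ → ℓ ∣ N)
  {f₀ : CuspForm (CongruenceSubgroup.Gamma0 M) 2} (hf₀ : f₀.IsNewform)
  (hc : ∀ ℓ : ℕ, ℓ.Prime → W.IsGoodPrimeFor ℓ → ¬ ℓ ∣ N →
    ModularFormClass.qCoeff f₀ ℓ = (W.apOfModel ℓ : ℂ))
  (S : Set ℕ) (hNS : ∀ q : ℕ, q.Prime → q ∣ N → q ∈ S)

include hbad hc hNS in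
/-- the value of the character at `T_ℓ`, `ℓ ∉ S`, is `a_ℓ(W)` -/
theorem oprChi_T_W (ℓ : ℕ) (hℓ : ℓ.Prime) (hℓM : ¬ ℓ ∣ M) (hℓS : ℓ ∉ S) :
    oprChi hf₀ S (CuspForm.heckeAlgebra.T hℓ hℓM hℓS) = ((W.apOfModel ℓ : ℤ) : ℂ) := by
  have hℓN : ¬ ℓ ∣ N := fun h => hℓS (hNS ℓ hℓ h)
  rw [oprChi_T, hc ℓ hℓ (fun h => hℓN (hbad ℓ hℓ h)) hℓN]

include hbad hc hNS in
/-- the character of the newform of `W` has integer values -/
theorem opr_int_W (hMN : M ∣ N) (t : CuspForm.heckeAlgebra M 2 S) :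
    ∃ n : ℤ, oprChi hf₀ S t = (n : ℂ) :=
  opr_range_int S (oprChi hf₀ S) (fun q hq hqM => hNS q hq (hqM.trans hMN))
    (fun ℓ hℓ hℓM hℓS => ⟨W.apOfModel ℓ, oprChi_T_W W hbad hf₀ hc S hNS ℓ hℓ hℓM hℓS⟩) t

/-- **`iota` for the newform of `W`**, into any ring `O'` -/
def oprIotaW (hMN : M ∣ N) (O' : Type) [CommRing O'] : (oprChi hf₀ S).range →+* O' :=
  oprIota (oprChi hf₀ S) (opr_int_W W hbad hf₀ hc S hNS hMN) O'

/-- `iota (chig T_ℓ) = a_ℓ(W)` -/
theorem oprIotaW_T (hMN : M ∣ N) (O' : Type) [CommRing O'] (ℓ : ℕ) (hℓ : ℓ.Prime)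
    (hℓM : ¬ ℓ ∣ M) (hℓS : ℓ ∉ S) :
    ((oprIotaW W hbad hf₀ hc S hNS hMN O').comp (oprChi hf₀ S).rangeRestrict)
      (CuspForm.heckeAlgebra.T hℓ hℓM hℓS) = ((W.apOfModel ℓ : ℤ) : O') :=
  oprIota_apply (oprChi hf₀ S) (opr_int_W W hbad hf₀ hc S hNS hMN) O' _ _
    (oprChi_T_W W hbad hf₀ hc S hNS ℓ hℓ hℓM hℓS)

/-- the coefficient of `X` in the characteristic polynomials of S35 / S36, in any `O'`-algebra -/
theorem opr_algebraMap_iotaW_T (hMN : M ∣ N) (O' O'' : Type) [CommRing O'] [CommRing O'']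
    [Algebra O' O''] (ℓ : ℕ) (hℓ : ℓ.Prime) (hℓM : ¬ ℓ ∣ M) (hℓS : ℓ ∉ S) :
    algebraMap O' O'' (((oprIotaW W hbad hf₀ hc S hNS hMN O').comp
      (oprChi hf₀ S).rangeRestrict) (CuspForm.heckeAlgebra.T hℓ hℓM hℓS)) =
      ((W.apOfModel ℓ : ℤ) : O'') := by
  rw [oprIotaW_T, map_intCast]

end Curve

/-! ### `O' = ℤ_[lam]` -/

/-- `hlamO'` for `O' = ℤ_[lam]` -/
theorem opr_lam_mem_maximalIdeal (lam : ℕ) [Fact lam.Prime] :
    (lam : ℤ_[lam]) ∈ IsLocalRing.maximalIdeal ℤ_[lam] :=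
  cdvr_natCast_mem_maximalIdeal lam

end Fermat.Agent.S58lib

end
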