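/-
Item 84 (S58), piece 84-I, general form (helper13): a complete discrete valuation ring over `lam`
receiving INJECTIVELY the ring of eigenvalues of any character of the Hecke algebra.
Complete proofs.

* `opr_injective_of_int`: a ring homomorphism from a domain integral over `ℤ` to a ring of
  characteristic `0` without zero divisors is injective;
* `opr_exists_cdvr`: a domain of characteristic `0`, finite over `ℤ`, embeds into a complete
  discrete valuation ring `O'` (characteristic `0`, finite residue field) with `lam ∈ 𝔪_{O'}`;
* `opr_finite_range`: the ring of values of a character of the Hecke algebra is finite over `ℤ`;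
* `opr_exists_iota`: `O'` and an INJECTIVE `iota : chig.range →+* O'` for any character `chig`
  of the Hecke algebra (the inputs `O'`, `hlamO'`, `iota` of S35 / S36);
* `opr_iota_eq_intCast`: if `chig t = n ∈ ℤ` then `iota (chig t) = n`.
-/
import Mathlib
import Fermat.Agent.GalRep.EigenChar
import Fermat.Agent.GalRep.CompleteDVR
import Fermat.Agent.GalRep.ExtendChar

set_option autoImplicit false
set_option linter.style.longLine false
set_option linter.unusedSectionVars false
set_option linter.unusedVariables false
set_option linter.style.haveILetI false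

noncomputable section

namespace Fermat.Agent.S58lib

open CuspForm ModularFormClass Fermat.Agent.GalRep

/-- a ring homomorphism from a domain which is integral over `ℤ` to a domain of characteristic
`0` is injective -/
theorem opr_injective_of_int {B O' : Type} [CommRing B] [IsDomain B] [Algebra.IsIntegral ℤ B]
    [CommRing O'] [IsDomain O'] [CharZero O'] (j : B →+* O') : Function.Injective j := by
  rw [RingHom.injective_iff_ker_eq_bot]
  haveI : (RingHom.ker j).IsPrime := RingHom.ker_isPrime j
  apply Ideal.eq_bot_of_comap_eq_bot (R := ℤ)
  rw [eq_bot_iff]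
  intro n hn
  rw [Ideal.mem_comap, RingHom.mem_ker, eq_intCast, map_intCast] at hn
  rw [Ideal.mem_bot]
  exact_mod_cast hn

/-- **a complete discrete valuation ring over `lam` receiving a given order**: a domain of
characteristic `0` which is finite over `ℤ` embeds into a complete discrete valuation ring of
characteristic `0` with finite residue field in which `lam` is not a unit. -/
theorem opr_exists_cdvr (lam : ℕ) [Fact lam.Prime] (B : Type) [CommRing B] [IsDomain B]
    [CharZero B] [Module.Finite ℤ B] :
    ∃ (O' : Type) (_ : CommRing O') (_ : IsDomain O') (_ : IsDiscreteValuationRing O')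
      (_ : IsAdicComplete (IsLocalRing.maximalIdeal O') O')
      (_ : Finite (IsLocalRing.ResidueField O')) (_ : CharZero O') (j : B →+* O'),
      (lam : O') ∈ IsLocalRing.maximalIdeal O' ∧ Function.Injective j := by
  obtain ⟨O', i1, i2, i3, i4, i5, i6, i7, i8, i9, χ', hinj, -⟩ :=
    exists_extension_of_char (Int.castRingHom B) Int.cast_injective ℤ_[lam]
      (Int.castRingHom ℤ_[lam])
  refine ⟨O', i1, i2, i3, i4, i5, i6, χ', ?_, ?_⟩
  · have h1 : (lam : O') = algebraMap ℤ_[lam] O' (lam : ℤ_[lam]) := (map_natCast _ lam).symm
    rw [h1, IsLocalRing.mem_maximalIdeal, mem_nonunits_iff]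
    intro hu
    have := (isUnit_map_iff (algebraMap ℤ_[lam] O') _).mp hu
    exact (IsLocalRing.mem_maximalIdeal _).mp (cdvr_natCast_mem_maximalIdeal lam) this
  · haveI : Algebra.IsIntegral ℤ B := Algebra.IsIntegral.of_finite ℤ B
    exact opr_injective_of_int χ'

/-- the ring of values of a character of the Hecke algebra is finite over `ℤ` -/
theorem opr_finite_range {M : ℕ} [NeZero M] (S : Set ℕ)
    (chig : CuspForm.heckeAlgebra M 2 S →+* ℂ) : Module.Finite ℤ chig.range := by
  haveI : Module.Finite ℤ (CuspForm.heckeAlgebra M 2 S) := Fermat.Agent.S22.result M 2 S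
  exact Module.Finite.of_surjective chig.rangeRestrict.toIntAlgHom.toLinearMap
    chig.rangeRestrict_surjective

/-- **`O'` and an injective `iota`** for any character of the Hecke algebra: the inputs `O'`,
`hlamO'`, `iota` of S35 / S36, with `iota` injective. -/
theorem opr_exists_iota {M : ℕ} [NeZero M] (S : Set ℕ)
    (chig : CuspForm.heckeAlgebra M 2 S →+* ℂ) (lam : ℕ) [Fact lam.Prime] :
    ∃ (O' : Type) (_ : CommRing O') (_ : IsDomain O') (_ : IsDiscreteValuationRing O')
      (_ : IsAdicComplete (IsLocalRing.maximalIdeal O') O')
      (_ : Finite (IsLocalRing.ResidueField O')) (_ : CharZero O') (iota : chig.range →+* O'),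
      (lam : O') ∈ IsLocalRing.maximalIdeal O' ∧ Function.Injective iota := by
  haveI : Module.Finite ℤ chig.range := opr_finite_range S chig
  haveI : CharZero chig.range :=
    ⟨fun a b h => Nat.cast_injective (R := ℂ) (by
      have h1 := congrArg (fun x : chig.range => (x : ℂ)) h
      simpa using h1)⟩
  exact opr_exists_cdvr lam chig.range

/-- an integer value of the character is sent to the same integer by any `iota` -/
theorem opr_iota_eq_intCast {M : ℕ} [NeZero M] {S : Set ℕ}
    (chig : CuspForm.heckeAlgebra M 2 S →+* ℂ) {O' : Type} [CommRing O']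
    (iota : chig.range →+* O') (t : CuspForm.heckeAlgebra M 2 S) (n : ℤ)
    (hn : chig t = (n : ℂ)) : (iota.comp chig.rangeRestrict) t = (n : O') := by
  have h1 : chig.rangeRestrict t = ((n : ℤ) : chig.range) := by
    apply Subtype.ext
    rw [RingHom.coe_rangeRestrict, hn]
    simp
  rw [RingHom.comp_apply, h1, map_intCast]

/-- conversely, for an injective `iota` into a ring of characteristic `0`: if
`iota (chig t) = n` then `chig t = n` -/
theorem opr_eq_intCast_of_iota {M : ℕ} [NeZero M] {S : Set ℕ}
    (chig : CuspForm.heckeAlgebra M 2 S →+* ℂ) {O' : Type} [CommRing O']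
    (iota : chig.range →+* O') (hinj : Function.Injective iota)
    (t : CuspForm.heckeAlgebra M 2 S) (n : ℤ)
    (hn : (iota.comp chig.rangeRestrict) t = (n : O')) : chig t = (n : ℂ) := by
  have h1 : iota (chig.rangeRestrict t) = iota ((n : ℤ) : chig.range) := by
    rw [map_intCast]
    exact hn
  have h2 := congrArg (fun x : chig.range => (x : ℂ)) (hinj h1)
  simpa using h2

end Fermat.Agent.S58lib

end
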