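/-
Item 84 (S58), step 3 (helper12): the TRIVIAL bound for the number of points of a Weierstrass
curve over a finite prime field.

* `tvb_card_le_field`: over a finite field `F`, `#W(F) ≤ 2 #F + 1` (at most two points over each
  `x`, and the point at infinity);
* `tvb_card_pos`, `tvb_card_le`: `1 ≤ W.card ≤ 2 q + 1` for `W` over `ZMod q`;
* `tvb_trace_le`, `tvb_neg_le_trace`: `- q ≤ W.traceOfFrobenius ≤ q`;
* `tvb_apOfModel_abs_le`, `tvb_apOfModel_ne`, `tvb_apOfModel_ne_neg`: for `W` over `ℤ`,
  `|a_q(W)| ≤ q`, so `a_q(W) ≠ q + 1` and `a_q(W) ≠ -(q + 1)`.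

No Hasse inequality is needed.  Complete proofs.
-/
import Mathlib
import Fermat.Prelude.Def_FLTPrelim_Modularity

set_option autoImplicit false

noncomputable section

namespace Fermat.Agent.S58lib

open WeierstrassCurve WeierstrassCurve.Affine

section Field

variable {F : Type*} [Field F] (W : Affine F)

open Classical in
/-- a chosen `y` over `x` (junk value `0` if there is none) -/
def tvbY (x : F) : F := if h : ∃ y, W.Equation x y then h.choose else 0

theorem tvbY_equation {x y : F} (h : W.Equation x y) : W.Equation x (tvbY W x) := by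
  have hex : ∃ y, W.Equation x y := ⟨y, h⟩
  unfold tvbY
  rw [dif_pos hex]
  exact hex.choose_spec

open Classical in
/-- the code of a point: its `x`-coordinate and whether `y` is the chosen one -/
def tvbCode : W.Point → Option (F × Bool)
  | .zero => none
  | .some x y _ => some (x, decide (y = tvbY W x))

theorem tvbCode_injective : Function.Injective (tvbCode W) := by
  classical
  rintro (_ | ⟨x, y, h⟩) (_ | ⟨x', y', h'⟩) e
  · rfl
  · simp [tvbCode] at e
  · simp [tvbCode] at e
  · simp only [tvbCode, Option.some.injEq, Prod.mk.injEq] at e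
    obtain ⟨rfl, e2⟩ := e
    have hY := tvbY_equation W h.1
    have hyy : y = y' := by
      by_cases hy : y = tvbY W x
      · have hy' : y' = tvbY W x := by
          by_contra hne
          rw [decide_eq_true hy, decide_eq_false hne] at e2
          exact Bool.noConfusion e2
        rw [hy, hy']
      · have hy' : y' ≠ tvbY W x := by
          intro heq
          rw [decide_eq_false hy, decide_eq_true heq] at e2
          exact Bool.noConfusion e2
        have h1 := (Y_eq_of_X_eq h.1 hY rfl).resolve_left hy
        have h2 := (Y_eq_of_X_eq h'.1 hY rfl).resolve_left hy'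
        rw [h1, h2]
    subst hyy
    rfl

/-- **trivial bound**: over a finite field `F`, a Weierstrass curve has at most `2 #F + 1`
(nonsingular) points -/
theorem tvb_card_le_field [Finite F] : Nat.card W.Point ≤ 2 * Nat.card F + 1 := by
  have h := Nat.card_le_card_of_injective _ (tvbCode_injective W)
  have e : Nat.card (Option (F × Bool)) = 2 * Nat.card F + 1 := by
    rw [Finite.card_option, Nat.card_prod, Nat.card_eq_fintype_card (α := Bool),
      Fintype.card_bool, mul_comm]
  exact h.trans_eq e

end Field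

section ZModq

variable (q : ℕ) [NeZero q] (W : WeierstrassCurve (ZMod q))

/-- `#W(F_q) ≥ 1` -/
theorem tvb_card_pos : 0 < W.card := by
  unfold WeierstrassCurve.card
  exact Nat.card_pos

/-- **trivial bound**: `#W(F_q) ≤ 2 q + 1` -/
theorem tvb_card_le [Fact q.Prime] : W.card ≤ 2 * q + 1 := by
  have h := tvb_card_le_field W.toAffine
  rwa [Nat.card_zmod] at h

/-- `a_q ≤ q` -/
theorem tvb_trace_le : W.traceOfFrobenius ≤ (q : ℤ) := by
  have h := tvb_card_pos q W
  unfold WeierstrassCurve.traceOfFrobenius
  rw [Nat.card_zmod]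
  omega

/-- `- q ≤ a_q` -/
theorem tvb_neg_le_trace [Fact q.Prime] : -(q : ℤ) ≤ W.traceOfFrobenius := by
  have h := tvb_card_le q W
  unfold WeierstrassCurve.traceOfFrobenius
  rw [Nat.card_zmod]
  omega

end ZModq

section OverZ

variable (W : WeierstrassCurve ℤ) (q : ℕ) [Fact q.Prime]

/-- `|a_q(W)| ≤ q` (no Hasse inequality needed) -/
theorem tvb_apOfModel_abs_le : |W.apOfModel q| ≤ (q : ℤ) := by
  have : NeZero q := ⟨(Fact.out : q.Prime).ne_zero⟩
  rw [abs_le]
  exact ⟨tvb_neg_le_trace q (W.reductionMod q), tvb_trace_le q (W.reductionMod q)⟩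

/-- `a_q(W) ≠ q + 1` -/
theorem tvb_apOfModel_ne : W.apOfModel q ≠ (q : ℤ) + 1 := by
  have h := (abs_le.mp (tvb_apOfModel_abs_le W q)).2
  omega

/-- `a_q(W) ≠ -(q + 1)` -/
theorem tvb_apOfModel_ne_neg : W.apOfModel q ≠ -((q : ℤ) + 1) := by
  have h := (abs_le.mp (tvb_apOfModel_abs_le W q)).1
  omega

/-- the form used in step 3 of S58: `X² - a_q X + q` is neither `(X - 1)(X - q)` nor
`(X + 1)(X + q)` -/
theorem tvb_apOfModel_ne_pm (ε : ℤ) (hε : ε = 1 ∨ ε = -1) :
    W.apOfModel q ≠ ε * ((q : ℤ) + 1) := by
  rcases hε with rfl | rfl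
  · rw [one_mul]; exact tvb_apOfModel_ne W q
  · rw [neg_one_mul]; exact tvb_apOfModel_ne_neg W q

end OverZ

end Fermat.Agent.S58lib

end
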