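/-
Item 84 (S58), assembly steps 4, 5, 6 of the architect's skeleton (helper13).  Complete proofs.

Setting: `W / ℤ`, `M ∣ N ≠ 0`, the bad primes of `W` divide `N`, `f₀` a newform of level `M` with
`a_ℓ(f₀) = a_ℓ(W)` at the good primes `ℓ ∤ N` (`MinLevel.lean`).

Hypotheses (as propositions, to be discharged in the final assembly):
* `StpS35`, `StpS36`: the statements S35 and S36, VERBATIM;
* `StpFrobAt W lam` (LINK 3a): a `lam`-adic representation with the Frobenius characteristic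
  polynomials `X² - a_ℓ(W) X + ℓ` outside a finite set has them at every good prime `r ≠ lam`;
* `StpUnipAt W lam` (LINK 3b): such a representation is unipotent on inertia at every `q ≠ lam`;
* `StpResAt W p` (LINK 3c = hres): its residual representation is absolutely irreducible and odd.

Results:
* `stp_rho_S35`: the representation of S35 for `f₀` over `ℤ_[lam]`, in terms of `a_ℓ(W)`;
* `stp_not_sq_dvd` (step 4): no `q²` divides `M` (`q ≠ p`, `q³ ∤ M`);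
* `stp_bad_of_dvd` (step 5): a prime `q ∥ M` is bad for `W`;
* `stp_coeff_good` (step 6): `a_r(f₀) = a_r(W)` at every good prime `r ∤ M`;
* `stp_main`: `M` is squarefree, `M ∣ W.conductorLevel`, and `a_r(f₀) = a_r(W)` at EVERY good
  prime `r`.
-/
import Mathlib
import Fermat.Agent.S58lib.OPrime
import Fermat.Agent.S58lib.OPrimeGen
import Fermat.Agent.S58lib.ChebLink
import Fermat.Agent.S58lib.TrivBound
import Fermat.Agent.FrobProfinite
import Fermat.Prelude.Def_CuspForm_HeckeGaloisRepDatum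
import Fermat.Prelude.Def_CuspForm_Newforms
import Fermat.Prelude.Def_GaloisRep_LocalConditions
import Fermat.Prelude.Def_GaloisRep_Residual
import Fermat.Prelude.Def_WeierstrassCurve_ConductorLevel

set_option autoImplicit false
set_option linter.style.longLine false
set_option linter.unusedSectionVars false
set_option linter.unusedVariables false
set_option linter.style.haveILetI false

noncomputable section

namespace Fermat.Agent.S58lib

open CuspForm ModularFormClass Polynomial Fermat.Agent.GalRep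

/-! ### The hypotheses -/

/-- the statement of S35, verbatim -/
def StpS35 : Prop :=
  ∀ {M : ℕ} [NeZero M] {g : CuspForm (CongruenceSubgroup.Gamma0 M) 2} (hg : g.IsNewform)
    (lam : ℕ) [Fact lam.Prime]
    (S : Finset ℕ)
    (O' : Type) [CommRing O'] [IsDomain O'] [IsDiscreteValuationRing O']
    [IsAdicComplete (IsLocalRing.maximalIdeal O') O'] [Finite (IsLocalRing.ResidueField O')]
    [CharZero O'] (hlamO' : (lam : O') ∈ IsLocalRing.maximalIdeal O')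
    (chig : CuspForm.heckeAlgebra M 2 (↑S : Set ℕ) →+* ℂ)
    (hchig : ∀ (ℓ : ℕ) (hℓ : ℓ.Prime) (hℓM : ¬ ℓ ∣ M) (hℓS : ℓ ∉ (↑S : Set ℕ)),
      chig (CuspForm.heckeAlgebra.T hℓ hℓM hℓS) = ModularFormClass.qCoeff g ℓ)
    (iota : chig.range →+* O')
    (hlamS : lam ∈ S) (hMS : ∀ q : ℕ, q.Prime → q ∣ M → q ∈ S),
    ∃ (O'' : Type) (_ : CommRing O'') (_ : IsDomain O'') (_ : IsDiscreteValuationRing O'')
      (_ : IsAdicComplete (IsLocalRing.maximalIdeal O'') O'') (_ : Finite (IsLocalRing.ResidueField O''))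
      (_ : CharZero O'') (_ : Algebra O' O'') (_ : Module.Finite O' O'') (_ : IsLocalHom (algebraMap O' O'')),
      Function.Injective (algebraMap O' O'') ∧
      ∃ ρ : GaloisRepAdic O'',
        (∀ (ℓ : ℕ) (hℓ : ℓ.Prime) (hℓM : ¬ ℓ ∣ M) (hℓS : ℓ ∉ (↑S : Set ℕ)),
          ∀ A : ValuationSubring (AlgebraicClosure ℚ), A.LiesOverPrime ℓ →
            ∀ σ : AlgebraicClosure ℚ ≃ₐ[ℚ] AlgebraicClosure ℚ, A.IsFrobeniusAt σ ℓ →
              LinearMap.charpoly (ρ.ρ σ) =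
                X ^ 2 - C (algebraMap O' O'' ((iota.comp chig.rangeRestrict) (CuspForm.heckeAlgebra.T hℓ hℓM hℓS))) * X
                  + C ((ℓ : O''))) ∧
        (∀ q : ℕ, q.Prime → q ≠ lam → q ∣ M → ¬ q ^ 2 ∣ M →
          ∀ A : ValuationSubring (AlgebraicClosure ℚ), A.LiesOverPrime q →
            ∀ σ : AlgebraicClosure ℚ ≃ₐ[ℚ] AlgebraicClosure ℚ, A.IsFrobeniusAt σ q →
              LinearMap.charpoly (ρ.ρ σ) = X ^ 2 - C ((q : O'') + 1) * X + C ((q : O'')) ∨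
              LinearMap.charpoly (ρ.ρ σ) = X ^ 2 + C ((q : O'') + 1) * X + C ((q : O'')))

/-- the statement of S36, verbatim -/
def StpS36 : Prop :=
  ∀ {M : ℕ} [NeZero M] {g : CuspForm (CongruenceSubgroup.Gamma0 M) 2} (hg : g.IsNewform)
    (lam : ℕ) [Fact lam.Prime]
    (S : Finset ℕ)
    (O' : Type) [CommRing O'] [IsDomain O'] [IsDiscreteValuationRing O']
    [IsAdicComplete (IsLocalRing.maximalIdeal O') O'] [Finite (IsLocalRing.ResidueField O')]
    [CharZero O'] (hlamO' : (lam : O') ∈ IsLocalRing.maximalIdeal O')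
    (hlam2 : lam ≠ 2)
    (chig : CuspForm.heckeAlgebra M 2 (↑S : Set ℕ) →+* ℂ)
    (hchig : ∀ (ℓ : ℕ) (hℓ : ℓ.Prime) (hℓM : ¬ ℓ ∣ M) (hℓS : ℓ ∉ (↑S : Set ℕ)),
      chig (CuspForm.heckeAlgebra.T hℓ hℓM hℓS) = ModularFormClass.qCoeff g ℓ)
    (iota : chig.range →+* O')
    (hlamS : lam ∈ S) (hMS : ∀ q : ℕ, q.Prime → q ∣ M → q ∈ S)
    (hres : ∀ (O'' : Type) [CommRing O''] [IsDomain O''] [IsDiscreteValuationRing O'']
      [IsAdicComplete (IsLocalRing.maximalIdeal O'') O''] [Finite (IsLocalRing.ResidueField O'')] [CharZero O'']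
      [Algebra O' O''] [Module.Finite O' O''] [IsLocalHom (algebraMap O' O'')],
      Function.Injective (algebraMap O' O'') → ∀ (ρ : GaloisRepAdic O''),
      (∀ (ℓ : ℕ) (hℓ : ℓ.Prime) (hℓlam : ℓ ≠ lam) (hℓM : ¬ ℓ ∣ M) (hℓS : ℓ ∉ (↑S : Set ℕ)),
        ∀ A : ValuationSubring (AlgebraicClosure ℚ), A.LiesOverPrime ℓ →
          ∀ σ : AlgebraicClosure ℚ ≃ₐ[ℚ] AlgebraicClosure ℚ, A.IsFrobeniusAt σ ℓ →
            LinearMap.charpoly (ρ.ρ σ) =
              X ^ 2 - C (algebraMap O' O'' ((iota.comp chig.rangeRestrict) (CuspForm.heckeAlgebra.T hℓ hℓM hℓS))) * X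
                + C ((ℓ : O'')))
      → ρ.residual.IsAbsolutelyIrreducible ∧ ρ.residual.IsOdd),
    ∃ (O'' : Type) (_ : CommRing O'') (_ : IsDomain O'') (_ : IsDiscreteValuationRing O'')
      (_ : IsAdicComplete (IsLocalRing.maximalIdeal O'') O'') (_ : Finite (IsLocalRing.ResidueField O''))
      (_ : CharZero O'') (_ : Algebra O' O'') (_ : Module.Finite O' O'') (_ : IsLocalHom (algebraMap O' O'')),
      Function.Injective (algebraMap O' O'') ∧
      ∃ ρ : GaloisRepAdic O'',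
        (∀ (ℓ : ℕ) (hℓ : ℓ.Prime) (hℓM : ¬ ℓ ∣ M) (hℓS : ℓ ∉ (↑S : Set ℕ)),
          ∀ A : ValuationSubring (AlgebraicClosure ℚ), A.LiesOverPrime ℓ →
            ∀ σ : AlgebraicClosure ℚ ≃ₐ[ℚ] AlgebraicClosure ℚ, A.IsFrobeniusAt σ ℓ →
              LinearMap.charpoly (ρ.ρ σ) =
                X ^ 2 - C (algebraMap O' O'' ((iota.comp chig.rangeRestrict) (CuspForm.heckeAlgebra.T hℓ hℓM hℓS))) * X
                  + C ((ℓ : O''))) ∧
        (∀ q : ℕ, q.Prime → q ≠ lam → M.factorization q = 2 → ¬ ρ.IsUnipotentOnInertiaAt q)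

/-- **LINK (3a)**: a `lam`-adic representation with the Frobenius characteristic polynomials of
`W` outside a finite set has them at every good prime `r ≠ lam`. -/
def StpFrobAt (W : WeierstrassCurve ℤ) (lam : ℕ) : Prop :=
  ∀ (O : Type) [CommRing O] [IsDomain O] [IsDiscreteValuationRing O]
    [IsAdicComplete (IsLocalRing.maximalIdeal O) O] [Finite (IsLocalRing.ResidueField O)]
    [CharZero O], (lam : O) ∈ IsLocalRing.maximalIdeal O →
    ∀ (ρ : GaloisRepAdic O) (S : Finset ℕ), ChlFrob ρ.ρ S W.apOfModel →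
    ∀ r : ℕ, r.Prime → r ≠ lam → W.IsGoodPrimeFor r →
      ∀ A : ValuationSubring (AlgebraicClosure ℚ), A.LiesOverPrime r →
        ∀ σ : GQ, A.IsFrobeniusAt σ r →
          LinearMap.charpoly (ρ.ρ σ) = X ^ 2 - C ((W.apOfModel r : ℤ) : O) * X + C ((r : ℕ) : O)

/-- **LINK (3b)**: such a representation is unipotent on inertia at every prime `q ≠ lam`. -/
def StpUnipAt (W : WeierstrassCurve ℤ) (lam : ℕ) : Prop :=
  ∀ (O : Type) [CommRing O] [IsDomain O] [IsDiscreteValuationRing O]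
    [IsAdicComplete (IsLocalRing.maximalIdeal O) O] [Finite (IsLocalRing.ResidueField O)]
    [CharZero O], (lam : O) ∈ IsLocalRing.maximalIdeal O →
    ∀ (ρ : GaloisRepAdic O) (S : Finset ℕ), ChlFrob ρ.ρ S W.apOfModel →
    ∀ q : ℕ, q.Prime → q ≠ lam → ρ.IsUnipotentOnInertiaAt q

/-- **LINK (3c) = hres**: the residual representation of such a representation is absolutely
irreducible and odd. -/
def StpResAt (W : WeierstrassCurve ℤ) (p : ℕ) : Prop :=
  ∀ (O : Type) [CommRing O] [IsDomain O] [IsDiscreteValuationRing O]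
    [IsAdicComplete (IsLocalRing.maximalIdeal O) O] [Finite (IsLocalRing.ResidueField O)]
    [CharZero O], (p : O) ∈ IsLocalRing.maximalIdeal O →
    ∀ (ρ : GaloisRepAdic O) (S : Finset ℕ), ChlFrob ρ.ρ S W.apOfModel →
    ρ.residual.IsAbsolutelyIrreducible ∧ ρ.residual.IsOdd

/-! ### Small tools -/

/-- `lam` is not a unit in a local extension of `ℤ_[lam]`-type rings -/
theorem stp_lam_mem {O' O'' : Type} [CommRing O'] [IsLocalRing O'] [CommRing O'']
    [IsLocalRing O''] [Algebra O' O''] [IsLocalHom (algebraMap O' O'')] (lam : ℕ)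
    (h : (lam : O') ∈ IsLocalRing.maximalIdeal O') :
    (lam : O'') ∈ IsLocalRing.maximalIdeal O'' := by
  have h1 : (lam : O'') = algebraMap O' O'' (lam : O') := (map_natCast _ lam).symm
  rw [h1, IsLocalRing.mem_maximalIdeal, mem_nonunits_iff]
  intro hu
  exact (IsLocalRing.mem_maximalIdeal _).mp h ((isUnit_map_iff (algebraMap O' O'') _).mp hu)

/-- the exponent of `q` in `M` is `2` if `q² ∣ M` and `q³ ∤ M` -/
theorem stp_factorization_eq_two {M q : ℕ} (hM : M ≠ 0) (hq : q.Prime) (h2 : q ^ 2 ∣ M)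
    (h3 : ¬ q ^ 3 ∣ M) : M.factorization q = 2 := by
  have a := (hq.pow_dvd_iff_le_factorization hM).1 h2
  have b : ¬ 3 ≤ M.factorization q := fun h => h3 ((hq.pow_dvd_iff_le_factorization hM).2 h)
  omega

/-! ### The steps -/

section Steps

variable (W : WeierstrassCurve ℤ) {N M : ℕ} [NeZero M] (hN : N ≠ 0) (hMN : M ∣ N)
  (hbad : ∀ ℓ : ℕ, ℓ.Prime → (ℓ : ℤ) ∣ W.Δ → ℓ ∣ N)
  {f₀ : CuspForm (CongruenceSubgroup.Gamma0 M) 2} (hf₀ : f₀.IsNewform)
  (hc : ∀ ℓ : ℕ, ℓ.Prime → W.IsGoodPrimeFor ℓ → ¬ ℓ ∣ N →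
    ModularFormClass.qCoeff f₀ ℓ = (W.apOfModel ℓ : ℂ))

include hN hMN hbad hf₀ hc in
/-- **the representation of S35 for `f₀`**, over an extension of `ℤ_[lam]`, with the Frobenius
characteristic polynomials of `W` outside `oprS N lam = {lam} ∪ primes(N)`. -/
theorem stp_rho_S35 (hS35 : StpS35) (lam : ℕ) [Fact lam.Prime] :
    ∃ (O'' : Type) (_ : CommRing O'') (_ : IsDomain O'') (_ : IsDiscreteValuationRing O'')
      (_ : IsAdicComplete (IsLocalRing.maximalIdeal O'') O'')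
      (_ : Finite (IsLocalRing.ResidueField O'')) (_ : CharZero O''),
      (lam : O'') ∈ IsLocalRing.maximalIdeal O'' ∧
      ∃ ρ : GaloisRepAdic O'', ChlFrob ρ.ρ (oprS N lam) W.apOfModel ∧
        (∀ q : ℕ, q.Prime → q ≠ lam → q ∣ M → ¬ q ^ 2 ∣ M →
          ∀ A : ValuationSubring (AlgebraicClosure ℚ), A.LiesOverPrime q →
            ∀ σ : GQ, A.IsFrobeniusAt σ q →
              LinearMap.charpoly (ρ.ρ σ) = X ^ 2 - C ((q : O'') + 1) * X + C ((q : O'')) ∨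
              LinearMap.charpoly (ρ.ρ σ) = X ^ 2 + C ((q : O'') + 1) * X + C ((q : O''))) := by
  have hNS : ∀ q : ℕ, q.Prime → q ∣ N → q ∈ (↑(oprS N lam) : Set ℕ) :=
    fun q hq hqN => opr_prime_mem_S hN lam q hq hqN
  obtain ⟨O'', i1, i2, i3, i4, i5, i6, i7, i8, i9, hinj, ρ, hρ, hρq⟩ :=
    hS35 hf₀ lam (oprS N lam) ℤ_[lam] (opr_lam_mem_maximalIdeal lam)
      (oprChi hf₀ ↑(oprS N lam)) (oprChi_T hf₀ ↑(oprS N lam))
      (oprIotaW W hbad hf₀ hc ↑(oprS N lam) hNS hMN ℤ_[lam])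
      (opr_lam_mem_S N lam) (fun q hq hqM => opr_prime_mem_S_of_dvd hN hMN lam q hq hqM)
  refine ⟨O'', i1, i2, i3, i4, i5, i6, stp_lam_mem lam (opr_lam_mem_maximalIdeal lam), ρ, ?_,
    hρq⟩
  intro ℓ hℓ hℓS A hA σ hσ
  have hℓS' : ℓ ∉ (↑(oprS N lam) : Set ℕ) := hℓS
  have hℓM : ¬ ℓ ∣ M := fun h => opr_not_dvd_of_not_mem_S hN lam ℓ hℓ hℓS (h.trans hMN)
  rw [hρ ℓ hℓ hℓM hℓS' A hA σ hσ, opr_algebraMap_iotaW_T]

include hN hMN hbad hf₀ hc in
/-- **step 5**: a prime `q ∥ M` is bad for `W`.  (`lam` is any prime `≠ q` with LINK (3a).) -/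
theorem stp_bad_of_dvd (hS35 : StpS35) (lam : ℕ) [Fact lam.Prime] (hfrob : StpFrobAt W lam)
    (q : ℕ) (hq : q.Prime) (hqlam : q ≠ lam) (hqM : q ∣ M) (hq2 : ¬ q ^ 2 ∣ M) :
    (q : ℤ) ∣ W.Δ := by
  by_contra hgood
  haveI : Fact q.Prime := ⟨hq⟩
  obtain ⟨O'', i1, i2, i3, i4, i5, i6, hlam, ρ, hρ, hρq⟩ :=
    stp_rho_S35 W hN hMN hbad hf₀ hc hS35 lam
  obtain ⟨A, σ, hA, hσ⟩ := Fermat.Agent.FrobLib.exists_isFrobeniusAt q hq
  have h1 := hfrob O'' hlam ρ (oprS N lam) hρ q hq hqlam hgood A hA σ hσ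
  rcases hρq q hq hqlam hqM hq2 A hA σ hσ with h2 | h2
  · rw [h1] at h2
    have h3 := (chl_coeff_eq h2).1
    have h4 : ((W.apOfModel q : ℤ) : O'') = (((q : ℤ) + 1 : ℤ) : O'') := by
      rw [h3]
      push_cast
      rfl
    exact tvb_apOfModel_ne W q (Int.cast_injective h4)
  · rw [h1] at h2
    have h2' : (X ^ 2 - C ((W.apOfModel q : ℤ) : O'') * X + C ((q : ℕ) : O'') : O''[X]) =
        X ^ 2 - C (-((q : O'') + 1)) * X + C ((q : ℕ) : O'') := by
      rw [h2, map_neg, neg_mul, sub_neg_eq_add]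
    have h3 := (chl_coeff_eq h2').1
    have h4 : ((W.apOfModel q : ℤ) : O'') = ((-((q : ℤ) + 1) : ℤ) : O'') := by
      rw [h3]
      push_cast
      rfl
    exact tvb_apOfModel_ne_neg W q (Int.cast_injective h4)

include hN hMN hbad hf₀ hc in
/-- **step 4**: no `q²` divides `M`, for a prime `q ≠ p` with `q³ ∤ M`.  (`p` odd, LINK (3b) and
(3c) at `p`, and S36.) -/
theorem stp_not_sq_dvd (hS36 : StpS36) (p : ℕ) [Fact p.Prime] (hp2 : p ≠ 2)
    (hres : StpResAt W p) (hunip : StpUnipAt W p)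
    (q : ℕ) (hq : q.Prime) (hqp : q ≠ p) (hq3 : ¬ q ^ 3 ∣ M) : ¬ q ^ 2 ∣ M := by
  intro hq2
  have hNS : ∀ q : ℕ, q.Prime → q ∣ N → q ∈ (↑(oprS N p) : Set ℕ) :=
    fun q hq hqN => opr_prime_mem_S hN p q hq hqN
  have hfrobS : ∀ (O'' : Type) [CommRing O''] [IsDomain O''] [IsDiscreteValuationRing O'']
      [Algebra ℤ_[p] O''] (ρ : GaloisRepAdic O''),
      (∀ (ℓ : ℕ) (hℓ : ℓ.Prime) (hℓlam : ℓ ≠ p) (hℓM : ¬ ℓ ∣ M)
        (hℓS : ℓ ∉ (↑(oprS N p) : Set ℕ)),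
        ∀ A : ValuationSubring (AlgebraicClosure ℚ), A.LiesOverPrime ℓ →
          ∀ σ : AlgebraicClosure ℚ ≃ₐ[ℚ] AlgebraicClosure ℚ, A.IsFrobeniusAt σ ℓ →
            LinearMap.charpoly (ρ.ρ σ) =
              X ^ 2 - C (algebraMap ℤ_[p] O''
                (((oprIotaW W hbad hf₀ hc ↑(oprS N p) hNS hMN ℤ_[p]).comp
                  (oprChi hf₀ ↑(oprS N p)).rangeRestrict)
                    (CuspForm.heckeAlgebra.T hℓ hℓM hℓS))) * X + C ((ℓ : O''))) →
      ChlFrob ρ.ρ (oprS N p) W.apOfModel := by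
    intro O'' _ _ _ _ ρ h ℓ hℓ hℓS A hA σ hσ
    have hℓS' : ℓ ∉ (↑(oprS N p) : Set ℕ) := hℓS
    have hℓM : ¬ ℓ ∣ M := fun h => opr_not_dvd_of_not_mem_S hN p ℓ hℓ hℓS (h.trans hMN)
    rw [h ℓ hℓ (opr_ne_lam_of_not_mem_S N p ℓ hℓS) hℓM hℓS' A hA σ hσ, opr_algebraMap_iotaW_T]
  obtain ⟨O'', i1, i2, i3, i4, i5, i6, i7, i8, i9, hinj, ρ, hρ, hρq⟩ :=
    hS36 hf₀ p (oprS N p) ℤ_[p] (opr_lam_mem_maximalIdeal p) hp2
      (oprChi hf₀ ↑(oprS N p)) (oprChi_T hf₀ ↑(oprS N p))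
      (oprIotaW W hbad hf₀ hc ↑(oprS N p) hNS hMN ℤ_[p])
      (opr_lam_mem_S N p) (fun q hq hqM => opr_prime_mem_S_of_dvd hN hMN p q hq hqM)
      (by
        intro O'' _ _ _ _ _ _ _ _ _ _ ρ h
        exact hres O'' (stp_lam_mem p (opr_lam_mem_maximalIdeal p)) ρ (oprS N p)
          (hfrobS O'' ρ h))
  have hρ' : ChlFrob ρ.ρ (oprS N p) W.apOfModel :=
    hfrobS O'' ρ (fun ℓ hℓ _ hℓM hℓS A hA σ hσ => hρ ℓ hℓ hℓM hℓS A hA σ hσ)
  exact hρq q hq hqp (stp_factorization_eq_two (NeZero.ne M) hq hq2 hq3)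
    (hunip O'' (stp_lam_mem p (opr_lam_mem_maximalIdeal p)) ρ (oprS N p) hρ' q hq hqp)

include hN hMN hbad hf₀ hc in
/-- **step 6**: `a_r(f₀) = a_r(W)` at a good prime `r ∤ M`.  (`lam` is any prime `≠ r` with
LINK (3a).) -/
theorem stp_coeff_good (hS35 : StpS35) (lam : ℕ) [Fact lam.Prime] (hfrob : StpFrobAt W lam)
    (r : ℕ) (hr : r.Prime) (hrlam : r ≠ lam) (hrM : ¬ r ∣ M) (hgood : W.IsGoodPrimeFor r) :
    ModularFormClass.qCoeff f₀ r = (W.apOfModel r : ℂ) := by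
  have hM0 : M ≠ 0 := NeZero.ne M
  have hrS : r ∉ (↑(oprS M lam) : Set ℕ) := by
    intro h
    rcases Finset.mem_insert.1 h with h | h
    · exact hrlam h
    · exact hrM (Nat.dvd_of_mem_primeFactors h)
  obtain ⟨O', j1, j2, j3, j4, j5, j6, iota, hlamO', hiota⟩ :=
    opr_exists_iota (↑(oprS M lam) : Set ℕ) (oprChi hf₀ ↑(oprS M lam)) lam
  obtain ⟨O'', i1, i2, i3, i4, i5, i6, i7, i8, i9, hinj, ρ, hρ, -⟩ :=
    hS35 hf₀ lam (oprS M lam) O' hlamO'
      (oprChi hf₀ ↑(oprS M lam)) (oprChi_T hf₀ ↑(oprS M lam)) iota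
      (opr_lam_mem_S M lam) (fun q hq hqM => opr_prime_mem_S hM0 lam q hq hqM)
  -- the Frobenius condition outside `{lam} ∪ primes(N)`
  have hρ' : ChlFrob ρ.ρ (oprS N lam) W.apOfModel := by
    intro ℓ hℓ hℓS A hA σ hσ
    have hℓN : ¬ ℓ ∣ N := opr_not_dvd_of_not_mem_S hN lam ℓ hℓ hℓS
    have hℓM : ¬ ℓ ∣ M := fun h => hℓN (h.trans hMN)
    have hℓS' : ℓ ∉ (↑(oprS M lam) : Set ℕ) := by
      intro h
      rcases Finset.mem_insert.1 h with h | h
      · exact opr_ne_lam_of_not_mem_S N lam ℓ hℓS h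
      · exact hℓM (Nat.dvd_of_mem_primeFactors h)
    have hval : oprChi hf₀ ↑(oprS M lam) (CuspForm.heckeAlgebra.T hℓ hℓM hℓS')
        = ((W.apOfModel ℓ : ℤ) : ℂ) := by
      rw [oprChi_T, hc ℓ hℓ (fun h => hℓN (hbad ℓ hℓ h)) hℓN]
    rw [hρ ℓ hℓ hℓM hℓS' A hA σ hσ,
      opr_iota_eq_intCast (oprChi hf₀ ↑(oprS M lam)) iota _ _ hval, map_intCast]
  obtain ⟨A, σ, hA, hσ⟩ := Fermat.Agent.FrobLib.exists_isFrobeniusAt r hr
  have h1 := hfrob O'' (stp_lam_mem lam hlamO') ρ (oprS N lam) hρ' r hr hrlam hgood A hA σ hσ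
  have h2 := hρ r hr hrM hrS A hA σ hσ
  rw [h1] at h2
  have h3 := (chl_coeff_eq h2).1
  have h4 : algebraMap O' O'' ((iota.comp (oprChi hf₀ ↑(oprS M lam)).rangeRestrict)
      (CuspForm.heckeAlgebra.T hr hrM hrS)) = algebraMap O' O'' ((W.apOfModel r : ℤ) : O') := by
    rw [← h3, map_intCast]
  have h5 := opr_eq_intCast_of_iota (oprChi hf₀ ↑(oprS M lam)) iota hiota _ _ (hinj h4)
  rw [oprChi_T] at h5
  exact h5

include hN hMN hbad hf₀ hc in
/-- **steps 4, 5, 6 together.**  `p` odd prime with `p² ∤ N`, `N` cube-free; S35, S36; LINK (3b),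
(3c) at `p`; LINK (3a) at two distinct primes `lam₁ ≠ lam₂`.  Then `M` is squarefree, every
prime of `M` is bad for `W`, `M ∣ W.conductorLevel`, and `a_r(f₀) = a_r(W)` at EVERY good prime
`r`. -/
theorem stp_main (hS35 : StpS35) (hS36 : StpS36) (hΔ : W.Δ ≠ 0)
    (p : ℕ) [Fact p.Prime] (hp2 : p ≠ 2) (hp2N : ¬ p ^ 2 ∣ N)
    (hN3 : ∀ q : ℕ, q.Prime → ¬ q ^ 3 ∣ N)
    (hres : StpResAt W p) (hunip : StpUnipAt W p)
    (lam₁ lam₂ : ℕ) [Fact lam₁.Prime] [Fact lam₂.Prime] (hlam : lam₁ ≠ lam₂)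
    (hfrob₁ : StpFrobAt W lam₁) (hfrob₂ : StpFrobAt W lam₂) :
    Squarefree M ∧ (∀ q : ℕ, q.Prime → q ∣ M → (q : ℤ) ∣ W.Δ) ∧ M ∣ W.conductorLevel ∧
      ∀ r : ℕ, r.Prime → W.IsGoodPrimeFor r →
        ModularFormClass.qCoeff f₀ r = (W.apOfModel r : ℂ) := by
  have hM0 : M ≠ 0 := NeZero.ne M
  -- step 4
  have hsq : ∀ q : ℕ, q.Prime → ¬ q ^ 2 ∣ M := by
    intro q hq hq2
    have hqp : q ≠ p := by
      rintro rfl
      exact hp2N (hq2.trans hMN)
    exact stp_not_sq_dvd W hN hMN hbad hf₀ hc hS36 p hp2 hres hunip q hq hqp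
      (fun h => hN3 q hq (h.trans hMN)) hq2
  have hsqf : Squarefree M := by
    rw [Nat.squarefree_iff_prime_squarefree]
    intro q hq hdvd
    exact hsq q hq (by rwa [pow_two])
  -- step 5
  have hbadM : ∀ q : ℕ, q.Prime → q ∣ M → (q : ℤ) ∣ W.Δ := by
    intro q hq hqM
    by_cases h1 : q = lam₁
    · have h2 : q ≠ lam₂ := fun h => hlam (h1.symm.trans h)
      exact stp_bad_of_dvd W hN hMN hbad hf₀ hc hS35 lam₂ hfrob₂ q hq h2 hqM (hsq q hq)
    · exact stp_bad_of_dvd W hN hMN hbad hf₀ hc hS35 lam₁ hfrob₁ q hq h1 hqM (hsq q hq)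
  -- `M ∣ rad Δ`
  have hdvd : M ∣ W.conductorLevel := by
    refine (Nat.squarefree_iff_factorization_le_one hM0).1 hsqf |> fun hle => ?_
    rw [← Nat.factorization_le_iff_dvd hM0 W.conductorLevel_pos.ne']
    intro q
    by_cases hq : q.Prime
    · by_cases hqM : q ∣ M
      · have h1 : q ∣ W.conductorLevel :=
          (W.prime_dvd_conductorLevel_iff hΔ hq).2 (hbadM q hq hqM)
        have h2 : 1 ≤ (W.conductorLevel).factorization q :=
          (hq.dvd_iff_one_le_factorization W.conductorLevel_pos.ne').1 h1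
        exact (hle q).trans h2
      · rw [Nat.factorization_eq_zero_of_not_dvd hqM]
        exact Nat.zero_le _
    · rw [Nat.factorization_eq_zero_of_not_prime _ hq]
      exact Nat.zero_le _
  refine ⟨hsqf, hbadM, hdvd, ?_⟩
  -- step 6
  intro r hr hgood
  have hrM : ¬ r ∣ M := fun h => hgood (hbadM r hr h)
  by_cases h1 : r = lam₁
  · have h2 : r ≠ lam₂ := fun h => hlam (h1.symm.trans h)
    exact stp_coeff_good W hN hMN hbad hf₀ hc hS35 lam₂ hfrob₂ r hr h2 hrM hgood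
  · exact stp_coeff_good W hN hMN hbad hf₀ hc hS35 lam₁ hfrob₁ r hr h1 hrM hgood

end Steps

end Fermat.Agent.S58lib

end
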