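/-
Item 84 (S58), piece 84-D1 part 2 (helper10): THE CHEBOTAREV LINK between an adic
representation `ρ : GaloisRepAdic O` and a family of representations `r n` over
`ZMod (lam ^ n)` (`= W[lam ^ n](ℚ̄)`) with the same Frobenius polynomials `X² - a_ℓ X + ℓ` at
almost all `ℓ`.

* `chlModRep`, `chlModRep_level`, `chl_frob_modRep`: `ρ` modulo `𝔪 ^ n`;
* `chl_link`: common integers `t, d` with `charpoly (r n σ) = X² - t X + d` and
  `charpoly (ρ σ) ≡ X² - t X + d` modulo `𝔪 ^ n`;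
* `chl_link_const`: if `charpoly (r n σ) = X² - t₀ X + d₀` for all `n`, then
  `charpoly (ρ σ) = X² - t₀ X + d₀`  (corollary (ii): Frobenius at every good prime);
* `chl_nilp`: the algebra of `(f - 1)² = 0` in rank `2`;
* `chl_unipotent`: if `(r n σ - 1)² = 0` for all `n`, then `charpoly (ρ σ) = (X - 1)²`
  (corollary (i): `ρ.IsUnipotentOnInertiaAt q` from (H3)): `chl_isUnipotentOnInertiaAt`.
Declarations are prefixed `chl`.  No sorry.
-/
import Mathlib
import Fermat.Agent.S58lib.ChebLink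
import Fermat.Prelude.Def_GaloisRep_LocalConditions

set_option autoImplicit false
set_option linter.style.haveILetI false
set_option linter.unusedSectionVars false
set_option linter.unusedVariables false

noncomputable section

open Polynomial TensorProduct
open Fermat.Agent.GalRep

namespace Fermat.Agent.S58lib

section ModRep

variable {O : Type} [CommRing O] [IsLocalRing O]

/-- `ρ` modulo `𝔪 ^ n` -/
def chlModRep (ρ : GaloisRepAdic O) (n : ℕ) :
    GQ →* Module.End (O ⧸ IsLocalRing.maximalIdeal O ^ n)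
      ((O ⧸ IsLocalRing.maximalIdeal O ^ n) ⊗[O] ρ.V) where
  toFun σ := (ρ.ρ σ).baseChange (O ⧸ IsLocalRing.maximalIdeal O ^ n)
  map_one' := by rw [map_one, LinearMap.baseChange_one]
  map_mul' σ τ := by rw [map_mul, LinearMap.baseChange_mul]

theorem chlModRep_apply (ρ : GaloisRepAdic O) (n : ℕ) (σ : GQ) :
    chlModRep ρ n σ = (ρ.ρ σ).baseChange (O ⧸ IsLocalRing.maximalIdeal O ^ n) := rfl

/-- `ρ` modulo `𝔪 ^ n` factors through a finite level -/
theorem chlModRep_level (ρ : GaloisRepAdic O) (n : ℕ) :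
    GaloisFactorsThroughFiniteLevel (chlModRep ρ n) := by
  obtain ⟨L, hL, h1⟩ := ρ.isAdicContinuous n
  refine ⟨L, hL, fun σ hσ => ?_⟩
  have hkill : ∀ x ∈ (IsLocalRing.maximalIdeal O ^ n) • (⊤ : Submodule O ρ.V),
      ∀ c : O ⧸ IsLocalRing.maximalIdeal O ^ n, c ⊗ₜ[O] x = 0 := by
    intro x hx c
    refine Submodule.smul_induction_on
      (p := fun x => c ⊗ₜ[O] x = (0 : (O ⧸ IsLocalRing.maximalIdeal O ^ n) ⊗[O] ρ.V)) hx ?_ ?_
    · intro a ha w _
      rw [TensorProduct.tmul_smul, TensorProduct.smul_tmul', Algebra.smul_def,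
        Ideal.Quotient.algebraMap_eq, Ideal.Quotient.eq_zero_iff_mem.mpr ha, zero_mul,
        TensorProduct.zero_tmul]
    · intro x y hx hy
      rw [TensorProduct.tmul_add, hx, hy, add_zero]
  refine LinearMap.ext fun w => ?_
  rw [chlModRep_apply]
  induction w using TensorProduct.induction_on with
  | zero => rw [map_zero, map_zero]
  | tmul c v =>
    rw [LinearMap.baseChange_tmul, Module.End.one_apply, ← sub_eq_zero,
      ← TensorProduct.tmul_sub]
    exact hkill _ (h1 σ hσ v) c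
  | add x y hx hy => rw [map_add, map_add, hx, hy]

theorem chl_nontrivial_quot (n : ℕ) (hn : 0 < n) :
    Nontrivial (O ⧸ IsLocalRing.maximalIdeal O ^ n) := by
  rw [Ideal.Quotient.nontrivial_iff]
  intro h
  have h1 : IsLocalRing.maximalIdeal O ^ n ≤ IsLocalRing.maximalIdeal O :=
    Ideal.pow_le_self hn.ne'
  rw [h] at h1
  exact (IsLocalRing.maximalIdeal.isMaximal O).ne_top (top_le_iff.mp h1)

theorem chlModRep_finrank (ρ : GaloisRepAdic O) (n : ℕ) (hn : 0 < n) :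
    Module.finrank (O ⧸ IsLocalRing.maximalIdeal O ^ n)
      ((O ⧸ IsLocalRing.maximalIdeal O ^ n) ⊗[O] ρ.V) = 2 := by
  haveI := chl_nontrivial_quot (O := O) n hn
  rw [Module.finrank_baseChange, ρ.finrank_eq]

/-- the characteristic polynomial of `ρ σ` modulo `𝔪 ^ n` -/
theorem chlModRep_charpoly (ρ : GaloisRepAdic O) (n : ℕ) (σ : GQ) :
    LinearMap.charpoly (chlModRep ρ n σ)
      = (LinearMap.charpoly (ρ.ρ σ)).map (Ideal.Quotient.mk (IsLocalRing.maximalIdeal O ^ n)) :=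
  LinearMap.charpoly_baseChange (A := O ⧸ IsLocalRing.maximalIdeal O ^ n) (ρ.ρ σ)

/-- the Frobenius condition passes to `ρ` modulo `𝔪 ^ n` -/
theorem chl_frob_modRep (ρ : GaloisRepAdic O) (n : ℕ) (S : Finset ℕ) (a : ℕ → ℤ)
    (hρ : ChlFrob ρ.ρ S a) : ChlFrob (chlModRep ρ n) S a := by
  intro ℓ hℓ hℓS A hA σ hσ
  have h := hρ ℓ hℓ hℓS A hA σ hσ
  rw [chlModRep_charpoly, h, ← Int.cast_natCast (R := O) ℓ, chl_map_quad, Int.cast_natCast]

variable {lam : ℕ}

/-- **the link modulo `𝔪 ^ n`.** -/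
theorem chl_link (ρ : GaloisRepAdic O) (n : ℕ) (hn : 0 < n)
    {T : Type} [AddCommGroup T] [Module (ZMod (lam ^ n)) T] [Module.Free (ZMod (lam ^ n)) T]
    [Module.Finite (ZMod (lam ^ n)) T] (hT : Module.finrank (ZMod (lam ^ n)) T = 2)
    (r : GQ →* Module.End (ZMod (lam ^ n)) T) (hlev : GaloisFactorsThroughFiniteLevel r)
    (S : Finset ℕ) (a : ℕ → ℤ) (hρ : ChlFrob ρ.ρ S a) (hr : ChlFrob r S a) (σ : GQ) :
    ∃ t d : ℤ,
      LinearMap.charpoly (r σ) = X ^ 2 - C (t : ZMod (lam ^ n)) * X + C (d : ZMod (lam ^ n)) ∧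
      (LinearMap.charpoly (ρ.ρ σ)).map (Ideal.Quotient.mk (IsLocalRing.maximalIdeal O ^ n))
        = X ^ 2 - C (t : O ⧸ IsLocalRing.maximalIdeal O ^ n) * X
          + C (d : O ⧸ IsLocalRing.maximalIdeal O ^ n) := by
  obtain ⟨t, d, h1, h2⟩ := chl_core (chlModRep_finrank ρ n hn) hT (chlModRep ρ n) r
    (chlModRep_level ρ n) hlev S a (chl_frob_modRep ρ n S a hρ) hr σ
  rw [chlModRep_charpoly] at h1
  exact ⟨t, d, h2, h1⟩

/-- an integer which vanishes in `ZMod (lam ^ n)` vanishes in `O ⧸ 𝔪 ^ n` -/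
theorem chl_cast_quot (hlam : (lam : O) ∈ IsLocalRing.maximalIdeal O) (n : ℕ) (z : ℤ)
    (hz : (z : ZMod (lam ^ n)) = 0) : (z : O ⧸ IsLocalRing.maximalIdeal O ^ n) = 0 := by
  rw [ZMod.intCast_zmod_eq_zero_iff_dvd] at hz
  obtain ⟨c, rfl⟩ := hz
  have h1 : ((lam : O) ^ n) ∈ IsLocalRing.maximalIdeal O ^ n := Ideal.pow_mem_pow hlam n
  have h2 : (((lam ^ n : ℕ) : ℤ) : O ⧸ IsLocalRing.maximalIdeal O ^ n) = 0 := by
    rw [Int.cast_natCast, Nat.cast_pow, ← map_natCast (Ideal.Quotient.mk _), ← map_pow]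
    exact Ideal.Quotient.eq_zero_iff_mem.mpr h1
  rw [Int.cast_mul, h2, zero_mul]

/-- an element of all `𝔪 ^ n` is zero -/
theorem chl_hausdorff [IsHausdorff (IsLocalRing.maximalIdeal O) O] (x : O)
    (hx : ∀ n : ℕ, 0 < n →
      Ideal.Quotient.mk (IsLocalRing.maximalIdeal O ^ n) x = 0) : x = 0 := by
  refine IsHausdorff.haus (I := IsLocalRing.maximalIdeal O) inferInstance x (fun n => ?_)
  rw [SModEq.zero, smul_eq_mul, Ideal.mul_top]
  rcases Nat.eq_zero_or_pos n with h0 | hn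
  · rw [h0, pow_zero, Ideal.one_eq_top]
    exact Submodule.mem_top
  · exact Ideal.Quotient.eq_zero_iff_mem.mp (hx n hn)

end ModRep

section Nilp

variable {R : Type*} [CommRing R] {V : Type*} [AddCommGroup V] [Module R V]
  [Module.Free R V] [Module.Finite R V]

/-- **the algebra of `(f - 1)² = 0` in rank `2`**: `(tr f - 2)⁴ = 0` and `(1 - tr f + det f)² = 0`. -/
theorem chl_nilp (hV : Module.finrank R V = 2) (f : Module.End R V) {t d : R}
    (hf : LinearMap.charpoly f = X ^ 2 - C t * X + C d) (hN : (f - 1) ^ 2 = 0) :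
    (t - 2) ^ 4 = 0 ∧ (1 - t + d) ^ 2 = 0 := by
  have hc := chl_cayley f hf
  have h1 : f ^ 2 = (2 : R) • f - (1 : R) • (1 : Module.End R V) := by
    have e : (f - 1) ^ 2 = f ^ 2 - ((2 : R) • f - (1 : R) • (1 : Module.End R V)) := by
      rw [one_smul, ofNat_smul_eq_nsmul, two_nsmul]
      noncomm_ring
    rw [e] at hN
    exact sub_eq_zero.mp hN
  have e : (t - 2) • f = (d - 1) • (1 : Module.End R V) := by
    have h2 : t • f - d • (1 : Module.End R V) = (2 : R) • f - (1 : R) • (1 : Module.End R V) :=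
      hc.symm.trans h1
    rw [sub_smul, sub_smul]
    rw [sub_eq_sub_iff_add_eq_add] at h2 ⊢
    rw [h2, add_comm]
  obtain ⟨ht, hd⟩ := chl_trace_det hV f hf
  have hA : (t - 2) * t = (d - 1) * 2 := by
    have := congrArg (LinearMap.trace R V) e
    rw [map_smul, map_smul, ht, LinearMap.trace_one, hV] at this
    simpa [smul_eq_mul] using this
  have hC : (t - 2) ^ 2 * d = (d - 1) ^ 2 := by
    have := congrArg (LinearMap.det) e
    rw [LinearMap.det_smul, LinearMap.det_smul, hV, hd, map_one, mul_one] at this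
    exact this
  refine ⟨?_, ?_⟩
  · linear_combination ((t - 2) ^ 2 + 2 * (1 - t + d) - 4 * (d - 1)) * hA + 4 * hC
  · linear_combination hC - (d - 1) * hA

end Nilp

section Limit

variable {O : Type} [CommRing O] [IsLocalRing O] {lam : ℕ}

/-- **the link in the limit**: if the finite-level characteristic polynomials of `σ` are
`X² - t₀ X + d₀` for all `n`, then `charpoly (ρ σ) = X² - t₀ X + d₀`. -/
theorem chl_link_const [IsHausdorff (IsLocalRing.maximalIdeal O) O]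
    (hlam : (lam : O) ∈ IsLocalRing.maximalIdeal O) (ρ : GaloisRepAdic O)
    (T : ℕ → Type) [∀ n, AddCommGroup (T n)] [∀ n, Module (ZMod (lam ^ n)) (T n)]
    [∀ n, Module.Free (ZMod (lam ^ n)) (T n)] [∀ n, Module.Finite (ZMod (lam ^ n)) (T n)]
    (hT : ∀ n, 0 < n → Module.finrank (ZMod (lam ^ n)) (T n) = 2)
    (r : ∀ n, GQ →* Module.End (ZMod (lam ^ n)) (T n))
    (hlev : ∀ n, 0 < n → GaloisFactorsThroughFiniteLevel (r n))
    (S : Finset ℕ) (a : ℕ → ℤ) (hρ : ChlFrob ρ.ρ S a) (hr : ∀ n, 0 < n → ChlFrob (r n) S a)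
    (σ : GQ) (t₀ d₀ : ℤ)
    (hσ : ∀ n, 0 < n → LinearMap.charpoly (r n σ)
      = X ^ 2 - C (t₀ : ZMod (lam ^ n)) * X + C (d₀ : ZMod (lam ^ n))) :
    LinearMap.charpoly (ρ.ρ σ) = X ^ 2 - C (t₀ : O) * X + C (d₀ : O) := by
  have key : ∀ n, 0 < n →
      Ideal.Quotient.mk (IsLocalRing.maximalIdeal O ^ n)
        (LinearMap.trace O ρ.V (ρ.ρ σ) - (t₀ : O)) = 0 ∧
      Ideal.Quotient.mk (IsLocalRing.maximalIdeal O ^ n)
        (LinearMap.det (ρ.ρ σ) - (d₀ : O)) = 0 := by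
    intro n hn
    obtain ⟨t, d, h1, h2⟩ := chl_link ρ n hn (hT n hn) (r n) (hlev n hn) S a hρ (hr n hn) σ
    rw [hσ n hn] at h1
    obtain ⟨e1, e2⟩ := chl_coeff_eq h1
    have f1 : ((t₀ - t : ℤ) : ZMod (lam ^ n)) = 0 := by
      rw [Int.cast_sub, e1, sub_self]
    have f2 : ((d₀ - d : ℤ) : ZMod (lam ^ n)) = 0 := by
      rw [Int.cast_sub, e2, sub_self]
    have g1 := chl_cast_quot hlam n _ f1
    have g2 := chl_cast_quot hlam n _ f2
    rw [Int.cast_sub, sub_eq_zero] at g1 g2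
    rw [chl_charpoly_rank_two ρ.finrank_eq (ρ.ρ σ)] at h2
    have h3 : (X ^ 2 - C (LinearMap.trace O ρ.V (ρ.ρ σ)) * X + C (LinearMap.det (ρ.ρ σ)) :
        O[X]).map (Ideal.Quotient.mk (IsLocalRing.maximalIdeal O ^ n))
        = X ^ 2 - C (Ideal.Quotient.mk (IsLocalRing.maximalIdeal O ^ n)
            (LinearMap.trace O ρ.V (ρ.ρ σ))) * X
          + C (Ideal.Quotient.mk (IsLocalRing.maximalIdeal O ^ n)
            (LinearMap.det (ρ.ρ σ))) := by
      rw [Polynomial.map_add, Polynomial.map_sub, Polynomial.map_mul, Polynomial.map_pow,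
        Polynomial.map_X, Polynomial.map_C, Polynomial.map_C]
    rw [h3] at h2
    obtain ⟨k1, k2⟩ := chl_coeff_eq h2
    refine ⟨?_, ?_⟩
    · rw [map_sub, k1, map_intCast, g1, sub_self]
    · rw [map_sub, k2, map_intCast, g2, sub_self]
  have ht : LinearMap.trace O ρ.V (ρ.ρ σ) = (t₀ : O) :=
    sub_eq_zero.mp (chl_hausdorff _ (fun n hn => (key n hn).1))
  have hd : LinearMap.det (ρ.ρ σ) = (d₀ : O) :=
    sub_eq_zero.mp (chl_hausdorff _ (fun n hn => (key n hn).2))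
  rw [chl_charpoly_rank_two ρ.finrank_eq (ρ.ρ σ), ht, hd]

/-- **corollary (i)**: if `(σ - 1)² = 0` at all finite levels, then
`charpoly (ρ σ) = (X - 1)²`. -/
theorem chl_unipotent [IsDomain O] [IsHausdorff (IsLocalRing.maximalIdeal O) O]
    (hlam : (lam : O) ∈ IsLocalRing.maximalIdeal O) (ρ : GaloisRepAdic O)
    (T : ℕ → Type) [∀ n, AddCommGroup (T n)] [∀ n, Module (ZMod (lam ^ n)) (T n)]
    [∀ n, Module.Free (ZMod (lam ^ n)) (T n)] [∀ n, Module.Finite (ZMod (lam ^ n)) (T n)]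
    (hT : ∀ n, 0 < n → Module.finrank (ZMod (lam ^ n)) (T n) = 2)
    (r : ∀ n, GQ →* Module.End (ZMod (lam ^ n)) (T n))
    (hlev : ∀ n, 0 < n → GaloisFactorsThroughFiniteLevel (r n))
    (S : Finset ℕ) (a : ℕ → ℤ) (hρ : ChlFrob ρ.ρ S a) (hr : ∀ n, 0 < n → ChlFrob (r n) S a)
    (σ : GQ) (hσ : ∀ n, 0 < n → (r n σ - 1) ^ 2 = 0) :
    LinearMap.charpoly (ρ.ρ σ) = (X - 1) ^ 2 := by
  have key : ∀ n, 0 < n →
      Ideal.Quotient.mk (IsLocalRing.maximalIdeal O ^ n)
        ((LinearMap.trace O ρ.V (ρ.ρ σ) - 2) ^ 4) = 0 ∧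
      Ideal.Quotient.mk (IsLocalRing.maximalIdeal O ^ n)
        ((1 - LinearMap.trace O ρ.V (ρ.ρ σ) + LinearMap.det (ρ.ρ σ)) ^ 2) = 0 := by
    intro n hn
    obtain ⟨t, d, h1, h2⟩ := chl_link ρ n hn (hT n hn) (r n) (hlev n hn) S a hρ (hr n hn) σ
    obtain ⟨e1, e2⟩ := chl_nilp (hT n hn) (r n σ) h1 (hσ n hn)
    have f1 : (((t - 2) ^ 4 : ℤ) : ZMod (lam ^ n)) = 0 := by
      push_cast
      exact e1
    have f2 : (((1 - t + d) ^ 2 : ℤ) : ZMod (lam ^ n)) = 0 := by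
      push_cast
      exact e2
    have g1 := chl_cast_quot hlam n _ f1
    have g2 := chl_cast_quot hlam n _ f2
    rw [chl_charpoly_rank_two ρ.finrank_eq (ρ.ρ σ)] at h2
    have h3 : (X ^ 2 - C (LinearMap.trace O ρ.V (ρ.ρ σ)) * X + C (LinearMap.det (ρ.ρ σ)) :
        O[X]).map (Ideal.Quotient.mk (IsLocalRing.maximalIdeal O ^ n))
        = X ^ 2 - C (Ideal.Quotient.mk (IsLocalRing.maximalIdeal O ^ n)
            (LinearMap.trace O ρ.V (ρ.ρ σ))) * X
          + C (Ideal.Quotient.mk (IsLocalRing.maximalIdeal O ^ n)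
            (LinearMap.det (ρ.ρ σ))) := by
      rw [Polynomial.map_add, Polynomial.map_sub, Polynomial.map_mul, Polynomial.map_pow,
        Polynomial.map_X, Polynomial.map_C, Polynomial.map_C]
    rw [h3] at h2
    obtain ⟨k1, k2⟩ := chl_coeff_eq h2
    refine ⟨?_, ?_⟩
    · rw [map_pow, map_sub, k1, map_ofNat]
      rw [← g1]
      push_cast
      rfl
    · rw [map_pow, map_add, map_sub, k1, k2, map_one]
      rw [← g2]
      push_cast
      rfl
  have h4 : (LinearMap.trace O ρ.V (ρ.ρ σ) - 2) ^ 4 = 0 :=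
    chl_hausdorff _ (fun n hn => (key n hn).1)
  have h5 : (1 - LinearMap.trace O ρ.V (ρ.ρ σ) + LinearMap.det (ρ.ρ σ)) ^ 2 = 0 :=
    chl_hausdorff _ (fun n hn => (key n hn).2)
  have ht : LinearMap.trace O ρ.V (ρ.ρ σ) = 2 := sub_eq_zero.mp (pow_eq_zero_iff (by norm_num)|>.mp h4)
  have hd : LinearMap.det (ρ.ρ σ) = 1 := by
    have := (pow_eq_zero_iff (by norm_num)).mp h5
    rw [ht] at this
    linear_combination this
  rw [chl_charpoly_rank_two ρ.finrank_eq (ρ.ρ σ), ht, hd]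
  simp only [map_ofNat, map_one]
  ring

/-- **corollary (i)**: `ρ` is unipotent on the inertia at `q` if `(σ - 1)² = 0` on all finite
levels, for all `σ` in the inertia groups at `q` ((H3)). -/
theorem chl_isUnipotentOnInertiaAt [IsDomain O] [IsHausdorff (IsLocalRing.maximalIdeal O) O]
    (hlam : (lam : O) ∈ IsLocalRing.maximalIdeal O) (ρ : GaloisRepAdic O)
    (T : ℕ → Type) [∀ n, AddCommGroup (T n)] [∀ n, Module (ZMod (lam ^ n)) (T n)]
    [∀ n, Module.Free (ZMod (lam ^ n)) (T n)] [∀ n, Module.Finite (ZMod (lam ^ n)) (T n)]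
    (hT : ∀ n, 0 < n → Module.finrank (ZMod (lam ^ n)) (T n) = 2)
    (r : ∀ n, GQ →* Module.End (ZMod (lam ^ n)) (T n))
    (hlev : ∀ n, 0 < n → GaloisFactorsThroughFiniteLevel (r n))
    (S : Finset ℕ) (a : ℕ → ℤ) (hρ : ChlFrob ρ.ρ S a) (hr : ∀ n, 0 < n → ChlFrob (r n) S a)
    (q : ℕ)
    (hq : ∀ P : ValuationSubring (AlgebraicClosure ℚ), P.LiesOverPrime q →
      ∀ σ ∈ P.inertiaSubgroupIn ℚ, ∀ n, 0 < n → (r n σ - 1) ^ 2 = 0) :
    ρ.IsUnipotentOnInertiaAt q := fun P hP σ hσ =>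
  chl_unipotent hlam ρ T hT r hlev S a hρ hr σ (hq P hP σ hσ)

end Limit

end Fermat.Agent.S58lib

end
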