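/-
Item 84 (S58), piece 84-D1 part 3 (helper10): THE CHEBOTAREV LINK for the torsion of an
elliptic curve `E / ℚ` (the concrete instances of `ChebLink.lean`, `ChebLinkAdic.lean`).

`T n = E(ℚ̄)[lam ^ n]`, `r n = galoisRepModuleEnd ℚ E (lam ^ n)` (the Prelude's representation).

* `chl_level_tors`: the Galois action on `E(ℚ̄)[m]` factors through a finite level
  (`E(ℚ̄)[m]` finite);
* `chl_W_residual` (3c): `charpoly (ρ.residual.ρ σ) = (charpoly (σ | E[p])).map ι`;
* `chl_W_const` (3a): constant finite-level characteristic polynomials `X² - t₀ X + d₀` of `σ`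
  give `charpoly (ρ σ) = X² - t₀ X + d₀`;
* `chl_W_unipotent` (3b): `(σ - 1)² = 0` on all `E[lam ^ n]`, `σ` in the inertia groups at `q`,
  gives `ρ.IsUnipotentOnInertiaAt q`.
Declarations are prefixed `chl`.  No sorry.
-/
import Mathlib
import Fermat.Agent.S58lib.ChebLinkAdic
import Fermat.Prelude.Def_EllipticCurve_FrobeniusTrace

set_option autoImplicit false
set_option linter.style.haveILetI false
set_option linter.unusedSectionVars false
set_option linter.unusedVariables false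

noncomputable section

open Polynomial
open WeierstrassCurve WeierstrassCurve.Affine WeierstrassCurve.Affine.Point
open Fermat.Agent.GalRep

namespace Fermat.Agent.S58lib

section Level

variable (E : WeierstrassCurve ℚ)

/-- the coordinates of a point -/
def chlCoords : (E⁄(AlgebraicClosure ℚ)).Point → Set (AlgebraicClosure ℚ)
  | .zero => ∅
  | .some x y _ => {x, y}

theorem chlCoords_finite (x : (E⁄(AlgebraicClosure ℚ)).Point) : (chlCoords E x).Finite := by
  rcases x with _ | ⟨x, y, h⟩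
  · exact Set.finite_empty
  · exact (Set.finite_singleton y).insert x

theorem chl_smul_eq_of_coords (σ : GQ) (x : (E⁄(AlgebraicClosure ℚ)).Point)
    (h : ∀ a ∈ chlCoords E x, σ a = a) : σ • x = x := by
  rcases x with _ | ⟨x, y, hxy⟩
  · rfl
  · have hx : σ x = x := h x (by simp [chlCoords])
    have hy : σ y = y := h y (by simp [chlCoords])
    rw [algEquiv_smul_def, Point.map_some]
    congr 1

/-- the Galois action on a finite `E(ℚ̄)[m]` factors through a finite level -/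
theorem chl_level_tors (m : ℕ)
    [Finite (Submodule.torsionBy ℤ (E⁄(AlgebraicClosure ℚ)).Point m)] :
    GaloisFactorsThroughFiniteLevel
      (galoisRepModuleEnd (K := AlgebraicClosure ℚ) ℚ E m) := by
  set C : Set (AlgebraicClosure ℚ) :=
    ⋃ x : Submodule.torsionBy ℤ (E⁄(AlgebraicClosure ℚ)).Point m,
      chlCoords E (x : (E⁄(AlgebraicClosure ℚ)).Point) with hC
  have hCfin : C.Finite := Set.finite_iUnion fun x => chlCoords_finite E _
  haveI : Finite C := hCfin.to_subtype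
  refine ⟨IntermediateField.adjoin ℚ C,
    IntermediateField.finiteDimensional_adjoin fun a _ =>
      ((AlgebraicClosure.isAlgebraic ℚ).isAlgebraic a).isIntegral, fun σ hσ => ?_⟩
  apply LinearMap.ext
  intro t
  rw [galoisRepModuleEnd_apply]
  apply Subtype.ext
  show σ • (t : (E⁄(AlgebraicClosure ℚ)).Point) = (t : (E⁄(AlgebraicClosure ℚ)).Point)
  apply chl_smul_eq_of_coords
  intro c hc
  exact hσ c (IntermediateField.subset_adjoin ℚ C (Set.mem_iUnion.mpr ⟨t, hc⟩))

/-- the same, from `Module.Finite` over `ZMod m`, `m ≠ 0` -/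
theorem chl_level_tors' (m : ℕ) (hm : m ≠ 0)
    [Module.Finite (ZMod m) (Submodule.torsionBy ℤ (E⁄(AlgebraicClosure ℚ)).Point m)] :
    GaloisFactorsThroughFiniteLevel
      (galoisRepModuleEnd (K := AlgebraicClosure ℚ) ℚ E m) := by
  haveI : NeZero m := ⟨hm⟩
  haveI : Finite (Submodule.torsionBy ℤ (E⁄(AlgebraicClosure ℚ)).Point m) :=
    Module.finite_of_finite (ZMod m)
  exact chl_level_tors E m

end Level

section Concrete

variable (E : WeierstrassCurve ℚ) {O : Type} [CommRing O] [IsLocalRing O]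

/-- **(3c)** the link at `n = 1` for `E[p]`. -/
theorem chl_W_residual (p : ℕ) (hp : p ≠ 0) (ρ : GaloisRepAdic O)
    [Module.Free (ZMod p) (Submodule.torsionBy ℤ (E⁄(AlgebraicClosure ℚ)).Point p)]
    [Module.Finite (ZMod p) (Submodule.torsionBy ℤ (E⁄(AlgebraicClosure ℚ)).Point p)]
    (hT : Module.finrank (ZMod p)
      (Submodule.torsionBy ℤ (E⁄(AlgebraicClosure ℚ)).Point p) = 2)
    (S : Finset ℕ) (a : ℕ → ℤ) (hρ : ChlFrob ρ.ρ S a)
    (hr : ChlFrob (galoisRepModuleEnd (K := AlgebraicClosure ℚ) ℚ E p) S a)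
    (ι : ZMod p →+* IsLocalRing.ResidueField O) (σ : GQ) :
    LinearMap.charpoly (ρ.residual.ρ σ)
      = (LinearMap.charpoly (galoisRepModuleEnd (K := AlgebraicClosure ℚ) ℚ E p σ)).map ι :=
  chl_residual ρ hT _ (chl_level_tors' E p hp) S a hρ hr ι σ

variable (lam : ℕ)
  [∀ n, Module.Free (ZMod (lam ^ n))
    (Submodule.torsionBy ℤ (E⁄(AlgebraicClosure ℚ)).Point (lam ^ n : ℕ))]
  [∀ n, Module.Finite (ZMod (lam ^ n))
    (Submodule.torsionBy ℤ (E⁄(AlgebraicClosure ℚ)).Point (lam ^ n : ℕ))]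

/-- **(3a)** constant finite-level characteristic polynomials. -/
theorem chl_W_const [IsHausdorff (IsLocalRing.maximalIdeal O) O] (hlam0 : lam ≠ 0)
    (hlam : (lam : O) ∈ IsLocalRing.maximalIdeal O) (ρ : GaloisRepAdic O)
    (hT : ∀ n, 0 < n → Module.finrank (ZMod (lam ^ n))
      (Submodule.torsionBy ℤ (E⁄(AlgebraicClosure ℚ)).Point (lam ^ n : ℕ)) = 2)
    (S : Finset ℕ) (a : ℕ → ℤ) (hρ : ChlFrob ρ.ρ S a)
    (hr : ∀ n, 0 < n →
      ChlFrob (galoisRepModuleEnd (K := AlgebraicClosure ℚ) ℚ E (lam ^ n)) S a)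
    (σ : GQ) (t₀ d₀ : ℤ)
    (hσ : ∀ n, 0 < n →
      LinearMap.charpoly (galoisRepModuleEnd (K := AlgebraicClosure ℚ) ℚ E (lam ^ n) σ)
        = X ^ 2 - C (t₀ : ZMod (lam ^ n)) * X + C (d₀ : ZMod (lam ^ n))) :
    LinearMap.charpoly (ρ.ρ σ) = X ^ 2 - C (t₀ : O) * X + C (d₀ : O) :=
  chl_link_const hlam ρ
    (fun n => Submodule.torsionBy ℤ (E⁄(AlgebraicClosure ℚ)).Point (lam ^ n : ℕ)) hT
    (fun n => galoisRepModuleEnd (K := AlgebraicClosure ℚ) ℚ E (lam ^ n))
    (fun n _ => chl_level_tors' E (lam ^ n) (pow_ne_zero n hlam0)) S a hρ hr σ t₀ d₀ hσ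

/-- **(3b)** unipotent inertia from `(σ - 1)² = 0` on all `E[lam ^ n]`. -/
theorem chl_W_unipotent [IsDomain O] [IsHausdorff (IsLocalRing.maximalIdeal O) O]
    (hlam0 : lam ≠ 0) (hlam : (lam : O) ∈ IsLocalRing.maximalIdeal O) (ρ : GaloisRepAdic O)
    (hT : ∀ n, 0 < n → Module.finrank (ZMod (lam ^ n))
      (Submodule.torsionBy ℤ (E⁄(AlgebraicClosure ℚ)).Point (lam ^ n : ℕ)) = 2)
    (S : Finset ℕ) (a : ℕ → ℤ) (hρ : ChlFrob ρ.ρ S a)
    (hr : ∀ n, 0 < n →
      ChlFrob (galoisRepModuleEnd (K := AlgebraicClosure ℚ) ℚ E (lam ^ n)) S a)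
    (q : ℕ)
    (hq : ∀ P : ValuationSubring (AlgebraicClosure ℚ), P.LiesOverPrime q →
      ∀ σ ∈ P.inertiaSubgroupIn ℚ, ∀ n, 0 < n →
        ∀ x : (E⁄(AlgebraicClosure ℚ)).Point, (lam ^ n : ℕ) • x = 0 →
          σ • (σ • x - x) - (σ • x - x) = 0) :
    ρ.IsUnipotentOnInertiaAt q := by
  refine chl_isUnipotentOnInertiaAt hlam ρ
    (fun n => Submodule.torsionBy ℤ (E⁄(AlgebraicClosure ℚ)).Point (lam ^ n : ℕ)) hT
    (fun n => galoisRepModuleEnd (K := AlgebraicClosure ℚ) ℚ E (lam ^ n))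
    (fun n _ => chl_level_tors' E (lam ^ n) (pow_ne_zero n hlam0)) S a hρ hr q ?_
  intro P hP σ hσ n hn
  apply LinearMap.ext
  intro x
  have hx : ((lam ^ n : ℕ)) • (x : (E⁄(AlgebraicClosure ℚ)).Point) = 0 := by
    have := x.2
    rw [Submodule.mem_torsionBy_iff] at this
    rw [← Nat.cast_smul_eq_nsmul ℤ]
    exact this
  have h := hq P hP σ hσ n hn (x : (E⁄(AlgebraicClosure ℚ)).Point) hx
  rw [pow_two, Module.End.mul_apply, LinearMap.sub_apply, LinearMap.sub_apply,
    Module.End.one_apply, Module.End.one_apply, map_sub, LinearMap.zero_apply]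
  apply Subtype.ext
  simp only [galoisRepModuleEnd_apply]
  rw [smul_sub] at h
  rw [Submodule.coe_sub, Submodule.coe_sub, Submodule.coe_sub, Submodule.coe_zero]
  exact h

end Concrete

end Fermat.Agent.S58lib

end
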