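import Mathlib

/-!
# Item 84 (S58): the finite-level algebra of (H2) (helper23).  Complete proofs.

`G` an abelian group, `p` a prime.  `ckaTor G p j = G[p^j]`.

* `cka_exists_basis`: if `#G[p^j] = p^(2j)` for all `j`, then `G[p^N]` has an "integer basis"
  `P₁, P₂` (`IsIntBasis`): `u P₁ + v P₂ = 0 ⇒ p^N ∣ u, v`, and every element is `u P₁ + v P₂`.
* `cka_core` (the architect's "CoreK''"): if moreover `φ : G →+ G` satisfies `φ² - a φ + ℓ = 0` on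
  the `p`-power torsion and the KERNEL BOUND `(φ = m on G[p^j]) ⇒ p^(2j) ≤ m² - a m + ℓ`, then the
  integer matrix of `φ` on `G[p^n]` has trace `a` and determinant `ℓ` modulo `p^n`.
* `cka_main`: the same statement for `LinearMap.trace`, `LinearMap.det`, `LinearMap.charpoly`
  on any `ZMod (p^n)`-module identified with `G[p^n]`.
-/

set_option autoImplicit false
set_option linter.unusedSectionVars false
set_option linter.unusedVariables false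
set_option linter.style.haveILetI false

namespace Fermat.Agent.S58lib

/-- an independent pair in a group of exponent `p` and order `p²` -/
theorem cka_pair_aux {H : Type*} [AddCommGroup H] {p : ℕ} (hp : p.Prime) (hk : ∀ x : H, p • x = 0)
    (hcard : Nat.card H = p ^ 2) :
    ∃ Q₁ Q₂ : H, ∀ u v : ℤ, u • Q₁ + v • Q₂ = 0 → (p : ℤ) ∣ u ∧ (p : ℤ) ∣ v := by
  haveI : Fact p.Prime := ⟨hp⟩
  haveI : Finite H := Nat.finite_of_card_ne_zero (by rw [hcard]; exact pow_ne_zero _ hp.ne_zero)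
  letI : Module (ZMod p) H := AddCommGroup.zmodModule (n := p) hk
  haveI : Module.Finite (ZMod p) H := Module.Finite.of_finite
  have hfr : Module.finrank (ZMod p) H = 2 := by
    have h1 := Module.natCard_eq_pow_finrank (K := ZMod p) (V := H)
    rw [hcard, Nat.card_zmod] at h1
    exact (Nat.pow_right_injective hp.two_le h1).symm
  let b : Module.Basis (Fin 2) (ZMod p) H := Module.finBasisOfFinrankEq (ZMod p) H hfr
  refine ⟨b 0, b 1, ?_⟩
  intro u v huv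
  have hli := b.linearIndependent
  rw [Fintype.linearIndependent_iff] at hli
  have key : ∑ i : Fin 2, (![(u : ZMod p), (v : ZMod p)] i) • b i = 0 := by
    rw [Fin.sum_univ_two]
    simp only [Matrix.cons_val_zero, Matrix.cons_val_one]
    rw [Int.cast_smul_eq_zsmul, Int.cast_smul_eq_zsmul]
    exact huv
  have h0 := hli _ key 0
  have h1 := hli _ key 1
  simp only [Matrix.cons_val_zero, Matrix.cons_val_one] at h0 h1
  exact ⟨(ZMod.intCast_zmod_eq_zero_iff_dvd u p).mp h0,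
    (ZMod.intCast_zmod_eq_zero_iff_dvd v p).mp h1⟩

section Tor

variable (G : Type*) [AddCommGroup G] (p : ℕ)

theorem cka_nsmul_neg_aux {G : Type*} [AddCommGroup G] (k : ℕ) (x : G) (hx : k • x = 0) :
    k • (-x) = 0 := by
  rw [← natCast_zsmul, smul_neg, natCast_zsmul, hx, neg_zero]

/-- `G[p^j]` -/
def ckaTor (j : ℕ) : AddSubgroup G where
  carrier := {x | (p ^ j) • x = 0}
  zero_mem' := nsmul_zero _
  add_mem' := by
    intro x y hx hy
    show (p ^ j) • (x + y) = 0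
    rw [nsmul_add, show (p ^ j) • x = 0 from hx, show (p ^ j) • y = 0 from hy, add_zero]
  neg_mem' := by
    intro x hx
    exact cka_nsmul_neg_aux (p ^ j) x hx

variable {G p}

theorem mem_ckaTor {j : ℕ} {x : G} : x ∈ ckaTor G p j ↔ (p ^ j) • x = 0 := Iff.rfl

theorem ckaTor_mono {i j : ℕ} (h : i ≤ j) : ckaTor G p i ≤ ckaTor G p j := by
  intro x hx
  rw [mem_ckaTor] at hx ⊢
  obtain ⟨d, rfl⟩ := Nat.exists_eq_add_of_le h
  rw [pow_add, mul_comm, mul_nsmul', hx, nsmul_zero]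

theorem cka_zsmul_mem {j : ℕ} {x : G} (hx : x ∈ ckaTor G p j) (u : ℤ) :
    u • x ∈ ckaTor G p j := (ckaTor G p j).zsmul_mem hx u

theorem cka_pow_zsmul {j : ℕ} {x : G} (hx : x ∈ ckaTor G p j) : ((p : ℤ) ^ j) • x = 0 := by
  rw [← Nat.cast_pow, natCast_zsmul]
  exact hx

/-- an integer multiple of `p^j` kills `G[p^j]` -/
theorem cka_zsmul_eq_zero {j : ℕ} {x : G} (hx : x ∈ ckaTor G p j) {u : ℤ}
    (hu : (p : ℤ) ^ j ∣ u) : u • x = 0 := by
  obtain ⟨c, rfl⟩ := hu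
  rw [mul_comm, mul_smul, cka_pow_zsmul hx, smul_zero]

theorem cka_pow_smul_mem {i j : ℕ} {x : G} (hx : x ∈ ckaTor G p (i + j)) :
    (p ^ i) • x ∈ ckaTor G p j := by
  rw [mem_ckaTor] at hx ⊢
  rw [← mul_nsmul', ← pow_add, add_comm]
  exact hx

theorem cka_map_mem (φ : G →+ G) {j : ℕ} {x : G} (hx : x ∈ ckaTor G p j) :
    φ x ∈ ckaTor G p j := by
  rw [mem_ckaTor] at hx ⊢
  rw [← map_nsmul, hx, map_zero]

end Tor

/-- an "integer basis" of `G[p^N]` -/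
structure IsIntBasis (G : Type*) [AddCommGroup G] (p N : ℕ) (P₁ P₂ : G) : Prop where
  mem₁ : P₁ ∈ ckaTor G p N
  mem₂ : P₂ ∈ ckaTor G p N
  indep : ∀ u v : ℤ, u • P₁ + v • P₂ = 0 → (p : ℤ) ^ N ∣ u ∧ (p : ℤ) ^ N ∣ v
  span : ∀ x ∈ ckaTor G p N, ∃ u v : ℤ, x = u • P₁ + v • P₂

section Basis

variable {G : Type*} [AddCommGroup G] {p : ℕ} (hp : p.Prime)
  (hS : ∀ j, Nat.card (ckaTor G p j) = p ^ (2 * j))

include hp hS in
theorem cka_finite (j : ℕ) : Finite (ckaTor G p j) :=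
  Nat.finite_of_card_ne_zero (by rw [hS j]; exact pow_ne_zero _ hp.ne_zero)

include hp hS in
/-- an independent pair in `G[p]` -/
theorem cka_exists_pair :
    ∃ Q₁ Q₂ : G, Q₁ ∈ ckaTor G p 1 ∧ Q₂ ∈ ckaTor G p 1 ∧
      ∀ u v : ℤ, u • Q₁ + v • Q₂ = 0 → (p : ℤ) ∣ u ∧ (p : ℤ) ∣ v := by
  have hcard : Nat.card (ckaTor G p 1) = p ^ 2 := by rw [hS 1]
  have hk : ∀ x : ckaTor G p 1, p • x = 0 := by
    intro x
    apply Subtype.ext
    have := x.2
    rw [mem_ckaTor, pow_one] at this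
    simpa using this
  obtain ⟨Q₁, Q₂, h⟩ := cka_pair_aux hp hk hcard
  refine ⟨(Q₁ : G), (Q₂ : G), Q₁.2, Q₂.2, ?_⟩
  intro u v huv
  refine h u v ?_
  apply Subtype.ext
  push_cast
  exact huv

/-- multiplication by `p^i` as a map `G[p^(i+j)] → G[p^j]` -/
def ckaMul (G : Type*) [AddCommGroup G] (p i j : ℕ) : ckaTor G p (i + j) →+ ckaTor G p j where
  toFun x := ⟨(p ^ i) • (x : G), cka_pow_smul_mem x.2⟩
  map_zero' := by
    apply Subtype.ext
    show (p ^ i) • ((0 : ckaTor G p (i + j)) : G) = 0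
    rw [AddSubgroup.coe_zero, nsmul_zero]
  map_add' := by
    intro x y
    apply Subtype.ext
    show (p ^ i) • ((x + y : ckaTor G p (i + j)) : G) = (p ^ i) • (x : G) + (p ^ i) • (y : G)
    rw [AddSubgroup.coe_add, nsmul_add]

theorem ckaMul_coe (i j : ℕ) (x : ckaTor G p (i + j)) :
    ((ckaMul G p i j x : ckaTor G p j) : G) = (p ^ i) • (x : G) := rfl

include hp hS in
theorem cka_card_ker (i j : ℕ) : Nat.card (ckaMul G p i j).ker = p ^ (2 * i) := by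
  rw [← hS i]
  have hmem : ∀ x : (ckaMul G p i j).ker, ((x : ckaTor G p (i + j)) : G) ∈ ckaTor G p i := by
    intro x
    have h := x.2
    rw [AddMonoidHom.mem_ker] at h
    have h2 := congrArg (fun z : ckaTor G p j => (z : G)) h
    simp only [ckaMul_coe, AddSubgroup.coe_zero] at h2
    exact h2
  refine Nat.card_eq_of_bijective (fun x => ⟨((x : ckaTor G p (i + j)) : G), hmem x⟩) ⟨?_, ?_⟩
  · intro x y hxy
    apply Subtype.ext
    apply Subtype.ext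
    exact congrArg (fun z : ckaTor G p i => (z : G)) hxy
  · intro y
    have hy' : (y : G) ∈ ckaTor G p (i + j) := ckaTor_mono (Nat.le_add_right i j) y.2
    refine ⟨⟨⟨(y : G), hy'⟩, ?_⟩, ?_⟩
    · rw [AddMonoidHom.mem_ker]
      apply Subtype.ext
      rw [ckaMul_coe, AddSubgroup.coe_zero]
      exact y.2
    · apply Subtype.ext
      rfl

include hp hS in
/-- Lemma B: `p^i : G[p^(i+j)] → G[p^j]` is onto -/
theorem cka_pow_surj (i j : ℕ) {y : G} (hy : y ∈ ckaTor G p j) :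
    ∃ x ∈ ckaTor G p (i + j), (p ^ i) • x = y := by
  haveI := cka_finite hp hS (i + j)
  haveI := cka_finite hp hS j
  have h1 := AddSubgroup.card_mul_index (ckaMul G p i j).ker
  rw [AddSubgroup.index_ker, cka_card_ker hp hS, hS (i + j)] at h1
  have h2 : Nat.card (ckaMul G p i j).range = p ^ (2 * j) := by
    have h3 : p ^ (2 * (i + j)) = p ^ (2 * i) * p ^ (2 * j) := by rw [← pow_add]; ring_nf
    rw [h3] at h1
    exact Nat.eq_of_mul_eq_mul_left (pow_pos hp.pos _) h1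
  have h4 : (ckaMul G p i j).range = ⊤ := by
    rw [← AddSubgroup.card_eq_iff_eq_top, h2, hS j]
  have h5 : (⟨y, hy⟩ : ckaTor G p j) ∈ (ckaMul G p i j).range := by rw [h4]; trivial
  obtain ⟨x, hx⟩ := h5
  refine ⟨(x : G), x.2, ?_⟩
  have := congrArg (fun z : ckaTor G p j => (z : G)) hx
  simpa only [ckaMul_coe] using this

/-- independence of lifts of an independent pair -/
theorem cka_indep_lift (hp : p.Prime) (N : ℕ) {P₁ P₂ : G}
    (h₁ : P₁ ∈ ckaTor G p (N + 1)) (h₂ : P₂ ∈ ckaTor G p (N + 1))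
    (hind : ∀ u v : ℤ, u • ((p ^ N) • P₁) + v • ((p ^ N) • P₂) = 0 → (p : ℤ) ∣ u ∧ (p : ℤ) ∣ v)
    (u v : ℤ) (huv : u • P₁ + v • P₂ = 0) :
    ∀ i, i ≤ N + 1 → (p : ℤ) ^ i ∣ u ∧ (p : ℤ) ^ i ∣ v := by
  intro i
  induction i with
  | zero => intro _; simp
  | succ i ih =>
    intro hi
    obtain ⟨⟨u', rfl⟩, ⟨v', rfl⟩⟩ := ih (by omega)
    obtain ⟨d, hd⟩ := Nat.exists_eq_add_of_le (show i ≤ N by omega)
    have hpp : ((p : ℤ) ^ i * u') • P₁ + ((p : ℤ) ^ i * v') • P₂ = (p ^ i) • (u' • P₁ + v' • P₂) := by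
      rw [nsmul_add, mul_smul, mul_smul, ← Nat.cast_pow, natCast_zsmul, natCast_zsmul]
    have h0 : (p ^ N) • (u' • P₁ + v' • P₂) = 0 := by
      rw [hd, add_comm, pow_add, mul_nsmul', ← hpp, huv, nsmul_zero]
    have h1 : u' • ((p ^ N) • P₁) + v' • ((p ^ N) • P₂) = 0 := by
      rw [← h0, nsmul_add, smul_comm u', smul_comm v']
    obtain ⟨hu', hv'⟩ := hind u' v' h1
    rw [pow_succ]
    exact ⟨mul_dvd_mul_left _ hu', mul_dvd_mul_left _ hv'⟩

include hp hS in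
/-- Lemma C: existence of an integer basis of `G[p^N]` -/
theorem cka_exists_basis (N : ℕ) : ∃ P₁ P₂ : G, IsIntBasis G p N P₁ P₂ := by
  rcases Nat.eq_zero_or_pos N with rfl | hN
  · refine ⟨0, 0, (ckaTor G p 0).zero_mem, (ckaTor G p 0).zero_mem, ?_, ?_⟩
    · intro u v _; simp
    · intro x hx
      rw [mem_ckaTor, pow_zero, one_nsmul] at hx
      exact ⟨0, 0, by simp [hx]⟩
  obtain ⟨N, rfl⟩ := Nat.exists_eq_succ_of_ne_zero hN.ne'
  obtain ⟨Q₁, Q₂, hQ₁, hQ₂, hQ⟩ := cka_exists_pair hp hS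
  obtain ⟨P₁, hP₁, rfl⟩ := cka_pow_surj hp hS N 1 hQ₁
  obtain ⟨P₂, hP₂, rfl⟩ := cka_pow_surj hp hS N 1 hQ₂
  have hind : ∀ u v : ℤ, u • P₁ + v • P₂ = 0 → (p : ℤ) ^ (N + 1) ∣ u ∧ (p : ℤ) ^ (N + 1) ∣ v :=
    fun u v huv => cka_indep_lift hp N hP₁ hP₂ hQ u v huv (N + 1) le_rfl
  refine ⟨P₁, P₂, hP₁, hP₂, hind, ?_⟩
  -- span, by counting
  haveI := cka_finite hp hS (N + 1)
  have hq : 0 < p ^ (N + 1) := pow_pos hp.pos _
  let f : Fin (p ^ (N + 1)) × Fin (p ^ (N + 1)) → ckaTor G p (N + 1) := fun ij =>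
    ⟨((ij.1 : ℕ) : ℤ) • P₁ + ((ij.2 : ℕ) : ℤ) • P₂,
      (ckaTor G p (N + 1)).add_mem (cka_zsmul_mem hP₁ _) (cka_zsmul_mem hP₂ _)⟩
  have hf : Function.Injective f := by
    rintro ⟨i, j⟩ ⟨i', j'⟩ h
    have h1 : ((i : ℕ) : ℤ) • P₁ + ((j : ℕ) : ℤ) • P₂ = ((i' : ℕ) : ℤ) • P₁ + ((j' : ℕ) : ℤ) • P₂ :=
      congrArg (fun z : ckaTor G p (N + 1) => (z : G)) h
    have h2 : (((i : ℕ) : ℤ) - ((i' : ℕ) : ℤ)) • P₁ + (((j : ℕ) : ℤ) - ((j' : ℕ) : ℤ)) • P₂ = 0 := by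
      rw [sub_smul, sub_smul]
      have := sub_eq_zero.mpr h1
      rw [← this]
      abel
    obtain ⟨hi, hj⟩ := hind _ _ h2
    rw [← Nat.cast_pow] at hi hj
    have hi' : (i : ℕ) = (i' : ℕ) := by
      have h3 := Int.eq_zero_of_abs_lt_dvd hi (by
        rw [abs_lt]
        have := i.2; have := i'.2
        constructor <;> omega)
      omega
    have hj' : (j : ℕ) = (j' : ℕ) := by
      have h3 := Int.eq_zero_of_abs_lt_dvd hj (by
        rw [abs_lt]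
        have := j.2; have := j'.2
        constructor <;> omega)
      omega
    exact Prod.ext (Fin.ext hi') (Fin.ext hj')
  have hcard : Nat.card (Fin (p ^ (N + 1)) × Fin (p ^ (N + 1))) = Nat.card (ckaTor G p (N + 1)) := by
    rw [hS (N + 1), Nat.card_prod, Nat.card_fin, ← pow_add]
    congr 1
    ring
  have hbij := (Nat.bijective_iff_injective_and_card f).mpr ⟨hf, hcard⟩
  intro x hx
  obtain ⟨⟨i, j⟩, hij⟩ := hbij.2 ⟨x, hx⟩
  exact ⟨_, _, (congrArg (fun z : ckaTor G p (N + 1) => (z : G)) hij).symm⟩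

end Basis

section Scale

variable {G : Type*} [AddCommGroup G] {p : ℕ}

/-- scaling an integer basis of `G[p^(i+n)]` by `p^i` gives one of `G[p^n]` -/
theorem IsIntBasis.scale (hp : p.Prime) {i n : ℕ} {P₁ P₂ : G} (h : IsIntBasis G p (i + n) P₁ P₂) :
    IsIntBasis G p n ((p ^ i) • P₁) ((p ^ i) • P₂) := by
  have hpz : ((p : ℤ) ^ i) ≠ 0 := pow_ne_zero _ (by exact_mod_cast hp.ne_zero)
  have key : ∀ u v : ℤ, u • ((p ^ i) • P₁) + v • ((p ^ i) • P₂)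
      = (u * (p : ℤ) ^ i) • P₁ + (v * (p : ℤ) ^ i) • P₂ := by
    intro u v
    rw [mul_smul, mul_smul, ← Nat.cast_pow, natCast_zsmul, natCast_zsmul]
  refine ⟨cka_pow_smul_mem h.mem₁, cka_pow_smul_mem h.mem₂, ?_, ?_⟩
  · intro u v huv
    rw [key] at huv
    obtain ⟨h1, h2⟩ := h.indep _ _ huv
    rw [pow_add, mul_comm] at h1 h2
    exact ⟨(mul_dvd_mul_iff_right hpz).mp h1, (mul_dvd_mul_iff_right hpz).mp h2⟩
  · intro x hx
    obtain ⟨u, v, rfl⟩ := h.span x (ckaTor_mono (Nat.le_add_left n i) hx)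
    have h0 : ((p : ℤ) ^ n * u) • P₁ + ((p : ℤ) ^ n * v) • P₂ = 0 := by
      rw [mem_ckaTor] at hx
      rw [← hx, nsmul_add, mul_smul, mul_smul, ← Nat.cast_pow, natCast_zsmul, natCast_zsmul]
    obtain ⟨h1, h2⟩ := h.indep _ _ h0
    rw [pow_add, mul_comm] at h1 h2
    have hpn : ((p : ℤ) ^ n) ≠ 0 := pow_ne_zero _ (by exact_mod_cast hp.ne_zero)
    obtain ⟨u', rfl⟩ := (mul_dvd_mul_iff_left hpn).mp h1
    obtain ⟨v', rfl⟩ := (mul_dvd_mul_iff_left hpn).mp h2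
    refine ⟨u', v', ?_⟩
    rw [key, mul_comm u', mul_comm v']

end Scale

section Core

variable {G : Type*} [AddCommGroup G] {p : ℕ}

/-- the action of `φ` on combinations -/
theorem cka_map_comb (φ : G →+ G) {P₁ P₂ : G} {α β γ δ : ℤ}
    (h₁ : φ P₁ = α • P₁ + γ • P₂) (h₂ : φ P₂ = β • P₁ + δ • P₂) (r s : ℤ) :
    φ (r • P₁ + s • P₂) = (α * r + β * s) • P₁ + (γ * r + δ * s) • P₂ := by
  rw [map_add, map_zsmul, map_zsmul, h₁, h₂]
  module

/-- the matrix of `φ` in the scaled basis is the same -/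
theorem cka_map_scale (φ : G →+ G) {P P₁ P₂ : G} {α γ : ℤ}
    (h₁ : φ P = α • P₁ + γ • P₂) (k : ℕ) :
    φ (k • P) = α • (k • P₁) + γ • (k • P₂) := by
  rw [map_nsmul, h₁, nsmul_add, smul_comm k α, smul_comm k γ]

/-- the relations `(t - a) M ≡ (d - ℓ) I` -/
theorem cka_rel {N : ℕ} {P₁ P₂ : G} (hB : IsIntBasis G p N P₁ P₂) (φ : G →+ G) (a ℓ : ℤ)
    (hQ : ∀ x ∈ ckaTor G p N, φ (φ x) + ℓ • x = a • φ x)
    {α β γ δ : ℤ} (h₁ : φ P₁ = α • P₁ + γ • P₂) (h₂ : φ P₂ = β • P₁ + δ • P₂) :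
    (p : ℤ) ^ N ∣ α * (α + δ - a) - (α * δ - β * γ - ℓ) ∧
    (p : ℤ) ^ N ∣ γ * (α + δ - a) ∧
    (p : ℤ) ^ N ∣ β * (α + δ - a) ∧
    (p : ℤ) ^ N ∣ δ * (α + δ - a) - (α * δ - β * γ - ℓ) := by
  have e1 : (α * (α + δ - a) - (α * δ - β * γ - ℓ)) • P₁ + (γ * (α + δ - a)) • P₂ = 0 := by
    have hq := hQ P₁ hB.mem₁
    have h3 : φ (φ P₁) = (α * α + β * γ) • P₁ + (γ * α + δ * γ) • P₂ := by
      rw [h₁]; exact cka_map_comb φ h₁ h₂ α γ
    rw [h3, h₁] at hq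
    have h4 : (α * (α + δ - a) - (α * δ - β * γ - ℓ)) • P₁ + (γ * (α + δ - a)) • P₂
        = ((α * α + β * γ) • P₁ + (γ * α + δ * γ) • P₂ + ℓ • P₁) - a • (α • P₁ + γ • P₂) := by
      module
    rw [h4, hq, sub_self]
  have e2 : (β * (α + δ - a)) • P₁ + (δ * (α + δ - a) - (α * δ - β * γ - ℓ)) • P₂ = 0 := by
    have hq := hQ P₂ hB.mem₂
    have h3 : φ (φ P₂) = (α * β + β * δ) • P₁ + (γ * β + δ * δ) • P₂ := by
      rw [h₂]; exact cka_map_comb φ h₁ h₂ β δ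
    rw [h3, h₂] at hq
    have h4 : (β * (α + δ - a)) • P₁ + (δ * (α + δ - a) - (α * δ - β * γ - ℓ)) • P₂
        = ((α * β + β * δ) • P₁ + (γ * β + δ * δ) • P₂ + ℓ • P₂) - a • (β • P₁ + δ • P₂) := by
      module
    rw [h4, hq, sub_self]
  obtain ⟨r1, r2⟩ := hB.indep _ _ e1
  obtain ⟨r3, r4⟩ := hB.indep _ _ e2
  exact ⟨r1, r2, r3, r4⟩

theorem cka_exists_val (hp : p.Prime) (x : ℤ) :
    ∀ n : ℕ, ¬ (p : ℤ) ^ n ∣ x → ∃ (e : ℕ) (u : ℤ), e < n ∧ x = (p : ℤ) ^ e * u ∧ ¬ (p : ℤ) ∣ u := by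
  intro n
  induction n with
  | zero => intro h; exact absurd (by simp) h
  | succ n ih =>
    intro h
    by_cases h' : (p : ℤ) ^ n ∣ x
    · obtain ⟨u, rfl⟩ := h'
      refine ⟨n, u, Nat.lt_succ_self n, rfl, ?_⟩
      intro hu
      apply h
      rw [pow_succ]
      exact mul_dvd_mul_left _ hu
    · obtain ⟨e, u, he, hx, hu⟩ := ih h'
      exact ⟨e, u, Nat.lt_succ_of_lt he, hx, hu⟩

theorem cka_dvd_of_mul (hp : p.Prime) {u : ℤ} (hu : ¬ (p : ℤ) ∣ u) {e j : ℕ} {y : ℤ}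
    (h : (p : ℤ) ^ (e + j) ∣ y * ((p : ℤ) ^ e * u)) : (p : ℤ) ^ j ∣ y := by
  have hpe : ((p : ℤ) ^ e) ≠ 0 := pow_ne_zero _ (by exact_mod_cast hp.ne_zero)
  have h1 : (p : ℤ) ^ e * (p : ℤ) ^ j ∣ (p : ℤ) ^ e * (y * u) := by
    rw [← pow_add]
    have : (p : ℤ) ^ e * (y * u) = y * ((p : ℤ) ^ e * u) := by ring
    rw [this]; exact h
  have h2 : (p : ℤ) ^ j ∣ y * u := (mul_dvd_mul_iff_left hpe).mp h1
  have hcop : IsCoprime ((p : ℤ) ^ j) u :=
    IsCoprime.pow_left ((Nat.prime_iff_prime_int.mp hp).irreducible.coprime_iff_not_dvd.mpr hu)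
  exact hcop.dvd_of_dvd_mul_right h2

/-- the numerical contradiction -/
theorem cka_bound {a ℓ m q : ℤ} (hq : 1 + |a| + |ℓ| < q) (hm1 : -q ≤ 2 * m) (hm2 : 2 * m ≤ q)
    (h : q ^ 2 ≤ m ^ 2 - a * m + ℓ) : False := by
  have hA : 0 ≤ |a| := abs_nonneg a
  have hL : 0 ≤ |ℓ| := abs_nonneg ℓ
  have hl : ℓ ≤ |ℓ| := le_abs_self ℓ
  have hq2 : 2 ≤ q := by linarith
  have hmq : 4 * m ^ 2 ≤ q ^ 2 := by nlinarith
  have ham : -(a * m) * 2 ≤ |a| * q := by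
    have h1 : -(a * m) ≤ |a * m| := neg_le_abs _
    rw [abs_mul] at h1
    have h2 : 2 * |m| ≤ q := by
      rcases abs_cases m with ⟨h3, _⟩ | ⟨h3, _⟩ <;> rw [h3] <;> linarith
    nlinarith
  nlinarith

theorem cka_core_aux (hp : p.Prime) (a ℓ : ℤ) (φ : G →+ G)
    (hKB : ∀ (j : ℕ) (m : ℤ), (∀ x ∈ ckaTor G p j, φ x = m • x) →
      (p : ℤ) ^ (2 * j) ≤ m ^ 2 - a * m + ℓ)
    {n c : ℕ} (hc : 1 + |a| + |ℓ| < (p : ℤ) ^ c)
    {P₁ P₂ : G} (hB : IsIntBasis G p (c + n) P₁ P₂)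
    (hQ : ∀ x ∈ ckaTor G p (c + n), φ (φ x) + ℓ • x = a • φ x)
    {α β γ δ : ℤ} (h₁ : φ P₁ = α • P₁ + γ • P₂) (h₂ : φ P₂ = β • P₁ + δ • P₂) :
    (p : ℤ) ^ n ∣ α + δ - a ∧ (p : ℤ) ^ n ∣ α * δ - β * γ - ℓ := by
  obtain ⟨R1, R2, R3, R4⟩ := cka_rel hB φ a ℓ hQ h₁ h₂
  have hnN : (p : ℤ) ^ n ∣ (p : ℤ) ^ (c + n) := pow_dvd_pow _ (Nat.le_add_left n c)
  by_cases ht : (p : ℤ) ^ n ∣ α + δ - a
  · refine ⟨ht, ?_⟩
    have h3 : α * δ - β * γ - ℓ
        = α * (α + δ - a) - (α * (α + δ - a) - (α * δ - β * γ - ℓ)) := by ring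
    rw [h3]
    exact dvd_sub (Dvd.dvd.mul_left ht α) (hnN.trans R1)
  · exfalso
    obtain ⟨e, u, he, hu, hpu⟩ := cka_exists_val hp _ n ht
    obtain ⟨j, hj⟩ : ∃ j, c + n = e + j := ⟨c + n - e, by omega⟩
    have hcj : c ≤ j := by omega
    rw [hj] at hB R1 R2 R3 R4
    rw [hu] at R1 R2 R3 R4
    have hγ : (p : ℤ) ^ j ∣ γ := cka_dvd_of_mul hp hpu R2
    have hβ : (p : ℤ) ^ j ∣ β := cka_dvd_of_mul hp hpu R3
    have hαδ : (p : ℤ) ^ j ∣ α - δ := by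
      apply cka_dvd_of_mul hp hpu (e := e)
      have := dvd_sub R1 R4
      have h5 : (α - δ) * ((p : ℤ) ^ e * u)
          = α * ((p : ℤ) ^ e * u) - (α * δ - β * γ - ℓ)
            - (δ * ((p : ℤ) ^ e * u) - (α * δ - β * γ - ℓ)) := by ring
      rw [h5]; exact this
    have hBj := hB.scale hp
    have hqpos : 0 < p ^ j := pow_pos hp.pos _
    have hmα : (p : ℤ) ^ j ∣ Int.bmod α (p ^ j) - α := by
      have := Int.dvd_bmod_sub_self (x := α) (m := p ^ j)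
      rwa [Nat.cast_pow] at this
    have hker : ∀ x ∈ ckaTor G p j, φ x = (Int.bmod α (p ^ j)) • x := by
      intro x hx
      obtain ⟨r, s, rfl⟩ := hBj.span x hx
      rw [cka_map_comb φ (cka_map_scale φ h₁ (p ^ e)) (cka_map_scale φ h₂ (p ^ e)) r s]
      rw [← sub_eq_zero]
      have h6 : (α * r + β * s) • ((p ^ e) • P₁) + (γ * r + δ * s) • ((p ^ e) • P₂)
          - (Int.bmod α (p ^ j)) • (r • ((p ^ e) • P₁) + s • ((p ^ e) • P₂))
          = ((α - Int.bmod α (p ^ j)) * r + β * s) • ((p ^ e) • P₁)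
            + (γ * r + (δ - Int.bmod α (p ^ j)) * s) • ((p ^ e) • P₂) := by
        module
      rw [h6]
      have d1 : (p : ℤ) ^ j ∣ (α - Int.bmod α (p ^ j)) * r + β * s := by
        apply dvd_add
        · apply Dvd.dvd.mul_right
          rw [← neg_sub]
          exact (dvd_neg.mpr hmα)
        · exact Dvd.dvd.mul_right hβ s
      have d2 : (p : ℤ) ^ j ∣ γ * r + (δ - Int.bmod α (p ^ j)) * s := by
        apply dvd_add
        · exact Dvd.dvd.mul_right hγ r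
        · apply Dvd.dvd.mul_right
          have h7 : δ - Int.bmod α (p ^ j) = -(Int.bmod α (p ^ j) - α) - (α - δ) := by ring
          rw [h7]
          exact dvd_sub (dvd_neg.mpr hmα) hαδ
      rw [cka_zsmul_eq_zero hBj.mem₁ d1, cka_zsmul_eq_zero hBj.mem₂ d2, add_zero]
    have hkb := hKB j _ hker
    have hqc : 1 + |a| + |ℓ| < (p : ℤ) ^ j :=
      lt_of_lt_of_le hc (pow_le_pow_right₀ (by exact_mod_cast hp.one_le) hcj)
    have hb1 := Int.le_bmod (x := α) hqpos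
    have hb2 := Int.bmod_lt (x := α) hqpos
    have hpj : ((p ^ j : ℕ) : ℤ) = (p : ℤ) ^ j := Nat.cast_pow p j
    refine cka_bound (m := Int.bmod α (p ^ j)) hqc ?_ ?_ ?_
    · rw [← hpj]; omega
    · rw [← hpj]; omega
    · have : ((p : ℤ) ^ j) ^ 2 = (p : ℤ) ^ (2 * j) := by rw [← pow_mul, mul_comm]
      rw [this]; exact hkb

variable (hp : p.Prime) (hS : ∀ j, Nat.card (ckaTor G p j) = p ^ (2 * j))

include hp hS in
/-- **CoreK''** (integer form). -/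
theorem cka_core (a ℓ : ℤ) (φ : G →+ G)
    (hQ : ∀ (j : ℕ), ∀ x ∈ ckaTor G p j, φ (φ x) + ℓ • x = a • φ x)
    (hKB : ∀ (j : ℕ) (m : ℤ), (∀ x ∈ ckaTor G p j, φ x = m • x) →
      (p : ℤ) ^ (2 * j) ≤ m ^ 2 - a * m + ℓ) (n : ℕ) :
    ∃ (P₁ P₂ : G) (α β γ δ : ℤ), IsIntBasis G p n P₁ P₂ ∧
      φ P₁ = α • P₁ + γ • P₂ ∧ φ P₂ = β • P₁ + δ • P₂ ∧
      (p : ℤ) ^ n ∣ α + δ - a ∧ (p : ℤ) ^ n ∣ α * δ - β * γ - ℓ := by
  obtain ⟨c, hc⟩ : ∃ c : ℕ, 1 + |a| + |ℓ| < (p : ℤ) ^ c := by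
    refine ⟨(1 + |a| + |ℓ|).toNat, ?_⟩
    have h0 : 0 ≤ 1 + |a| + |ℓ| := by positivity
    have h1 := Nat.lt_pow_self (n := (1 + |a| + |ℓ|).toNat) hp.one_lt
    have h2 : (((1 + |a| + |ℓ|).toNat : ℕ) : ℤ) < ((p ^ (1 + |a| + |ℓ|).toNat : ℕ) : ℤ) := by
      exact_mod_cast h1
    rw [Int.toNat_of_nonneg h0, Nat.cast_pow] at h2
    exact h2
  obtain ⟨P₁, P₂, hB⟩ := cka_exists_basis hp hS (c + n)
  obtain ⟨α, γ, h₁⟩ := hB.span _ (cka_map_mem φ hB.mem₁)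
  obtain ⟨β, δ, h₂⟩ := hB.span _ (cka_map_mem φ hB.mem₂)
  obtain ⟨ht, hd⟩ := cka_core_aux hp a ℓ φ hKB hc hB (hQ (c + n)) h₁ h₂
  exact ⟨(p ^ c) • P₁, (p ^ c) • P₂, α, β, γ, δ, hB.scale hp,
    cka_map_scale φ h₁ _, cka_map_scale φ h₂ _, ht, hd⟩

end Core

section Lin

open Polynomial

variable {G : Type*} [AddCommGroup G] {p : ℕ}

/-- a `ZMod q`-basis from an integer basis -/
theorem cka_exists_linBasis {n q : ℕ} (hq : q = p ^ n) {P₁ P₂ : G}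
    (hB : IsIntBasis G p n P₁ P₂)
    {T : Type*} [AddCommGroup T] [Module (ZMod q) T] (ι : T →+ G) (hι : Function.Injective ι)
    (hrange : ∀ x, x ∈ ckaTor G p n ↔ ∃ y, ι y = x) :
    ∃ b : Module.Basis (Fin 2) (ZMod q) T, ι (b 0) = P₁ ∧ ι (b 1) = P₂ := by
  subst hq
  obtain ⟨y₁, hy₁⟩ := (hrange P₁).mp hB.mem₁
  obtain ⟨y₂, hy₂⟩ := (hrange P₂).mp hB.mem₂
  have hsm : ∀ (z : ℤ) (y : T), ι ((z : ZMod (p ^ n)) • y) = z • ι y := by
    intro z y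
    rw [Int.cast_smul_eq_zsmul, map_zsmul]
  have hli : LinearIndependent (ZMod (p ^ n)) ![y₁, y₂] := by
    rw [Fintype.linearIndependent_iff]
    intro g hg
    rw [Fin.sum_univ_two] at hg
    simp only [Matrix.cons_val_zero, Matrix.cons_val_one] at hg
    have h1 : ((g 0).cast : ℤ) • P₁ + ((g 1).cast : ℤ) • P₂ = 0 := by
      rw [← hy₁, ← hy₂, ← hsm, ← hsm, ← map_add, ZMod.intCast_zmod_cast, ZMod.intCast_zmod_cast,
        hg, map_zero]
    obtain ⟨d0, d1⟩ := hB.indep _ _ h1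
    rw [← Nat.cast_pow] at d0 d1
    have e0 : g 0 = 0 := by
      rw [← ZMod.intCast_zmod_cast (g 0)]
      exact (ZMod.intCast_zmod_eq_zero_iff_dvd _ _).mpr d0
    have e1 : g 1 = 0 := by
      rw [← ZMod.intCast_zmod_cast (g 1)]
      exact (ZMod.intCast_zmod_eq_zero_iff_dvd _ _).mpr d1
    intro i
    fin_cases i
    · exact e0
    · exact e1
  have hsp : ⊤ ≤ Submodule.span (ZMod (p ^ n)) (Set.range ![y₁, y₂]) := by
    intro y _
    obtain ⟨u, v, huv⟩ := hB.span (ι y) ((hrange _).mpr ⟨y, rfl⟩)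
    have hy : y = (u : ZMod (p ^ n)) • y₁ + (v : ZMod (p ^ n)) • y₂ := by
      apply hι
      rw [map_add, hsm, hsm, hy₁, hy₂, huv]
    rw [hy]
    refine Submodule.add_mem _ (Submodule.smul_mem _ _ (Submodule.subset_span ⟨0, rfl⟩))
      (Submodule.smul_mem _ _ (Submodule.subset_span ⟨1, rfl⟩))
  refine ⟨Module.Basis.mk hli hsp, ?_, ?_⟩
  · rw [Module.Basis.mk_apply]; exact hy₁
  · rw [Module.Basis.mk_apply]; exact hy₂

/-- a linear map with a given integer matrix in a basis: trace, det -/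
theorem cka_lin_of_matrix {q : ℕ} {T : Type*} [AddCommGroup T] [Module (ZMod q) T]
    (b : Module.Basis (Fin 2) (ZMod q) T) (Φ : T →ₗ[ZMod q] T) {α β γ δ : ℤ}
    (h₁ : Φ (b 0) = (α : ZMod q) • b 0 + (γ : ZMod q) • b 1)
    (h₂ : Φ (b 1) = (β : ZMod q) • b 0 + (δ : ZMod q) • b 1) :
    LinearMap.trace (ZMod q) T Φ = ((α + δ : ℤ) : ZMod q) ∧
      LinearMap.det Φ = ((α * δ - β * γ : ℤ) : ZMod q) := by
  have hΦ : Φ = Matrix.toLin b b !![(α : ZMod q), (β : ZMod q); (γ : ZMod q), (δ : ZMod q)] := by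
    apply b.ext
    intro i
    rw [Matrix.toLin_self, Fin.sum_univ_two]
    fin_cases i
    · simpa using h₁
    · simpa using h₂
  have htr : LinearMap.trace (ZMod q) T Φ = ((α + δ : ℤ) : ZMod q) := by
    rw [LinearMap.trace_eq_matrix_trace (ZMod q) b, hΦ, LinearMap.toMatrix_toLin,
      Matrix.trace_fin_two]
    simp
  have hdet : LinearMap.det Φ = ((α * δ - β * γ : ℤ) : ZMod q) := by
    rw [hΦ, LinearMap.det_toLin, Matrix.det_fin_two]
    simp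
  exact ⟨htr, hdet⟩

/-- the characteristic polynomial on a free module of rank 2 -/
theorem cka_charpoly_of_basis {q : ℕ} {T : Type*} [AddCommGroup T] [Module (ZMod q) T]
    [Module.Free (ZMod q) T] [Module.Finite (ZMod q) T]
    (b : Module.Basis (Fin 2) (ZMod q) T) (Φ : T →ₗ[ZMod q] T) :
    Φ.charpoly = X ^ 2 - C (LinearMap.trace (ZMod q) T Φ) * X + C (LinearMap.det Φ) := by
  rcases subsingleton_or_nontrivial (ZMod q) with hs | hn
  · exact Subsingleton.elim _ _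
  · rw [← LinearMap.charpoly_toMatrix Φ b, Matrix.charpoly_fin_two,
      ← LinearMap.trace_eq_matrix_trace (ZMod q) b, LinearMap.det_toMatrix]

variable (hp : p.Prime) (hS : ∀ j, Nat.card (ckaTor G p j) = p ^ (2 * j))

include hp hS in
/-- under the count hypothesis, `T ≅ G[p^n]` is free of rank 2 over `ZMod (p^n)` -/
theorem cka_exists_basis_lin {n q : ℕ} (hq : q = p ^ n)
    {T : Type*} [AddCommGroup T] [Module (ZMod q) T] (ι : T →+ G) (hι : Function.Injective ι)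
    (hrange : ∀ x, x ∈ ckaTor G p n ↔ ∃ y, ι y = x) :
    Nonempty (Module.Basis (Fin 2) (ZMod q) T) := by
  obtain ⟨P₁, P₂, hB⟩ := cka_exists_basis hp hS n
  obtain ⟨b, -, -⟩ := cka_exists_linBasis hq hB ι hι hrange
  exact ⟨b⟩

include hp hS in
/-- **CoreK''** (linear form): trace and determinant of `φ` on `G[p^n]`, for any
`ZMod (p^n)`-module `T` identified with `G[p^n]` by an injective `ι`. -/
theorem cka_main (a ℓ : ℤ) (φ : G →+ G)
    (hQ : ∀ (j : ℕ), ∀ x ∈ ckaTor G p j, φ (φ x) + ℓ • x = a • φ x)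
    (hKB : ∀ (j : ℕ) (m : ℤ), (∀ x ∈ ckaTor G p j, φ x = m • x) →
      (p : ℤ) ^ (2 * j) ≤ m ^ 2 - a * m + ℓ)
    {n q : ℕ} (hq : q = p ^ n)
    {T : Type*} [AddCommGroup T] [Module (ZMod q) T] (ι : T →+ G) (hι : Function.Injective ι)
    (hrange : ∀ x, x ∈ ckaTor G p n ↔ ∃ y, ι y = x)
    (Φ : T →ₗ[ZMod q] T) (hΦ : ∀ y, ι (Φ y) = φ (ι y)) :
    LinearMap.trace (ZMod q) T Φ = (a : ZMod q) ∧ LinearMap.det Φ = (ℓ : ZMod q) := by
  obtain ⟨P₁, P₂, α, β, γ, δ, hB, h₁, h₂, ht, hd⟩ := cka_core hp hS a ℓ φ hQ hKB n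
  obtain ⟨b, hb0, hb1⟩ := cka_exists_linBasis hq hB ι hι hrange
  have hsm : ∀ (z : ℤ) (y : T), ι ((z : ZMod q) • y) = z • ι y := by
    intro z y
    rw [Int.cast_smul_eq_zsmul, map_zsmul]
  have e₁ : Φ (b 0) = (α : ZMod q) • b 0 + (γ : ZMod q) • b 1 := by
    apply hι
    rw [hΦ, map_add, hsm, hsm, hb0, hb1, h₁]
  have e₂ : Φ (b 1) = (β : ZMod q) • b 0 + (δ : ZMod q) • b 1 := by
    apply hι
    rw [hΦ, map_add, hsm, hsm, hb0, hb1, h₂]
  obtain ⟨htr, hdet⟩ := cka_lin_of_matrix b Φ e₁ e₂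
  have ea : ((α + δ : ℤ) : ZMod q) = (a : ZMod q) := by
    rw [← sub_eq_zero, ← Int.cast_sub, ZMod.intCast_zmod_eq_zero_iff_dvd, hq, Nat.cast_pow]
    exact ht
  have eℓ : ((α * δ - β * γ : ℤ) : ZMod q) = (ℓ : ZMod q) := by
    rw [← sub_eq_zero, ← Int.cast_sub, ZMod.intCast_zmod_eq_zero_iff_dvd, hq, Nat.cast_pow]
    exact hd
  rw [ea] at htr
  rw [eℓ] at hdet
  exact ⟨htr, hdet⟩

theorem cka_range_torsionBy {n q : ℕ} (hq : q = p ^ n) (x : G) :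
    x ∈ ckaTor G p n ↔
      ∃ y, (Submodule.torsionBy ℤ G (q : ℤ)).subtype.toAddMonoidHom y = x := by
  rw [mem_ckaTor, ← hq]
  constructor
  · intro hx
    refine ⟨⟨x, ?_⟩, rfl⟩
    rw [Submodule.mem_torsionBy_iff, natCast_zsmul]
    exact hx
  · rintro ⟨y, rfl⟩
    have := y.2
    rw [Submodule.mem_torsionBy_iff, natCast_zsmul] at this
    exact this

include hp hS in
/-- `cka_main` for `T = Submodule.torsionBy ℤ G q` with any `ZMod q`-module structure. -/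
theorem cka_main_torsionBy (a ℓ : ℤ) (φ : G →+ G)
    (hQ : ∀ (j : ℕ), ∀ x ∈ ckaTor G p j, φ (φ x) + ℓ • x = a • φ x)
    (hKB : ∀ (j : ℕ) (m : ℤ), (∀ x ∈ ckaTor G p j, φ x = m • x) →
      (p : ℤ) ^ (2 * j) ≤ m ^ 2 - a * m + ℓ)
    {n q : ℕ} (hq : q = p ^ n)
    [Module (ZMod q) (Submodule.torsionBy ℤ G (q : ℤ))]
    (Φ : Submodule.torsionBy ℤ G (q : ℤ) →ₗ[ZMod q] Submodule.torsionBy ℤ G (q : ℤ))
    (hΦ : ∀ y, ((Φ y : Submodule.torsionBy ℤ G (q : ℤ)) : G) = φ (y : G)) :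
    LinearMap.trace (ZMod q) _ Φ = (a : ZMod q) ∧ LinearMap.det Φ = (ℓ : ZMod q) :=
  cka_main hp hS a ℓ φ hQ hKB hq
    (Submodule.torsionBy ℤ G (q : ℤ)).subtype.toAddMonoidHom Subtype.val_injective
    (cka_range_torsionBy hq) Φ hΦ

include hp hS in
/-- `Submodule.torsionBy ℤ G (p^n)` is free of rank 2 over `ZMod (p^n)` -/
theorem cka_basis_torsionBy {n q : ℕ} (hq : q = p ^ n)
    [Module (ZMod q) (Submodule.torsionBy ℤ G (q : ℤ))] :
    Nonempty (Module.Basis (Fin 2) (ZMod q) (Submodule.torsionBy ℤ G (q : ℤ))) :=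
  cka_exists_basis_lin hp hS hq
    (Submodule.torsionBy ℤ G (q : ℤ)).subtype.toAddMonoidHom Subtype.val_injective
    (cka_range_torsionBy hq)

end Lin

end Fermat.Agent.S58lib
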