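import Mathlib
import Fermat.Agent.S41lib.NonEisRed

/-!
# Item 84 (S58), piece 84-A: the reduction homomorphism on torsion (helper23).  Complete proofs.

`W` an integral Weierstrass curve, `ℓ` a prime of good reduction, `A` a valuation subring of `ℚ̄`
over `ℓ`, `κ = A / 𝔪_A`, `n = 2 m + 1` odd and prime to `ℓ`.  On the points of
`E = W_ℚ̄` killed by `n` the reduction map `(x, y) ↦ (x̄, ȳ)` is defined
(`rhRedE`), additive (`rh_red_add`), with trivial kernel (`rh_red_eq_zero`), and commutes with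
the decomposition group (`rh_red_smul`); a Frobenius element at `A` becomes the Frobenius
`(x, y) ↦ (x^ℓ, y^ℓ)` (`rh_red_frob`).  Everything is built on helper3's `S41lib/NonEisRed`
(injectivity of the reduction on `x`-coordinates).
-/

set_option autoImplicit false
set_option linter.unusedSectionVars false
set_option linter.unusedVariables false
set_option linter.style.haveILetI false

open WeierstrassCurve WeierstrassCurve.Affine WeierstrassCurve.Affine.Point Polynomial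
open IsLocalRing

namespace Fermat.Agent.S58lib

open Fermat.Agent.S41lib Fermat.Agent

section Val

variable (A : ValuationSubring (AlgebraicClosure ℚ))

/-- the quotient by a unit of `A` -/
theorem rh_div_mem {a b : AlgebraicClosure ℚ} (ha : a ∈ A) (hb : b ∈ A)
    (hu : residue A ⟨b, hb⟩ ≠ 0) :
    ∃ h : a / b ∈ A, residue A ⟨a / b, h⟩ = residue A ⟨a, ha⟩ / residue A ⟨b, hb⟩ := by
  have hv : A.valuation b = 1 := ner_val_eq_one_of_residue_ne_zero A ⟨b, hb⟩ hu
  have hb0 : b ≠ 0 := by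
    rintro rfl
    rw [_root_.map_zero] at hv
    exact zero_ne_one hv
  have hmem : a / b ∈ A := by
    rw [← A.valuation_le_one_iff, map_div₀, hv, div_one]
    exact (A.valuation_le_one_iff a).mpr ha
  refine ⟨hmem, ?_⟩
  rw [eq_div_iff hu, ← map_mul]
  congr 1
  apply Subtype.ext
  show a / b * b = a
  field_simp

theorem rh_residue_congr {a b : AlgebraicClosure ℚ} (e : a = b) (ha : a ∈ A) (hb : b ∈ A) :
    residue A ⟨a, ha⟩ = residue A ⟨b, hb⟩ := by
  subst e
  rfl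

end Val

section Curve

variable (A : ValuationSubring (AlgebraicClosure ℚ)) (W : WeierstrassCurve ℤ)

/-- the equation passes to the residue field -/
theorem rh_equation_residue (x y : A)
    (h : (W.map (Int.castRingHom (AlgebraicClosure ℚ))).toAffine.Equation
      (x : AlgebraicClosure ℚ) (y : AlgebraicClosure ℚ)) :
    (W.map (Int.castRingHom (ResidueField A))).toAffine.Equation (residue A x) (residue A y) := by
  rw [equation_iff] at h ⊢
  simp only [map_a₁, map_a₂, map_a₃, map_a₄, map_a₆, eq_intCast] at h ⊢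
  have eqA : y ^ 2 + (W.a₁ : A) * x * y + (W.a₃ : A) * y
      = x ^ 3 + (W.a₂ : A) * x ^ 2 + (W.a₄ : A) * x + (W.a₆ : A) := by
    apply Subtype.ext
    push_cast
    exact h
  have eqk := congrArg (residue A) eqA
  simp only [map_add, map_mul, map_pow, map_intCast] at eqk
  exact eqk

theorem rh_negY_mem {x y : AlgebraicClosure ℚ} (hx : x ∈ A) (hy : y ∈ A) :
    (W.map (Int.castRingHom (AlgebraicClosure ℚ))).toAffine.negY x y ∈ A := by
  rw [Affine.negY]
  simp only [map_a₁, map_a₃, eq_intCast]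
  exact A.sub_mem (A.sub_mem (A.neg_mem _ hy) (A.mul_mem _ _ (intCast_mem A _) hx))
    (intCast_mem A _)

theorem rh_negY_residue {x y : AlgebraicClosure ℚ} (hx : x ∈ A) (hy : y ∈ A) :
    residue A ⟨_, rh_negY_mem A W hx hy⟩
      = (W.map (Int.castRingHom (ResidueField A))).toAffine.negY
          (residue A ⟨x, hx⟩) (residue A ⟨y, hy⟩) := by
  have e : (⟨_, rh_negY_mem A W hx hy⟩ : A)
      = -⟨y, hy⟩ - (W.a₁ : A) * ⟨x, hx⟩ - (W.a₃ : A) := by
    apply Subtype.ext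
    push_cast
    rw [Affine.negY]
    simp only [map_a₁, map_a₃, eq_intCast]
  rw [e, Affine.negY]
  simp only [map_a₁, map_a₃, eq_intCast, map_sub, map_neg, map_mul, map_intCast]

theorem rh_addX_mem {x₁ x₂ s : AlgebraicClosure ℚ} (h₁ : x₁ ∈ A) (h₂ : x₂ ∈ A) (hs : s ∈ A) :
    (W.map (Int.castRingHom (AlgebraicClosure ℚ))).toAffine.addX x₁ x₂ s ∈ A := by
  rw [Affine.addX]
  simp only [map_a₁, map_a₂, eq_intCast]
  exact A.sub_mem (A.sub_mem (A.sub_mem (A.add_mem _ _ (pow_mem hs 2)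
    (A.mul_mem _ _ (intCast_mem A _) hs)) (intCast_mem A _)) h₁) h₂

theorem rh_addX_residue {x₁ x₂ s : AlgebraicClosure ℚ} (h₁ : x₁ ∈ A) (h₂ : x₂ ∈ A)
    (hs : s ∈ A) :
    residue A ⟨_, rh_addX_mem A W h₁ h₂ hs⟩
      = (W.map (Int.castRingHom (ResidueField A))).toAffine.addX
          (residue A ⟨x₁, h₁⟩) (residue A ⟨x₂, h₂⟩) (residue A ⟨s, hs⟩) := by
  have e : (⟨_, rh_addX_mem A W h₁ h₂ hs⟩ : A)
      = ⟨s, hs⟩ ^ 2 + (W.a₁ : A) * ⟨s, hs⟩ - (W.a₂ : A) - ⟨x₁, h₁⟩ - ⟨x₂, h₂⟩ := by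
    apply Subtype.ext
    push_cast
    rw [Affine.addX]
    simp only [map_a₁, map_a₂, eq_intCast]
  rw [e, Affine.addX]
  simp only [map_a₁, map_a₂, eq_intCast, map_sub, map_add, map_pow, map_mul, map_intCast]

theorem rh_addY_mem {x₁ x₂ y₁ s : AlgebraicClosure ℚ} (h₁ : x₁ ∈ A) (h₂ : x₂ ∈ A)
    (hy : y₁ ∈ A) (hs : s ∈ A) :
    (W.map (Int.castRingHom (AlgebraicClosure ℚ))).toAffine.addY x₁ x₂ y₁ s ∈ A := by
  rw [Affine.addY]
  refine rh_negY_mem A W (rh_addX_mem A W h₁ h₂ hs) ?_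
  rw [Affine.negAddY]
  exact A.add_mem _ _ (A.mul_mem _ _ hs (A.sub_mem (rh_addX_mem A W h₁ h₂ hs) h₁)) hy

theorem rh_addY_residue {x₁ x₂ y₁ s : AlgebraicClosure ℚ} (h₁ : x₁ ∈ A) (h₂ : x₂ ∈ A)
    (hy : y₁ ∈ A) (hs : s ∈ A) :
    residue A ⟨_, rh_addY_mem A W h₁ h₂ hy hs⟩
      = (W.map (Int.castRingHom (ResidueField A))).toAffine.addY
          (residue A ⟨x₁, h₁⟩) (residue A ⟨x₂, h₂⟩) (residue A ⟨y₁, hy⟩)
          (residue A ⟨s, hs⟩) := by
  have hN : (W.map (Int.castRingHom (AlgebraicClosure ℚ))).toAffine.negAddY x₁ x₂ y₁ s ∈ A := by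
    rw [Affine.negAddY]
    exact A.add_mem _ _ (A.mul_mem _ _ hs (A.sub_mem (rh_addX_mem A W h₁ h₂ hs) h₁)) hy
  have e1 : residue A ⟨_, rh_addY_mem A W h₁ h₂ hy hs⟩
      = residue A ⟨_, rh_negY_mem A W (rh_addX_mem A W h₁ h₂ hs) hN⟩ :=
    rh_residue_congr A (by rw [Affine.addY]) _ _
  have e2 : (⟨_, hN⟩ : A)
      = ⟨s, hs⟩ * (⟨_, rh_addX_mem A W h₁ h₂ hs⟩ - ⟨x₁, h₁⟩) + ⟨y₁, hy⟩ := by
    apply Subtype.ext
    push_cast
    rw [Affine.negAddY]
  rw [e1, rh_negY_residue A W (rh_addX_mem A W h₁ h₂ hs) hN, rh_addX_residue A W h₁ h₂ hs, e2,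
    Affine.addY, Affine.negAddY, map_add, map_mul, map_sub, rh_addX_residue A W h₁ h₂ hs]

theorem rh_some_congr {k : Type*} [Field k] {Wk : WeierstrassCurve k} {x x' y y' : k}
    (hx : x = x') (hy : y = y') (h : Wk.toAffine.Nonsingular x y)
    (h' : Wk.toAffine.Nonsingular x' y') :
    Point.some x y h = Point.some x' y' h' := by
  subst hx hy
  rfl

end Curve

/-! ## The reduction map -/

section Red

variable (A : ValuationSubring (AlgebraicClosure ℚ)) (W : WeierstrassCurve ℤ)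
  [hk : (W.map (Int.castRingHom (ResidueField A))).IsElliptic]

omit hk in
theorem rh_equation_of_eq (E : WeierstrassCurve (AlgebraicClosure ℚ))
    (hE : E = W.map (Int.castRingHom (AlgebraicClosure ℚ))) {x y : AlgebraicClosure ℚ}
    (h : E.toAffine.Nonsingular x y) :
    (W.map (Int.castRingHom (AlgebraicClosure ℚ))).toAffine.Equation x y := by
  subst hE
  exact h.1

/-- the reduced point is nonsingular -/
theorem rh_nonsingular_res (E : WeierstrassCurve (AlgebraicClosure ℚ))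
    (hE : E = W.map (Int.castRingHom (AlgebraicClosure ℚ))) {x y : AlgebraicClosure ℚ}
    (h : E.toAffine.Nonsingular x y) (hx : x ∈ A) (hy : y ∈ A) :
    (W.map (Int.castRingHom (ResidueField A))).toAffine.Nonsingular
      (residue A ⟨x, hx⟩) (residue A ⟨y, hy⟩) :=
  equation_iff_nonsingular.mp
    (rh_equation_residue A W ⟨x, hx⟩ ⟨y, hy⟩ (rh_equation_of_eq W E hE h))

open Classical in
/-- the reduction of a point with integral coordinates (and `0` for all other points) -/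
noncomputable def rhRedE (E : WeierstrassCurve (AlgebraicClosure ℚ))
    (hE : E = W.map (Int.castRingHom (AlgebraicClosure ℚ))) :
    E.toAffine.Point → (W.map (Int.castRingHom (ResidueField A))).toAffine.Point
  | .zero => 0
  | .some x y h =>
    if hxy : x ∈ A ∧ y ∈ A then
      Point.some (residue A ⟨x, hxy.1⟩) (residue A ⟨y, hxy.2⟩)
        (rh_nonsingular_res A W E hE h hxy.1 hxy.2)
    else 0

variable (E : WeierstrassCurve (AlgebraicClosure ℚ))
  (hE : E = W.map (Int.castRingHom (AlgebraicClosure ℚ)))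

theorem rhRedE_zero : rhRedE A W E hE 0 = 0 := rfl

theorem rhRedE_some {x y : AlgebraicClosure ℚ} (h : E.toAffine.Nonsingular x y)
    (hx : x ∈ A) (hy : y ∈ A) :
    rhRedE A W E hE (Point.some x y h)
      = Point.some (residue A ⟨x, hx⟩) (residue A ⟨y, hy⟩)
        (rh_nonsingular_res A W E hE h hx hy) :=
  dif_pos (show x ∈ A ∧ y ∈ A from ⟨hx, hy⟩)

end Red

/-! ## Torsion points -/

section Tors

variable (A : ValuationSubring (AlgebraicClosure ℚ)) (W : WeierstrassCurve ℤ) {ℓ : ℕ}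
  (hℓ : ℓ.Prime) (hA : A.LiesOverPrime ℓ) (hgood : W.IsGoodPrimeFor ℓ)
  (m : ℕ) (hm : 1 ≤ m) (hmℓ : ¬ (ℓ : ℤ) ∣ 2 * (m : ℤ) + 1)

include hgood in
theorem rh_isElliptic_Qb : (W.map (Int.castRingHom (AlgebraicClosure ℚ))).IsElliptic := by
  apply ner_isElliptic_of_Δ_ne_zero
  have hΔ0 : W.Δ ≠ 0 := by
    intro e
    apply hgood
    rw [e]
    exact dvd_zero _
  rw [map_Δ, eq_intCast]
  exact_mod_cast hΔ0

include hℓ hA hgood in
theorem rh_isElliptic_res : (W.map (Int.castRingHom (ResidueField A))).IsElliptic :=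
  ner_isElliptic_of_Δ_ne_zero _ (ner_Δ_residue_ne_zero A W hℓ hA hgood)

include hgood hm in
/-- the torsion polynomial vanishes at the `x`-coordinate of a torsion point -/
theorem rh_tors_eval {x y : AlgebraicClosure ℚ}
    (h : (W.map (Int.castRingHom (AlgebraicClosure ℚ))).toAffine.Nonsingular x y)
    (hP : (2 * m + 1) • Point.some x y h = 0) :
    (Ladder.torsPoly W m).eval₂ (Int.castRingHom (AlgebraicClosure ℚ)) x = 0 := by
  haveI := rh_isElliptic_Qb W hgood
  have hspec : Ladder.AddSubSpec (W.map (Int.castRingHom (AlgebraicClosure ℚ))) :=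
    fun P Q => Ladder.addSubMap_sym2x _ P Q
  rw [Ladder.odd_nsmul_eq_zero_iff hspec h m hm, Ladder.map_torsPoly, eval_map] at hP
  exact hP

include hℓ hA hgood hm hmℓ in
/-- torsion points of order prime to `ℓ` have integral coordinates -/
theorem rh_tors_mem {x y : AlgebraicClosure ℚ}
    (h : (W.map (Int.castRingHom (AlgebraicClosure ℚ))).toAffine.Nonsingular x y)
    (hP : (2 * m + 1) • Point.some x y h = 0) : x ∈ A ∧ y ∈ A := by
  have hx : x ∈ A :=
    ner_torsion_x_mem A W hℓ hA m hm hmℓ x (rh_tors_eval W hgood m hm h hP)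
  refine ⟨hx, ?_⟩
  have he := h.1
  rw [equation_iff] at he
  simp only [map_a₁, map_a₂, map_a₃, map_a₄, map_a₆, eq_intCast] at he
  refine ner_mem_of_quadratic A (b := (W.a₁ : AlgebraicClosure ℚ) * x + W.a₃)
    (c := x ^ 3 + W.a₂ * x ^ 2 + W.a₄ * x + W.a₆) ?_ ?_ ?_
  · exact A.add_mem _ _ (A.mul_mem _ _ (intCast_mem A _) hx) (intCast_mem A _)
  · exact A.add_mem _ _ (A.add_mem _ _ (A.add_mem _ _ (pow_mem hx 3)
      (A.mul_mem _ _ (intCast_mem A _) (pow_mem hx 2))) (A.mul_mem _ _ (intCast_mem A _) hx))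
      (intCast_mem A _)
  · linear_combination he

include hgood hm in
/-- the torsion polynomial of the reduced curve vanishes at the reduced `x`-coordinate -/
theorem rh_tors_res_eval {x y : AlgebraicClosure ℚ}
    (h : (W.map (Int.castRingHom (AlgebraicClosure ℚ))).toAffine.Nonsingular x y)
    (hP : (2 * m + 1) • Point.some x y h = 0) (hx : x ∈ A) :
    (Ladder.torsPoly (W.map (Int.castRingHom (ResidueField A))) m).eval (residue A ⟨x, hx⟩)
      = 0 := by
  have h0 := rh_tors_eval W hgood m hm h hP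
  have h1 : (Ladder.torsPoly W m).eval₂ (Int.castRingHom A) (⟨x, hx⟩ : A) = 0 := by
    apply Subtype.ext
    rw [ner_coe_eval₂]
    exact h0
  rw [Ladder.map_torsPoly, eval_map, ← ner_residue_eval₂, h1, _root_.map_zero]

include hℓ hA hgood hm in
/-- the reduction of a torsion point of odd order is not a point of order two -/
theorem rh_tors_res_not_two {x y : AlgebraicClosure ℚ}
    (h : (W.map (Int.castRingHom (AlgebraicClosure ℚ))).toAffine.Nonsingular x y)
    (hP : (2 * m + 1) • Point.some x y h = 0) (hx : x ∈ A) (hy : y ∈ A) :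
    residue A ⟨y, hy⟩ ≠ (W.map (Int.castRingHom (ResidueField A))).toAffine.negY
      (residue A ⟨x, hx⟩) (residue A ⟨y, hy⟩) := by
  haveI := rh_isElliptic_res A W hℓ hA hgood
  exact ner_not_two_torsion _ m hm (rh_equation_residue A W ⟨x, hx⟩ ⟨y, hy⟩ h.1)
    (rh_tors_res_eval A W hgood m hm h hP hx)

include hℓ hA hgood hm hmℓ in
/-- **the slope reduces to the slope** -/
theorem rh_slope [DecidableEq (ResidueField A)] {x₁ y₁ x₂ y₂ : AlgebraicClosure ℚ}
    (h₁ : (W.map (Int.castRingHom (AlgebraicClosure ℚ))).toAffine.Nonsingular x₁ y₁)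
    (h₂ : (W.map (Int.castRingHom (AlgebraicClosure ℚ))).toAffine.Nonsingular x₂ y₂)
    (hP : (2 * m + 1) • Point.some x₁ y₁ h₁ = 0) (hQ : (2 * m + 1) • Point.some x₂ y₂ h₂ = 0)
    (hx₁ : x₁ ∈ A) (hy₁ : y₁ ∈ A) (hx₂ : x₂ ∈ A) (hy₂ : y₂ ∈ A)
    (hxy : ¬ (x₁ = x₂ ∧ y₁ = (W.map (Int.castRingHom (AlgebraicClosure ℚ))).toAffine.negY x₂ y₂)) :
    ∃ hs : (W.map (Int.castRingHom (AlgebraicClosure ℚ))).toAffine.slope x₁ x₂ y₁ y₂ ∈ A,
      residue A ⟨_, hs⟩ = (W.map (Int.castRingHom (ResidueField A))).toAffine.slope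
        (residue A ⟨x₁, hx₁⟩) (residue A ⟨x₂, hx₂⟩) (residue A ⟨y₁, hy₁⟩) (residue A ⟨y₂, hy₂⟩) ∧
      ¬ (residue A ⟨x₁, hx₁⟩ = residue A ⟨x₂, hx₂⟩ ∧
          residue A ⟨y₁, hy₁⟩ = (W.map (Int.castRingHom (ResidueField A))).toAffine.negY
            (residue A ⟨x₂, hx₂⟩) (residue A ⟨y₂, hy₂⟩)) := by
  by_cases hx : x₁ = x₂
  · have hy : y₁ ≠ (W.map (Int.castRingHom (AlgebraicClosure ℚ))).toAffine.negY x₂ y₂ :=
      fun h => hxy ⟨hx, h⟩
    have hyy : y₁ = y₂ := Y_eq_of_Y_ne h₁.1 h₂.1 hx hy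
    subst hx hyy
    have hne := rh_tors_res_not_two A W hℓ hA hgood m hm h₁ hP hx₁ hy₁
    have hnum : 3 * x₁ ^ 2 + 2 * (W.a₂ : AlgebraicClosure ℚ) * x₁ + W.a₄ - W.a₁ * y₁ ∈ A :=
      A.sub_mem (A.add_mem _ _ (A.add_mem _ _ (A.mul_mem _ _ (by
        have : (3 : AlgebraicClosure ℚ) = ((3 : ℤ) : AlgebraicClosure ℚ) := by norm_num
        rw [this]; exact intCast_mem A _) (pow_mem hx₁ 2))
        (A.mul_mem _ _ (A.mul_mem _ _ (by
          have : (2 : AlgebraicClosure ℚ) = ((2 : ℤ) : AlgebraicClosure ℚ) := by norm_num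
          rw [this]; exact intCast_mem A _) (intCast_mem A _)) hx₁)) (intCast_mem A _))
        (A.mul_mem _ _ (intCast_mem A _) hy₁)
    have hden : y₁ - (W.map (Int.castRingHom (AlgebraicClosure ℚ))).toAffine.negY x₁ y₁ ∈ A :=
      A.sub_mem hy₁ (rh_negY_mem A W hx₁ hy₁)
    have hdenr : residue A ⟨_, hden⟩ = residue A ⟨y₁, hy₁⟩
        - (W.map (Int.castRingHom (ResidueField A))).toAffine.negY
          (residue A ⟨x₁, hx₁⟩) (residue A ⟨y₁, hy₁⟩) := by
      rw [← rh_negY_residue A W hx₁ hy₁, ← map_sub]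
      rfl
    have hnumr : residue A ⟨_, hnum⟩ = 3 * residue A ⟨x₁, hx₁⟩ ^ 2
        + 2 * (W.map (Int.castRingHom (ResidueField A))).a₂ * residue A ⟨x₁, hx₁⟩
        + (W.map (Int.castRingHom (ResidueField A))).a₄
        - (W.map (Int.castRingHom (ResidueField A))).a₁ * residue A ⟨y₁, hy₁⟩ := by
      have e : (⟨_, hnum⟩ : A) = 3 * ⟨x₁, hx₁⟩ ^ 2 + 2 * (W.a₂ : A) * ⟨x₁, hx₁⟩ + (W.a₄ : A)
          - (W.a₁ : A) * ⟨y₁, hy₁⟩ := by
        apply Subtype.ext
        push_cast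
        rfl
      rw [e]
      simp only [map_a₁, map_a₂, map_a₄, eq_intCast, map_sub, map_add, map_mul, map_pow,
        map_intCast, map_ofNat]
    have hu : residue A ⟨_, hden⟩ ≠ 0 := by
      rw [hdenr]
      exact sub_ne_zero.mpr hne
    obtain ⟨hs, hsr⟩ := rh_div_mem A hnum hden hu
    have e1 : (W.map (Int.castRingHom (AlgebraicClosure ℚ))).toAffine.slope x₁ x₁ y₁ y₁
        = (3 * x₁ ^ 2 + 2 * (W.a₂ : AlgebraicClosure ℚ) * x₁ + W.a₄ - W.a₁ * y₁)
          / (y₁ - (W.map (Int.castRingHom (AlgebraicClosure ℚ))).toAffine.negY x₁ y₁) := by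
      rw [slope_of_Y_ne rfl hy]
      simp only [map_a₁, map_a₂, map_a₄, eq_intCast]
    have hs' : (W.map (Int.castRingHom (AlgebraicClosure ℚ))).toAffine.slope x₁ x₁ y₁ y₁ ∈ A := by
      rw [e1]; exact hs
    refine ⟨hs', ?_, fun h => hne h.2⟩
    rw [slope_of_Y_ne rfl hne, ← hnumr, ← hdenr, ← hsr]
    exact rh_residue_congr A e1 _ _
  · have ht₁ := rh_tors_eval W hgood m hm h₁ hP
    have ht₂ := rh_tors_eval W hgood m hm h₂ hQ
    have hres : residue A ⟨x₁, hx₁⟩ ≠ residue A ⟨x₂, hx₂⟩ := by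
      intro h
      apply hx
      exact congrArg Subtype.val (ner_x_eq_of_residue_eq A W hℓ hA hgood m hm hmℓ
        (a := ⟨x₁, hx₁⟩) (y := ⟨y₁, hy₁⟩) (a' := ⟨x₂, hx₂⟩) (y' := ⟨y₂, hy₂⟩)
        h₁.1 h₂.1 ht₁ ht₂ h)
    have hnum : y₁ - y₂ ∈ A := A.sub_mem hy₁ hy₂
    have hden : x₁ - x₂ ∈ A := A.sub_mem hx₁ hx₂
    have hdenr : residue A ⟨_, hden⟩ = residue A ⟨x₁, hx₁⟩ - residue A ⟨x₂, hx₂⟩ := by
      rw [← map_sub]
      rfl
    have hnumr : residue A ⟨_, hnum⟩ = residue A ⟨y₁, hy₁⟩ - residue A ⟨y₂, hy₂⟩ := by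
      rw [← map_sub]
      rfl
    have hu : residue A ⟨_, hden⟩ ≠ 0 := by
      rw [hdenr]
      exact sub_ne_zero.mpr hres
    obtain ⟨hs, hsr⟩ := rh_div_mem A hnum hden hu
    have e1 : (W.map (Int.castRingHom (AlgebraicClosure ℚ))).toAffine.slope x₁ x₂ y₁ y₂
        = (y₁ - y₂) / (x₁ - x₂) := slope_of_X_ne hx
    have hs' : (W.map (Int.castRingHom (AlgebraicClosure ℚ))).toAffine.slope x₁ x₂ y₁ y₂ ∈ A := by
      rw [e1]; exact hs
    refine ⟨hs', ?_, fun h => hres h.1⟩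
    rw [slope_of_X_ne hres, ← hnumr, ← hdenr, ← hsr]
    exact rh_residue_congr A e1 _ _

/-! ## Additivity -/

variable [DecidableEq (ResidueField A)]
  [hk : (W.map (Int.castRingHom (ResidueField A))).IsElliptic]
  (E : WeierstrassCurve (AlgebraicClosure ℚ))
  (hE : E = W.map (Int.castRingHom (AlgebraicClosure ℚ)))

include hℓ hA hgood hm hmℓ in
/-- **the reduction is additive on the points killed by `2 m + 1`** -/
theorem rh_red_add (P Q : E.toAffine.Point) (hP : (2 * m + 1) • P = 0)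
    (hQ : (2 * m + 1) • Q = 0) :
    rhRedE A W E hE (P + Q) = rhRedE A W E hE P + rhRedE A W E hE Q := by
  subst hE
  rcases P with _ | ⟨x₁, y₁, h₁⟩
  · change rhRedE A W _ rfl (0 + Q) = rhRedE A W _ rfl 0 + rhRedE A W _ rfl Q
    rw [zero_add, rhRedE_zero, zero_add]
  rcases Q with _ | ⟨x₂, y₂, h₂⟩
  · change rhRedE A W _ rfl (Point.some x₁ y₁ h₁ + 0)
      = rhRedE A W _ rfl (Point.some x₁ y₁ h₁) + rhRedE A W _ rfl 0
    rw [add_zero, rhRedE_zero, add_zero]
  obtain ⟨hx₁, hy₁⟩ := rh_tors_mem A W hℓ hA hgood m hm hmℓ h₁ hP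
  obtain ⟨hx₂, hy₂⟩ := rh_tors_mem A W hℓ hA hgood m hm hmℓ h₂ hQ
  rw [rhRedE_some A W _ rfl h₁ hx₁ hy₁, rhRedE_some A W _ rfl h₂ hx₂ hy₂]
  by_cases hxy : x₁ = x₂ ∧
      y₁ = (W.map (Int.castRingHom (AlgebraicClosure ℚ))).toAffine.negY x₂ y₂
  · rw [Point.add_of_Y_eq hxy.1 hxy.2, rhRedE_zero]
    symm
    apply Point.add_of_Y_eq
    · exact rh_residue_congr A hxy.1 _ _
    · rw [← rh_negY_residue A W hx₂ hy₂]
      exact rh_residue_congr A hxy.2 _ _
  · obtain ⟨hs, hsr, hnd⟩ := rh_slope A W hℓ hA hgood m hm hmℓ h₁ h₂ hP hQ hx₁ hy₁ hx₂ hy₂ hxy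
    rw [Point.add_some hxy, Point.add_some hnd,
      rhRedE_some A W _ rfl (nonsingular_add h₁ h₂ hxy) (rh_addX_mem A W hx₁ hx₂ hs)
        (rh_addY_mem A W hx₁ hx₂ hy₁ hs)]
    apply rh_some_congr
    · rw [rh_addX_residue A W hx₁ hx₂ hs, hsr]
    · rw [rh_addY_residue A W hx₁ hx₂ hy₁ hs, hsr]

include hℓ hA hgood hm hmℓ in
/-- **the kernel of the reduction on the points killed by `2 m + 1` is trivial** -/
theorem rh_red_eq_zero (P : E.toAffine.Point) (hP : (2 * m + 1) • P = 0)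
    (h0 : rhRedE A W E hE P = 0) : P = 0 := by
  subst hE
  rcases P with _ | ⟨x, y, h⟩
  · rfl
  · obtain ⟨hx, hy⟩ := rh_tors_mem A W hℓ hA hgood m hm hmℓ h hP
    rw [rhRedE_some A W _ rfl h hx hy] at h0
    exact absurd h0 (Point.some_ne_zero _)

include hℓ hA hgood hm hmℓ in
/-- the reduction of a point killed by `2 m + 1` is killed by `2 m + 1` -/
theorem rh_red_tors (P : E.toAffine.Point) (hP : (2 * m + 1) • P = 0) :
    (2 * m + 1) • rhRedE A W E hE P = 0 := by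
  subst hE
  rcases P with _ | ⟨x, y, h⟩
  · change (2 * m + 1) • rhRedE A W _ rfl 0 = 0
    rw [rhRedE_zero, nsmul_zero]
  · obtain ⟨hx, hy⟩ := rh_tors_mem A W hℓ hA hgood m hm hmℓ h hP
    rw [rhRedE_some A W _ rfl h hx hy]
    have hspec : Ladder.AddSubSpec (W.map (Int.castRingHom (ResidueField A))) :=
      fun P Q => Ladder.addSubMap_sym2x _ P Q
    rw [Ladder.odd_nsmul_eq_zero_iff hspec _ m hm]
    exact rh_tors_res_eval A W hgood m hm h hP hx

include hℓ hA hgood hm hmℓ in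
/-- **surjectivity onto the points of the reduced curve killed by `2 m + 1`** -/
theorem rh_red_surj (Q : (W.map (Int.castRingHom (ResidueField A))).toAffine.Point)
    (hQ : (2 * m + 1) • Q = 0) :
    ∃ P : E.toAffine.Point, (2 * m + 1) • P = 0 ∧ rhRedE A W E hE P = Q := by
  subst hE
  haveI := rh_isElliptic_Qb W hgood
  rcases Q with _ | ⟨xb, yb, hb⟩
  · exact ⟨0, nsmul_zero _, rfl⟩
  · have hspeck : Ladder.AddSubSpec (W.map (Int.castRingHom (ResidueField A))) :=
      fun P Q => Ladder.addSubMap_sym2x _ P Q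
    rw [Ladder.odd_nsmul_eq_zero_iff hspeck hb m hm, Ladder.map_torsPoly, eval_map] at hQ
    have hlc : A.valuation (((Ladder.torsPoly W m).leadingCoeff : ℤ) : AlgebraicClosure ℚ)
        = 1 := by
      rw [ner_leadingCoeff_torsPoly W m hm]
      apply ner_val_intCast_eq_one A hℓ hA
      rwa [Int.dvd_neg]
    obtain ⟨a, ha, hares⟩ := ner_exists_lift_root A _ hlc xb hQ
    obtain ⟨y, hy, hyres⟩ := ner_exists_lift_y A W a yb (by rw [hares]; exact hb.1)
    have hns : (W.map (Int.castRingHom (AlgebraicClosure ℚ))).toAffine.Nonsingular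
        (a : AlgebraicClosure ℚ) (y : AlgebraicClosure ℚ) := equation_iff_nonsingular.mp hy
    have hspec : Ladder.AddSubSpec (W.map (Int.castRingHom (AlgebraicClosure ℚ))) :=
      fun P Q => Ladder.addSubMap_sym2x _ P Q
    refine ⟨Point.some _ _ hns, ?_, ?_⟩
    · rw [Ladder.odd_nsmul_eq_zero_iff hspec hns m hm, Ladder.map_torsPoly, eval_map]
      exact ha
    · rw [rhRedE_some A W _ rfl hns a.2 y.2]
      exact rh_some_congr hares hyres _ _

include hℓ hA hgood hm hmℓ hE in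
/-- torsion points of order prime to `ℓ` have integral coordinates (any presentation of `E`) -/
theorem rh_tors_memE {x y : AlgebraicClosure ℚ} (h : E.toAffine.Nonsingular x y)
    (hP : (2 * m + 1) • Point.some x y h = 0) : x ∈ A ∧ y ∈ A := by
  subst hE
  exact rh_tors_mem A W hℓ hA hgood m hm hmℓ h hP

end Tors

/-! ## Maps on the points of the reduced curve induced by endomorphisms of the residue field -/

section MapK

variable (A : ValuationSubring (AlgebraicClosure ℚ)) (W : WeierstrassCurve ℤ)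
  [DecidableEq (ResidueField A)]

/-- the endomorphism `(x, y) ↦ (f x, f y)` of the group of points of the reduced curve induced by
a ring endomorphism `f` of the residue field (e.g. the Frobenius `x ↦ x ^ ℓ`) -/
noncomputable def rhMapK (f : ResidueField A →+* ResidueField A) :
    (W.map (Int.castRingHom (ResidueField A))).toAffine.Point →+
      (W.map (Int.castRingHom (ResidueField A))).toAffine.Point :=
  Point.map (W' := W) (S := ℤ) (F := ResidueField A) (K := ResidueField A) f.toIntAlgHom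

theorem rhMapK_zero (f : ResidueField A →+* ResidueField A) : rhMapK A W f 0 = 0 := rfl

theorem rhMapK_some (f : ResidueField A →+* ResidueField A) {x y : ResidueField A}
    (h : (W.map (Int.castRingHom (ResidueField A))).toAffine.Nonsingular x y) :
    ∃ h' : (W.map (Int.castRingHom (ResidueField A))).toAffine.Nonsingular (f x) (f y),
      rhMapK A W f (Point.some x y h) = Point.some (f x) (f y) h' :=
  ⟨_, rfl⟩

end MapK

/-! ## The action of the decomposition group -/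

section Galois

variable (A : ValuationSubring (AlgebraicClosure ℚ)) (W : WeierstrassCurve ℤ) {ℓ : ℕ}
  (hℓ : ℓ.Prime) (hA : A.LiesOverPrime ℓ) (hgood : W.IsGoodPrimeFor ℓ)
  (m : ℕ) (hm : 1 ≤ m) (hmℓ : ¬ (ℓ : ℤ) ∣ 2 * (m : ℤ) + 1)
  [DecidableEq (ResidueField A)]
  [hk : (W.map (Int.castRingHom (ResidueField A))).IsElliptic]

include hℓ hA hgood hm hmℓ in
/-- **equivariance**: if `σ` preserves `A` and induces `f` on the residue field, then the reduction
of `σ • P` is `f` applied to the reduction of `P`. -/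
theorem rh_red_smul_of_residue (σ : AlgebraicClosure ℚ ≃ₐ[ℚ] AlgebraicClosure ℚ)
    (f : ResidueField A →+* ResidueField A)
    (hf : ∀ (x : AlgebraicClosure ℚ) (hx : x ∈ A),
      ∃ hx' : σ x ∈ A, residue A ⟨σ x, hx'⟩ = f (residue A ⟨x, hx⟩))
    (P : ((W.map (Int.castRingHom ℚ)).toAffine⁄(AlgebraicClosure ℚ)).Point)
    (hP : (2 * m + 1) • P = 0) :
    rhRedE A W _ (ner_baseChange_eq W) (σ • P)
      = rhMapK A W f (rhRedE A W _ (ner_baseChange_eq W) P) := by
  rcases P with _ | ⟨x, y, h⟩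
  · rfl
  · obtain ⟨hx, hy⟩ := rh_tors_memE A W hℓ hA hgood m hm hmℓ _ (ner_baseChange_eq W) h hP
    obtain ⟨hx', hxr⟩ := hf x hx
    obtain ⟨hy', hyr⟩ := hf y hy
    rw [rhRedE_some A W _ (ner_baseChange_eq W) h hx hy]
    obtain ⟨h', e'⟩ := rhMapK_some A W f
      (rh_nonsingular_res A W _ (ner_baseChange_eq W) h hx hy)
    rw [e']
    have hns' : ((W.map (Int.castRingHom ℚ)).toAffine⁄(AlgebraicClosure ℚ)).Nonsingular
        (σ x) (σ y) :=
      (WeierstrassCurve.Affine.baseChange_nonsingular (W.map (Int.castRingHom ℚ)).toAffine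
        σ.toAlgHom.injective ..).mpr h
    have e1 : σ • (Point.some x y h :
        ((W.map (Int.castRingHom ℚ)).toAffine⁄(AlgebraicClosure ℚ)).Point)
        = Point.some (σ x) (σ y) hns' := rfl
    rw [e1, rhRedE_some A W _ (ner_baseChange_eq W) hns' hx' hy']
    exact rh_some_congr hxr hyr _ _

include hℓ hA hgood hm hmℓ in
/-- **the decomposition group** -/
theorem rh_red_smul (σ : AlgebraicClosure ℚ ≃ₐ[ℚ] AlgebraicClosure ℚ)
    (hσ : σ ∈ A.decompositionSubgroup ℚ)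
    (P : ((W.map (Int.castRingHom ℚ)).toAffine⁄(AlgebraicClosure ℚ)).Point)
    (hP : (2 * m + 1) • P = 0) :
    rhRedE A W _ (ner_baseChange_eq W) (σ • P)
      = rhMapK A W (MulSemiringAction.toRingHom (A.decompositionSubgroup ℚ) (ResidueField A)
          ⟨σ, hσ⟩) (rhRedE A W _ (ner_baseChange_eq W) P) := by
  refine rh_red_smul_of_residue A W hℓ hA hgood m hm hmℓ σ _ ?_ P hP
  intro x hx
  have hmem : σ x ∈ A :=
    ((⟨σ, hσ⟩ : A.decompositionSubgroup ℚ) • (⟨x, hx⟩ : A)).2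
  refine ⟨hmem, ?_⟩
  have e : (⟨σ x, hmem⟩ : A) = (⟨σ, hσ⟩ : A.decompositionSubgroup ℚ) • (⟨x, hx⟩ : A) := rfl
  rw [e, IsLocalRing.ResidueField.residue_smul]
  rfl

include hℓ hA hgood hm hmℓ in
/-- **Frobenius**: a Frobenius element at `A` becomes the Frobenius endomorphism
`(x, y) ↦ (x ^ ℓ, y ^ ℓ)` of the reduced curve. -/
theorem rh_red_frob (τ : AlgebraicClosure ℚ ≃ₐ[ℚ] AlgebraicClosure ℚ)
    (hτ : A.IsFrobeniusAt τ ℓ)
    (f : ResidueField A →+* ResidueField A) (hf : ∀ x, f x = x ^ ℓ)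
    (P : ((W.map (Int.castRingHom ℚ)).toAffine⁄(AlgebraicClosure ℚ)).Point)
    (hP : (2 * m + 1) • P = 0) :
    rhRedE A W _ (ner_baseChange_eq W) (τ • P)
      = rhMapK A W f (rhRedE A W _ (ner_baseChange_eq W) P) := by
  obtain ⟨hσ, hact⟩ := hτ
  refine rh_red_smul_of_residue A W hℓ hA hgood m hm hmℓ τ f ?_ P hP
  intro x hx
  have hmem : τ x ∈ A :=
    ((⟨τ, hσ⟩ : A.decompositionSubgroup ℚ) • (⟨x, hx⟩ : A)).2
  refine ⟨hmem, ?_⟩
  have e : (⟨τ x, hmem⟩ : A) = (⟨τ, hσ⟩ : A.decompositionSubgroup ℚ) • (⟨x, hx⟩ : A) := rfl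
  rw [e, IsLocalRing.ResidueField.residue_smul, hact, hf]

/-! ## The bundled homomorphism -/

omit hk [DecidableEq (ResidueField A)] in
theorem rh_nsmul_of_mem {n : ℕ}
    (P : Submodule.torsionBy ℤ
      ((W.map (Int.castRingHom ℚ)).toAffine⁄(AlgebraicClosure ℚ)).Point (n : ℤ)) :
    n • (P : ((W.map (Int.castRingHom ℚ)).toAffine⁄(AlgebraicClosure ℚ)).Point) = 0 := by
  have := (Submodule.mem_torsionBy_iff _ _).mp P.2
  rwa [natCast_zsmul] at this

/-- **the reduction homomorphism** on the points of `W_ℚ(ℚ̄)` killed by `2 m + 1` -/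
noncomputable def rhRedHom :
    Submodule.torsionBy ℤ ((W.map (Int.castRingHom ℚ)).toAffine⁄(AlgebraicClosure ℚ)).Point
        ((2 * m + 1 : ℕ) : ℤ) →+
      (W.map (Int.castRingHom (ResidueField A))).toAffine.Point where
  toFun P := rhRedE A W _ (ner_baseChange_eq W) P.1
  map_zero' := rfl
  map_add' P Q := rh_red_add A W hℓ hA hgood m hm hmℓ _ (ner_baseChange_eq W) P.1 Q.1
    (rh_nsmul_of_mem W P) (rh_nsmul_of_mem W Q)

theorem rhRedHom_apply
    (P : Submodule.torsionBy ℤ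
      ((W.map (Int.castRingHom ℚ)).toAffine⁄(AlgebraicClosure ℚ)).Point ((2 * m + 1 : ℕ) : ℤ)) :
    rhRedHom A W hℓ hA hgood m hm hmℓ P = rhRedE A W _ (ner_baseChange_eq W) P.1 := rfl

theorem rhRedHom_injective : Function.Injective (rhRedHom A W hℓ hA hgood m hm hmℓ) := by
  rw [injective_iff_map_eq_zero]
  intro P h0
  apply Subtype.ext
  exact rh_red_eq_zero A W hℓ hA hgood m hm hmℓ _ (ner_baseChange_eq W) P.1
    (rh_nsmul_of_mem W P) h0

theorem rhRedHom_tors
    (P : Submodule.torsionBy ℤ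
      ((W.map (Int.castRingHom ℚ)).toAffine⁄(AlgebraicClosure ℚ)).Point ((2 * m + 1 : ℕ) : ℤ)) :
    (2 * m + 1) • rhRedHom A W hℓ hA hgood m hm hmℓ P = 0 :=
  rh_red_tors A W hℓ hA hgood m hm hmℓ _ (ner_baseChange_eq W) P.1 (rh_nsmul_of_mem W P)

theorem rhRedHom_surj (Q : (W.map (Int.castRingHom (ResidueField A))).toAffine.Point)
    (hQ : (2 * m + 1) • Q = 0) : ∃ P, rhRedHom A W hℓ hA hgood m hm hmℓ P = Q := by
  obtain ⟨P, hP, hPQ⟩ := rh_red_surj A W hℓ hA hgood m hm hmℓ _ (ner_baseChange_eq W) Q hQ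
  refine ⟨⟨P, ?_⟩, hPQ⟩
  rw [Submodule.mem_torsionBy_iff, natCast_zsmul]
  exact hP

/-- the decomposition group acts through the residue field -/
theorem rhRedHom_smul (σ : AlgebraicClosure ℚ ≃ₐ[ℚ] AlgebraicClosure ℚ)
    (hσ : σ ∈ A.decompositionSubgroup ℚ)
    (P : Submodule.torsionBy ℤ
      ((W.map (Int.castRingHom ℚ)).toAffine⁄(AlgebraicClosure ℚ)).Point ((2 * m + 1 : ℕ) : ℤ)) :
    rhRedHom A W hℓ hA hgood m hm hmℓ (σ • P)
      = rhMapK A W (MulSemiringAction.toRingHom (A.decompositionSubgroup ℚ) (ResidueField A)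
          ⟨σ, hσ⟩) (rhRedHom A W hℓ hA hgood m hm hmℓ P) :=
  rh_red_smul A W hℓ hA hgood m hm hmℓ σ hσ P.1 (rh_nsmul_of_mem W P)

/-- **Frobenius** -/
theorem rhRedHom_frob (τ : AlgebraicClosure ℚ ≃ₐ[ℚ] AlgebraicClosure ℚ)
    (hτ : A.IsFrobeniusAt τ ℓ)
    (f : ResidueField A →+* ResidueField A) (hf : ∀ x, f x = x ^ ℓ)
    (P : Submodule.torsionBy ℤ
      ((W.map (Int.castRingHom ℚ)).toAffine⁄(AlgebraicClosure ℚ)).Point ((2 * m + 1 : ℕ) : ℤ)) :
    rhRedHom A W hℓ hA hgood m hm hmℓ (τ • P)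
      = rhMapK A W f (rhRedHom A W hℓ hA hgood m hm hmℓ P) :=
  rh_red_frob A W hℓ hA hgood m hm hmℓ τ hτ f hf P.1 (rh_nsmul_of_mem W P)

include hℓ hA hgood hm hmℓ in
/-- **good reduction ⇒ unramified**: the inertia group at `A` fixes the points killed by
`2 m + 1`. -/
theorem rhRedHom_inertia (σ : AlgebraicClosure ℚ ≃ₐ[ℚ] AlgebraicClosure ℚ)
    (hσ : σ ∈ A.inertiaSubgroupIn ℚ)
    (P : Submodule.torsionBy ℤ
      ((W.map (Int.castRingHom ℚ)).toAffine⁄(AlgebraicClosure ℚ)).Point ((2 * m + 1 : ℕ) : ℤ)) :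
    σ • P = P := by
  obtain ⟨g, hg, rfl⟩ := hσ
  apply rhRedHom_injective A W hℓ hA hgood m hm hmℓ
  have hg1 : MulSemiringAction.toRingAut (A.decompositionSubgroup ℚ) (ResidueField A) g = 1 := hg
  have hg' : MulSemiringAction.toRingHom (A.decompositionSubgroup ℚ) (ResidueField A) g
      = RingHom.id _ := by
    ext x
    exact congrArg (fun φ : RingAut (ResidueField A) => φ x) hg1
  have h1 := rhRedHom_smul A W hℓ hA hgood m hm hmℓ
    ((A.decompositionSubgroup ℚ).subtype g) g.2 P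
  rw [h1]
  have e : (⟨(A.decompositionSubgroup ℚ).subtype g, g.2⟩ : A.decompositionSubgroup ℚ) = g := rfl
  rw [e, hg']
  generalize rhRedHom A W hℓ hA hgood m hm hmℓ P = Q
  rcases Q with _ | ⟨x, y, h⟩
  · rfl
  · rfl

end Galois

/-! ## The packaged statements -/

section Final

/-- **84-A, packaged.**  `W` integral, `ℓ` a prime of good reduction, `A` over `ℓ`, `n > 1` odd and
prime to `ℓ`: the reduction `W_ℚ(ℚ̄)[n] → W̃(κ)` is an injective homomorphism onto `W̃(κ)[n]`,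
equivariant for the decomposition group; a Frobenius element at `A` becomes the Frobenius
endomorphism of `W̃`. -/
theorem rh_exists_red (W : WeierstrassCurve ℤ) {ℓ : ℕ} (hℓ : ℓ.Prime)
    (hgood : W.IsGoodPrimeFor ℓ) (A : ValuationSubring (AlgebraicClosure ℚ))
    (hA : A.LiesOverPrime ℓ) [DecidableEq (ResidueField A)]
    (n : ℕ) (hodd : Odd n) (hn1 : 1 < n) (hnℓ : ¬ ℓ ∣ n) :
    ∃ red : Submodule.torsionBy ℤ
        ((W.map (Int.castRingHom ℚ)).toAffine⁄(AlgebraicClosure ℚ)).Point (n : ℤ) →+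
          (W.map (Int.castRingHom (ResidueField A))).toAffine.Point,
      Function.Injective red ∧ (∀ P, n • red P = 0) ∧
      (∀ Q : (W.map (Int.castRingHom (ResidueField A))).toAffine.Point,
        n • Q = 0 → ∃ P, red P = Q) ∧
      (∀ (σ : AlgebraicClosure ℚ ≃ₐ[ℚ] AlgebraicClosure ℚ)
        (hσ : σ ∈ A.decompositionSubgroup ℚ) P,
        red (σ • P) = rhMapK A W (MulSemiringAction.toRingHom (A.decompositionSubgroup ℚ)
          (ResidueField A) ⟨σ, hσ⟩) (red P)) ∧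
      (∀ τ : AlgebraicClosure ℚ ≃ₐ[ℚ] AlgebraicClosure ℚ, A.IsFrobeniusAt τ ℓ →
        ∀ f : ResidueField A →+* ResidueField A, (∀ x, f x = x ^ ℓ) →
          ∀ P, red (τ • P) = rhMapK A W f (red P)) := by
  obtain ⟨m, rfl⟩ := hodd
  have hm : 1 ≤ m := by omega
  have hmℓ : ¬ (ℓ : ℤ) ∣ 2 * (m : ℤ) + 1 := by
    intro h
    apply hnℓ
    have h' : (ℓ : ℤ) ∣ ((2 * m + 1 : ℕ) : ℤ) := by
      push_cast
      exact h
    exact Int.natCast_dvd_natCast.mp h'
  haveI := rh_isElliptic_res A W hℓ hA hgood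
  exact ⟨rhRedHom A W hℓ hA hgood m hm hmℓ, rhRedHom_injective A W hℓ hA hgood m hm hmℓ,
    rhRedHom_tors A W hℓ hA hgood m hm hmℓ, rhRedHom_surj A W hℓ hA hgood m hm hmℓ,
    rhRedHom_smul A W hℓ hA hgood m hm hmℓ,
    fun τ hτ f hf P => rhRedHom_frob A W hℓ hA hgood m hm hmℓ τ hτ f hf P⟩

/-- **good reduction ⇒ unramified** (odd `n` prime to `ℓ`, any integral Weierstrass model) -/
theorem rh_unramified (W : WeierstrassCurve ℤ) {ℓ : ℕ} (hℓ : ℓ.Prime)
    (hgood : W.IsGoodPrimeFor ℓ) (n : ℕ) (hodd : Odd n) (hnℓ : ¬ ℓ ∣ n) :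
    WeierstrassCurve.Affine.Point.GaloisRepUnramifiedAt ℚ (AlgebraicClosure ℚ)
      (W.map (Int.castRingHom ℚ)).toAffine n ℓ := by
  classical
  intro A hA σ hσ P
  by_cases hn1 : 1 < n
  · obtain ⟨m, rfl⟩ := hodd
    have hm : 1 ≤ m := by omega
    have hmℓ : ¬ (ℓ : ℤ) ∣ 2 * (m : ℤ) + 1 := by
      intro h
      apply hnℓ
      have h' : (ℓ : ℤ) ∣ ((2 * m + 1 : ℕ) : ℤ) := by
        push_cast
        exact h
      exact Int.natCast_dvd_natCast.mp h'
    haveI := rh_isElliptic_res A W hℓ hA hgood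
    exact rhRedHom_inertia A W hℓ hA hgood m hm hmℓ σ hσ P
  · have hn : n = 1 := by
      obtain ⟨m, rfl⟩ := hodd
      omega
    subst hn
    have h0 : ∀ Q : Submodule.torsionBy ℤ
        ((W.map (Int.castRingHom ℚ)).toAffine⁄(AlgebraicClosure ℚ)).Point ((1 : ℕ) : ℤ),
        Q = 0 := by
      intro Q
      apply Subtype.ext
      have := rh_nsmul_of_mem W Q
      rwa [one_nsmul] at this
    rw [h0 P, h0 (σ • 0)]

end Final

end Fermat.Agent.S58lib
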