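import Mathlib
import Fermat.Agent.S58lib.RedHom
import Fermat.Agent.S58lib.CoreKAlg
import Fermat.Agent.S41lib.NonEisCard
import Fermat.Agent.S58lib.HasseDefs

/-!
# Item 84 (S58), piece P7: the transfer of (H2) to `W(ℚ̄)[λ^n]` (helper23).  Complete proofs.

`W` an integral Weierstrass curve, `ℓ` a prime of good reduction, `A` a valuation subring of `ℚ̄`
over `ℓ`, `κ` its residue field, `Fr = rhMapK A W f` the Frobenius endomorphism of the points of
the reduced curve `W̃ = W.map (Int.castRingHom κ)` (`f x = x ^ ℓ`).  Given, for an integer `a`,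

* `(Q_κ)`  : `Fr² Q + ℓ • Q = a • Fr Q` on the `λ`-power torsion of `W̃(κ)`,
* `(KB_κ)` : for `m : ℤ` and a finite set `S` of points with `Fr Q = m • Q` on `S`,
             `#S ≤ m² - a m + ℓ`,

every Frobenius element `τ` at `A` has trace `a` and determinant `ℓ` on `W_ℚ(ℚ̄)[λ^n]`
(`λ` an odd prime different from `ℓ`): `h2_trace_det`, `h2_charpoly`.
Moreover `W_ℚ(ℚ̄)[λ^n]` is free of rank 2 over `ZMod (λ^n)`: `h2_free`, `h2_finite`, `h2_finrank`.
-/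

set_option autoImplicit false
set_option linter.unusedSectionVars false
set_option linter.unusedVariables false
set_option linter.style.haveILetI false

open WeierstrassCurve WeierstrassCurve.Affine WeierstrassCurve.Affine.Point Polynomial
open IsLocalRing

namespace Fermat.Agent.S58lib

open Fermat.Agent.S41lib Fermat.Agent

section Count

theorem h2_card_ckaTor {G : Type*} [AddCommGroup G] (p j k : ℕ) (hk : p ^ j = k) :
    Nat.card (ckaTor G p j) = Nat.card (Submodule.torsionBy ℤ G (k : ℤ)) := by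
  refine Nat.card_congr (Equiv.subtypeEquivRight ?_)
  intro x
  rw [mem_ckaTor, Submodule.mem_torsionBy_iff, natCast_zsmul, hk]

theorem h2_odd_pow {lam : ℕ} (hlam : lam.Prime) (hodd : lam ≠ 2) (j : ℕ) (hj : 0 < j) :
    ∃ m : ℕ, 1 ≤ m ∧ lam ^ j = 2 * m + 1 := by
  have h1 : Odd (lam ^ j) := (hlam.odd_of_ne_two hodd).pow
  obtain ⟨m, hm⟩ := h1
  refine ⟨m, ?_, hm⟩
  have h2 : 2 ≤ lam ^ j := by
    calc 2 ≤ lam := hlam.two_le
      _ = lam ^ 1 := (pow_one _).symm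
      _ ≤ lam ^ j := Nat.pow_le_pow_right hlam.pos hj
  omega

theorem h2_not_dvd {lam ℓ : ℕ} (hlam : lam.Prime) (hℓ : ℓ.Prime) (hne : lam ≠ ℓ) (j m : ℕ)
    (h : lam ^ j = 2 * m + 1) : ¬ (ℓ : ℤ) ∣ 2 * (m : ℤ) + 1 := by
  intro hd
  have h' : (ℓ : ℤ) ∣ ((2 * m + 1 : ℕ) : ℤ) := by
    push_cast
    exact hd
  have h2 : ℓ ∣ lam ^ j := by
    rw [h]
    exact Int.natCast_dvd_natCast.mp h'
  have h3 : ℓ ∣ lam := hℓ.dvd_of_dvd_pow h2
  exact hne ((Nat.prime_dvd_prime_iff_eq hℓ hlam).mp h3).symm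

end Count

section Transfer

variable (W : WeierstrassCurve ℤ)

theorem h2_Δ_ne_zero {ℓ : ℕ} (hgood : W.IsGoodPrimeFor ℓ) : W.Δ ≠ 0 := by
  intro e
  apply hgood
  rw [e]
  exact dvd_zero _

theorem h2_isElliptic (hΔ : W.Δ ≠ 0) :
    ((W.map (Int.castRingHom ℚ)).baseChange (AlgebraicClosure ℚ)).IsElliptic := by
  rw [ner_baseChange_eq]
  apply ner_isElliptic_of_Δ_ne_zero
  rw [map_Δ, eq_intCast]
  exact_mod_cast hΔ

/-- `#W(ℚ̄)[λ^j] = λ^(2j)` -/
theorem h2_card (hΔ : W.Δ ≠ 0) {lam : ℕ} (hlam : lam.Prime) (hodd : lam ≠ 2) (j : ℕ) :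
    Nat.card (ckaTor ((W.map (Int.castRingHom ℚ)).toAffine⁄(AlgebraicClosure ℚ)).Point lam j)
      = lam ^ (2 * j) := by
  rcases Nat.eq_zero_or_pos j with rfl | hj
  · rw [h2_card_ckaTor lam 0 1 (pow_zero _), mul_zero, pow_zero]
    haveI : Subsingleton (Submodule.torsionBy ℤ
        ((W.map (Int.castRingHom ℚ)).toAffine⁄(AlgebraicClosure ℚ)).Point ((1 : ℕ) : ℤ)) := by
      constructor
      intro x y
      apply Subtype.ext
      have hx := rh_nsmul_of_mem W x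
      have hy := rh_nsmul_of_mem W y
      rw [one_nsmul] at hx hy
      rw [hx, hy]
    exact Nat.card_unique
  · obtain ⟨m, hm, hjm⟩ := h2_odd_pow hlam hodd j hj
    haveI := h2_isElliptic W hΔ
    rw [h2_card_ckaTor lam j (2 * m + 1) hjm]
    have := ne_card_torsionBy ((W.map (Int.castRingHom ℚ)).baseChange (AlgebraicClosure ℚ)) m hm
    rw [← hjm] at this ⊢
    rw [this, ← pow_mul, mul_comm]

/-- `W_ℚ(ℚ̄)[λ^n]` has a basis of two elements over `ZMod (λ^n)` -/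
theorem h2_basis (hΔ : W.Δ ≠ 0) {lam : ℕ} (hlam : lam.Prime) (hodd : lam ≠ 2) (n : ℕ) :
    Nonempty (Module.Basis (Fin 2) (ZMod (lam ^ n)) (Submodule.torsionBy ℤ
      ((W.map (Int.castRingHom ℚ)).toAffine⁄(AlgebraicClosure ℚ)).Point ((lam ^ n : ℕ) : ℤ))) :=
  cka_basis_torsionBy hlam (h2_card W hΔ hlam hodd) rfl

theorem h2_free (hΔ : W.Δ ≠ 0) {lam : ℕ} (hlam : lam.Prime) (hodd : lam ≠ 2) (n : ℕ) :
    Module.Free (ZMod (lam ^ n)) (Submodule.torsionBy ℤ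
      ((W.map (Int.castRingHom ℚ)).toAffine⁄(AlgebraicClosure ℚ)).Point ((lam ^ n : ℕ) : ℤ)) := by
  obtain ⟨b⟩ := h2_basis W hΔ hlam hodd n
  exact Module.Free.of_basis b

theorem h2_finite (hΔ : W.Δ ≠ 0) {lam : ℕ} (hlam : lam.Prime) (hodd : lam ≠ 2) (n : ℕ) :
    Module.Finite (ZMod (lam ^ n)) (Submodule.torsionBy ℤ
      ((W.map (Int.castRingHom ℚ)).toAffine⁄(AlgebraicClosure ℚ)).Point ((lam ^ n : ℕ) : ℤ)) := by
  obtain ⟨b⟩ := h2_basis W hΔ hlam hodd n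
  exact Module.Finite.of_basis b

theorem h2_finrank (hΔ : W.Δ ≠ 0) {lam : ℕ} (hlam : lam.Prime) (hodd : lam ≠ 2) (n : ℕ)
    (hn : 0 < n) :
    Module.finrank (ZMod (lam ^ n)) (Submodule.torsionBy ℤ
      ((W.map (Int.castRingHom ℚ)).toAffine⁄(AlgebraicClosure ℚ)).Point ((lam ^ n : ℕ) : ℤ))
      = 2 := by
  obtain ⟨b⟩ := h2_basis W hΔ hlam hodd n
  haveI : Fact (1 < lam ^ n) := ⟨Nat.one_lt_pow hn.ne' hlam.one_lt⟩
  rw [Module.finrank_eq_card_basis b, Fintype.card_fin]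

end Transfer

section Main

variable (A : ValuationSubring (AlgebraicClosure ℚ)) (W : WeierstrassCurve ℤ) {ℓ : ℕ}
  (hℓ : ℓ.Prime) (hA : A.LiesOverPrime ℓ) (hgood : W.IsGoodPrimeFor ℓ)
  [DecidableEq (ResidueField A)]
  (f : ResidueField A →+* ResidueField A) (hf : ∀ x, f x = x ^ ℓ)
  (a : ℤ) {lam : ℕ} (hlam : lam.Prime) (hodd : lam ≠ 2) (hne : lam ≠ ℓ)
  (τ : AlgebraicClosure ℚ ≃ₐ[ℚ] AlgebraicClosure ℚ) (hτ : A.IsFrobeniusAt τ ℓ)

/-- the action of `τ` on `W_ℚ(ℚ̄)` as an additive endomorphism -/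
noncomputable def h2Phi (W : WeierstrassCurve ℤ)
    (τ : AlgebraicClosure ℚ ≃ₐ[ℚ] AlgebraicClosure ℚ) :
    ((W.map (Int.castRingHom ℚ)).toAffine⁄(AlgebraicClosure ℚ)).Point →+
      ((W.map (Int.castRingHom ℚ)).toAffine⁄(AlgebraicClosure ℚ)).Point :=
  DistribSMul.toAddMonoidHom _ τ

theorem h2Phi_apply (P : ((W.map (Int.castRingHom ℚ)).toAffine⁄(AlgebraicClosure ℚ)).Point) :
    h2Phi W τ P = τ • P := rfl

include hℓ hA hgood hf hlam hodd hne hτ in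
/-- `(Q)` pulled back along the reduction -/
theorem h2_hQ
    (hQK : ∀ (j : ℕ) (Q : (W.map (Int.castRingHom (ResidueField A))).toAffine.Point),
      (lam ^ j) • Q = 0 →
        rhMapK A W f (rhMapK A W f Q) + ((ℓ : ℕ) : ℤ) • Q = a • rhMapK A W f Q)
    (j : ℕ) (x : ((W.map (Int.castRingHom ℚ)).toAffine⁄(AlgebraicClosure ℚ)).Point)
    (hx : x ∈ ckaTor ((W.map (Int.castRingHom ℚ)).toAffine⁄(AlgebraicClosure ℚ)).Point lam j) :
    h2Phi W τ (h2Phi W τ x) + ((ℓ : ℕ) : ℤ) • x = a • h2Phi W τ x := by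
  rcases Nat.eq_zero_or_pos j with rfl | hj
  · rw [mem_ckaTor, pow_zero, one_nsmul] at hx
    subst hx
    rw [_root_.map_zero, _root_.map_zero, zsmul_zero, zsmul_zero, add_zero]
  · obtain ⟨m, hm, hjm⟩ := h2_odd_pow hlam hodd j hj
    have hmℓ := h2_not_dvd hlam hℓ hne j m hjm
    rw [mem_ckaTor, hjm] at hx
    haveI := rh_isElliptic_res A W hℓ hA hgood
    have hxT : x ∈ Submodule.torsionBy ℤ
        ((W.map (Int.castRingHom ℚ)).toAffine⁄(AlgebraicClosure ℚ)).Point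
        ((2 * m + 1 : ℕ) : ℤ) := by
      rw [Submodule.mem_torsionBy_iff, natCast_zsmul]
      exact hx
    have key : τ • (τ • (⟨x, hxT⟩ : Submodule.torsionBy ℤ
          ((W.map (Int.castRingHom ℚ)).toAffine⁄(AlgebraicClosure ℚ)).Point
          ((2 * m + 1 : ℕ) : ℤ))) + ((ℓ : ℕ) : ℤ) • ⟨x, hxT⟩ = a • (τ • ⟨x, hxT⟩) := by
      apply rhRedHom_injective A W hℓ hA hgood m hm hmℓ
      rw [map_add, map_zsmul, map_zsmul, rhRedHom_frob A W hℓ hA hgood m hm hmℓ τ hτ f hf,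
        rhRedHom_frob A W hℓ hA hgood m hm hmℓ τ hτ f hf]
      refine hQK j _ ?_
      rw [hjm]
      exact rhRedHom_tors A W hℓ hA hgood m hm hmℓ _
    exact congrArg Subtype.val key

include hℓ hA hgood hf hlam hodd hne hτ in
/-- the kernel bound pulled back along the reduction -/
theorem h2_hKB
    (hKBK : ∀ (m : ℤ) (S : Finset (W.map (Int.castRingHom (ResidueField A))).toAffine.Point),
      (∀ Q ∈ S, rhMapK A W f Q = m • Q) → (S.card : ℤ) ≤ m ^ 2 - a * m + ((ℓ : ℕ) : ℤ))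
    (j : ℕ) (m' : ℤ)
    (h : ∀ x ∈ ckaTor ((W.map (Int.castRingHom ℚ)).toAffine⁄(AlgebraicClosure ℚ)).Point lam j,
      h2Phi W τ x = m' • x) :
    (lam : ℤ) ^ (2 * j) ≤ m' ^ 2 - a * m' + ((ℓ : ℕ) : ℤ) := by
  classical
  rcases Nat.eq_zero_or_pos j with rfl | hj
  · have := hKBK m' {0} (by
      intro Q hQ
      rw [Finset.mem_singleton] at hQ
      subst hQ
      rw [_root_.map_zero, zsmul_zero])
    rw [Finset.card_singleton] at this
    rw [mul_zero, pow_zero]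
    exact_mod_cast this
  · obtain ⟨m, hm, hjm⟩ := h2_odd_pow hlam hodd j hj
    have hmℓ := h2_not_dvd hlam hℓ hne j m hjm
    haveI := rh_isElliptic_res A W hℓ hA hgood
    have hcard := h2_card W (h2_Δ_ne_zero W hgood) hlam hodd j
    rw [h2_card_ckaTor lam j (2 * m + 1) hjm] at hcard
    haveI : Finite (Submodule.torsionBy ℤ
        ((W.map (Int.castRingHom ℚ)).toAffine⁄(AlgebraicClosure ℚ)).Point
        ((2 * m + 1 : ℕ) : ℤ)) :=
      Nat.finite_of_card_ne_zero (by rw [hcard]; exact pow_ne_zero _ hlam.ne_zero)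
    letI : Fintype (Submodule.torsionBy ℤ
        ((W.map (Int.castRingHom ℚ)).toAffine⁄(AlgebraicClosure ℚ)).Point
        ((2 * m + 1 : ℕ) : ℤ)) := Fintype.ofFinite _
    have hS := hKBK m' (Finset.univ.image (rhRedHom A W hℓ hA hgood m hm hmℓ)) (by
      intro Q hQ
      rw [Finset.mem_image] at hQ
      obtain ⟨X, -, rfl⟩ := hQ
      rw [← rhRedHom_frob A W hℓ hA hgood m hm hmℓ τ hτ f hf, ← map_zsmul]
      congr 1
      apply Subtype.ext
      have hX : (X : ((W.map (Int.castRingHom ℚ)).toAffine⁄(AlgebraicClosure ℚ)).Point)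
          ∈ ckaTor ((W.map (Int.castRingHom ℚ)).toAffine⁄(AlgebraicClosure ℚ)).Point lam j := by
        rw [mem_ckaTor, hjm]
        exact rh_nsmul_of_mem W X
      exact h _ hX)
    rw [Finset.card_image_of_injective _ (rhRedHom_injective A W hℓ hA hgood m hm hmℓ),
      Finset.card_univ, ← Nat.card_eq_fintype_card, hcard] at hS
    exact_mod_cast hS

include hℓ hA hgood hf hlam hodd hne hτ in
/-- **(H2), trace and determinant.** -/
theorem h2_trace_det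
    (hQK : ∀ (j : ℕ) (Q : (W.map (Int.castRingHom (ResidueField A))).toAffine.Point),
      (lam ^ j) • Q = 0 →
        rhMapK A W f (rhMapK A W f Q) + ((ℓ : ℕ) : ℤ) • Q = a • rhMapK A W f Q)
    (hKBK : ∀ (m : ℤ) (S : Finset (W.map (Int.castRingHom (ResidueField A))).toAffine.Point),
      (∀ Q ∈ S, rhMapK A W f Q = m • Q) → (S.card : ℤ) ≤ m ^ 2 - a * m + ((ℓ : ℕ) : ℤ))
    (n : ℕ) :
    WeierstrassCurve.Affine.Point.galoisTrace ℚ (W.map (Int.castRingHom ℚ)).toAffine (lam ^ n) τ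
        = (a : ZMod (lam ^ n)) ∧
      LinearMap.det (WeierstrassCurve.Affine.Point.galoisRepModuleEnd ℚ
        (K := AlgebraicClosure ℚ) (W.map (Int.castRingHom ℚ)).toAffine (lam ^ n) τ)
        = ((ℓ : ℕ) : ZMod (lam ^ n)) := by
  have h := cka_main_torsionBy hlam (h2_card W (h2_Δ_ne_zero W hgood) hlam hodd) a ((ℓ : ℕ) : ℤ) (h2Phi W τ)
    (h2_hQ A W hℓ hA hgood f hf a hlam hodd hne τ hτ hQK)
    (h2_hKB A W hℓ hA hgood f hf a hlam hodd hne τ hτ hKBK) (n := n) (q := lam ^ n) rfl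
    (WeierstrassCurve.Affine.Point.galoisRepModuleEnd ℚ
        (K := AlgebraicClosure ℚ) (W.map (Int.castRingHom ℚ)).toAffine (lam ^ n) τ)
    (fun y => rfl)
  rw [Int.cast_natCast] at h
  exact h

include hℓ hA hgood hf hlam hodd hne hτ in
/-- **(H2), characteristic polynomial** (the instance arguments are provided by `h2_free`,
`h2_finite`). -/
theorem h2_charpoly
    (hQK : ∀ (j : ℕ) (Q : (W.map (Int.castRingHom (ResidueField A))).toAffine.Point),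
      (lam ^ j) • Q = 0 →
        rhMapK A W f (rhMapK A W f Q) + ((ℓ : ℕ) : ℤ) • Q = a • rhMapK A W f Q)
    (hKBK : ∀ (m : ℤ) (S : Finset (W.map (Int.castRingHom (ResidueField A))).toAffine.Point),
      (∀ Q ∈ S, rhMapK A W f Q = m • Q) → (S.card : ℤ) ≤ m ^ 2 - a * m + ((ℓ : ℕ) : ℤ))
    (n : ℕ)
    [Module.Free (ZMod (lam ^ n)) (Submodule.torsionBy ℤ
      ((W.map (Int.castRingHom ℚ)).toAffine⁄(AlgebraicClosure ℚ)).Point ((lam ^ n : ℕ) : ℤ))]
    [Module.Finite (ZMod (lam ^ n)) (Submodule.torsionBy ℤ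
      ((W.map (Int.castRingHom ℚ)).toAffine⁄(AlgebraicClosure ℚ)).Point ((lam ^ n : ℕ) : ℤ))] :
    LinearMap.charpoly (WeierstrassCurve.Affine.Point.galoisRepModuleEnd ℚ
        (K := AlgebraicClosure ℚ) (W.map (Int.castRingHom ℚ)).toAffine (lam ^ n) τ)
      = X ^ 2 - C ((a : ℤ) : ZMod (lam ^ n)) * X + C ((ℓ : ℕ) : ZMod (lam ^ n)) := by
  obtain ⟨htr, hdet⟩ := h2_trace_det A W hℓ hA hgood f hf a hlam hodd hne τ hτ hQK hKBK n
  obtain ⟨b⟩ := h2_basis W (h2_Δ_ne_zero W hgood) hlam hodd n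
  rw [cka_charpoly_of_basis b, hdet]
  rw [WeierstrassCurve.Affine.Point.galoisTrace_def] at htr
  rw [htr]

end Main

/-! ## The consumer form: from `HasseOn` -/

section Final

/-- **(H2) from the Hasse package**, for a given Frobenius endomorphism `f` of the residue
field. -/
theorem h2_of_hasseOn (W : WeierstrassCurve ℤ) {ℓ : ℕ} (hℓ : ℓ.Prime)
    (hgood : W.IsGoodPrimeFor ℓ) (A : ValuationSubring (AlgebraicClosure ℚ))
    (hA : A.LiesOverPrime ℓ)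
    (f : ResidueField A →+* ResidueField A) (hf : ∀ x, f x = x ^ ℓ) (a : ℤ)
    (hH : HasseOn W ℓ (ResidueField A) f a)
    {lam : ℕ} (hlam : lam.Prime) (hodd : lam ≠ 2) (hne : lam ≠ ℓ)
    (τ : AlgebraicClosure ℚ ≃ₐ[ℚ] AlgebraicClosure ℚ) (hτ : A.IsFrobeniusAt τ ℓ) (n : ℕ) :
    WeierstrassCurve.Affine.Point.galoisTrace ℚ (W.map (Int.castRingHom ℚ)).toAffine (lam ^ n) τ
        = (a : ZMod (lam ^ n)) ∧
      LinearMap.det (WeierstrassCurve.Affine.Point.galoisRepModuleEnd ℚ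
        (K := AlgebraicClosure ℚ) (W.map (Int.castRingHom ℚ)).toAffine (lam ^ n) τ)
        = ((ℓ : ℕ) : ZMod (lam ^ n)) := by
  obtain ⟨hQ, hKB⟩ := hH
  exact @h2_trace_det A W ℓ hℓ hA hgood (fun x y => Classical.propDecidable (x = y)) f hf a lam
    hlam hodd hne τ hτ (fun j Q _ => hQ Q) hKB n

/-- **(H2) from the Hasse package**, characteristic polynomial form. -/
theorem h2_charpoly_of_hasseOn (W : WeierstrassCurve ℤ) {ℓ : ℕ} (hℓ : ℓ.Prime)
    (hgood : W.IsGoodPrimeFor ℓ) (A : ValuationSubring (AlgebraicClosure ℚ))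
    (hA : A.LiesOverPrime ℓ)
    (f : ResidueField A →+* ResidueField A) (hf : ∀ x, f x = x ^ ℓ) (a : ℤ)
    (hH : HasseOn W ℓ (ResidueField A) f a)
    {lam : ℕ} (hlam : lam.Prime) (hodd : lam ≠ 2) (hne : lam ≠ ℓ)
    (τ : AlgebraicClosure ℚ ≃ₐ[ℚ] AlgebraicClosure ℚ) (hτ : A.IsFrobeniusAt τ ℓ) (n : ℕ)
    [Module.Free (ZMod (lam ^ n)) (Submodule.torsionBy ℤ
      ((W.map (Int.castRingHom ℚ)).toAffine⁄(AlgebraicClosure ℚ)).Point ((lam ^ n : ℕ) : ℤ))]
    [Module.Finite (ZMod (lam ^ n)) (Submodule.torsionBy ℤ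
      ((W.map (Int.castRingHom ℚ)).toAffine⁄(AlgebraicClosure ℚ)).Point ((lam ^ n : ℕ) : ℤ))] :
    LinearMap.charpoly (WeierstrassCurve.Affine.Point.galoisRepModuleEnd ℚ
        (K := AlgebraicClosure ℚ) (W.map (Int.castRingHom ℚ)).toAffine (lam ^ n) τ)
      = X ^ 2 - C ((a : ℤ) : ZMod (lam ^ n)) * X + C ((ℓ : ℕ) : ZMod (lam ^ n)) := by
  obtain ⟨hQ, hKB⟩ := hH
  exact @h2_charpoly A W ℓ hℓ hA hgood (fun x y => Classical.propDecidable (x = y)) f hf a lam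
    hlam hodd hne τ hτ (fun j Q _ => hQ Q) hKB n _ _

/-- **(H2), final form**: if the Hasse package holds on every field of characteristic `ℓ` with
its Frobenius endomorphism, then every Frobenius element at `ℓ` has characteristic polynomial
`X² - a X + ℓ` on `W_ℚ(ℚ̄)[λ^n]`. -/
theorem h2_final (W : WeierstrassCurve ℤ) {ℓ : ℕ} (hℓ : ℓ.Prime)
    (hgood : W.IsGoodPrimeFor ℓ) (a : ℤ)
    (hH : ∀ (κ : Type) [Field κ] [CharP κ ℓ] (f : κ →+* κ), (∀ x, f x = x ^ ℓ) →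
      HasseOn W ℓ κ f a)
    {lam : ℕ} (hlam : lam.Prime) (hodd : lam ≠ 2) (hne : lam ≠ ℓ)
    (A : ValuationSubring (AlgebraicClosure ℚ)) (hA : A.LiesOverPrime ℓ)
    (τ : AlgebraicClosure ℚ ≃ₐ[ℚ] AlgebraicClosure ℚ) (hτ : A.IsFrobeniusAt τ ℓ) (n : ℕ)
    [Module.Free (ZMod (lam ^ n)) (Submodule.torsionBy ℤ
      ((W.map (Int.castRingHom ℚ)).toAffine⁄(AlgebraicClosure ℚ)).Point ((lam ^ n : ℕ) : ℤ))]
    [Module.Finite (ZMod (lam ^ n)) (Submodule.torsionBy ℤ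
      ((W.map (Int.castRingHom ℚ)).toAffine⁄(AlgebraicClosure ℚ)).Point ((lam ^ n : ℕ) : ℤ))] :
    LinearMap.charpoly (WeierstrassCurve.Affine.Point.galoisRepModuleEnd ℚ
        (K := AlgebraicClosure ℚ) (W.map (Int.castRingHom ℚ)).toAffine (lam ^ n) τ)
      = X ^ 2 - C ((a : ℤ) : ZMod (lam ^ n)) * X + C ((ℓ : ℕ) : ZMod (lam ^ n)) := by
  haveI : Fact ℓ.Prime := ⟨hℓ⟩
  haveI : CharP (ResidueField A) ℓ := ner_charP A hℓ hA
  exact h2_charpoly_of_hasseOn W hℓ hgood A hA (frobenius (ResidueField A) ℓ)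
    (fun x => frobenius_def ℓ x) a
    (hH (ResidueField A) (frobenius (ResidueField A) ℓ) (fun x => frobenius_def ℓ x))
    hlam hodd hne τ hτ n

/-- trace and determinant in the final form -/
theorem h2_final_trace_det (W : WeierstrassCurve ℤ) {ℓ : ℕ} (hℓ : ℓ.Prime)
    (hgood : W.IsGoodPrimeFor ℓ) (a : ℤ)
    (hH : ∀ (κ : Type) [Field κ] [CharP κ ℓ] (f : κ →+* κ), (∀ x, f x = x ^ ℓ) →
      HasseOn W ℓ κ f a)
    {lam : ℕ} (hlam : lam.Prime) (hodd : lam ≠ 2) (hne : lam ≠ ℓ)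
    (A : ValuationSubring (AlgebraicClosure ℚ)) (hA : A.LiesOverPrime ℓ)
    (τ : AlgebraicClosure ℚ ≃ₐ[ℚ] AlgebraicClosure ℚ) (hτ : A.IsFrobeniusAt τ ℓ) (n : ℕ) :
    WeierstrassCurve.Affine.Point.galoisTrace ℚ (W.map (Int.castRingHom ℚ)).toAffine (lam ^ n) τ
        = (a : ZMod (lam ^ n)) ∧
      LinearMap.det (WeierstrassCurve.Affine.Point.galoisRepModuleEnd ℚ
        (K := AlgebraicClosure ℚ) (W.map (Int.castRingHom ℚ)).toAffine (lam ^ n) τ)
        = ((ℓ : ℕ) : ZMod (lam ^ n)) := by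
  haveI : Fact ℓ.Prime := ⟨hℓ⟩
  haveI : CharP (ResidueField A) ℓ := ner_charP A hℓ hA
  exact h2_of_hasseOn W hℓ hgood A hA (frobenius (ResidueField A) ℓ)
    (fun x => frobenius_def ℓ x) a
    (hH (ResidueField A) (frobenius (ResidueField A) ℓ) (fun x => frobenius_def ℓ x))
    hlam hodd hne τ hτ n

end Final

end Fermat.Agent.S58lib
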