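/-
Item 84 (S58), piece 84-E (H3), abstract core (helper8): unipotence of inertia for a TWISTED action.

Curve `y² + a₁ x y = x³ + a₂ x² + a₄ x` (`GShape`, node at the origin: `v a₄ < 1`, `a₁² + 4 a₂` a
unit).  For a general semistable curve the `2`-torsion point `T = (0, 0)` (which reduces to the
node) need not be fixed by inertia, and the Galois action in the coordinates of the `GShape` model
is the twisted map `φ (x, y) = (σ x + d, σ y + d')`, `(d, d') = φ T`, `v d < 1`.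

* `h3t_twist_val` : `v d ≤ v a₄` and `v d' ≤ v a₄`;
* `h3t_sub_mem_E1` : `Q ∈ E₀ ⇒ φ Q - Q ∈ E₁`;
* `h3t_sub_mem_E0` : `φ P - P ∈ E₀` for every `P`;
* `h3t_unipotent` : `(φ - 1)² P = 0` for `n • P = 0`, `v n = 1`.
For `d = d' = 0` this is `g_unipotent` of `S13lib/GUnip.lean` (helper19).
-/
import Fermat.Agent.S13lib.GUnip

set_option autoImplicit false
set_option linter.unusedSectionVars false
set_option linter.unusedVariables false

namespace Fermat.Agent.S58lib

open WeierstrassCurve WeierstrassCurve.Affine Fermat.Agent.S05lib Fermat.Agent.S13lib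

variable {K : Type*} [Field K] [DecidableEq K]
  {Γ₀ : Type*} [LinearOrderedCommGroupWithZero Γ₀] (v : Valuation K Γ₀)
  {W : WeierstrassCurve K}

/-- `v n ≤ 1` for a natural number `n` -/
theorem h3t_natCast_le (n : ℕ) : v (n : K) ≤ 1 := gsr_natCast_le (v := v) n

/-- a `2`-torsion point `(d, d')` with `v d < 1` has `v d ≤ v a₄` and `v d' ≤ v a₄` -/
theorem h3t_twist_val (hW : GShape W) (ha₁ : v W.a₁ ≤ 1)
    (hD : v (W.a₁ ^ 2 + 4 * W.a₂) = 1) (h2 : (2 : K) ≠ 0)
    {d d' : K} (hd : v d < 1) (hT : W.toAffine.Nonsingular d d')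
    (h2T : Point.some d d' hT + Point.some d d' hT = 0) :
    v d ≤ v W.a₄ ∧ v d' ≤ v W.a₄ := by
  -- `2 d' + a₁ d = 0`
  have hneg : Point.some d d' hT = -Point.some d d' hT := eq_neg_of_add_eq_zero_left h2T
  obtain ⟨h', e'⟩ := hW.neg_some hT
  rw [e'] at hneg
  have hy : d' = -d' - W.a₁ * d := by
    have := hneg
    simp only [Point.some.injEq] at this
    exact this.2
  have h2d : 2 * d' = -(W.a₁ * d) := by linear_combination hy
  have e := (hW.equation_iff d d').mp hT.1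
  have hquad : d * (4 * d + (W.a₁ ^ 2 + 4 * W.a₂)) = -(4 * W.a₄) ∨ d = 0 := by
    by_cases hd0 : d = 0
    · exact Or.inr hd0
    · left
      have h1 : d * (d * (4 * d + (W.a₁ ^ 2 + 4 * W.a₂)) + 4 * W.a₄) = 0 := by
        linear_combination (-4 : K) * e + (2 * d' + W.a₁ * d) * h2d
      rcases mul_eq_zero.mp h1 with h0 | h0
      · exact absurd h0 hd0
      · linear_combination h0
  have hv2 : v (2 : K) ≠ 0 := (Valuation.ne_zero_iff v).mpr h2
  have hv2le : v (2 : K) ≤ 1 := by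
    have := h3t_natCast_le v 2
    simpa using this
  have hv4le : v (4 : K) ≤ 1 := by
    have := h3t_natCast_le v 4
    simpa using this
  rcases hquad with hq | hd0
  · have hu : v (4 * d + (W.a₁ ^ 2 + 4 * W.a₂)) = 1 := by
      have hlt : v (4 * d) < v (W.a₁ ^ 2 + 4 * W.a₂) := by
        rw [hD, map_mul]
        exact lt_of_le_of_lt (mul_le_of_le_one_left zero_le hv4le) hd
      rw [add_comm, Valuation.map_add_eq_of_lt_left (v := v) hlt, hD]
    have hvd : v d = v (4 : K) * v W.a₄ := by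
      have := congrArg v hq
      rw [map_mul, hu, mul_one, Valuation.map_neg, map_mul] at this
      exact this
    have hdle : v d ≤ v W.a₄ := by
      rw [hvd]
      exact mul_le_of_le_one_left zero_le hv4le
    refine ⟨hdle, ?_⟩
    -- `v 2 * v d' = v a₁ * v d`
    have h3 : v (2 : K) * v d' = v W.a₁ * v d := by
      have := congrArg v h2d
      rw [map_mul, Valuation.map_neg, map_mul] at this
      exact this
    have h4 : v (4 : K) = v (2 : K) * v (2 : K) := by
      rw [← map_mul]; norm_num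
    have h5 : v d' = v W.a₁ * v (2 : K) * v W.a₄ := by
      have h6 : v (2 : K) * v d' = v (2 : K) * (v W.a₁ * v (2 : K) * v W.a₄) := by
        rw [h3, hvd, h4]; ac_rfl
      exact mul_left_cancel₀ hv2 h6
    rw [h5]
    calc v W.a₁ * v (2 : K) * v W.a₄ ≤ 1 * v W.a₄ := by
          gcongr
          calc v W.a₁ * v (2 : K) ≤ 1 * 1 := mul_le_mul' ha₁ hv2le
            _ = 1 := one_mul _
      _ = v W.a₄ := one_mul _
  · subst hd0
    have hd'0 : d' = 0 := g_eq_T_of_x_eq_zero hW hT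
    subst hd'0
    simp

variable (d d' : K)

/-- **twisted step 1**: `Q ∈ E₀ ⇒ φ Q - Q ∈ E₁`. -/
theorem h3t_sub_mem_E1 (hW : GShape W) (h1 : v W.a₁ ≤ 1) (h2 : v W.a₂ ≤ 1)
    (h4 : v W.a₄ < 1) (hD : v (W.a₁ ^ 2 + 4 * W.a₂) = 1)
    (σ : K →+* K) (hσ : IsInertial v σ) (hd : v d < 1) (hd' : v d' < 1)
    (φ : W.toAffine.Point →+ W.toAffine.Point)
    (hφ : ∀ (x y : K) (h : W.toAffine.Nonsingular x y),
      ∃ h' : W.toAffine.Nonsingular (σ x + d) (σ y + d'),
        φ (Point.some x y h) = Point.some (σ x + d) (σ y + d') h')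
    (Q : W.toAffine.Point) (hQ : InE0 v Q) : InE1 v (φ Q - Q) := by
  rcases Q with _ | ⟨x, y, h⟩
  · change InE1 v (φ 0 - 0)
    rw [map_zero, sub_zero]
    exact trivial
  obtain ⟨h', hφQ⟩ := hφ x y h
  rw [hφQ]
  have hQ' : 1 ≤ v x := hQ
  by_cases hx : 1 < v x
  · refine ge1_sub v hW h1 h2 h4.le ?_ hx
    show 1 < v (σ x + d)
    have h3 : 1 < v (σ x) := hσ.one_lt x hx
    rw [Valuation.map_add_eq_of_lt_left (v := v) (lt_trans hd h3)]
    exact h3
  rw [not_lt] at hx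
  have hx1 : v x = 1 := le_antisymm hx hQ'
  have e := (hW.equation_iff x y).mp h.1
  have hy : v y ≤ 1 := gsr_val_y_le h1 h2 h4.le hx e
  refine gsame_reduction_unit v hW h1 h2 h4 hD h h' hx1 ?_ ?_
  · have e1 : σ x + d - x = (σ x - x) + d := by ring
    rw [e1]
    exact v.map_add_lt (hσ.sub_lt x hx) hd
  · have e1 : σ y + d' - y = (σ y - y) + d' := by ring
    rw [e1]
    exact v.map_add_lt (hσ.sub_lt y hy) hd'

/-- `E₁ ⊆ E₀` -/
theorem h3t_E0_of_E1 {P : W.toAffine.Point} (hP : InE1 v P) : InE0 v P := by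
  rcases P with _ | ⟨x, y, h⟩
  · exact trivial
  · exact le_of_lt hP

/-- **twisted invariance of the component**: `φ P - P ∈ E₀`. -/
theorem h3t_sub_mem_E0 (hW : GShape W) (ha₁ : v W.a₁ ≤ 1) (ha₂ : v W.a₂ ≤ 1)
    (hC : v W.a₄ < 1) (hC0 : W.a₄ ≠ 0)
    {s : K} (hs : s ^ 2 + W.a₁ * s - W.a₂ = 0) (hD : v (W.a₁ ^ 2 + 4 * W.a₂) = 1)
    (σ : K →+* K) (hσ : IsInertial v σ) (hσv : ∀ a, v (σ a) = v a)
    (hd : v d ≤ v W.a₄) (hd' : v d' ≤ v W.a₄)
    (φ : W.toAffine.Point →+ W.toAffine.Point)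
    (hφ : ∀ (x y : K) (h : W.toAffine.Nonsingular x y),
      ∃ h' : W.toAffine.Nonsingular (σ x + d) (σ y + d'),
        φ (Point.some x y h) = Point.some (σ x + d) (σ y + d') h')
    (P : W.toAffine.Point) : InE0 v (φ P - P) := by
  have hu := g_unit_of_disc v hs hD
  have hT := g_nonsingular_zero hW hC0
  have hd1 : v d < 1 := lt_of_le_of_lt hd hC
  have hd'1 : v d' < 1 := lt_of_le_of_lt hd' hC
  -- the case of points of `E₀`
  have hE0 : ∀ Q : W.toAffine.Point, InE0 v Q → InE0 v (φ Q - Q) := fun Q hQ =>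
    h3t_E0_of_E1 v (h3t_sub_mem_E1 v d d' hW ha₁ ha₂ hC hD σ hσ hd1 hd'1 φ hφ Q hQ)
  -- the point `T`
  have hTT : InE0 v (φ (Point.some 0 0 hT) - Point.some 0 0 hT) := by
    obtain ⟨h', e⟩ := hφ 0 0 hT
    rw [e]
    by_cases hx0 : σ 0 + d = 0
    · have h0 : W.toAffine.Nonsingular 0 (σ 0 + d') := by
        have := h'
        rwa [hx0] at this
      have hy0 : σ 0 + d' = 0 := g_eq_T_of_x_eq_zero hW h0
      have : Point.some (σ 0 + d) (σ 0 + d') h' = Point.some 0 0 hT :=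
        g_point_congr hx0 hy0 _ _
      rw [this, sub_self]
      exact InE0_zero v
    · have hxle : v (σ 0 + d) ≤ v W.a₄ := by rw [map_zero, zero_add]; exact hd
      obtain ⟨x', y', h'', hsum, hx'⟩ := g_low_add_T v hW hC0 hT h' hx0 hxle
      have hnegT : -Point.some 0 0 hT = Point.some 0 0 hT :=
        neg_eq_of_add_eq_zero_left (g_T_add_T hW hT)
      rw [sub_eq_add_neg, hnegT, hsum]
      exact hx'
  rcases P with _ | ⟨x, y, h⟩
  · rw [← Point.zero_def, map_zero, sub_zero]; exact InE0_zero v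
  by_cases hx1 : 1 ≤ v x
  · exact hE0 _ hx1
  rw [not_le] at hx1
  by_cases hxC : v x ≤ v W.a₄
  · by_cases hx0 : x = 0
    · subst hx0
      have hy0 : y = 0 := g_eq_T_of_x_eq_zero hW h
      subst hy0
      exact hTT
    · obtain ⟨x', y', h', hsum, hx'⟩ := g_low_add_T v hW hC0 hT h hx0 hxC
      have h1 := hE0 (Point.some x' y' h') hx'
      rw [← hsum, map_add] at h1
      have e : φ (Point.some x y h) - Point.some x y h
          = (φ (Point.some x y h) + φ (Point.some 0 0 hT)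
              - (Point.some x y h + Point.some 0 0 hT))
            - (φ (Point.some 0 0 hT) - Point.some 0 0 hT) := by abel
      rw [e]
      exact g_E0_sub v hW ha₁ ha₂ hC h1 hTT
  rw [not_le] at hxC
  -- the classes `R(s₀, g)`
  have hR : ∀ s₀ : K, v s₀ ≤ 1 → v (2 * s₀ + W.a₁) = 1 →
      GR v s₀ (v x) (Point.some x y h) → InE0 v (φ (Point.some x y h) - Point.some x y h) := by
    intro s₀ hs₀ hu₀ hP
    have hP' : GR v s₀ (v x) (φ (Point.some x y h)) := by
      obtain ⟨h', e⟩ := hφ x y h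
      rw [e, GR_some]
      obtain ⟨k1, k2⟩ := g_GR_map v σ hσ hσv hs₀ hP.1 hP.2
      refine ⟨?_, ?_⟩
      · rw [Valuation.map_add_eq_of_lt_left (v := v) (by rw [k1]; exact lt_of_le_of_lt hd hxC)]
        exact k1
      · have e1 : σ y + d' - s₀ * (σ x + d) = (σ y - s₀ * σ x) + (d' - s₀ * d) := by ring
        rw [e1]
        refine v.map_add_lt k2 (lt_of_le_of_lt ?_ hxC)
        refine Valuation.map_sub_le v hd' ?_
        rw [map_mul]
        calc v s₀ * v d ≤ 1 * v W.a₄ := mul_le_mul' hs₀ hd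
          _ = v W.a₄ := one_mul _
    rw [sub_eq_add_neg]
    exact (g_add_opp v hW hC0 hu₀ hxC hx1 hxC hx1 hP' (g_GR_neg v hW hP)).2 rfl
  rcases g_class v hW hs h hxC hx1 with hP | hP
  · exact hR s (g_root_le_one v ha₁ ha₂ hs) hu hP
  · exact hR (-W.a₁ - s) (g_root_le_one v ha₁ ha₂ (g_root_conj hs)) (g_unit_conj v hu) hP

/-- **Unipotence of inertia, twisted form**: if `φ (x, y) = (σ x + d, σ y + d')` with `v d < 1`,
then `(φ - 1)² P = 0` for every `n`-torsion point `P`, `v n = 1`. -/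
theorem h3t_unipotent (hW : GShape W) (ha₁ : v W.a₁ ≤ 1) (ha₂ : v W.a₂ ≤ 1)
    (hC : v W.a₄ < 1) (hC0 : W.a₄ ≠ 0)
    {s : K} (hs : s ^ 2 + W.a₁ * s - W.a₂ = 0) (hD : v (W.a₁ ^ 2 + 4 * W.a₂) = 1)
    (h2 : (2 : K) ≠ 0)
    (σ : K →+* K) (hσ : IsInertial v σ) (hσv : ∀ a, v (σ a) = v a)
    (hd : v d < 1)
    (φ : W.toAffine.Point →+ W.toAffine.Point)
    (hφ : ∀ (x y : K) (h : W.toAffine.Nonsingular x y),
      ∃ h' : W.toAffine.Nonsingular (σ x + d) (σ y + d'),
        φ (Point.some x y h) = Point.some (σ x + d) (σ y + d') h')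
    {n : ℕ} (hn : v (n : K) = 1) (P : W.toAffine.Point) (hP : n • P = 0) :
    φ (φ P - P) - (φ P - P) = 0 := by
  have hT := g_nonsingular_zero hW hC0
  -- `(d, d') = φ T` is a `2`-torsion point
  obtain ⟨hdd, hdle, hd'le⟩ : ∃ _ : W.toAffine.Nonsingular d d',
      v d ≤ v W.a₄ ∧ v d' ≤ v W.a₄ := by
    obtain ⟨h', e⟩ := hφ 0 0 hT
    have hx : σ 0 + d = d := by rw [map_zero, zero_add]
    have hy : σ 0 + d' = d' := by rw [map_zero, zero_add]
    have hdd : W.toAffine.Nonsingular d d' := by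
      have := h'
      rwa [hx, hy] at this
    have e2 : φ (Point.some 0 0 hT) = Point.some d d' hdd := by
      rw [e]
      exact g_point_congr hx hy _ _
    have h2T : Point.some d d' hdd + Point.some d d' hdd = 0 := by
      rw [← e2, ← map_add, g_T_add_T hW hT, map_zero]
    exact ⟨hdd, h3t_twist_val v hW ha₁ hD h2 hd hdd h2T⟩
  have hQ : InE0 v (φ P - P) :=
    h3t_sub_mem_E0 v d d' hW ha₁ ha₂ hC hC0 hs hD σ hσ hσv hdle hd'le φ hφ P
  have hR : InE1 v (φ (φ P - P) - (φ P - P)) :=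
    h3t_sub_mem_E1 v d d' hW ha₁ ha₂ hC hD σ hσ hd (lt_of_le_of_lt hd'le hC) φ hφ _ hQ
  refine ge1_torsion_free v hW ha₁ ha₂ hC.le hn hR ?_
  have h1 : n • (φ P - P) = 0 := by
    rw [smul_sub, ← map_nsmul, hP, map_zero, sub_zero]
  rw [smul_sub, ← map_nsmul, h1, map_zero, sub_zero]

end Fermat.Agent.S58lib
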