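/-
Item 84 (S58), piece 84-E (H3), transport (helper8): unipotence of inertia on a Weierstrass curve
with multiplicative reduction, GIVEN an integral `2`-torsion point `(e, f)` reducing to the node.

`E` a Weierstrass curve over a valued field `K`, `(e, f)` a `2`-torsion point with `v e ≤ 1`;
`h3rCurve E e f` is the translate `x = X + e`, `y = Y + f` (a `GShape` curve with the node at the
origin when `a₄' = a₄ + 2 e a₂ - f a₁ + 3 e²` is small and `a₁² + 4 (a₂ + 3 e)` is a unit).  The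
Galois action in the new coordinates is the twisted map `(X, Y) ↦ (σ X + (σ e - e), σ Y + (σ f - f))`
of `H3Twist.lean`.

* `h3r_isShear`, `h3r_gshape`, `h3r_shearMap_surjective`, `h3rEquiv`, `h3rPhi`, `h3rPhi_some`;
* **`h3r_unipotent`** : `(φ - 1)² P = 0` for every `n`-torsion point `P` of `E`, `v n = 1`.
-/
import Mathlib.FieldTheory.IsAlgClosed.Basic
import Mathlib.Tactic.ComputeDegree
import Fermat.Agent.S58lib.H3Twist
import Fermat.Agent.S05_Shear

set_option autoImplicit false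
set_option linter.unusedSectionVars false
set_option linter.unusedVariables false

namespace Fermat.Agent.S58lib

open WeierstrassCurve WeierstrassCurve.Affine Fermat.Agent.S05lib Fermat.Agent.S13lib
  Fermat.Agent.S05wire

variable {K : Type*} [Field K] [DecidableEq K]
  {Γ₀ : Type*} [LinearOrderedCommGroupWithZero Γ₀] (v : Valuation K Γ₀)

/-- the translate of `E` by the point `(e, f)`: `x = X + e`, `y = Y + f` -/
def h3rCurve (E : WeierstrassCurve K) (e f : K) : WeierstrassCurve K :=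
  ⟨E.a₁, E.a₂ + 3 * e, 0, E.a₄ + 2 * e * E.a₂ - f * E.a₁ + 3 * e ^ 2, 0⟩

@[simp] theorem h3rCurve_a₁ (E : WeierstrassCurve K) (e f : K) : (h3rCurve E e f).a₁ = E.a₁ := rfl

@[simp] theorem h3rCurve_a₂ (E : WeierstrassCurve K) (e f : K) :
    (h3rCurve E e f).a₂ = E.a₂ + 3 * e := rfl

@[simp] theorem h3rCurve_a₃ (E : WeierstrassCurve K) (e f : K) : (h3rCurve E e f).a₃ = 0 := rfl

@[simp] theorem h3rCurve_a₄ (E : WeierstrassCurve K) (e f : K) :
    (h3rCurve E e f).a₄ = E.a₄ + 2 * e * E.a₂ - f * E.a₁ + 3 * e ^ 2 := rfl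

@[simp] theorem h3rCurve_a₆ (E : WeierstrassCurve K) (e f : K) : (h3rCurve E e f).a₆ = 0 := rfl

theorem h3r_gshape (E : WeierstrassCurve K) (e f : K) : GShape (h3rCurve E e f) := ⟨rfl, rfl⟩

/-- `h3rCurve E e f` is the shear of `E` by `(e, 0, f)` when `(e, f)` is a `2`-torsion point -/
theorem h3r_isShear (E : WeierstrassCurve K) (e f : K)
    (htor : 2 * f + E.a₁ * e + E.a₃ = 0)
    (heq : f ^ 2 + E.a₁ * e * f + E.a₃ * f = e ^ 3 + E.a₂ * e ^ 2 + E.a₄ * e + E.a₆) :
    IsShear E (h3rCurve E e f) e 0 f where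
  a₁ := by rw [h3rCurve_a₁]; ring
  a₂ := by rw [h3rCurve_a₂]; ring
  a₃ := by rw [h3rCurve_a₃]; linear_combination -htor
  a₄ := by rw [h3rCurve_a₄]; ring
  a₆ := by rw [h3rCurve_a₆]; linear_combination heq

section Shear

variable {W W' : WeierstrassCurve K} {r s t : K}

theorem h3r_shearMap_surjective (h : IsShear W W' r s t) : Function.Surjective (shearMap h) := by
  rintro (_ | ⟨X, Y, hXY⟩)
  · exact ⟨0, rfl⟩
  · have e1 : X - r + r = X := sub_add_cancel X r
    have e2 : Y - s * (X - r) - t + s * (X - r) + t = Y := by ring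
    have h' : W'.toAffine.Nonsingular (X - r) (Y - s * (X - r) - t) := by
      refine (h.nonsingular_iff (X - r) (Y - s * (X - r) - t)).mp ?_
      rw [e1, e2]
      exact hXY
    refine ⟨Point.some (X - r) (Y - s * (X - r) - t) h', ?_⟩
    rw [shearMap_some]
    exact g_point_congr e1 e2 _ _

/-- the shear map as an additive equivalence -/
noncomputable def h3rEquiv (h : IsShear W W' r s t) : W'.toAffine.Point ≃+ W.toAffine.Point :=
  AddEquiv.ofBijective (shearMap h) ⟨shearMap_injective h, h3r_shearMap_surjective h⟩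

theorem h3rEquiv_apply (h : IsShear W W' r s t) (P : W'.toAffine.Point) :
    h3rEquiv h P = shearMap h P := rfl

/-- the transported action on the points of `W'` -/
noncomputable def h3rPhi (h : IsShear W W' r s t) (φ : W.toAffine.Point →+ W.toAffine.Point) :
    W'.toAffine.Point →+ W'.toAffine.Point :=
  (h3rEquiv h).symm.toAddMonoidHom.comp (φ.comp (h3rEquiv h).toAddMonoidHom)

theorem h3rPhi_apply (h : IsShear W W' r s t) (φ : W.toAffine.Point →+ W.toAffine.Point)
    (P : W'.toAffine.Point) :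
    h3rPhi h φ P = (h3rEquiv h).symm (φ (shearMap h P)) := rfl

theorem h3r_shearMap_phi (h : IsShear W W' r s t) (φ : W.toAffine.Point →+ W.toAffine.Point)
    (P : W'.toAffine.Point) :
    shearMap h (h3rPhi h φ P) = φ (shearMap h P) := by
  rw [h3rPhi_apply, ← h3rEquiv_apply, AddEquiv.apply_symm_apply]

/-- **the twisted formula**: in the coordinates of `W'` (a shear with `s = 0`), the action induced
by `σ` is `(X, Y) ↦ (σ X + (σ r - r), σ Y + (σ t - t))`. -/
theorem h3rPhi_some (h : IsShear W W' r 0 t) (σ : K →+* K)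
    (φ : W.toAffine.Point →+ W.toAffine.Point)
    (hφ : ∀ (x y : K) (hxy : W.toAffine.Nonsingular x y),
      ∃ h' : W.toAffine.Nonsingular (σ x) (σ y),
        φ (Point.some x y hxy) = Point.some (σ x) (σ y) h')
    (X Y : K) (hXY : W'.toAffine.Nonsingular X Y) :
    ∃ h' : W'.toAffine.Nonsingular (σ X + (σ r - r)) (σ Y + (σ t - t)),
      h3rPhi h φ (Point.some X Y hXY)
        = Point.some (σ X + (σ r - r)) (σ Y + (σ t - t)) h' := by
  obtain ⟨h1, e1⟩ := hφ (X + r) (Y + 0 * X + t) ((h.nonsingular_iff X Y).mpr hXY)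
  have ex : σ X + (σ r - r) + r = σ (X + r) := by rw [map_add]; ring
  have ey : σ Y + (σ t - t) + 0 * (σ X + (σ r - r)) + t = σ (Y + 0 * X + t) := by
    rw [map_add, map_add, map_mul, map_zero]; ring
  have h' : W'.toAffine.Nonsingular (σ X + (σ r - r)) (σ Y + (σ t - t)) := by
    refine (h.nonsingular_iff _ _).mp ?_
    rw [ex, ey]
    exact h1
  refine ⟨h', ?_⟩
  rw [h3rPhi_apply, shearMap_some, e1, AddEquiv.symm_apply_eq, h3rEquiv_apply, shearMap_some]
  exact g_point_congr ex.symm ey.symm _ _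

end Shear

/-- **(H3), abstract form with a given `2`-torsion point at the node.**  `E` a Weierstrass curve
over the algebraically closed valued field `K`, `(e, f)` a `2`-torsion point with `v e ≤ 1` such
that the translate has `v a₄' < 1`, `a₄' ≠ 0` and `a₁² + 4 a₂'` a unit; `σ` inertial and valuation
preserving, `φ` the action of `σ` on the points.  Then `(φ - 1)² P = 0` for every `n`-torsion point
`P`, `v n = 1`. -/
theorem h3r_unipotent [IsAlgClosed K] (E : WeierstrassCurve K)
    (h1 : v E.a₁ ≤ 1) (h2 : v E.a₂ ≤ 1)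
    (e f : K) (he : v e ≤ 1)
    (htor : 2 * f + E.a₁ * e + E.a₃ = 0)
    (heq : f ^ 2 + E.a₁ * e * f + E.a₃ * f = e ^ 3 + E.a₂ * e ^ 2 + E.a₄ * e + E.a₆)
    (hC : v (E.a₄ + 2 * e * E.a₂ - f * E.a₁ + 3 * e ^ 2) < 1)
    (hC0 : E.a₄ + 2 * e * E.a₂ - f * E.a₁ + 3 * e ^ 2 ≠ 0)
    (hD : v (E.a₁ ^ 2 + 4 * (E.a₂ + 3 * e)) = 1)
    (h20 : (2 : K) ≠ 0)
    (σ : K →+* K) (hσ : IsInertial v σ) (hσv : ∀ a, v (σ a) = v a)
    (φ : E.toAffine.Point →+ E.toAffine.Point)
    (hφ : ∀ (x y : K) (h : E.toAffine.Nonsingular x y),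
      ∃ h' : E.toAffine.Nonsingular (σ x) (σ y),
        φ (Point.some x y h) = Point.some (σ x) (σ y) h')
    {n : ℕ} (hn : v (n : K) = 1) (P : E.toAffine.Point) (hP : n • P = 0) :
    φ (φ P - P) - (φ P - P) = 0 := by
  have hsh := h3r_isShear E e f htor heq
  have hW := h3r_gshape E e f
  -- integrality of the new coefficients
  have ha₁ : v (h3rCurve E e f).a₁ ≤ 1 := h1
  have ha₂ : v (h3rCurve E e f).a₂ ≤ 1 := by
    rw [h3rCurve_a₂]
    refine Valuation.map_add_le v h2 ?_
    rw [map_mul]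
    have h3 : v (3 : K) ≤ 1 := by
      have := h3t_natCast_le v 3
      simpa using this
    calc v (3 : K) * v e ≤ 1 * 1 := mul_le_mul' h3 he
      _ = 1 := one_mul _
  -- a root of `s² + a₁ s - a₂'`
  obtain ⟨s, hs⟩ : ∃ s : K, s ^ 2 + (h3rCurve E e f).a₁ * s - (h3rCurve E e f).a₂ = 0 := by
    obtain ⟨s, hs⟩ := IsAlgClosed.exists_root
      (Polynomial.X ^ 2 + Polynomial.C (h3rCurve E e f).a₁ * Polynomial.X
        - Polynomial.C (h3rCurve E e f).a₂ : Polynomial K) (by
        have hd : (Polynomial.X ^ 2 + Polynomial.C (h3rCurve E e f).a₁ * Polynomial.X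
          - Polynomial.C (h3rCurve E e f).a₂ : Polynomial K).degree = 2 := by
          compute_degree!
        rw [hd]; norm_num)
    refine ⟨s, ?_⟩
    simpa [Polynomial.IsRoot] using hs
  -- the twisted action
  have hφ₁ := h3rPhi_some hsh σ φ hφ
  have hd : v (σ e - e) < 1 := hσ.sub_lt e he
  -- pull `P` back
  obtain ⟨P₁, rfl⟩ := h3r_shearMap_surjective hsh P
  have hP₁ : n • P₁ = 0 := by
    apply shearMap_injective hsh
    rw [map_nsmul, hP, map_zero]
  have key := h3t_unipotent v (σ e - e) (σ f - f) hW ha₁ ha₂ hC hC0 hs hD h20 σ hσ hσv hd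
    (h3rPhi hsh φ) hφ₁ hn P₁ hP₁
  have e1 : shearMap hsh (h3rPhi hsh φ P₁ - P₁) = φ (shearMap hsh P₁) - shearMap hsh P₁ := by
    rw [map_sub, h3r_shearMap_phi]
  have e2 : shearMap hsh (h3rPhi hsh φ (h3rPhi hsh φ P₁ - P₁) - (h3rPhi hsh φ P₁ - P₁))
      = φ (φ (shearMap hsh P₁) - shearMap hsh P₁) - (φ (shearMap hsh P₁) - shearMap hsh P₁) := by
    rw [map_sub (shearMap hsh), h3r_shearMap_phi, e1]
  rw [← e2, key, map_zero]

end Fermat.Agent.S58lib
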