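import Fermat.Agent.S58lib.H3Node
import Fermat.Agent.S58lib.H3Trans
import Fermat.Agent.S13lib.DecompVal
import Fermat.Agent.S05_Val
import Fermat.Prelude.Def_FLTPrelim_GaloisRep
import Fermat.Prelude.Def_FLTPrelim_Ramification

/-!
# Item 84 (S58), piece 84-E (H3): inertia at a prime of multiplicative reduction acts
unipotently on the torsion prime to the residue characteristic (helper4; twist + translation by
helper8, component calculus of `S13lib` by helper19)

`W` an integral Weierstrass curve, `q` a prime with `q ∣ Δ`, `q ∤ c₄`, `A` a valuation subring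
of `ℚ̄` over `q`, `σ` in the inertia group of `A`, `n` prime to `q`: `(σ - 1)² P = 0` for every
point `P` of `W(ℚ̄)` killed by `n`.  All primes `q`, including `2` and `3`; no hypothesis on `n`
besides `q ∤ n`.
-/

set_option autoImplicit false
set_option linter.unusedSectionVars false
set_option linter.unusedVariables false

namespace Fermat.Agent.S58lib

open WeierstrassCurve WeierstrassCurve.Affine WeierstrassCurve.Affine.Point
open Fermat.Agent.S05lib Fermat.Agent.S05wire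

/-- **Abstract form**: multiplicative reduction (`v c₄ = 1`, `v Δ < 1`, integral coefficients)
over an algebraically closed valued field of characteristic `0`. -/
theorem uin_unipotent_abs {K : Type*} [Field K] [DecidableEq K] [CharZero K] [IsAlgClosed K]
    {Γ₀ : Type*} [LinearOrderedCommGroupWithZero Γ₀] (v : Valuation K Γ₀)
    (E : WeierstrassCurve K)
    (h1 : v E.a₁ ≤ 1) (h2 : v E.a₂ ≤ 1) (h3 : v E.a₃ ≤ 1) (h4 : v E.a₄ ≤ 1) (h6 : v E.a₆ ≤ 1)
    (hc₄ : v E.c₄ = 1) (hΔ : v E.Δ < 1) (hΔ0 : E.Δ ≠ 0)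
    (σ : K →+* K) (hσ : IsInertial v σ) (hσv : ∀ a, v (σ a) = v a)
    (φ : E.toAffine.Point →+ E.toAffine.Point)
    (hφ : ∀ (x y : K) (h : E.toAffine.Nonsingular x y),
      ∃ h' : E.toAffine.Nonsingular (σ x) (σ y),
        φ (Point.some x y h) = Point.some (σ x) (σ y) h')
    {n : ℕ} (hn : v (n : K) = 1) (P : E.toAffine.Point) (hP : n • P = 0) :
    φ (φ P - P) - (φ P - P) = 0 := by
  obtain ⟨e, f, he, hf, htor, heq, hC, hC0, hD⟩ :=
    uin_exists_node v E h1 h2 h3 h4 h6 hc₄ hΔ hΔ0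
  exact h3r_unipotent v E h1 h2 e f he htor heq hC hC0 hD two_ne_zero σ hσ hσv φ hφ hn P hP

section Concrete

variable (W : WeierstrassCurve ℤ)

/-- **Pointwise form of (H3).** -/
theorem uin_unipotent_pt (hΔ0 : W.Δ ≠ 0) {q : ℕ} (hq : q.Prime)
    (hqΔ : (q : ℤ) ∣ W.Δ) (hqc : ¬ (q : ℤ) ∣ W.c₄) {n : ℕ} (hnq : ¬ q ∣ n)
    (A : ValuationSubring (AlgebraicClosure ℚ)) (hA : A.LiesOverPrime q)
    (σ : AlgebraicClosure ℚ ≃ₐ[ℚ] AlgebraicClosure ℚ) (hσ : σ ∈ A.inertiaSubgroupIn ℚ)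
    (x : ((W.map (Int.castRingHom ℚ)).toAffine⁄(AlgebraicClosure ℚ)).Point) (hx : n • x = 0) :
    Point.map (W' := (W.map (Int.castRingHom ℚ)).toAffine) σ.toAlgHom
        (Point.map (W' := (W.map (Int.castRingHom ℚ)).toAffine) σ.toAlgHom x - x) -
      (Point.map (W' := (W.map (Int.castRingHom ℚ)).toAffine) σ.toAlgHom x - x) = 0 := by
  classical
  have hA' : ((q : ℕ) : AlgebraicClosure ℚ) ∈ A.nonunits := hA
  have ha : ∀ m : ℤ, algebraMap ℚ (AlgebraicClosure ℚ) ((Int.castRingHom ℚ) m)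
      = ((m : ℤ) : AlgebraicClosure ℚ) := by
    intro m
    rw [eq_intCast, map_intCast]
  have e1 : ((W.map (Int.castRingHom ℚ)).baseChange (AlgebraicClosure ℚ)).a₁
      = ((W.a₁ : ℤ) : AlgebraicClosure ℚ) := ha _
  have e2 : ((W.map (Int.castRingHom ℚ)).baseChange (AlgebraicClosure ℚ)).a₂
      = ((W.a₂ : ℤ) : AlgebraicClosure ℚ) := ha _
  have e3 : ((W.map (Int.castRingHom ℚ)).baseChange (AlgebraicClosure ℚ)).a₃
      = ((W.a₃ : ℤ) : AlgebraicClosure ℚ) := ha _
  have e4 : ((W.map (Int.castRingHom ℚ)).baseChange (AlgebraicClosure ℚ)).a₄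
      = ((W.a₄ : ℤ) : AlgebraicClosure ℚ) := ha _
  have e6 : ((W.map (Int.castRingHom ℚ)).baseChange (AlgebraicClosure ℚ)).a₆
      = ((W.a₆ : ℤ) : AlgebraicClosure ℚ) := ha _
  have ec : ((W.map (Int.castRingHom ℚ)).baseChange (AlgebraicClosure ℚ)).c₄
      = ((W.c₄ : ℤ) : AlgebraicClosure ℚ) := by
    rw [WeierstrassCurve.baseChange, WeierstrassCurve.map_c₄, WeierstrassCurve.map_c₄]
    exact ha _
  have eΔ : ((W.map (Int.castRingHom ℚ)).baseChange (AlgebraicClosure ℚ)).Δ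
      = ((W.Δ : ℤ) : AlgebraicClosure ℚ) := by
    rw [WeierstrassCurve.baseChange, WeierstrassCurve.map_Δ, WeierstrassCurve.map_Δ]
    exact ha _
  have hσI : IsInertial A.valuation
      ((σ : AlgebraicClosure ℚ ≃ₐ[ℚ] AlgebraicClosure ℚ) : AlgebraicClosure ℚ →+* AlgebraicClosure ℚ) :=
    isInertial_of_mem_inertiaSubgroupIn A hσ
  have halg : Algebra.IsAlgebraic ℚ (AlgebraicClosure ℚ) := AlgebraicClosure.isAlgebraic ℚ
  have hσv : ∀ a : AlgebraicClosure ℚ, A.valuation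
      (((σ : AlgebraicClosure ℚ ≃ₐ[ℚ] AlgebraicClosure ℚ) :
        AlgebraicClosure ℚ →+* AlgebraicClosure ℚ) a) = A.valuation a :=
    fun a => Fermat.Agent.S13lib.val_map_of_mem_inertiaSubgroupIn A hσ a
  have hφ : ∀ (x y : AlgebraicClosure ℚ)
      (h : ((W.map (Int.castRingHom ℚ)).baseChange (AlgebraicClosure ℚ)).toAffine.Nonsingular x y),
      ∃ h' : ((W.map (Int.castRingHom ℚ)).baseChange (AlgebraicClosure ℚ)).toAffine.Nonsingular
        (((σ : AlgebraicClosure ℚ ≃ₐ[ℚ] AlgebraicClosure ℚ) :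
          AlgebraicClosure ℚ →+* AlgebraicClosure ℚ) x)
        (((σ : AlgebraicClosure ℚ ≃ₐ[ℚ] AlgebraicClosure ℚ) :
          AlgebraicClosure ℚ →+* AlgebraicClosure ℚ) y),
        Point.map (W' := (W.map (Int.castRingHom ℚ)).toAffine) σ.toAlgHom (Point.some x y h) =
          Point.some (((σ : AlgebraicClosure ℚ ≃ₐ[ℚ] AlgebraicClosure ℚ) :
              AlgebraicClosure ℚ →+* AlgebraicClosure ℚ) x)
            (((σ : AlgebraicClosure ℚ ≃ₐ[ℚ] AlgebraicClosure ℚ) :
              AlgebraicClosure ℚ →+* AlgebraicClosure ℚ) y) h' := by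
    intro x y h
    exact ⟨_, Point.map_some (W' := (W.map (Int.castRingHom ℚ)).toAffine) σ.toAlgHom h⟩
  have hn : A.valuation ((n : ℕ) : AlgebraicClosure ℚ) = 1 := by
    have := val_intCast_eq_one A hq hA' (n := (n : ℤ)) (by
      intro h
      exact hnq (Int.natCast_dvd_natCast.mp h))
    simpa using this
  refine uin_unipotent_abs A.valuation
    ((W.map (Int.castRingHom ℚ)).baseChange (AlgebraicClosure ℚ))
    (by rw [e1]; exact val_intCast_le_one A _) (by rw [e2]; exact val_intCast_le_one A _)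
    (by rw [e3]; exact val_intCast_le_one A _) (by rw [e4]; exact val_intCast_le_one A _)
    (by rw [e6]; exact val_intCast_le_one A _)
    (by rw [ec]; exact val_intCast_eq_one A hq hA' hqc)
    (by rw [eΔ]; exact val_intCast_lt_one A hA' hqΔ)
    (by rw [eΔ]; exact_mod_cast hΔ0)
    ((σ : AlgebraicClosure ℚ ≃ₐ[ℚ] AlgebraicClosure ℚ) : AlgebraicClosure ℚ →+* AlgebraicClosure ℚ)
    hσI hσv (Point.map (W' := (W.map (Int.castRingHom ℚ)).toAffine) σ.toAlgHom) hφ hn x hx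

/-- **(H3)**: at a prime `q` of multiplicative reduction, the inertia group acts unipotently on
the points killed by `n`, `q ∤ n`:  `(σ - 1)² P = 0`. -/
theorem uin_unipotent (hΔ0 : W.Δ ≠ 0) {q : ℕ} (hq : q.Prime)
    (hqΔ : (q : ℤ) ∣ W.Δ) (hqc : ¬ (q : ℤ) ∣ W.c₄) {n : ℕ} (hnq : ¬ q ∣ n)
    (A : ValuationSubring (AlgebraicClosure ℚ)) (hA : A.LiesOverPrime q)
    (σ : AlgebraicClosure ℚ ≃ₐ[ℚ] AlgebraicClosure ℚ) (hσ : σ ∈ A.inertiaSubgroupIn ℚ)
    (P : Submodule.torsionBy ℤ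
      ((W.map (Int.castRingHom ℚ)).toAffine⁄(AlgebraicClosure ℚ)).Point (n : ℤ)) :
    σ • (σ • P - P) - (σ • P - P) = 0 := by
  apply Subtype.ext
  have hx : n • P.1 = 0 := by
    have h := P.2
    rw [Submodule.mem_torsionBy_iff] at h
    rw [← h, natCast_zsmul]
  exact uin_unipotent_pt W hΔ0 hq hqΔ hqc hnq A hA σ hσ P.1 hx

end Concrete

end Fermat.Agent.S58lib
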