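/-
Item 84 (S58), the provider of LINK (3b) (helper13).  Complete proofs.

* `upw_chlFrob_mono`: the Frobenius condition `ChlFrob` is monotone in the exceptional set;
* `upwBad`: the finite set of bad primes of `W`; `upw_good_of_not_mem`;
* `HassePkg W`: the Hasse package of `W` at all good primes, in the shape of the hypothesis `hH`
  of `h2_final` (`H2Transfer.lean`);
* `upw_chlFrob_tors` (H2): the Frobenius condition for `W(ℚ̄)[lam ^ n]`, `lam` odd, outside
  `{lam} ∪ {bad primes}`;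
* `upw_unipAt`: **`StpUnipAt W p`** (`Steps.lean`) for a semistable `W` and an odd prime `p`, from
  the Hasse package: a `p`-adic representation with the Frobenius characteristic polynomials of
  `W` outside a finite set is unipotent on inertia at every prime `q ≠ p`
  (bad `q`: (H3) `uin_unipotent`; good `q`: `rh_unramified`; link: `chl_W_unipotent`);
* `upw_frobAt`: **`StpFrobAt W lam`** for an odd prime `lam`, from the Hasse package
  (`chl_W_const` + `h2_final`).
-/
import Mathlib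
import Fermat.Agent.S58lib.Steps
import Fermat.Agent.S58lib.ChebLinkW
import Fermat.Agent.S58lib.H2Transfer
import Fermat.Agent.S58lib.H3Final
import Fermat.Agent.S58lib.RedHom

set_option autoImplicit false
set_option linter.style.longLine false
set_option linter.unusedSectionVars false
set_option linter.unusedVariables false
set_option linter.style.haveILetI false

noncomputable section

namespace Fermat.Agent.S58lib

open Polynomial Fermat.Agent.GalRep
open WeierstrassCurve WeierstrassCurve.Affine WeierstrassCurve.Affine.Point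

/-- the Frobenius condition is monotone in the exceptional set -/
theorem upw_chlFrob_mono {R : Type} [CommRing R] {V : Type} [AddCommGroup V] [Module R V]
    [Module.Free R V] [Module.Finite R V] (r : GQ →* Module.End R V) {S S' : Finset ℕ}
    (h : S ⊆ S') (a : ℕ → ℤ) (hr : ChlFrob r S a) : ChlFrob r S' a :=
  fun ℓ hℓ hℓS A hA σ hσ => hr ℓ hℓ (fun h' => hℓS (h h')) A hA σ hσ

/-- the finite set of bad primes -/
def upwBad (W : WeierstrassCurve ℤ) : Finset ℕ := W.Δ.natAbs.primeFactors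

theorem upw_good_of_not_mem (W : WeierstrassCurve ℤ) (hΔ : W.Δ ≠ 0) {ℓ : ℕ} (hℓ : ℓ.Prime)
    (h : ℓ ∉ upwBad W) : W.IsGoodPrimeFor ℓ := by
  intro hdvd
  apply h
  rw [upwBad, Nat.mem_primeFactors]
  exact ⟨hℓ, Int.natCast_dvd.mp hdvd, Int.natAbs_ne_zero.mpr hΔ⟩

/-- **the Hasse package** of `W` at all good primes (the hypothesis `hH` of `h2_final`) -/
def HassePkg (W : WeierstrassCurve ℤ) : Prop :=
  ∀ ℓ : ℕ, ℓ.Prime → W.IsGoodPrimeFor ℓ →
    ∀ (κ : Type) [Field κ] [CharP κ ℓ] (f : κ →+* κ), (∀ x, f x = x ^ ℓ) →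
      HasseOn W ℓ κ f (W.apOfModel ℓ)

/-- **(H2)** in the form of the link: the Frobenius condition for `W(ℚ̄)[lam ^ n]`, `lam` odd,
outside `{lam} ∪ {bad primes}`. -/
theorem upw_chlFrob_tors (W : WeierstrassCurve ℤ) (hΔ : W.Δ ≠ 0) (hH : HassePkg W)
    {lam : ℕ} (hlam : lam.Prime) (hodd : lam ≠ 2) (n : ℕ)
    [Module.Free (ZMod (lam ^ n)) (Submodule.torsionBy ℤ
      ((W.map (Int.castRingHom ℚ)).toAffine⁄(AlgebraicClosure ℚ)).Point ((lam ^ n : ℕ) : ℤ))]
    [Module.Finite (ZMod (lam ^ n)) (Submodule.torsionBy ℤ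
      ((W.map (Int.castRingHom ℚ)).toAffine⁄(AlgebraicClosure ℚ)).Point ((lam ^ n : ℕ) : ℤ))] :
    ChlFrob (galoisRepModuleEnd ℚ (K := AlgebraicClosure ℚ)
      (W.map (Int.castRingHom ℚ)).toAffine (lam ^ n)) (insert lam (upwBad W)) W.apOfModel := by
  intro ℓ hℓ hℓS A hA σ hσ
  have hne : lam ≠ ℓ := fun h => hℓS (h ▸ Finset.mem_insert_self _ _)
  have hgood : W.IsGoodPrimeFor ℓ :=
    upw_good_of_not_mem W hΔ hℓ (fun h => hℓS (Finset.mem_insert_of_mem h))
  exact h2_final W hℓ hgood (W.apOfModel ℓ) (hH ℓ hℓ hgood) hlam hodd hne A hA σ hσ n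

/-- **LINK (3b)**: `StpUnipAt W p` for a semistable `W` and an odd prime `p`, from the Hasse
package. -/
theorem upw_unipAt (W : WeierstrassCurve ℤ) (hss : W.IsSemistableModel) (hΔ : W.Δ ≠ 0)
    (p : ℕ) [Fact p.Prime] (hp2 : p ≠ 2) (hH : HassePkg W) : StpUnipAt W p := by
  intro O _ _ _ _ _ _ hpO ρ S hρ q hq hqp
  have hp : p.Prime := Fact.out
  haveI : ∀ n, Module.Free (ZMod (p ^ n)) (Submodule.torsionBy ℤ
      ((W.map (Int.castRingHom ℚ)).toAffine⁄(AlgebraicClosure ℚ)).Point ((p ^ n : ℕ) : ℤ)) :=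
    fun n => h2_free W hΔ hp hp2 n
  haveI : ∀ n, Module.Finite (ZMod (p ^ n)) (Submodule.torsionBy ℤ
      ((W.map (Int.castRingHom ℚ)).toAffine⁄(AlgebraicClosure ℚ)).Point ((p ^ n : ℕ) : ℤ)) :=
    fun n => h2_finite W hΔ hp hp2 n
  refine chl_W_unipotent (W.map (Int.castRingHom ℚ)) p hp.ne_zero hpO ρ
    (fun n hn => h2_finrank W hΔ hp hp2 n hn) (S ∪ insert p (upwBad W)) W.apOfModel
    (upw_chlFrob_mono ρ.ρ Finset.subset_union_left _ hρ)
    (fun n hn => upw_chlFrob_mono _ Finset.subset_union_right _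
      (upw_chlFrob_tors W hΔ hH hp hp2 n)) q ?_
  intro P hP σ hσ n hn x hx
  have hnq : ¬ q ∣ p ^ n := fun h =>
    hqp ((Nat.prime_dvd_prime_iff_eq hq hp).1 (hq.dvd_of_dvd_pow h))
  have hxm : x ∈ Submodule.torsionBy ℤ
      ((W.map (Int.castRingHom ℚ)).toAffine⁄(AlgebraicClosure ℚ)).Point ((p ^ n : ℕ) : ℤ) := by
    rw [Submodule.mem_torsionBy_iff, natCast_zsmul]
    exact hx
  by_cases hqΔ : (q : ℤ) ∣ W.Δ
  · have h := uin_unipotent W hΔ hq hqΔ (hss q hq hqΔ) hnq P hP σ hσ ⟨x, hxm⟩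
    exact congrArg Subtype.val h
  · have hodd : Odd (p ^ n) := (hp.odd_of_ne_two hp2).pow
    have h := rh_unramified W hq hqΔ (p ^ n) hodd hnq P hP σ hσ ⟨x, hxm⟩
    have h' : σ • x = x := congrArg Subtype.val h
    rw [h', sub_self, smul_zero, sub_self]

/-- **LINK (3a)**: `StpFrobAt W lam` for an odd prime `lam`, from the Hasse package: a `lam`-adic
representation with the Frobenius characteristic polynomials of `W` outside a finite set has them
at EVERY good prime `r ≠ lam`. -/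
theorem upw_frobAt (W : WeierstrassCurve ℤ) (hΔ : W.Δ ≠ 0)
    (lam : ℕ) [Fact lam.Prime] (hlam2 : lam ≠ 2) (hH : HassePkg W) : StpFrobAt W lam := by
  intro O _ _ _ _ _ _ hlamO ρ S hρ r hr hrlam hgood A hA σ hσ
  have hlam : lam.Prime := Fact.out
  haveI : ∀ n, Module.Free (ZMod (lam ^ n)) (Submodule.torsionBy ℤ
      ((W.map (Int.castRingHom ℚ)).toAffine⁄(AlgebraicClosure ℚ)).Point ((lam ^ n : ℕ) : ℤ)) :=
    fun n => h2_free W hΔ hlam hlam2 n
  haveI : ∀ n, Module.Finite (ZMod (lam ^ n)) (Submodule.torsionBy ℤ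
      ((W.map (Int.castRingHom ℚ)).toAffine⁄(AlgebraicClosure ℚ)).Point ((lam ^ n : ℕ) : ℤ)) :=
    fun n => h2_finite W hΔ hlam hlam2 n
  have h := chl_W_const (W.map (Int.castRingHom ℚ)) lam hlam.ne_zero hlamO ρ
    (fun n hn => h2_finrank W hΔ hlam hlam2 n hn) (S ∪ insert lam (upwBad W)) W.apOfModel
    (upw_chlFrob_mono ρ.ρ Finset.subset_union_left _ hρ)
    (fun n hn => upw_chlFrob_mono _ Finset.subset_union_right _
      (upw_chlFrob_tors W hΔ hH hlam hlam2 n)) σ (W.apOfModel r) (r : ℤ)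
    (fun n hn => by
      rw [h2_final W hr hgood (W.apOfModel r) (hH r hr hgood) hlam hlam2 (Ne.symm hrlam) A hA σ
        hσ n, Int.cast_natCast])
  rw [h, Int.cast_natCast]

end Fermat.Agent.S58lib

end
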