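import Mathlib
import Fermat.Agent.S58lib.HRes
import Fermat.Agent.S58lib.UnipW
import Fermat.Agent.S58lib.Steps

/-!
# Item 84 (helper6): the provider of `StpResAt W p`

`s58_resAt`: for `W` with irreducible mod-`p` representation (`p` odd) and the Hasse package, every
`p`-adic representation with the Frobenius characteristic polynomials of `W` has absolutely
irreducible and odd residual representation (`hrs_residual'` at `T = W(ℚ̄)[p]`).
-/

set_option autoImplicit false

open Polynomial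

open Fermat.Agent.GalRep WeierstrassCurve WeierstrassCurve.Affine WeierstrassCurve.Affine.Point

noncomputable section

namespace Fermat.Agent.S58lib

/-- the package at a modulus `m = p ^ 1` -/
theorem s58_tors_pkg (W : WeierstrassCurve ℤ) (hΔ : W.Δ ≠ 0) (hH : HassePkg W)
    {p : ℕ} (hp : p.Prime) (hp2 : p ≠ 2) (m : ℕ) (hm : m = p ^ 1) :
    ∃ (_ : Module.Free (ZMod m) (Submodule.torsionBy ℤ
        ((W.map (Int.castRingHom ℚ)).toAffine⁄(AlgebraicClosure ℚ)).Point ((m : ℕ) : ℤ)))
      (_ : Module.Finite (ZMod m) (Submodule.torsionBy ℤ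
        ((W.map (Int.castRingHom ℚ)).toAffine⁄(AlgebraicClosure ℚ)).Point ((m : ℕ) : ℤ))),
      Module.finrank (ZMod m) (Submodule.torsionBy ℤ
        ((W.map (Int.castRingHom ℚ)).toAffine⁄(AlgebraicClosure ℚ)).Point ((m : ℕ) : ℤ)) = 2 ∧
      ChlFrob (galoisRepModuleEnd ℚ (K := AlgebraicClosure ℚ)
        (W.map (Int.castRingHom ℚ)).toAffine m) (insert p (upwBad W)) W.apOfModel := by
  subst hm
  haveI := h2_free W hΔ hp hp2 1
  haveI := h2_finite W hΔ hp hp2 1
  exact ⟨h2_free W hΔ hp hp2 1, h2_finite W hΔ hp hp2 1,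
    h2_finrank W hΔ hp hp2 1 Nat.one_pos, upw_chlFrob_tors W hΔ hH hp hp2 1⟩

/-- **the residual link** -/
theorem s58_resAt (W : WeierstrassCurve ℤ) (hΔ : W.Δ ≠ 0)
    (p : ℕ) [Fact p.Prime] (hp2 : p ≠ 2) (hirr : W.ModRepIsIrreducible p)
    (hH : HassePkg W) : StpResAt W p := by
  intro O _ _ _ _ _ _ hpO ρ S hρ
  have hp : p.Prime := Fact.out
  obtain ⟨hfree, hfin, hrank, hfrob⟩ := s58_tors_pkg W hΔ hH hp hp2 p (pow_one p).symm
  haveI := hfree
  haveI := hfin
  have hlev : GaloisFactorsThroughFiniteLevel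
      (galoisRepModuleEnd ℚ (K := AlgebraicClosure ℚ) (W.map (Int.castRingHom ℚ)).toAffine p) :=
    chl_level_tors' (W.map (Int.castRingHom ℚ)) p hp.ne_zero
  refine hrs_residual' hp2 hpO ρ hrank _ hlev ?_ S (insert p (upwBad W)) W.apOfModel hρ hfrob
  intro N hN
  exact hirr.2 N (fun σ x hx => hN σ x hx)

end Fermat.Agent.S58lib
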