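import Mathlib
import Fermat.Prelude.Def_FLTPrelim_Modularity
import Fermat.Agent.S58lib.HasseDefs

/-!
# Item 84 (S58), piece BRG (helper27): the bridge `E(K) → W(κ)` for the Hasse package

`W` a Weierstrass curve over `ℤ`, `ℓ` a prime, `κ` a field of characteristic `ℓ`, `f : κ → κ` the
`ℓ`-power Frobenius.  The statements (Q) and (KB) of `HasseDefs.lean`, known for
`E = W.reductionMod ℓ` over every algebraically closed field over `ZMod ℓ`, are transported to the
points of `W.map (Int.castRingHom κ)` with the endomorphism `brgFr W κ f`.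

* `brgCast h`     : transport of the points along an equality of curves `E₁ = E₂`;
* `brg_curve_eq`  : `W.baseChange K = (W.reductionMod ℓ).baseChange K`;
* `brgJ`          : `j : W(κ) →+ E(K)` for a ring homomorphism `ι : κ →+* K`, `(x, y) ↦ (ι x, ι y)`;
* `brgJ_injective`, `brgJ_frob` (`j ∘ brgFr = oddFr ∘ j`);
* `brg_transfer_of` (any algebraically closed `K` over `ZMod ℓ` receiving `κ`);
* **`brg_transfer`** : `HasseQ ℓ E a → HasseKB ℓ E a → HasseOn W ℓ κ f a`.
-/

set_option autoImplicit false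
set_option linter.style.haveILetI false
set_option linter.unusedVariables false

open WeierstrassCurve Polynomial

open scoped Classical

attribute [local instance 1100] Classical.propDecidable

noncomputable section

namespace Fermat.Agent.S58lib

section Cast

variable {F : Type} [Field F]

/-- transport of the points along an equality of curves -/
def brgCast {E₁ E₂ : WeierstrassCurve F} (h : E₁ = E₂) :
    E₁.toAffine.Point →+ E₂.toAffine.Point := by
  subst h
  exact AddMonoidHom.id _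

theorem brgCast_zero {E₁ E₂ : WeierstrassCurve F} (h : E₁ = E₂) : brgCast h 0 = 0 :=
  map_zero _

theorem brgCast_some {E₁ E₂ : WeierstrassCurve F} (h : E₁ = E₂) {x y : F}
    (hxy : E₁.toAffine.Nonsingular x y) :
    brgCast h (Affine.Point.some x y hxy) = Affine.Point.some x y (h ▸ hxy) := by
  subst h
  rfl

theorem brgCast_injective {E₁ E₂ : WeierstrassCurve F} (h : E₁ = E₂) :
    Function.Injective (brgCast h) := by
  subst h
  exact fun _ _ h => h

end Cast

section Bridge

variable (W : WeierstrassCurve ℤ) (ℓ : ℕ) [Fact ℓ.Prime]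

/-- the base changes of `W` and of its reduction to a field over `ZMod ℓ` agree -/
theorem brg_curve_eq (K : Type) [Field K] [Algebra (ZMod ℓ) K] :
    W.baseChange K = (W.reductionMod ℓ).baseChange K := by
  unfold WeierstrassCurve.reductionMod WeierstrassCurve.baseChange
  rw [WeierstrassCurve.map_map]
  congr 1
  exact RingHom.ext_int _ _

variable (κ : Type) [Field κ] (K : Type) [Field K] [Algebra (ZMod ℓ) K]

/-- the map on points induced by `ι : κ →+* K`, before the identification of the curves -/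
def brgJ₀ (ι : κ →+* K) :
    (W.map (Int.castRingHom κ)).toAffine.Point →+ (W.baseChange K).toAffine.Point :=
  Affine.Point.map (W' := W) (S := ℤ) (F := κ) (K := K) ι.toIntAlgHom

/-- **the bridge** `j : W(κ) →+ E(K)`, `(x, y) ↦ (ι x, ι y)` -/
def brgJ (ι : κ →+* K) :
    (W.map (Int.castRingHom κ)).toAffine.Point →+
      ((W.reductionMod ℓ).baseChange K).toAffine.Point :=
  (brgCast (brg_curve_eq W ℓ K)).comp (brgJ₀ W κ K ι)

theorem brgJ_injective (ι : κ →+* K) : Function.Injective (brgJ W ℓ κ K ι) := by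
  intro P Q h
  exact Affine.Point.map_injective (W' := W) ι.toIntAlgHom
    (brgCast_injective (brg_curve_eq W ℓ K) h)

/-- the Frobenius of `W(K)` (over `ℤ`) -/
def brgFrK : (W.baseChange K).toAffine.Point →+ (W.baseChange K).toAffine.Point :=
  Affine.Point.map (W' := W) (S := ℤ) (F := K) (K := K)
    (FiniteField.frobeniusAlgHom (ZMod ℓ) K : K →+* K).toIntAlgHom

/-- `j₀ ∘ brgFr = Fr_K ∘ j₀` -/
theorem brgJ₀_frob (ι : κ →+* K) (f : κ →+* κ) (hf : ∀ x, f x = x ^ ℓ)
    (P : (W.map (Int.castRingHom κ)).toAffine.Point) :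
    brgJ₀ W κ K ι (brgFr W κ f P) = brgFrK W ℓ K (brgJ₀ W κ K ι P) := by
  have h1 := Affine.Point.map_map (W' := W) (S := ℤ) (F := κ) (K := κ) (L := K)
    f.toIntAlgHom ι.toIntAlgHom P
  have h2 := Affine.Point.map_map (W' := W) (S := ℤ) (F := κ) (K := K) (L := K)
    ι.toIntAlgHom (FiniteField.frobeniusAlgHom (ZMod ℓ) K : K →+* K).toIntAlgHom P
  have e : (ι.toIntAlgHom).comp f.toIntAlgHom =
      ((FiniteField.frobeniusAlgHom (ZMod ℓ) K : K →+* K).toIntAlgHom).comp ι.toIntAlgHom := by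
    ext x
    show ι (f x) = FiniteField.frobeniusAlgHom (ZMod ℓ) K (ι x)
    rw [hf, map_pow, oddFrob_apply]
  exact h1.trans ((congrArg (fun g => Affine.Point.map (W' := W) (S := ℤ) (F := κ) (K := K) g P)
    e).trans h2.symm)

/-- `cast ∘ Fr_K = oddFr ∘ cast` -/
theorem brgCast_frob (P : (W.baseChange K).toAffine.Point) :
    brgCast (brg_curve_eq W ℓ K) (brgFrK W ℓ K P) =
      oddFr ℓ (W.reductionMod ℓ) K (brgCast (brg_curve_eq W ℓ K) P) := by
  rcases P with _ | ⟨x, y, h⟩
  · exact (brgCast_zero _).trans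
      ((oddFr_zero ℓ (W.reductionMod ℓ) K).symm.trans
        (congrArg _ (brgCast_zero (brg_curve_eq W ℓ K)).symm))
  · unfold brgFrK oddFr
    rw [Affine.Point.map_some, brgCast_some, brgCast_some, Affine.Point.map_some]
    rfl

/-- **`j ∘ brgFr = oddFr ∘ j`** -/
theorem brgJ_frob (ι : κ →+* K) (f : κ →+* κ) (hf : ∀ x, f x = x ^ ℓ)
    (P : (W.map (Int.castRingHom κ)).toAffine.Point) :
    brgJ W ℓ κ K ι (brgFr W κ f P) = oddFr ℓ (W.reductionMod ℓ) K (brgJ W ℓ κ K ι P) := by
  unfold brgJ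
  rw [AddMonoidHom.comp_apply, AddMonoidHom.comp_apply, brgJ₀_frob W ℓ κ K ι f hf, brgCast_frob]

/-- the transfer, for any algebraically closed field `K` over `ZMod ℓ` receiving `κ` -/
theorem brg_transfer_of [IsAlgClosed K] (ι : κ →+* K) (f : κ →+* κ) (hf : ∀ x, f x = x ^ ℓ)
    (a : ℤ) (hQ : HasseQ ℓ (W.reductionMod ℓ) a) (hKB : HasseKB ℓ (W.reductionMod ℓ) a) :
    HasseOn W ℓ κ f a := by
  refine ⟨fun T => ?_, fun m A hA => ?_⟩
  · apply brgJ_injective W ℓ κ K ι
    rw [map_add, map_zsmul, map_zsmul, brgJ_frob W ℓ κ K ι f hf, brgJ_frob W ℓ κ K ι f hf]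
    exact hQ K (brgJ W ℓ κ K ι T)
  · have h := hKB K m (A.map ⟨brgJ W ℓ κ K ι, brgJ_injective W ℓ κ K ι⟩) (by
      intro T' hT'
      obtain ⟨T, hT, rfl⟩ := Finset.mem_map.1 hT'
      show oddFr ℓ (W.reductionMod ℓ) K (brgJ W ℓ κ K ι T) = m • brgJ W ℓ κ K ι T
      rw [← brgJ_frob W ℓ κ K ι f hf, hA T hT, map_zsmul])
    rwa [Finset.card_map] at h

end Bridge

/-- **BRG**: (Q) and (KB) for the reduction `E = W.reductionMod ℓ` give (Q) and (KB) on the points
of `W.map (Int.castRingHom κ)` for every field `κ` of characteristic `ℓ`, with the `ℓ`-power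
Frobenius `f`. -/
theorem brg_transfer (W : WeierstrassCurve ℤ) (ℓ : ℕ) [Fact ℓ.Prime] (hgood : W.IsGoodPrimeFor ℓ)
    (κ : Type) [Field κ] [CharP κ ℓ] (f : κ →+* κ) (hf : ∀ x, f x = x ^ ℓ) (a : ℤ)
    (hQ : HasseQ ℓ (W.reductionMod ℓ) a) (hKB : HasseKB ℓ (W.reductionMod ℓ) a) :
    HasseOn W ℓ κ f a := by
  letI : Algebra (ZMod ℓ) κ := ZMod.algebra κ ℓ
  exact brg_transfer_of W ℓ κ (AlgebraicClosure κ) (algebraMap κ (AlgebraicClosure κ)) f hf a
    hQ hKB

end Fermat.Agent.S58lib

end
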