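import Mathlib
import Fermat.Prelude.Def_CuspForm_Newforms
import Fermat.Prelude.Def_FLTPrelim_Modularity

/-!
# Item 84 (S58), piece 84-F (helper28): the minimal level carrying an eigensystem

The Prelude's `CuspForm.IsNewform` is the WEAK notion: `f` of level `N` is a normalised eigenform
whose good eigensystem (`a_ℓ`, `ℓ ∤ N`) occurs at no proper divisor of `N`.  Hence for a
normalised eigenform `f` of level `N ≠ 0` the least `M ∣ N` at which the good eigensystem of `f`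
occurs carries a Prelude-newform `f₀` with `a_ℓ(f₀) = a_ℓ(f)` for all primes `ℓ ∤ N`.

* `ml_exists_newform`: the statement;
* `ml_exists_newform_of_modular`: the same for `W.IsModularModelOfLevel N`;
* `ml_goodEigensystemOccursAt_trans`: transitivity of `GoodEigensystemOccursAt` along `M ∣ N`.
-/

set_option autoImplicit false

namespace Fermat.Agent.S58lib

open CuspForm ModularFormClass

/-- if `f₀` of level `M ∣ N` carries the good eigensystem of `f` (level `N`) and the good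
eigensystem of `f₀` occurs at `M'`, then the good eigensystem of `f` occurs at `M'` -/
theorem ml_goodEigensystemOccursAt_trans {N M M' : ℕ} (hMN : M ∣ N)
    (f : CuspForm (CongruenceSubgroup.Gamma0 N) 2)
    (f₀ : CuspForm (CongruenceSubgroup.Gamma0 M) 2)
    (hf₀ : ∀ ℓ : ℕ, ℓ.Prime → ¬ ℓ ∣ N → qCoeff f₀ ℓ = qCoeff f ℓ)
    (h : GoodEigensystemOccursAt f₀ M') : GoodEigensystemOccursAt f M' := by
  obtain ⟨g, hg, hgc⟩ := h
  refine ⟨g, hg, fun ℓ hℓ hℓN => ?_⟩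
  rw [hgc ℓ hℓ (fun hℓM => hℓN (hℓM.trans hMN)), hf₀ ℓ hℓ hℓN]

/-- **84-F**: a normalised eigenform of level `N ≠ 0` has the same good eigensystem as a
Prelude-newform of some level `M ∣ N`. -/
theorem ml_exists_newform {N : ℕ} (hN : N ≠ 0) (f : CuspForm (CongruenceSubgroup.Gamma0 N) 2)
    (hf : f.IsNormalizedEigenform) :
    ∃ (M : ℕ) (_ : M ∣ N) (f₀ : CuspForm (CongruenceSubgroup.Gamma0 M) 2),
      f₀.IsNewform ∧ ∀ ℓ : ℕ, ℓ.Prime → ¬ ℓ ∣ N → qCoeff f₀ ℓ = qCoeff f ℓ := by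
  classical
  have hex : ∃ M : ℕ, M ∣ N ∧ GoodEigensystemOccursAt f M :=
    ⟨N, dvd_rfl, GoodEigensystemOccursAt.refl hf⟩
  obtain ⟨hMN, f₀, hf₀, hf₀c⟩ := Nat.find_spec hex
  have hM0 : Nat.find hex ≠ 0 := by
    intro h0
    rw [h0] at hMN
    exact hN (zero_dvd_iff.mp hMN)
  refine ⟨Nat.find hex, hMN, f₀, ⟨hf₀, fun M' hM' hne hocc => ?_⟩, hf₀c⟩
  have hlt : M' < Nat.find hex :=
    lt_of_le_of_ne (Nat.le_of_dvd (Nat.pos_of_ne_zero hM0) hM') hne
  exact Nat.find_min hex hlt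
    ⟨hM'.trans hMN, ml_goodEigensystemOccursAt_trans hMN f f₀ hf₀c hocc⟩

/-- **84-F for a modular model**: if `W` is modular of level `N ≠ 0`, there is a Prelude-newform
`f₀` of some level `M ∣ N` with `a_ℓ(f₀) = a_ℓ(W)` at the good primes `ℓ ∤ N`. -/
theorem ml_exists_newform_of_modular (W : WeierstrassCurve ℤ) {N : ℕ} (hN : N ≠ 0)
    (h : W.IsModularModelOfLevel N) :
    ∃ (M : ℕ) (_ : M ∣ N) (f₀ : CuspForm (CongruenceSubgroup.Gamma0 M) 2),
      f₀.IsNewform ∧ ∀ ℓ : ℕ, ℓ.Prime → W.IsGoodPrimeFor ℓ → ¬ ℓ ∣ N →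
        qCoeff f₀ ℓ = (W.apOfModel ℓ : ℂ) := by
  obtain ⟨f, hf, hfW⟩ := h
  obtain ⟨M, hMN, f₀, hnew, hc⟩ := ml_exists_newform hN f hf
  exact ⟨M, hMN, f₀, hnew, fun ℓ hℓ hgood hℓN => (hc ℓ hℓ hℓN).trans (hfW ℓ hℓ hgood hℓN)⟩

end Fermat.Agent.S58lib
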