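import Mathlib
import Fermat.Prelude.Def_FLTPrelim_Modularity
import Fermat.Prelude.Def_ModularForm_HeckeOperator
import Fermat.Prelude.Thm_UpperHalfPlane_qCoeff_heckeT
import Fermat.Prelude.Thm_CongruenceSubgroup_one_mem_strictPeriods_Gamma0

/-!
# Item 84 (S58), piece 84-G (helper29): STABILISATION of weight 2 eigenforms, level `M → L`, `M ∣ L`

* `stbRestrict`: restriction of a cusp form to a smaller group;
* `stbV M r f`: `τ ↦ f (r τ)` as a cusp form of level `M r`, with `qCoeff_stbV`;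
* `stbForm M r β f = f - β · V_r f` at level `M r`, `qCoeff_stbForm`;
* `stb_isNormalizedEigenform`: for a normalised eigenform `f` of level `M`, a prime `r ∤ M` and a
  root `β` of `X² - a_r X + r`, the form `f - β V_r f` is a normalised eigenform of level `M r`;
* `stb_exists_mul_prime`, `stb_exists_of_dvd`: for `M ∣ L ≠ 0` there is a normalised eigenform of
  level `L` with the same `n`-th coefficients for all `n` prime to `L / M`;
* `stb_isModularModelOfLevel_of_dvd`: `W.IsModularModelOfLevel M → W.IsModularModelOfLevel L`.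
-/

set_option autoImplicit false

noncomputable section

namespace Fermat.Agent.S58lib

open CuspForm CongruenceSubgroup ModularFormClass UpperHalfPlane
open scoped MatrixGroups ModularForm

/-- Restriction of a cusp form to a smaller group. -/
def stbRestrict {Γ Γ' : Subgroup (GL (Fin 2) ℝ)} {k : ℤ} (h : Γ' ≤ Γ) (f : CuspForm Γ k) :
    CuspForm Γ' k where
  toFun := f
  slash_action_eq' γ hγ := f.slash_action_eq' γ (h hγ)
  holo' := f.holo'
  zero_at_cusps' hc := f.zero_at_cusps' (hc.mono h)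

@[simp] theorem coe_stbRestrict {Γ Γ' : Subgroup (GL (Fin 2) ℝ)} {k : ℤ} (h : Γ' ≤ Γ)
    (f : CuspForm Γ k) : ⇑(stbRestrict h f) = ⇑f := rfl

theorem stb_gamma0_le (M r : ℕ) :
    (Gamma0 (M * r) : Subgroup (GL (Fin 2) ℝ)) ≤ (Gamma0 M : Subgroup (GL (Fin 2) ℝ)) := by
  intro g hg
  obtain ⟨γ, hγ, rfl⟩ := hg
  refine ⟨γ, ?_, rfl⟩
  have hγ' : γ ∈ Gamma0 (M * r) := hγ
  show γ ∈ Gamma0 M
  rw [Gamma0_mem, ZMod.intCast_zmod_eq_zero_iff_dvd] at hγ' ⊢
  exact dvd_trans (by push_cast; exact dvd_mul_right _ _) hγ'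

theorem stb_det_eq (γ : SL(2, ℤ)) : γ 0 0 * γ 1 1 - γ 0 1 * γ 1 0 = 1 := by
  have := γ.2
  rw [Matrix.det_fin_two] at this
  exact this

open ConjAct Pointwise in
theorem stb_gamma0_le_conj_diag (M r : ℕ) [NeZero r] :
    (Gamma0 (M * r) : Subgroup (GL (Fin 2) ℝ)) ≤
      toConjAct (ModularForm.heckeDiagMatrix r)⁻¹ • (Gamma0 M : Subgroup (GL (Fin 2) ℝ)) := by
  intro g hg
  obtain ⟨γ, hγ, rfl⟩ := hg
  rw [Subgroup.mem_pointwise_smul_iff_inv_smul_mem]
  have hγ' : γ ∈ Gamma0 (M * r) := hγ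
  rw [Gamma0_mem, ZMod.intCast_zmod_eq_zero_iff_dvd] at hγ'
  obtain ⟨c', hc'⟩ := hγ'
  have hc2 : γ 1 0 = (r : ℤ) * ((M : ℤ) * c') := by rw [hc']; push_cast; ring
  have hdet := stb_det_eq γ
  let γ' : SL(2, ℤ) := ⟨!![γ 0 0, (r : ℤ) * γ 0 1; (M : ℤ) * c', γ 1 1], by
    rw [Matrix.det_fin_two_of]
    rw [hc2] at hdet
    linear_combination hdet⟩
  have hγ'mem : γ' ∈ Gamma0 M := by
    rw [Gamma0_mem, ZMod.intCast_zmod_eq_zero_iff_dvd]
    show (M : ℤ) ∣ (M : ℤ) * c'
    exact dvd_mul_right _ _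
  refine ⟨γ', hγ'mem, ?_⟩
  simp only [map_inv, inv_inv, ConjAct.smul_def, ConjAct.ofConjAct_toConjAct]
  rw [eq_mul_inv_iff_mul_eq]
  apply Matrix.GeneralLinearGroup.ext
  intro i j
  have hc'' : ((γ 1 0 : ℤ) : ℝ) = (r : ℝ) * ((M : ℝ) * (c' : ℝ)) := by exact_mod_cast hc2
  have hr : r ≠ 0 := NeZero.ne r
  fin_cases i <;> fin_cases j <;>
    simp [Matrix.mul_apply, Fin.sum_univ_two, γ', hc'', ModularForm.val_heckeDiagMatrix hr] <;> ring

/-- `τ ↦ f (r τ)` as a cusp form of level `M r`. -/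
def stbV (M r : ℕ) [NeZero r] (f : CuspForm (Gamma0 M) 2) : CuspForm (Gamma0 (M * r)) 2 :=
  ((r : ℂ) ^ (1 - 2 : ℤ)) • stbRestrict (stb_gamma0_le_conj_diag M r)
    (CuspForm.translate f (ModularForm.heckeDiagMatrix r))

theorem stbV_apply (M r : ℕ) [NeZero r] (f : CuspForm (Gamma0 M) 2) (z : ℍ) :
    stbV M r f z = f (ModularForm.heckeDiagMatrix r • z) := by
  have hr : r ≠ 0 := NeZero.ne r
  have hr' : (r : ℂ) ≠ 0 := by exact_mod_cast hr
  have h1 : ⇑(CuspForm.translate f (ModularForm.heckeDiagMatrix r)) =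
      ⇑f ∣[(2 : ℤ)] (ModularForm.heckeDiagMatrix r) := rfl
  rw [stbV, FunLike.coe_smul, Pi.smul_apply, coe_stbRestrict, h1,
    ModularForm.slash_heckeDiagMatrix_apply 2 hr, smul_eq_mul, ← mul_assoc, ← zpow_add₀ hr',
    show (1 - 2 : ℤ) + (2 - 1) = 0 by ring, zpow_zero, one_mul]

/-- the inclusion `S₂(Γ₀(M)) → S₂(Γ₀(M r))` -/
def stbI (M r : ℕ) (f : CuspForm (Gamma0 M) 2) : CuspForm (Gamma0 (M * r)) 2 :=
  stbRestrict (stb_gamma0_le M r) f

@[simp] theorem coe_stbI (M r : ℕ) (f : CuspForm (Gamma0 M) 2) : ⇑(stbI M r f) = ⇑f := rfl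

theorem qCoeff_stbI (M r : ℕ) (f : CuspForm (Gamma0 M) 2) (n : ℕ) :
    qCoeff (stbI M r f) n = qCoeff f n := rfl

/-- `f - β V_r f` at level `M r` -/
def stbForm (M r : ℕ) [NeZero r] (β : ℂ) (f : CuspForm (Gamma0 M) 2) :
    CuspForm (Gamma0 (M * r)) 2 :=
  stbI M r f - β • stbV M r f

theorem stbForm_apply (M r : ℕ) [NeZero r] (β : ℂ) (f : CuspForm (Gamma0 M) 2) (z : ℍ) :
    stbForm M r β f z = f z - β * f (ModularForm.heckeDiagMatrix r • z) := by
  rw [stbForm, FunLike.coe_sub, Pi.sub_apply, FunLike.coe_smul, Pi.smul_apply, stbV_apply,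
    coe_stbI, smul_eq_mul]

theorem stb_hasSum (M : ℕ) [NeZero M] (f : CuspForm (Gamma0 M) 2) (τ : ℍ) :
    HasSum (fun m : ℕ ↦ qCoeff f m • Function.Periodic.qParam 1 τ ^ m) (f τ) :=
  UpperHalfPlane.hasSum_qExpansion one_pos
    (SlashInvariantFormClass.periodic_comp_ofComplex f
      (CongruenceSubgroup.one_mem_strictPeriods_Gamma0 M))
    (ModularFormClass.holo f) (ModularFormClass.bdd_at_infty f) τ

theorem qCoeff_stbForm (M r : ℕ) [NeZero M] [NeZero r] (β : ℂ) (f : CuspForm (Gamma0 M) 2)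
    (n : ℕ) :
    qCoeff (stbForm M r β f) n =
      qCoeff f n - β * (if r ∣ n then qCoeff f (n / r) else 0) := by
  have hr : r ≠ 0 := NeZero.ne r
  have hs : ∀ τ : ℍ, HasSum (fun m : ℕ ↦
      (qCoeff f m - β * (if r ∣ m then qCoeff f (m / r) else 0)) •
        Function.Periodic.qParam 1 τ ^ m) (stbForm M r β f τ) := by
    intro τ
    have h := P2MW.S_UpperHalfPlane_qCoeff_heckeT.M4cP1W2.hasSum_diag hr
      (SlashInvariantFormClass.periodic_comp_ofComplex f
        (CongruenceSubgroup.one_mem_strictPeriods_Gamma0 M))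
      (ModularFormClass.holo f) (ModularFormClass.bdd_at_infty f) 1 τ
    simp only [sub_self, zpow_zero, one_mul] at h
    have h0 := stb_hasSum M f τ
    have h2 := h0.sub (h.mul_left β)
    rw [stbForm_apply]
    have he : (fun m : ℕ ↦ (qCoeff f m - β * (if r ∣ m then qCoeff f (m / r) else 0)) •
        Function.Periodic.qParam 1 τ ^ m) =
        (fun b : ℕ ↦ qCoeff (⇑f) b • Function.Periodic.qParam 1 ↑τ ^ b -
          β * if r ∣ b then qCoeff (⇑f) (b / r) * Function.Periodic.qParam 1 ↑τ ^ b else 0) := by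
      funext m
      by_cases hm : r ∣ m
      · simp only [if_pos hm, smul_eq_mul]; ring
      · simp only [if_neg hm, smul_eq_mul, mul_zero, sub_zero]
    rw [he]
    exact h2
  exact (ModularFormClass.qExpansion_coeff_unique one_pos
    (CongruenceSubgroup.one_mem_strictPeriods_Gamma0 (M * r)) hs n).symm

/-! ### the algebra of the stabilised coefficients -/

section Algebra

variable (a : ℕ → ℂ) (r : ℕ) (β : ℂ)

/-- the stabilised coefficients `b_n = a_n - β a_{n/r}` -/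
def stbCoeff (n : ℕ) : ℂ := a n - β * (if r ∣ n then a (n / r) else 0)

theorem stbCoeff_of_not_dvd {n : ℕ} (hn : ¬ r ∣ n) : stbCoeff a r β n = a n := by
  simp [stbCoeff, hn]

variable {a r β}

/-- `a_{r^{k+1}} - β a_{r^k} = α^{k+1}`, `α = a_r - β` -/
theorem stb_pow_rec (hr : r.Prime) (h1 : a 1 = 1)
    (hrec : ∀ k : ℕ, a (r ^ (k + 2)) = a r * a (r ^ (k + 1)) - r * a (r ^ k))
    (hβ : β ^ 2 - a r * β + r = 0) (k : ℕ) :
    a (r ^ (k + 1)) - β * a (r ^ k) = (a r - β) ^ (k + 1) := by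
  induction k with
  | zero => simp [h1]
  | succ k ih =>
    rw [hrec k, pow_succ (a r - β) (k + 1), ← ih]
    linear_combination (-(a (r ^ k))) * hβ

/-- `b_{r^k m} = α^k a_m` for `r ∤ m` -/
theorem stbCoeff_pow_mul (hr : r.Prime) (h1 : a 1 = 1)
    (hmul : ∀ m n : ℕ, m.Coprime n → a (m * n) = a m * a n)
    (hrec : ∀ k : ℕ, a (r ^ (k + 2)) = a r * a (r ^ (k + 1)) - r * a (r ^ k))
    (hβ : β ^ 2 - a r * β + r = 0) (k : ℕ) {m : ℕ} (hm : ¬ r ∣ m) :
    stbCoeff a r β (r ^ k * m) = (a r - β) ^ k * a m := by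
  have hcop : ∀ j : ℕ, (r ^ j).Coprime m :=
    fun j => Nat.Coprime.pow_left j ((Nat.Prime.coprime_iff_not_dvd hr).mpr hm)
  cases k with
  | zero => simp [stbCoeff_of_not_dvd a r β hm]
  | succ k =>
    have hd : r ∣ r ^ (k + 1) * m := Dvd.dvd.mul_right (dvd_pow_self r (Nat.succ_ne_zero k)) m
    have hdiv : r ^ (k + 1) * m / r = r ^ k * m := by
      rw [pow_succ, mul_assoc, mul_comm r m, ← mul_assoc]
      exact Nat.mul_div_cancel _ hr.pos
    rw [stbCoeff, if_pos hd, hdiv, hmul _ _ (hcop (k + 1)), hmul _ _ (hcop k),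
      ← stb_pow_rec hr h1 hrec hβ k]
    ring

theorem stbCoeff_one (hr : r.Prime) : stbCoeff a r β 1 = a 1 :=
  stbCoeff_of_not_dvd a r β (Nat.Prime.not_dvd_one hr)

theorem stbCoeff_prime_pow {p : ℕ} (hr : r.Prime) (hp : p.Prime) (hpr : p ≠ r) (k : ℕ) :
    stbCoeff a r β (p ^ k) = a (p ^ k) :=
  stbCoeff_of_not_dvd a r β (fun h => hpr ((Nat.prime_dvd_prime_iff_eq hr hp).mp
    (hr.dvd_of_dvd_pow h)).symm)

theorem stbCoeff_self_pow (hr : r.Prime) (h1 : a 1 = 1)
    (hmul : ∀ m n : ℕ, m.Coprime n → a (m * n) = a m * a n)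
    (hrec : ∀ k : ℕ, a (r ^ (k + 2)) = a r * a (r ^ (k + 1)) - r * a (r ^ k))
    (hβ : β ^ 2 - a r * β + r = 0) (k : ℕ) :
    stbCoeff a r β (r ^ k) = (a r - β) ^ k := by
  have h := stbCoeff_pow_mul hr h1 hmul hrec hβ k (Nat.Prime.not_dvd_one hr)
  rwa [mul_one, h1, mul_one] at h

/-- coprime multiplicativity of the stabilised coefficients -/
theorem stbCoeff_mul (hr : r.Prime) (h1 : a 1 = 1)
    (hmul : ∀ m n : ℕ, m.Coprime n → a (m * n) = a m * a n)
    (hrec : ∀ k : ℕ, a (r ^ (k + 2)) = a r * a (r ^ (k + 1)) - r * a (r ^ k))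
    (hβ : β ^ 2 - a r * β + r = 0) (m n : ℕ) (hmn : m.Coprime n) :
    stbCoeff a r β (m * n) = stbCoeff a r β m * stbCoeff a r β n := by
  have hb1 : stbCoeff a r β 1 = 1 := (stbCoeff_one hr).trans h1
  rcases Nat.eq_zero_or_pos m with rfl | hm
  · have : n = 1 := by simpa using hmn
    subst this
    rw [mul_one, hb1, mul_one]
  rcases Nat.eq_zero_or_pos n with rfl | hn
  · have : m = 1 := by simpa using hmn
    subst this
    rw [one_mul, hb1, one_mul]
  obtain ⟨i, m', hm', rfl⟩ := Nat.exists_eq_pow_mul_and_not_dvd hm.ne' r hr.ne_one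
  obtain ⟨j, n', hn', rfl⟩ := Nat.exists_eq_pow_mul_and_not_dvd hn.ne' r hr.ne_one
  have hcop' : m'.Coprime n' :=
    Nat.Coprime.coprime_mul_left (Nat.Coprime.coprime_mul_left_right hmn)
  have hmn' : ¬ r ∣ m' * n' := fun h => (hr.dvd_mul.mp h).elim hm' hn'
  have e : r ^ i * m' * (r ^ j * n') = r ^ (i + j) * (m' * n') := by ring
  rw [e, stbCoeff_pow_mul hr h1 hmul hrec hβ (i + j) hmn',
    stbCoeff_pow_mul hr h1 hmul hrec hβ i hm', stbCoeff_pow_mul hr h1 hmul hrec hβ j hn',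
    hmul _ _ hcop']
  ring

end Algebra

/-! ### the stabilised eigenform -/

/-- **STABILISATION**: for a normalised eigenform `f` of level `M`, a prime `r ∤ M` and a root
`β` of `X² - a_r X + r`, the form `f - β V_r f` is a normalised eigenform of level `M r`. -/
theorem stb_isNormalizedEigenform (M r : ℕ) [NeZero M] [NeZero r] (hr : r.Prime)
    (hrM : ¬ r ∣ M) (f : CuspForm (Gamma0 M) 2) (hf : f.IsNormalizedEigenform) (β : ℂ)
    (hβ : β ^ 2 - qCoeff f r * β + r = 0) :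
    (stbForm M r β f).IsNormalizedEigenform := by
  have hc : ∀ n : ℕ, qCoeff (stbForm M r β f) n = stbCoeff (fun n => qCoeff f n) r β n :=
    fun n => qCoeff_stbForm M r β f n
  have h1 : (fun n => qCoeff f n) 1 = 1 := hf.qCoeff_one
  have hmul : ∀ m n : ℕ, m.Coprime n →
      (fun n => qCoeff f n) (m * n) = (fun n => qCoeff f n) m * (fun n => qCoeff f n) n :=
    hf.qCoeff_mul_of_coprime
  have hrec : ∀ k : ℕ, (fun n => qCoeff f n) (r ^ (k + 2)) =
      (fun n => qCoeff f n) r * (fun n => qCoeff f n) (r ^ (k + 1)) -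
        r * (fun n => qCoeff f n) (r ^ k) :=
    fun k => hf.qCoeff_prime_pow_of_not_dvd r k hr hrM
  have hβ' : β ^ 2 - (fun n => qCoeff f n) r * β + r = 0 := hβ
  refine ⟨?_, ?_, ?_, ?_⟩
  · rw [hc, stbCoeff_one hr]
    exact hf.qCoeff_one
  · intro m n hmn
    rw [hc, hc, hc]
    exact stbCoeff_mul hr h1 hmul hrec hβ' m n hmn
  · intro p k hp hpN
    have hpr : p ≠ r := fun h => hpN (h ▸ dvd_mul_left r M)
    have hpM : ¬ p ∣ M := fun h => hpN (Dvd.dvd.mul_right h r)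
    have e1 : stbCoeff (fun n => qCoeff f n) r β p = qCoeff f p := by
      have := stbCoeff_prime_pow (a := fun n => qCoeff f n) (β := β) hr hp hpr 1
      rwa [pow_one] at this
    rw [hc, hc, hc, hc, stbCoeff_prime_pow hr hp hpr, stbCoeff_prime_pow hr hp hpr,
      stbCoeff_prime_pow hr hp hpr, e1]
    exact hf.qCoeff_prime_pow_of_not_dvd p k hp hpM
  · intro p k hp hpN
    by_cases hpr : p = r
    · subst hpr
      have e1 : stbCoeff (fun n => qCoeff f n) p β p = (qCoeff f p - β) ^ 1 := by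
        have := stbCoeff_self_pow hr h1 hmul hrec hβ' 1
        rwa [pow_one] at this
      rw [hc, hc, hc, stbCoeff_self_pow hr h1 hmul hrec hβ', stbCoeff_self_pow hr h1 hmul hrec hβ',
        e1]
      ring
    · have hpM : p ∣ M := by
        rcases hp.dvd_mul.mp hpN with h | h
        · exact h
        · exact absurd ((Nat.prime_dvd_prime_iff_eq hp hr).mp h) hpr
      have e1 : stbCoeff (fun n => qCoeff f n) r β p = qCoeff f p := by
        have := stbCoeff_prime_pow (a := fun n => qCoeff f n) (β := β) hr hp hpr 1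
        rwa [pow_one] at this
      rw [hc, hc, hc, stbCoeff_prime_pow hr hp hpr, stbCoeff_prime_pow hr hp hpr, e1]
      exact hf.qCoeff_prime_pow_of_dvd p k hp hpM

theorem stb_qCoeff_of_coprime (M r : ℕ) [NeZero M] [NeZero r] (hr : r.Prime)
    (f : CuspForm (Gamma0 M) 2) (β : ℂ) {n : ℕ} (hn : n.Coprime r) :
    qCoeff (stbForm M r β f) n = qCoeff f n := by
  rw [qCoeff_stbForm, if_neg, mul_zero, sub_zero]
  intro h
  exact hr.ne_one (hn.symm.eq_one_of_dvd h)

/-- transport of a normalised eigenform along an equality of levels -/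
theorem stb_cast {N N' : ℕ} (h : N = N') (f : CuspForm (Gamma0 N) 2)
    (hf : f.IsNormalizedEigenform) :
    ∃ g : CuspForm (Gamma0 N') 2, g.IsNormalizedEigenform ∧
      ∀ n : ℕ, qCoeff g n = qCoeff f n := by
  subst h
  exact ⟨f, hf, fun _ => rfl⟩

/-- the inclusion preserves normalised eigenforms when `r ∣ M` -/
theorem stbI_isNormalizedEigenform (M r : ℕ) (hr : r.Prime) (hrM : r ∣ M)
    (f : CuspForm (Gamma0 M) 2) (hf : f.IsNormalizedEigenform) :
    (stbI M r f).IsNormalizedEigenform := by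
  refine ⟨hf.qCoeff_one, hf.qCoeff_mul_of_coprime, ?_, ?_⟩
  · intro p k hp hpN
    exact hf.qCoeff_prime_pow_of_not_dvd p k hp (fun h => hpN (Dvd.dvd.mul_right h r))
  · intro p k hp hpN
    refine hf.qCoeff_prime_pow_of_dvd p k hp ?_
    rcases hp.dvd_mul.mp hpN with h | h
    · exact h
    · exact dvd_trans h hrM

/-- a root of `X² - a X + r` -/
theorem stb_exists_root (a c : ℂ) : ∃ β : ℂ, β ^ 2 - a * β + c = 0 := by
  obtain ⟨s, hs⟩ := IsAlgClosed.exists_pow_nat_eq (a ^ 2 - 4 * c) (n := 2) (by norm_num)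
  refine ⟨(a + s) / 2, ?_⟩
  linear_combination (1 / 4 : ℂ) * hs

/-- **one step**: level `M → M r`, `r` prime -/
theorem stb_exists_mul_prime (M r : ℕ) [NeZero M] (hr : r.Prime)
    (f : CuspForm (Gamma0 M) 2) (hf : f.IsNormalizedEigenform) :
    ∃ g : CuspForm (Gamma0 (M * r)) 2, g.IsNormalizedEigenform ∧
      ∀ n : ℕ, n.Coprime r → qCoeff g n = qCoeff f n := by
  have : NeZero r := ⟨hr.ne_zero⟩
  by_cases hrM : r ∣ M
  · exact ⟨stbI M r f, stbI_isNormalizedEigenform M r hr hrM f hf, fun _ _ => rfl⟩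
  · obtain ⟨β, hβ⟩ := stb_exists_root (qCoeff f r) (r : ℂ)
    exact ⟨stbForm M r β f, stb_isNormalizedEigenform M r hr hrM f hf β hβ,
      fun n hn => stb_qCoeff_of_coprime M r hr f β hn⟩

/-- **the general step**: level `M → M d`, `d ≠ 0` -/
theorem stb_exists_mul (d : ℕ) (hd : d ≠ 0) : ∀ (M : ℕ) [NeZero M]
    (f : CuspForm (Gamma0 M) 2), f.IsNormalizedEigenform →
    ∃ g : CuspForm (Gamma0 (M * d)) 2, g.IsNormalizedEigenform ∧
      ∀ n : ℕ, n.Coprime d → qCoeff g n = qCoeff f n := by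
  induction d using Nat.recOnMul with
  | zero => exact absurd rfl hd
  | one =>
    intro M _ f hf
    obtain ⟨g, hg, hgc⟩ := stb_cast (mul_one M).symm f hf
    exact ⟨g, hg, fun n _ => hgc n⟩
  | prime p hp =>
    intro M _ f hf
    exact stb_exists_mul_prime M p hp f hf
  | mul a b iha ihb =>
    intro M _ f hf
    have ha : a ≠ 0 := fun h => hd (by rw [h, zero_mul])
    have hb : b ≠ 0 := fun h => hd (by rw [h, mul_zero])
    obtain ⟨g1, hg1, hc1⟩ := iha ha M f hf
    have : NeZero (M * a) := ⟨mul_ne_zero (NeZero.ne M) ha⟩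
    obtain ⟨g2, hg2, hc2⟩ := ihb hb (M * a) g1 hg1
    obtain ⟨g, hg, hgc⟩ := stb_cast (mul_assoc M a b) g2 hg2
    refine ⟨g, hg, fun n hn => ?_⟩
    rw [hgc n, hc2 n (Nat.Coprime.coprime_mul_left_right hn),
      hc1 n (Nat.Coprime.coprime_mul_right_right hn)]

/-- **STABILISATION, general form**: for `M ∣ L ≠ 0` and a normalised eigenform `f` of level `M`
there is a normalised eigenform of level `L` with the same `n`-th coefficients for all `n` prime
to `L / M`. -/
theorem stb_exists_of_dvd {M L : ℕ} (hML : M ∣ L) (hL : L ≠ 0)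
    (f : CuspForm (Gamma0 M) 2) (hf : f.IsNormalizedEigenform) :
    ∃ g : CuspForm (Gamma0 L) 2, g.IsNormalizedEigenform ∧
      ∀ n : ℕ, n.Coprime (L / M) → qCoeff g n = qCoeff f n := by
  obtain ⟨d, rfl⟩ := hML
  have hM : M ≠ 0 := fun h => hL (by rw [h, zero_mul])
  have hd : d ≠ 0 := fun h => hL (by rw [h, mul_zero])
  have : NeZero M := ⟨hM⟩
  obtain ⟨g, hg, hgc⟩ := stb_exists_mul d hd M f hf
  refine ⟨g, hg, fun n hn => hgc n ?_⟩
  rwa [Nat.mul_div_cancel_left d (Nat.pos_of_ne_zero hM)] at hn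

/-- **modularity of level `M` implies modularity of every level `L ≠ 0` with `M ∣ L`** -/
theorem stb_isModularModelOfLevel_of_dvd (W : WeierstrassCurve ℤ) {M L : ℕ} (hML : M ∣ L)
    (hL : L ≠ 0) (h : W.IsModularModelOfLevel M) : W.IsModularModelOfLevel L := by
  obtain ⟨f, hf, hfW⟩ := h
  obtain ⟨g, hg, hgc⟩ := stb_exists_of_dvd hML hL f hf
  refine ⟨g, hg, fun p hp hgood hpL => ?_⟩
  have hpM : ¬ p ∣ M := fun h => hpL (dvd_trans h hML)
  have hcop : p.Coprime (L / M) := by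
    rw [Nat.Prime.coprime_iff_not_dvd hp]
    exact fun h => hpL (dvd_trans h (Nat.div_dvd_of_dvd hML))
  rw [hgc p hcop]
  exact hfW p hp hgood hpM

end Fermat.Agent.S58lib
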