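import Mathlib
import Fermat.Agent.S58lib.Steps
import Fermat.Agent.S58lib.MinLevel
import Fermat.Agent.S58lib.Stab

/-!
# Item 84 (helper6): the assembly of S58 from its inputs

`s58_core`: conductor–level matching from
* the statements of S35 and S36 (`StpS35`, `StpS36`),
* the three links `StpResAt W p`, `StpUnipAt W p`, `StpFrobAt W lam` (two primes `lam`),
via the minimal level (`MinLevel`), the steps 4–6 (`Steps.stp_main`) and the stabilisation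
(`Stab`).
-/

set_option autoImplicit false

noncomputable section

namespace Fermat.Agent.S58lib

open CuspForm ModularFormClass

/-- `N` cube-free is non-zero -/
theorem s58_N_ne_zero {N : ℕ} (hN3 : ∀ q : ℕ, q.Prime → ¬ q ^ 3 ∣ N) : N ≠ 0 := by
  intro h
  exact hN3 2 Nat.prime_two (by rw [h]; exact dvd_zero _)

/-- the discriminant is non-zero -/
theorem s58_delta_ne_zero (W : WeierstrassCurve ℤ) {N : ℕ} (hN0 : N ≠ 0)
    (hbad : ∀ ℓ : ℕ, ℓ.Prime → (ℓ : ℤ) ∣ W.Δ → ℓ ∣ N) : W.Δ ≠ 0 := by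
  intro h
  obtain ⟨q, hqN, hq⟩ := Nat.exists_infinite_primes (N + 1)
  have h1 := hbad q hq (by rw [h]; exact dvd_zero _)
  have h2 := Nat.le_of_dvd (Nat.pos_of_ne_zero hN0) h1
  omega

/-- **S58 from its inputs.** -/
theorem s58_core (hS35 : StpS35) (hS36 : StpS36)
    (W : WeierstrassCurve ℤ) (N : ℕ) (p : ℕ) [Fact p.Prime] (hp2 : p ≠ 2)
    (hp2N : ¬ p ^ 2 ∣ N) (hN : W.IsModularModelOfLevel N)
    (hbad : ∀ ℓ : ℕ, ℓ.Prime → (ℓ : ℤ) ∣ W.Δ → ℓ ∣ N)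
    (hN3 : ∀ q : ℕ, q.Prime → ¬ q ^ 3 ∣ N)
    (hres : StpResAt W p) (hunip : StpUnipAt W p)
    (lam₁ lam₂ : ℕ) [Fact lam₁.Prime] [Fact lam₂.Prime] (hlam : lam₁ ≠ lam₂)
    (hfrob₁ : StpFrobAt W lam₁) (hfrob₂ : StpFrobAt W lam₂) :
    W.IsModularModelOfLevel W.conductorLevel := by
  have hN0 : N ≠ 0 := s58_N_ne_zero hN3
  have hΔ : W.Δ ≠ 0 := s58_delta_ne_zero W hN0 hbad
  obtain ⟨M, hMN, f₀, hnew, hc⟩ := ml_exists_newform_of_modular W hN0 hN
  have hM0 : M ≠ 0 := by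
    intro h
    rw [h] at hMN
    exact hN0 (Nat.eq_zero_of_zero_dvd hMN)
  haveI : NeZero M := ⟨hM0⟩
  obtain ⟨_, _, hdvd, hcoef⟩ := stp_main W hN0 hMN hbad hnew hc hS35 hS36 hΔ p hp2 hp2N hN3
    hres hunip lam₁ lam₂ hlam hfrob₁ hfrob₂
  apply stb_isModularModelOfLevel_of_dvd W hdvd W.conductorLevel_pos.ne'
  exact ⟨f₀, hnew.isNormalizedEigenform, fun r hr hgood _ => hcoef r hr hgood⟩

end Fermat.Agent.S58lib
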