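import Mathlib
import Fermat.Agent.S35
import Fermat.Agent.S58lib.Final
import Fermat.Agent.S58lib.UnipW
import Fermat.Agent.S58lib.Bridge

/-!
# Item 84 (helper6): the wiring of S58

`s58_wire`: S58 from
* the statement of S36 (`StpS36`),
* the Hasse package for elliptic curves over `ZMod ℓ` (`HasseQ`, `HasseKB` with
  `a = traceOfFrobenius`),
* the residual link `StpResAt W p`.
S35 is `Fermat.Agent.S35.result`.
-/

set_option autoImplicit false

open scoped Classical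

attribute [local instance 1100] Classical.propDecidable

noncomputable section

namespace Fermat.Agent.S58lib

/-- S35 in the shape of `Steps.lean` -/
theorem s58_S35 : StpS35 := @Fermat.Agent.S35.result

/-- the reduction at a good prime is an elliptic curve -/
theorem s58_isElliptic_reductionMod (W : WeierstrassCurve ℤ) {ℓ : ℕ} [Fact ℓ.Prime]
    (hgood : W.IsGoodPrimeFor ℓ) : (W.reductionMod ℓ).IsElliptic := by
  refine ⟨?_⟩
  rw [isUnit_iff_ne_zero]
  unfold WeierstrassCurve.reductionMod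
  rw [WeierstrassCurve.map_Δ]
  intro h
  apply hgood
  have := (ZMod.intCast_zmod_eq_zero_iff_dvd W.Δ ℓ).mp h
  exact this

/-- the Hasse package of `W` from the Hasse package over the prime fields -/
theorem s58_hassePkg
    (hQ : ∀ (ℓ : ℕ) [Fact ℓ.Prime] (E : WeierstrassCurve (ZMod ℓ)) [E.IsElliptic],
      HasseQ ℓ E E.traceOfFrobenius)
    (hKB : ∀ (ℓ : ℕ) [Fact ℓ.Prime] (E : WeierstrassCurve (ZMod ℓ)) [E.IsElliptic],
      HasseKB ℓ E E.traceOfFrobenius)
    (W : WeierstrassCurve ℤ) : HassePkg W := by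
  intro ℓ hℓ hgood κ _ _ f hf
  haveI : Fact ℓ.Prime := ⟨hℓ⟩
  haveI := s58_isElliptic_reductionMod W hgood
  exact brg_transfer W ℓ hgood κ f hf _ (hQ ℓ (W.reductionMod ℓ)) (hKB ℓ (W.reductionMod ℓ))

/-- **S58 from S36, the Hasse package and the residual link.** -/
theorem s58_wire (hS36 : StpS36)
    (hQ : ∀ (ℓ : ℕ) [Fact ℓ.Prime] (E : WeierstrassCurve (ZMod ℓ)) [E.IsElliptic],
      HasseQ ℓ E E.traceOfFrobenius)
    (hKB : ∀ (ℓ : ℕ) [Fact ℓ.Prime] (E : WeierstrassCurve (ZMod ℓ)) [E.IsElliptic],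
      HasseKB ℓ E E.traceOfFrobenius)
    (W : WeierstrassCurve ℤ) (hss : W.IsSemistableModel) (N : ℕ)
    (p : ℕ) [Fact p.Prime] (hp2 : p ≠ 2)
    (hp2N : ¬ p ^ 2 ∣ N)
    (hN : W.IsModularModelOfLevel N) (hbad : ∀ ℓ : ℕ, ℓ.Prime → (ℓ : ℤ) ∣ W.Δ → ℓ ∣ N)
    (hN3 : ∀ q : ℕ, q.Prime → ¬ q ^ 3 ∣ N)
    (hres : StpResAt W p) :
    W.IsModularModelOfLevel W.conductorLevel := by
  have hN0 : N ≠ 0 := s58_N_ne_zero hN3
  have hΔ : W.Δ ≠ 0 := s58_delta_ne_zero W hN0 hbad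
  have hH : HassePkg W := s58_hassePkg hQ hKB W
  haveI : Fact (Nat.Prime 3) := ⟨Nat.prime_three⟩
  haveI : Fact (Nat.Prime 5) := ⟨Nat.prime_five⟩
  exact s58_core s58_S35 hS36 W N p hp2 hp2N hN hbad hN3 hres
    (upw_unipAt W hss hΔ p hp2 hH) 3 5 (by norm_num)
    (upw_frobAt W hΔ 3 (by norm_num) hH) (upw_frobAt W hΔ 5 (by norm_num) hH)

end Fermat.Agent.S58lib
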