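import Mathlib
import Fermat.Agent.S58lib.Wire
import Fermat.Agent.S58lib.ProvRes
import Fermat.Agent.S58lib.FrobMul2
import Fermat.Agent.S58lib.FrobKB

/-!
# Item 84 (helper6): S58 from S36

`s58_of_S36`: conductor–level matching (the statement S58) from the statement of S36 alone.
Everything else (S35, the Hasse package `frm_hasseQ`, `fkb_hss_KB`, the links, the residual
link, the minimal level, the stabilisation) is proved.
-/

set_option autoImplicit false

noncomputable section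

namespace Fermat.Agent.S58lib

/-- the Hasse package of every integral Weierstrass curve -/
theorem s58_hassePkg_all (W : WeierstrassCurve ℤ) : HassePkg W :=
  s58_hassePkg (fun ℓ _ E _ => frm_hasseQ ℓ E) (fun ℓ _ E _ => fkb_hss_KB ℓ E) W

/-- **S58 from S36.** -/
theorem s58_of_S36 (hS36 : StpS36)
    (W : WeierstrassCurve ℤ) (hss : W.IsSemistableModel) (N : ℕ)
    (p : ℕ) [Fact p.Prime] (hp2 : p ≠ 2) (hirr : W.ModRepIsIrreducible p)
    (hp2N : ¬ p ^ 2 ∣ N)
    (hN : W.IsModularModelOfLevel N) (hbad : ∀ ℓ : ℕ, ℓ.Prime → (ℓ : ℤ) ∣ W.Δ → ℓ ∣ N)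
    (hN3 : ∀ q : ℕ, q.Prime → ¬ q ^ 3 ∣ N) :
    W.IsModularModelOfLevel W.conductorLevel := by
  have hN0 : N ≠ 0 := s58_N_ne_zero hN3
  have hΔ : W.Δ ≠ 0 := s58_delta_ne_zero W hN0 hbad
  exact s58_wire hS36 (fun ℓ _ E _ => frm_hasseQ ℓ E) (fun ℓ _ E _ => fkb_hss_KB ℓ E)
    W hss N p hp2 hp2N hN hbad hN3 (s58_resAt W hΔ p hp2 hirr (s58_hassePkg_all W))

end Fermat.Agent.S58lib
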