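/-
Item 84 (S58), piece 84-D2 (helper3): **LINK (3c) = hres for `W`** = the hypothesis
`StpResAt W p` of `Steps.lean` / `Assembly.lean`, for an odd prime `p` with irreducible
`W(ℚ̄)[p]`, from the Hasse package `HassePkg W` (`UnipW.lean`).

* `hrs_transport` : the data at level `m = p` (e.g. `m = p ^ 1`) is the data at level `p`;
* `hrs_resAt_curve` : hres for a curve over `ℚ` from (H2) at level `p`;
* `hrs_resAt_of_h2` : `StpResAt W p` from (H1) + (H2) at level `p ^ 1`;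
* `hrs_resAt`     : `StpResAt W p` from `HassePkg W`.
(complete proofs, standard axioms only)
-/
import Mathlib
import Fermat.Agent.S58lib.HRes
import Fermat.Agent.S58lib.ChebLinkW
import Fermat.Agent.S58lib.H2Transfer
import Fermat.Agent.S58lib.Steps
import Fermat.Agent.S58lib.UnipW
import Fermat.Prelude.Def_FLTPrelim_ModularRep

set_option autoImplicit false
set_option linter.style.longLine false
set_option linter.style.haveILetI false
set_option linter.unusedSectionVars false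
set_option linter.unusedVariables false

noncomputable section

open Polynomial
open WeierstrassCurve WeierstrassCurve.Affine WeierstrassCurve.Affine.Point
open Fermat.Agent.GalRep

namespace Fermat.Agent.S58lib

/-- the data at a level `m = p` is the data at level `p` -/
theorem hrs_transport (E : WeierstrassCurve ℚ) (p m : ℕ) (hm : m = p)
    (hfree : Module.Free (ZMod m)
      (Submodule.torsionBy ℤ (E⁄(AlgebraicClosure ℚ)).Point ((m : ℕ) : ℤ)))
    (hfin : Module.Finite (ZMod m)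
      (Submodule.torsionBy ℤ (E⁄(AlgebraicClosure ℚ)).Point ((m : ℕ) : ℤ)))
    (hT : Module.finrank (ZMod m)
      (Submodule.torsionBy ℤ (E⁄(AlgebraicClosure ℚ)).Point ((m : ℕ) : ℤ)) = 2)
    (S₀ : Finset ℕ) (a : ℕ → ℤ)
    (hr : ChlFrob (galoisRepModuleEnd ℚ (K := AlgebraicClosure ℚ) E m) S₀ a) :
    ∃ (hfree' : Module.Free (ZMod p)
        (Submodule.torsionBy ℤ (E⁄(AlgebraicClosure ℚ)).Point ((p : ℕ) : ℤ)))
      (hfin' : Module.Finite (ZMod p)
        (Submodule.torsionBy ℤ (E⁄(AlgebraicClosure ℚ)).Point ((p : ℕ) : ℤ))),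
      Module.finrank (ZMod p)
        (Submodule.torsionBy ℤ (E⁄(AlgebraicClosure ℚ)).Point ((p : ℕ) : ℤ)) = 2 ∧
      ChlFrob (galoisRepModuleEnd ℚ (K := AlgebraicClosure ℚ) E p) S₀ a := by
  subst hm
  exact ⟨hfree, hfin, hT, hr⟩

/-- **hres for a curve over `ℚ`** from (H1) + (H2) at level `p`. -/
theorem hrs_resAt_curve (E : WeierstrassCurve ℚ) (p : ℕ) [Fact p.Prime] (hp2 : p ≠ 2)
    (hirr : GaloisRepIsIrreducible (K := AlgebraicClosure ℚ) ℚ E p)
    [Module.Free (ZMod p) (Submodule.torsionBy ℤ (E⁄(AlgebraicClosure ℚ)).Point ((p : ℕ) : ℤ))]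
    [Module.Finite (ZMod p) (Submodule.torsionBy ℤ (E⁄(AlgebraicClosure ℚ)).Point ((p : ℕ) : ℤ))]
    (hT : Module.finrank (ZMod p)
      (Submodule.torsionBy ℤ (E⁄(AlgebraicClosure ℚ)).Point ((p : ℕ) : ℤ)) = 2)
    (S₀ : Finset ℕ) (a : ℕ → ℤ)
    (hr : ChlFrob (galoisRepModuleEnd ℚ (K := AlgebraicClosure ℚ) E p) S₀ a)
    {O : Type} [CommRing O] [IsLocalRing O] (hpO : (p : O) ∈ IsLocalRing.maximalIdeal O)
    (ρ : GaloisRepAdic O) (S : Finset ℕ) (hρ : ChlFrob ρ.ρ S a) :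
    ρ.residual.IsAbsolutelyIrreducible ∧ ρ.residual.IsOdd := by
  have hp : p.Prime := Fact.out
  exact hrs_residual' hp2 hpO ρ hT (galoisRepModuleEnd ℚ (K := AlgebraicClosure ℚ) E p)
    (chl_level_tors' E p hp.ne_zero) (fun N hN => hirr.2 N hN) S S₀ a hρ hr

/-- **LINK (3c) = hres from (H1) + (H2) at level `p ^ 1`.** -/
theorem hrs_resAt_of_h2 (W : WeierstrassCurve ℤ) (p : ℕ) [Fact p.Prime] (hp2 : p ≠ 2)
    (hirr : W.ModRepIsIrreducible p)
    (hfree : Module.Free (ZMod (p ^ 1)) (Submodule.torsionBy ℤ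
      ((W.map (Int.castRingHom ℚ)).toAffine⁄(AlgebraicClosure ℚ)).Point ((p ^ 1 : ℕ) : ℤ)))
    (hfin : Module.Finite (ZMod (p ^ 1)) (Submodule.torsionBy ℤ
      ((W.map (Int.castRingHom ℚ)).toAffine⁄(AlgebraicClosure ℚ)).Point ((p ^ 1 : ℕ) : ℤ)))
    (hT : Module.finrank (ZMod (p ^ 1)) (Submodule.torsionBy ℤ
      ((W.map (Int.castRingHom ℚ)).toAffine⁄(AlgebraicClosure ℚ)).Point ((p ^ 1 : ℕ) : ℤ)) = 2)
    (S₀ : Finset ℕ)
    (hr : ChlFrob (galoisRepModuleEnd ℚ (K := AlgebraicClosure ℚ)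
      (W.map (Int.castRingHom ℚ)).toAffine (p ^ 1)) S₀ W.apOfModel) :
    StpResAt W p := by
  intro O _ _ _ _ _ _ hpO ρ S hρ
  obtain ⟨hfree', hfin', hT', hr'⟩ := hrs_transport (W.map (Int.castRingHom ℚ)) p (p ^ 1)
    (pow_one p) hfree hfin hT S₀ W.apOfModel hr
  exact hrs_resAt_curve (W.map (Int.castRingHom ℚ)) p hp2 hirr hT' S₀ W.apOfModel hr' hpO ρ S hρ

/-- **LINK (3c) = hres**: `StpResAt W p` for an odd prime `p` with irreducible `W(ℚ̄)[p]`, from
the Hasse package. -/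
theorem hrs_resAt (W : WeierstrassCurve ℤ) (hΔ : W.Δ ≠ 0) (p : ℕ) [Fact p.Prime] (hp2 : p ≠ 2)
    (hirr : W.ModRepIsIrreducible p) (hH : HassePkg W) : StpResAt W p := by
  have hp : p.Prime := Fact.out
  haveI hfree := h2_free W hΔ hp hp2 1
  haveI hfin := h2_finite W hΔ hp hp2 1
  exact hrs_resAt_of_h2 W p hp2 hirr hfree hfin (h2_finrank W hΔ hp hp2 1 one_pos)
    (insert p (upwBad W)) (upw_chlFrob_tors W hΔ hH hp hp2 1)

end Fermat.Agent.S58lib

end
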