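/-
Item 84 (S58), the assembly (helper13).  Complete proofs.

`asm58_main`: the statement of S58 from
* the statements S35 and S36 (`StpS35`, `StpS36`, `Steps.lean`),
* LINK (3b) and (3c) at `p` (`StpUnipAt W p`, `StpResAt W p`),
* LINK (3a) at two distinct primes (`StpFrobAt W lam₁`, `StpFrobAt W lam₂`).

Route: step 0 (`Δ ≠ 0`, `N ≠ 0`), the minimal level (`MinLevel.lean`), steps 4, 5, 6
(`Steps.lean`: `M` squarefree, `M ∣ rad Δ`, `a_r(f₀) = a_r(W)` at every good prime), stabilisation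
(`Stab.lean`).
-/
import Mathlib
import Fermat.Agent.S58lib.Steps
import Fermat.Agent.S58lib.MinLevel
import Fermat.Agent.S58lib.Stab

set_option autoImplicit false
set_option linter.style.longLine false
set_option linter.unusedSectionVars false
set_option linter.unusedVariables false
set_option linter.style.haveILetI false

noncomputable section

namespace Fermat.Agent.S58lib

open CuspForm ModularFormClass Polynomial Fermat.Agent.GalRep

/-- step 0: a cube-free level is nonzero -/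
theorem asm58_N_ne_zero (N : ℕ) (hN3 : ∀ q : ℕ, q.Prime → ¬ q ^ 3 ∣ N) : N ≠ 0 := by
  rintro rfl
  exact hN3 2 Nat.prime_two (dvd_zero _)

/-- step 0: if the bad primes divide a nonzero `N` then `Δ ≠ 0` -/
theorem asm58_delta_ne_zero (W : WeierstrassCurve ℤ) {N : ℕ} (hN : N ≠ 0)
    (hbad : ∀ ℓ : ℕ, ℓ.Prime → (ℓ : ℤ) ∣ W.Δ → ℓ ∣ N) : W.Δ ≠ 0 := by
  intro h0
  obtain ⟨ℓ, hℓ, hℓp⟩ := Nat.exists_infinite_primes (N + 1)
  have h1 : ℓ ∣ N := hbad ℓ hℓp (by rw [h0]; exact dvd_zero _)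
  have h2 : ℓ ≤ N := Nat.le_of_dvd (Nat.pos_of_ne_zero hN) h1
  omega

/-- **the assembly of S58** from S35, S36 and the LINK. -/
theorem asm58_main (hS35 : StpS35) (hS36 : StpS36)
    (W : WeierstrassCurve ℤ) (N : ℕ)
    (p : ℕ) [Fact p.Prime] (hp2 : p ≠ 2)
    (hp2N : ¬ p ^ 2 ∣ N)
    (hN : W.IsModularModelOfLevel N) (hbad : ∀ ℓ : ℕ, ℓ.Prime → (ℓ : ℤ) ∣ W.Δ → ℓ ∣ N)
    (hN3 : ∀ q : ℕ, q.Prime → ¬ q ^ 3 ∣ N)
    (hres : StpResAt W p) (hunip : StpUnipAt W p)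
    (lam₁ lam₂ : ℕ) [Fact lam₁.Prime] [Fact lam₂.Prime] (hlam : lam₁ ≠ lam₂)
    (hfrob₁ : StpFrobAt W lam₁) (hfrob₂ : StpFrobAt W lam₂) :
    W.IsModularModelOfLevel W.conductorLevel := by
  have hN0 : N ≠ 0 := asm58_N_ne_zero N hN3
  have hΔ : W.Δ ≠ 0 := asm58_delta_ne_zero W hN0 hbad
  obtain ⟨M, hMN, f₀, hf₀, hc⟩ := ml_exists_newform_of_modular W hN0 hN
  have hM0 : M ≠ 0 := fun h => hN0 (by rw [h] at hMN; exact zero_dvd_iff.mp hMN)
  haveI : NeZero M := ⟨hM0⟩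
  obtain ⟨-, -, hdvd, hcoef⟩ := stp_main W hN0 hMN hbad hf₀ hc hS35 hS36 hΔ p hp2 hp2N hN3
    hres hunip lam₁ lam₂ hlam hfrob₁ hfrob₂
  have hM : W.IsModularModelOfLevel M :=
    ⟨f₀, hf₀.isNormalizedEigenform, fun r hr hgood _ => hcoef r hr hgood⟩
  exact stb_isModularModelOfLevel_of_dvd W hdvd W.conductorLevel_pos.ne' hM

end Fermat.Agent.S58lib

end
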