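import Fermat.Agent.S58lib.FrobSetup
import Fermat.Agent.S58lib.HasseDefs

/-!
# Item 84, FROBQ (helper7): the relation (Q) from the height computations

`hss_Q_of` : (Q) on `W(k)` from `h (Fr P - P) = N` and `h (Fr² P - P) = N · h (Fr P + P)`.
`hss_mult_of` : the second input from MULT (`hsm_mult`) in abstract form.
-/

set_option autoImplicit false

open WeierstrassCurve Polynomial

open scoped Classical

attribute [local instance 1100] Classical.propDecidable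

noncomputable section

namespace Fermat.Agent.S58lib

variable (ℓ : ℕ) [Fact ℓ.Prime] (W : WeierstrassCurve (ZMod ℓ)) [W.IsElliptic]
variable (k : Type) [Field k] [Algebra (ZMod ℓ) k]

/-- (Q) on `W(k)` from the two height computations. -/
theorem hss_Q_of [IsAlgClosed k] (N : ℤ)
    (hN : hssD ℓ W k (hssφ ℓ W k (hssP ℓ W k) - hssP ℓ W k) = N)
    (hmul : hssD ℓ W k (hssφ ℓ W k (hssφ ℓ W k (hssP ℓ W k)) - hssP ℓ W k)
      = N * hssD ℓ W k (hssφ ℓ W k (hssP ℓ W k) + hssP ℓ W k))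
    (T : (W.baseChange k).toAffine.Point) :
    oddFr ℓ W k (oddFr ℓ W k T) + (ℓ : ℤ) • T = ((ℓ : ℤ) + 1 - N) • oddFr ℓ W k T := by
  have h0 := qfa_hasse (hss_par ℓ W k) (hssφ ℓ W k) (ℓ : ℤ) N (hssD_φ ℓ W k) (hssP ℓ W k)
    (hssD_P ℓ W k) hN hmul
  have e : hssφ ℓ W k (hssφ ℓ W k (hssP ℓ W k)) - ((ℓ : ℤ) + 1 - N) • hssφ ℓ W k (hssP ℓ W k)
      + (ℓ : ℤ) • hssP ℓ W k
      = (ℓ : ℤ) • hssP ℓ W k + (-((ℓ : ℤ) + 1 - N)) • hssφ ℓ W k (hssP ℓ W k)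
        + (1 : ℤ) • hssφ ℓ W k (hssφ ℓ W k (hssP ℓ W k)) := by
    rw [one_smul, neg_smul]
    abel
  rw [e, ← hssPsi_gen_H] at h0
  have h1 : oddH ℓ W k (hssPsi ℓ W (oddL ℓ W k) (ℓ : ℤ) (-((ℓ : ℤ) + 1 - N)) 1 (oddGen ℓ W k))
      = 0 := by exact_mod_cast h0
  have h2 := hss_trick_gen ℓ W k (ℓ : ℤ) (-((ℓ : ℤ) + 1 - N)) 1 h1 T
  rw [hssPsi_apply, one_smul, neg_smul] at h2
  have h3 : oddFr ℓ W k (oddFr ℓ W k T) + (ℓ : ℤ) • T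
      - ((ℓ : ℤ) + 1 - N) • oddFr ℓ W k T = 0 := by
    rw [← h2]
    abel
  exact sub_eq_zero.mp h3

/-- the second height computation from MULT -/
theorem hss_mult_of [IsAlgClosed k] (N : ℤ) (hN0 : N ≠ 0)
    (hN : hssD ℓ W k (hssφ ℓ W k (hssP ℓ W k) - hssP ℓ W k) = N)
    (hmult : ∀ (Q R : (W.baseChange (oddL ℓ W k)).toAffine.Point),
      Q ∈ oddSub ℓ W k → R ∈ oddSub ℓ W k → oddH ℓ W k Q ≠ 0 →
      ∀ f : oddL ℓ W k →ₐ[k] oddL ℓ W k, Affine.Point.map (W' := W) f (oddGen ℓ W k) = Q →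
        oddH ℓ W k (Affine.Point.map (W' := W) f R) = oddH ℓ W k R * oddH ℓ W k Q) :
    hssD ℓ W k (hssφ ℓ W k (hssφ ℓ W k (hssP ℓ W k)) - hssP ℓ W k)
      = N * hssD ℓ W k (hssφ ℓ W k (hssP ℓ W k) + hssP ℓ W k) := by
  set Q : ↥(oddSub ℓ W k) := hssφ ℓ W k (hssP ℓ W k) - hssP ℓ W k with hQ
  set R : ↥(oddSub ℓ W k) := hssφ ℓ W k (hssP ℓ W k) + hssP ℓ W k with hR
  have hQH : (oddH ℓ W k Q.1 : ℤ) = N := hN
  have hQ0 : oddH ℓ W k Q.1 ≠ 0 := by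
    intro h
    rw [h] at hQH
    exact hN0 hQH.symm
  have hnc : ¬ TrlConstPt Q.1 := fun hc => hQ0 (hss_H_const ℓ W k _ hc)
  obtain ⟨f, hf⟩ := trl_exists_star Q.1 hnc
  have h1 := hmult Q.1 R.1 Q.2 R.2 hQ0 f hf
  have h2 : Affine.Point.map (W' := W) f R.1
      = (hssφ ℓ W k (hssφ ℓ W k (hssP ℓ W k)) - hssP ℓ W k : ↥(oddSub ℓ W k)).1 := by
    have e1 : R.1 = oddFr ℓ W (oddL ℓ W k) (oddGen ℓ W k) + oddGen ℓ W k := rfl
    have e2 : Q.1 = oddFr ℓ W (oddL ℓ W k) (oddGen ℓ W k) - oddGen ℓ W k := rfl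
    have e3 : (hssφ ℓ W k (hssφ ℓ W k (hssP ℓ W k)) - hssP ℓ W k : ↥(oddSub ℓ W k)).1
        = oddFr ℓ W (oddL ℓ W k) (oddFr ℓ W (oddL ℓ W k) (oddGen ℓ W k)) - oddGen ℓ W k := rfl
    rw [e1, e3, map_add, trl_map_fr, hf, e2, map_sub]
    abel
  unfold hssD
  rw [← h2, h1, ← hQH]
  push_cast
  ring

end Fermat.Agent.S58lib
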