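/-
Item 84 (S58), HASSE package, piece FROBQ (iii) final (helper7): the relation **(Q)**
`Fr² − a·Fr + ℓ = 0` on `E(K)` for `a = E.traceOfFrobenius`, for every elliptic curve `E` over
`ZMod ℓ` and every algebraically closed field `K` over `ZMod ℓ`.

Inputs: `hss_Q_of`, `hss_mult_of` (FrobQCore), `frn_hssD_sub` (piece (i), FrobNSetup),
`frn_nonconst_sub` (FrobN), `hsm_mult` (piece (ii), FrobMult).
-/
import Mathlib
import Fermat.Agent.S58lib.FrobQCore
import Fermat.Agent.S58lib.FrobNSetup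
import Fermat.Agent.S58lib.FrobMult
import Fermat.Agent.S58lib.HasseDefs

set_option autoImplicit false
set_option linter.unusedSectionVars false
set_option linter.unusedVariables false

open WeierstrassCurve Polynomial

open scoped Classical

attribute [local instance 1100] Classical.propDecidable

noncomputable section

namespace Fermat.Agent.S58lib

variable (ℓ : ℕ) [Fact ℓ.Prime] (W : WeierstrassCurve (ZMod ℓ)) [W.IsElliptic]
variable (k : Type) [Field k] [Algebra (ZMod ℓ) k]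

/-- the number `N = ℓ + 1 − a_ℓ` is not zero (the point `P_gen − Fr P_gen` is not constant) -/
theorem hss_N_ne_zero [IsAlgClosed k] : (ℓ : ℤ) + 1 - W.traceOfFrobenius ≠ 0 := by
  intro h0
  have h1 := frn_H_sub_trace ℓ W k
  rw [h0] at h1
  have h2 : oddH ℓ W k (oddGen ℓ W k - oddFr ℓ W (oddL ℓ W k) (oddGen ℓ W k)) = 0 := by
    exact_mod_cast h1
  have hmem : oddGen ℓ W k - oddFr ℓ W (oddL ℓ W k) (oddGen ℓ W k) ∈ oddSub ℓ W k :=
    sub_mem (oddGen_mem ℓ W k) (oddFr_mem ℓ W k _ (oddGen_mem ℓ W k))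
  have h3 := hss_const_of_H ℓ W k _ hmem h2
  rw [← frn_psiL_sub] at h3
  exact frn_nonconst_sub ℓ W k h3

/-- the second height computation `h(Fr² P − P) = N · h(Fr P + P)`, unconditionally -/
theorem hss_hmul [IsAlgClosed k] :
    hssD ℓ W k (hssφ ℓ W k (hssφ ℓ W k (hssP ℓ W k)) - hssP ℓ W k)
      = ((ℓ : ℤ) + 1 - W.traceOfFrobenius)
        * hssD ℓ W k (hssφ ℓ W k (hssP ℓ W k) + hssP ℓ W k) :=
  hss_mult_of ℓ W k _ (hss_N_ne_zero ℓ W k) (frn_hssD_sub ℓ W k)
    (fun Q R hQ hR h f hf => hsm_mult ℓ W k Q R hQ hR h f hf)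

/-- (Q) on `W(k)` for `a = W.traceOfFrobenius` -/
theorem hss_Q_pt [IsAlgClosed k] (T : (W.baseChange k).toAffine.Point) :
    oddFr ℓ W k (oddFr ℓ W k T) + (ℓ : ℤ) • T = W.traceOfFrobenius • oddFr ℓ W k T := by
  have h := hss_Q_of ℓ W k _ (frn_hssD_sub ℓ W k) (hss_hmul ℓ W k) T
  have e : (ℓ : ℤ) + 1 - ((ℓ : ℤ) + 1 - W.traceOfFrobenius) = W.traceOfFrobenius := by ring
  rw [e] at h
  exact h

/-- **the relation `HasseQ` for the trace of Frobenius**, unconditionally -/
theorem hss_Q : HasseQ ℓ W W.traceOfFrobenius := by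
  intro K _ _ _ T
  exact hss_Q_pt ℓ W K T

end Fermat.Agent.S58lib

end
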