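import Mathlib

/-!
# Item 84 (S58), piece 84-E (H3), existence step (helper4)

`K` an algebraically closed field of characteristic `0` with a valuation `v`, `E` a Weierstrass
curve over `K` with integral coefficients, `v c₄ = 1`, `v Δ < 1`, `Δ ≠ 0` (multiplicative
reduction).  Then `E` has a point `(e, f)` of order two, with integral coordinates, reducing to
the node: the translated curve has `a₃' = a₆' = 0`, `a₄'` small and non-zero, `b₂'` a unit.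
This works uniformly in all residue characteristics (including `2`): the numbers `z = 4 x(T)`,
`T` of order two, are the roots of the monic cubic `z³ + b₂ z² + 8 b₄ z + 16 b₆`.
-/

set_option autoImplicit false
set_option linter.unusedSectionVars false
set_option linter.unusedVariables false

namespace Fermat.Agent.S58lib

variable {K : Type*} [Field K]
  {Γ₀ : Type*} [LinearOrderedCommGroupWithZero Γ₀] (v : Valuation K Γ₀)

/-! ### Valuation helpers -/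

theorem uin_natCast_le (k : ℕ) : v (k : K) ≤ 1 := by
  induction k with
  | zero => simp
  | succ k ih =>
    rw [Nat.cast_succ]
    exact (v.map_add _ _).trans (max_le ih (by rw [map_one]))

theorem uin_mul_le {a b : K} (ha : v a ≤ 1) (hb : v b ≤ 1) : v (a * b) ≤ 1 := by
  rw [map_mul]; exact mul_le_one' ha hb

theorem uin_pow_le {a : K} (k : ℕ) (ha : v a ≤ 1) : v (a ^ k) ≤ 1 := by
  rw [map_pow]; exact pow_le_one' ha k

theorem uin_add_le {a b : K} (ha : v a ≤ 1) (hb : v b ≤ 1) : v (a + b) ≤ 1 :=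
  (v.map_add _ _).trans (max_le ha hb)

theorem uin_sub_le {a b : K} (ha : v a ≤ 1) (hb : v b ≤ 1) : v (a - b) ≤ 1 :=
  (v.map_sub _ _).trans (max_le ha hb)

theorem uin_mul_lt {a b : K} (ha : v a ≤ 1) (hb : v b < 1) : v (a * b) < 1 := by
  rw [map_mul]
  calc v a * v b ≤ 1 * v b := by gcongr
    _ = v b := one_mul _
    _ < 1 := hb

theorem uin_mul_lt' {a b : K} (ha : v a < 1) (hb : v b ≤ 1) : v (a * b) < 1 := by
  rw [mul_comm]; exact uin_mul_lt v hb ha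

/-- a square of valuation `1` has valuation `1` -/
theorem uin_val_eq_one_of_sq {a : K} (h : v (a ^ 2) = 1) : v a = 1 := by
  rw [map_pow] at h
  exact (pow_eq_one_iff.mp h).resolve_right two_ne_zero

/-- a square of valuation `< 1` has valuation `< 1` -/
theorem uin_val_lt_one_of_sq {g : Γ₀} (h : g ^ 2 < 1) : g < 1 := by
  by_contra hcon
  rw [not_lt] at hcon
  exact absurd h (not_lt.mpr (one_le_pow_of_one_le' hcon 2))

/-- roots of monic cubics with integral coefficients are integral -/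
theorem uin_cubic_root_le {p q r z : K} (hp : v p ≤ 1) (hq : v q ≤ 1) (hr : v r ≤ 1)
    (h : z ^ 3 + p * z ^ 2 + q * z + r = 0) : v z ≤ 1 := by
  by_contra hcon
  rw [not_le] at hcon
  have hzpos : 0 < v z := lt_trans zero_lt_one hcon
  have hz2 : v z < v z ^ 2 := by
    rw [sq]; exact lt_mul_of_one_lt_left hzpos hcon
  have hz3 : v z ^ 2 < v z ^ 3 := by
    rw [pow_succ (v z) 2]; exact lt_mul_of_one_lt_right (pow_pos hzpos 2) hcon
  have h1 : v (p * z ^ 2 + q * z + r) < v (z ^ 3) := by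
    rw [map_pow]
    refine v.map_add_lt (v.map_add_lt ?_ ?_) ?_
    · rw [map_mul, map_pow]
      calc v p * v z ^ 2 ≤ 1 * v z ^ 2 := by gcongr
        _ = v z ^ 2 := one_mul _
        _ < v z ^ 3 := hz3
    · rw [map_mul]
      calc v q * v z ≤ 1 * v z := by gcongr
        _ = v z := one_mul _
        _ < v z ^ 3 := hz2.trans hz3
    · exact lt_of_le_of_lt hr (hcon.trans (hz2.trans hz3))
  have h2 : z ^ 3 + p * z ^ 2 + q * z + r = z ^ 3 + (p * z ^ 2 + q * z + r) := by ring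
  have h3 := v.map_add_eq_of_lt_left h1
  rw [← h2, h, map_zero, map_pow] at h3
  exact hzpos.ne' ((pow_eq_zero_iff (three_ne_zero)).mp h3.symm)

/-- roots of monic quadratics with integral coefficients are integral -/
theorem uin_quad_root_le {p q z : K} (hp : v p ≤ 1) (hq : v q ≤ 1)
    (h : z ^ 2 + p * z + q = 0) : v z ≤ 1 := by
  by_contra hcon
  rw [not_le] at hcon
  have hzpos : 0 < v z := lt_trans zero_lt_one hcon
  have hz2 : v z < v z ^ 2 := by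
    rw [sq]; exact lt_mul_of_one_lt_left hzpos hcon
  have h1 : v (p * z + q) < v (z ^ 2) := by
    rw [map_pow]
    refine v.map_add_lt ?_ ?_
    · rw [map_mul]
      calc v p * v z ≤ 1 * v z := by gcongr
        _ = v z := one_mul _
        _ < v z ^ 2 := hz2
    · exact lt_of_le_of_lt hq (hcon.trans hz2)
  have h2 : z ^ 2 + p * z + q = z ^ 2 + (p * z + q) := by ring
  have h3 := v.map_add_eq_of_lt_left h1
  rw [← h2, h, map_zero, map_pow] at h3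
  exact hzpos.ne' ((pow_eq_zero_iff (two_ne_zero)).mp h3.symm)

/-! ### The three roots of a monic cubic over an algebraically closed field -/

theorem uin_exists_roots [IsAlgClosed K] (p q r : K) :
    ∃ z₁ z₂ z₃ : K, z₁ + z₂ + z₃ = -p ∧ z₁ * z₂ + z₁ * z₃ + z₂ * z₃ = q ∧
      z₁ * z₂ * z₃ = -r := by
  obtain ⟨z₁, hz₁⟩ := IsAlgClosed.exists_root
    (Polynomial.X ^ 3 + Polynomial.C p * Polynomial.X ^ 2 + Polynomial.C q * Polynomial.X
      + Polynomial.C r : Polynomial K) (by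
      have hd : (Polynomial.X ^ 3 + Polynomial.C p * Polynomial.X ^ 2
        + Polynomial.C q * Polynomial.X + Polynomial.C r : Polynomial K).degree = 3 := by
        compute_degree!
      rw [hd]; norm_num)
  have h1 : z₁ ^ 3 + p * z₁ ^ 2 + q * z₁ + r = 0 := by
    simpa [Polynomial.IsRoot] using hz₁
  obtain ⟨z₂, hz₂⟩ := IsAlgClosed.exists_root
    (Polynomial.X ^ 2 + Polynomial.C (p + z₁) * Polynomial.X
      + Polynomial.C (q + p * z₁ + z₁ ^ 2) : Polynomial K) (by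
      have hd : (Polynomial.X ^ 2 + Polynomial.C (p + z₁) * Polynomial.X
        + Polynomial.C (q + p * z₁ + z₁ ^ 2) : Polynomial K).degree = 2 := by
        compute_degree!
      rw [hd]; norm_num)
  have h2 : z₂ ^ 2 + (p + z₁) * z₂ + (q + p * z₁ + z₁ ^ 2) = 0 := by
    simpa [Polynomial.IsRoot] using hz₂
  refine ⟨z₁, z₂, -p - z₁ - z₂, by ring, ?_, ?_⟩
  · linear_combination -h2
  · linear_combination (-z₁) * h2 + h1

/-! ### Polynomial identities -/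

section identities

variable {z₁ z₂ z₃ b₂ b₄ b₆ b₈ : K}

/-- each `z_i` is a root of the cubic -/
theorem uin_root_of_vieta (hS1 : z₁ + z₂ + z₃ = -b₂)
    (hS2 : z₁ * z₂ + z₁ * z₃ + z₂ * z₃ = 8 * b₄) (hS3 : z₁ * z₂ * z₃ = -(16 * b₆)) :
    z₁ ^ 3 + b₂ * z₁ ^ 2 + 8 * b₄ * z₁ + 16 * b₆ = 0 := by
  linear_combination z₁ ^ 2 * hS1 - z₁ * hS2 + hS3

/-- `G'(z₁) = (z₁ - z₂)(z₁ - z₃)` -/
theorem uin_deriv_of_vieta (hS1 : z₁ + z₂ + z₃ = -b₂)
    (hS2 : z₁ * z₂ + z₁ * z₃ + z₂ * z₃ = 8 * b₄) :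
    3 * z₁ ^ 2 + 2 * b₂ * z₁ + 8 * b₄ = (z₁ - z₂) * (z₁ - z₃) := by
  linear_combination (2 * z₁) * hS1 - hS2

/-- `c₄ = (z₁ - z₂)(z₁ - z₃) + (z₂ - z₃)²` -/
theorem uin_c4_of_vieta (hS1 : z₁ + z₂ + z₃ = -b₂)
    (hS2 : z₁ * z₂ + z₁ * z₃ + z₂ * z₃ = 8 * b₄) :
    b₂ ^ 2 - 24 * b₄ = (z₁ - z₂) * (z₁ - z₃) + (z₂ - z₃) ^ 2 := by
  linear_combination (b₂ - (z₁ + z₂ + z₃)) * hS1 + 3 * hS2

/-- `(b₂ + 3 z₁)² = c₄ + 3 (z₁ - z₂)(z₁ - z₃)` -/
theorem uin_b2_of_vieta (hS1 : z₁ + z₂ + z₃ = -b₂)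
    (hS2 : z₁ * z₂ + z₁ * z₃ + z₂ * z₃ = 8 * b₄) :
    (b₂ + 3 * z₁) ^ 2 = (b₂ ^ 2 - 24 * b₄) + 3 * ((z₁ - z₂) * (z₁ - z₃)) := by
  linear_combination (6 * z₁) * hS1 - 3 * hS2

/-- the discriminant: `∏ (z_i - z_j)² = 256 Δ` -/
theorem uin_disc_of_vieta [CharZero K] (hS1 : z₁ + z₂ + z₃ = -b₂)
    (hS2 : z₁ * z₂ + z₁ * z₃ + z₂ * z₃ = 8 * b₄) (hS3 : z₁ * z₂ * z₃ = -(16 * b₆))
    (hb8 : 4 * b₈ = b₂ * b₆ - b₄ ^ 2) :
    ((z₁ - z₂) * (z₁ - z₃)) ^ 2 * (z₂ - z₃) ^ 2 =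
      256 * (-b₂ ^ 2 * b₈ - 8 * b₄ ^ 3 - 27 * b₆ ^ 2 + 9 * b₂ * b₄ * b₆) := by
  have e2 : b₂ = -(z₁ + z₂ + z₃) := by rw [hS1]; ring
  have e4 : b₄ = (z₁ * z₂ + z₁ * z₃ + z₂ * z₃) / 8 := by rw [hS2]; field_simp
  have e6 : b₆ = -(z₁ * z₂ * z₃) / 16 := by rw [hS3]; field_simp
  have e8 : b₈ = (b₂ * b₆ - b₄ ^ 2) / 4 := by rw [← hb8]; field_simp
  rw [e8, e6, e4, e2]
  field_simp
  ring

end identities

/-! ### The point of order two at the node -/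

section node

variable [CharZero K] (E : WeierstrassCurve K)

/-- Core: from three roots `z₁, z₂, z₃` of `z³ + b₂ z² + 8 b₄ z + 16 b₆` with `z₁ ≡ z₂`. -/
theorem uin_node_core (h1 : v E.a₁ ≤ 1) (h2 : v E.a₂ ≤ 1) (h3 : v E.a₃ ≤ 1) (h4 : v E.a₄ ≤ 1)
    (h6 : v E.a₆ ≤ 1) (hc₄ : v E.c₄ = 1) (hΔ : v E.Δ < 1) (hΔ0 : E.Δ ≠ 0)
    {z₁ z₂ z₃ : K} (hS1 : z₁ + z₂ + z₃ = -E.b₂)
    (hS2 : z₁ * z₂ + z₁ * z₃ + z₂ * z₃ = 8 * E.b₄) (hS3 : z₁ * z₂ * z₃ = -(16 * E.b₆))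
    (hnear : v (z₁ - z₂) < 1) :
    ∃ e f : K, v e ≤ 1 ∧ v f ≤ 1 ∧ 2 * f + E.a₁ * e + E.a₃ = 0 ∧
      f ^ 2 + E.a₁ * e * f + E.a₃ * f = e ^ 3 + E.a₂ * e ^ 2 + E.a₄ * e + E.a₆ ∧
      v (E.a₄ + 2 * e * E.a₂ - f * E.a₁ + 3 * e ^ 2) < 1 ∧
      E.a₄ + 2 * e * E.a₂ - f * E.a₁ + 3 * e ^ 2 ≠ 0 ∧
      v (E.a₁ ^ 2 + 4 * (E.a₂ + 3 * e)) = 1 := by
  have k : ∀ n : ℕ, v (n : K) ≤ 1 := uin_natCast_le v
  have k2 : v (2 : K) ≤ 1 := by simpa using k 2
  have k3 : v (3 : K) ≤ 1 := by simpa using k 3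
  have k4 : v (4 : K) ≤ 1 := by simpa using k 4
  have k8 : v (8 : K) ≤ 1 := by simpa using k 8
  have k16 : v (16 : K) ≤ 1 := by simpa using k 16
  have hb2 : v E.b₂ ≤ 1 := by
    rw [WeierstrassCurve.b₂]
    exact uin_add_le v (uin_pow_le v 2 h1) (uin_mul_le v k4 h2)
  have hb4 : v E.b₄ ≤ 1 := by
    rw [WeierstrassCurve.b₄]
    exact uin_add_le v (uin_mul_le v k2 h4) (uin_mul_le v h1 h3)
  have hb6 : v E.b₆ ≤ 1 := by
    rw [WeierstrassCurve.b₆]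
    exact uin_add_le v (uin_pow_le v 2 h3) (uin_mul_le v k4 h6)
  have hroot : z₁ ^ 3 + E.b₂ * z₁ ^ 2 + 8 * E.b₄ * z₁ + 16 * E.b₆ = 0 :=
    uin_root_of_vieta hS1 hS2 hS3
  have hroot3 : z₃ ^ 3 + E.b₂ * z₃ ^ 2 + 8 * E.b₄ * z₃ + 16 * E.b₆ = 0 :=
    uin_root_of_vieta (z₁ := z₃) (z₂ := z₁) (z₃ := z₂) (by linear_combination hS1)
      (by linear_combination hS2) (by linear_combination hS3)
  have hz1 : v z₁ ≤ 1 :=
    uin_cubic_root_le v hb2 (uin_mul_le v k8 hb4) (uin_mul_le v k16 hb6) hroot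
  have hz3 : v z₃ ≤ 1 :=
    uin_cubic_root_le v hb2 (uin_mul_le v k8 hb4) (uin_mul_le v k16 hb6) hroot3
  have hD1 : v ((z₁ - z₂) * (z₁ - z₃)) < 1 := uin_mul_lt' v hnear (uin_sub_le v hz1 hz3)
  have hc4 : E.c₄ = (z₁ - z₂) * (z₁ - z₃) + (z₂ - z₃) ^ 2 := by
    rw [WeierstrassCurve.c₄]; exact uin_c4_of_vieta hS1 hS2
  have hdisc : ((z₁ - z₂) * (z₁ - z₃)) ^ 2 * (z₂ - z₃) ^ 2 = 256 * E.Δ := by
    rw [WeierstrassCurve.Δ]; exact uin_disc_of_vieta hS1 hS2 hS3 E.b_relation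
  have h23 : v ((z₂ - z₃) ^ 2) = 1 := by
    have e : (z₂ - z₃) ^ 2 = E.c₄ - (z₁ - z₂) * (z₁ - z₃) := by rw [hc4]; ring
    rw [e, Valuation.map_sub_eq_of_lt_left _ (by rw [hc₄]; exact hD1), hc₄]
  have hDsq : v ((z₁ - z₂) * (z₁ - z₃)) ^ 2 = v (256 : K) * v E.Δ := by
    have := congrArg v hdisc
    rw [map_mul, h23, mul_one, map_pow, map_mul (f := v) (256 : K)] at this
    exact this
  have h256 : v (256 : K) ≠ 0 := (v.ne_zero_iff).mpr (by norm_num)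
  have hCval : v ((z₁ - z₂) * (z₁ - z₃) / 16) ^ 2 = v E.Δ := by
    rw [map_div₀, div_pow, hDsq, ← map_pow]
    have : (16 : K) ^ 2 = 256 := by norm_num
    rw [this, mul_comm, mul_div_assoc, div_self h256, mul_one]
  have hC1 : v ((z₁ - z₂) * (z₁ - z₃) / 16) < 1 :=
    uin_val_lt_one_of_sq (by rw [hCval]; exact hΔ)
  have hD0 : (z₁ - z₂) * (z₁ - z₃) ≠ 0 := by
    intro h
    rw [h] at hdisc
    have : (256 : K) * E.Δ = 0 := by rw [← hdisc]; ring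
    rcases mul_eq_zero.mp this with h' | h'
    · norm_num at h'
    · exact hΔ0 h'
  have hB : v (E.b₂ + 3 * z₁) = 1 := by
    apply uin_val_eq_one_of_sq
    rw [uin_b2_of_vieta hS1 hS2, ← WeierstrassCurve.c₄,
      Valuation.map_add_eq_of_lt_left _ (by rw [hc₄]; exact uin_mul_lt v k3 hD1), hc₄]
  have he : v (z₁ / 4) ≤ 1 := by
    by_contra hcon
    rw [not_le] at hcon
    have h4pos : 0 < v (4 : K) := v.pos_iff.mpr (by norm_num)
    have h4lt : v (4 : K) < v z₁ := by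
      rw [map_div₀, one_lt_div₀ h4pos] at hcon
      exact hcon
    have h4lt1 : v (4 : K) < 1 := lt_of_lt_of_le h4lt hz1
    have h2lt1 : v (2 : K) < 1 := by
      by_contra h
      rw [not_lt] at h
      have h21 : v (2 : K) = 1 := le_antisymm k2 h
      have : v (4 : K) = 1 := by
        have e : (4 : K) = 2 * 2 := by norm_num
        rw [e, map_mul, h21, one_mul]
      rw [this] at h4lt1
      exact lt_irrefl _ h4lt1
    have hz1pos : 0 < v z₁ := lt_trans h4pos h4lt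
    have e1 : z₁ ^ 2 * (z₁ + E.b₂) = -(8 * E.b₄ * z₁ + 16 * E.b₆) := by
      linear_combination hroot
    have h8 : v (8 : K) ≤ v (4 : K) := by
      have e : (8 : K) = 2 * 4 := by norm_num
      rw [e, map_mul]
      calc v (2 : K) * v (4 : K) ≤ 1 * v (4 : K) := by gcongr
        _ = v (4 : K) := one_mul _
    have h16 : v (16 : K) = v (4 : K) ^ 2 := by
      have e : (16 : K) = 4 ^ 2 := by norm_num
      rw [e, map_pow]
    have hlt : v (8 * E.b₄ * z₁ + 16 * E.b₆) < v z₁ ^ 2 := by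
      refine v.map_add_lt ?_ ?_
      · rw [map_mul, map_mul, sq]
        calc v (8 : K) * v E.b₄ * v z₁ ≤ v (8 : K) * 1 * v z₁ := by gcongr
          _ = v (8 : K) * v z₁ := by rw [mul_one]
          _ ≤ v (4 : K) * v z₁ := by gcongr
          _ < v z₁ * v z₁ := by gcongr
      · rw [map_mul, h16]
        calc v (4 : K) ^ 2 * v E.b₆ ≤ v (4 : K) ^ 2 * 1 := by gcongr
          _ = v (4 : K) ^ 2 := mul_one _
          _ < v z₁ ^ 2 := by gcongr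
    have hzb : v (z₁ + E.b₂) < 1 := by
      have e2 := congrArg v e1
      rw [map_mul, map_pow, Valuation.map_neg] at e2
      by_contra h
      rw [not_lt] at h
      have h' : v z₁ ^ 2 ≤ v z₁ ^ 2 * v (z₁ + E.b₂) := le_mul_of_one_le_right zero_le h
      rw [e2] at h'
      exact absurd hlt (not_lt.mpr h')
    have hcontra : v (E.b₂ + 3 * z₁) < 1 := by
      have e2 : E.b₂ + 3 * z₁ = 3 * (z₁ + E.b₂) - 2 * E.b₂ := by ring
      rw [e2]
      exact v.map_sub_lt (uin_mul_lt v k3 hzb) (uin_mul_lt' v h2lt1 hb2)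
    rw [hB] at hcontra
    exact lt_irrefl _ hcontra
  have heq : (-(E.a₁ * (z₁ / 4) + E.a₃) / 2) ^ 2 + E.a₁ * (z₁ / 4) * (-(E.a₁ * (z₁ / 4) + E.a₃) / 2)
      + E.a₃ * (-(E.a₁ * (z₁ / 4) + E.a₃) / 2)
      = (z₁ / 4) ^ 3 + E.a₂ * (z₁ / 4) ^ 2 + E.a₄ * (z₁ / 4) + E.a₆ := by
    have hr := hroot
    simp only [WeierstrassCurve.b₂, WeierstrassCurve.b₄, WeierstrassCurve.b₆] at hr
    linear_combination (-1 / 64 : K) * hr
  have hCD : E.a₄ + 2 * (z₁ / 4) * E.a₂ - (-(E.a₁ * (z₁ / 4) + E.a₃) / 2) * E.a₁ + 3 * (z₁ / 4) ^ 2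
      = (z₁ - z₂) * (z₁ - z₃) / 16 := by
    have hd := uin_deriv_of_vieta hS1 hS2
    simp only [WeierstrassCurve.b₂, WeierstrassCurve.b₄] at hd
    linear_combination (1 / 16 : K) * hd
  refine ⟨z₁ / 4, -(E.a₁ * (z₁ / 4) + E.a₃) / 2, he, ?_, by ring, heq, ?_, ?_, ?_⟩
  · refine uin_quad_root_le v (p := E.a₁ * (z₁ / 4) + E.a₃)
      (q := -((z₁ / 4) ^ 3 + E.a₂ * (z₁ / 4) ^ 2 + E.a₄ * (z₁ / 4) + E.a₆)) ?_ ?_ ?_
    · exact uin_add_le v (uin_mul_le v h1 he) h3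
    · rw [Valuation.map_neg]
      exact uin_add_le v (uin_add_le v (uin_add_le v (uin_pow_le v 3 he)
        (uin_mul_le v h2 (uin_pow_le v 2 he))) (uin_mul_le v h4 he)) h6
    · linear_combination heq
  · rw [hCD]; exact hC1
  · rw [hCD]; exact div_ne_zero hD0 (by norm_num)
  · have e : E.a₁ ^ 2 + 4 * (E.a₂ + 3 * (z₁ / 4)) = E.b₂ + 3 * z₁ := by
      rw [WeierstrassCurve.b₂]; ring
    rw [e]; exact hB

/-- **Existence of the point of order two at the node** (multiplicative reduction, all residue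
characteristics). -/
theorem uin_exists_node [IsAlgClosed K] (h1 : v E.a₁ ≤ 1) (h2 : v E.a₂ ≤ 1) (h3 : v E.a₃ ≤ 1)
    (h4 : v E.a₄ ≤ 1) (h6 : v E.a₆ ≤ 1) (hc₄ : v E.c₄ = 1) (hΔ : v E.Δ < 1) (hΔ0 : E.Δ ≠ 0) :
    ∃ e f : K, v e ≤ 1 ∧ v f ≤ 1 ∧ 2 * f + E.a₁ * e + E.a₃ = 0 ∧
      f ^ 2 + E.a₁ * e * f + E.a₃ * f = e ^ 3 + E.a₂ * e ^ 2 + E.a₄ * e + E.a₆ ∧
      v (E.a₄ + 2 * e * E.a₂ - f * E.a₁ + 3 * e ^ 2) < 1 ∧
      E.a₄ + 2 * e * E.a₂ - f * E.a₁ + 3 * e ^ 2 ≠ 0 ∧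
      v (E.a₁ ^ 2 + 4 * (E.a₂ + 3 * e)) = 1 := by
  obtain ⟨z₁, z₂, z₃, hS1, hS2, hS3'⟩ := uin_exists_roots E.b₂ (8 * E.b₄) (16 * E.b₆)
  have hS3 : z₁ * z₂ * z₃ = -(16 * E.b₆) := hS3'
  have hdisc : ((z₁ - z₂) * (z₁ - z₃)) ^ 2 * (z₂ - z₃) ^ 2 = 256 * E.Δ := by
    rw [WeierstrassCurve.Δ]; exact uin_disc_of_vieta hS1 hS2 hS3 E.b_relation
  have k256 : v (256 : K) ≤ 1 := by simpa using uin_natCast_le v 256
  have hlt : v (((z₁ - z₂) * (z₁ - z₃)) ^ 2 * (z₂ - z₃) ^ 2) < 1 := by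
    rw [hdisc]; exact uin_mul_lt v k256 hΔ
  by_cases c12 : v (z₁ - z₂) < 1
  · exact uin_node_core v E h1 h2 h3 h4 h6 hc₄ hΔ hΔ0 hS1 hS2 hS3 c12
  by_cases c13 : v (z₁ - z₃) < 1
  · exact uin_node_core v E h1 h2 h3 h4 h6 hc₄ hΔ hΔ0 (z₁ := z₁) (z₂ := z₃) (z₃ := z₂)
      (by linear_combination hS1) (by linear_combination hS2) (by linear_combination hS3) c13
  by_cases c23 : v (z₂ - z₃) < 1
  · exact uin_node_core v E h1 h2 h3 h4 h6 hc₄ hΔ hΔ0 (z₁ := z₂) (z₂ := z₃) (z₃ := z₁)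
      (by linear_combination hS1) (by linear_combination hS2) (by linear_combination hS3) c23
  exfalso
  rw [not_lt] at c12 c13 c23
  rw [map_mul, map_pow, map_pow, map_mul] at hlt
  have : (1 : Γ₀) ≤ (v (z₁ - z₂) * v (z₁ - z₃)) ^ 2 * v (z₂ - z₃) ^ 2 :=
    one_le_mul_of_one_le_of_one_le
      (one_le_pow_of_one_le' (one_le_mul_of_one_le_of_one_le c12 c13) 2)
      (one_le_pow_of_one_le' c23 2)
  exact absurd hlt (not_lt.mpr this)

end node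

end Fermat.Agent.S58lib
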