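/-
Item 84 (S58), piece LINK-W (helper25): **LINK (3a) for `W`** = the hypothesis `StpFrobAt W lam`
of `Steps.lean` / `Assembly.lean` (helper13), for every odd prime `lam`.

A `lam`-adic representation `ρ` with the Frobenius characteristic polynomials
`X² - a_ℓ(W) X + ℓ` outside a finite set `S` has the characteristic polynomial
`X² - a_r(W) X + r` at every Frobenius element at every good prime `r ≠ lam` of `W`.

Proof: `chl_W_const` (helper10, `ChebLinkW.lean`: weak Chebotarev + finite levels) with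
`T n = W_ℚ(ℚ̄)[lam ^ n]`, free of rank `2` by `h2_free`, `h2_finite`, `h2_finrank` (helper23,
`H2Transfer.lean`), and (H2) at finite level = `h2_final` (helper23).

* `lkw_frob_of_hasse` : `StpFrobAt W lam` from the Hasse package `HasseOn` at the good primes
  (the hypothesis `hH` of `h2_final`; producers: `Bridge.lean` + `FrobQ.lean`);
* `lkw_frob_of_h2`    : the same from (H2) at finite level (charpoly form).
No sorry.
-/
import Mathlib
import Fermat.Agent.S58lib.ChebLinkW
import Fermat.Agent.S58lib.H2Transfer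
import Fermat.Agent.S58lib.Steps

set_option autoImplicit false
set_option linter.style.longLine false
set_option linter.style.haveILetI false
set_option linter.unusedSectionVars false
set_option linter.unusedVariables false

noncomputable section

open Polynomial
open WeierstrassCurve WeierstrassCurve.Affine WeierstrassCurve.Affine.Point
open Fermat.Agent.GalRep

namespace Fermat.Agent.S58lib

/-- the bad primes of `W` (`Δ ≠ 0`) form a finite set: a prime outside `primeFactors |Δ|` is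
good -/
theorem lkw_good_of_not_mem (W : WeierstrassCurve ℤ) (hΔ : W.Δ ≠ 0) {ℓ : ℕ} (hℓ : ℓ.Prime)
    (h : ℓ ∉ W.Δ.natAbs.primeFactors) : W.IsGoodPrimeFor ℓ := by
  intro hd
  apply h
  rw [Nat.mem_primeFactors]
  exact ⟨hℓ, Int.natCast_dvd.mp hd, Int.natAbs_ne_zero.mpr hΔ⟩

/-- the Frobenius condition is antitone in the exceptional set -/
theorem lkw_chlFrob_mono {R : Type} [CommRing R] {V : Type} [AddCommGroup V] [Module R V]
    [Module.Free R V] [Module.Finite R V] (r : GQ →* Module.End R V) {S S' : Finset ℕ}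
    (hS : S ⊆ S') (a : ℕ → ℤ) (h : ChlFrob r S a) : ChlFrob r S' a :=
  fun ℓ hℓ hℓS => h ℓ hℓ (fun hmem => hℓS (hS hmem))

/-- **LINK (3a) from (H2) at finite level.** -/
theorem lkw_frob_of_h2 (W : WeierstrassCurve ℤ) {lam : ℕ} (hlam : lam.Prime) (hodd : lam ≠ 2)
    (hH2 : ∀ ℓ : ℕ, ℓ.Prime → ℓ ≠ lam → W.IsGoodPrimeFor ℓ → ∀ n : ℕ,
      ∀ (_ : Module.Free (ZMod (lam ^ n)) (Submodule.torsionBy ℤ
        ((W.map (Int.castRingHom ℚ)).toAffine⁄(AlgebraicClosure ℚ)).Point ((lam ^ n : ℕ) : ℤ)))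
        (_ : Module.Finite (ZMod (lam ^ n)) (Submodule.torsionBy ℤ
        ((W.map (Int.castRingHom ℚ)).toAffine⁄(AlgebraicClosure ℚ)).Point ((lam ^ n : ℕ) : ℤ))),
      ∀ A : ValuationSubring (AlgebraicClosure ℚ), A.LiesOverPrime ℓ →
        ∀ σ : GQ, A.IsFrobeniusAt σ ℓ →
          LinearMap.charpoly (galoisRepModuleEnd ℚ (K := AlgebraicClosure ℚ)
              (W.map (Int.castRingHom ℚ)).toAffine (lam ^ n) σ)
            = X ^ 2 - C ((W.apOfModel ℓ : ℤ) : ZMod (lam ^ n)) * X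
              + C ((ℓ : ℕ) : ZMod (lam ^ n))) :
    StpFrobAt W lam := by
  intro O _ _ _ _ _ _ hlamO ρ S hρ r hr hrlam hgood A hA σ hσ
  have hΔ : W.Δ ≠ 0 := h2_Δ_ne_zero W hgood
  haveI hfree : ∀ n, Module.Free (ZMod (lam ^ n)) (Submodule.torsionBy ℤ
      ((W.map (Int.castRingHom ℚ)).toAffine⁄(AlgebraicClosure ℚ)).Point ((lam ^ n : ℕ) : ℤ)) :=
    fun n => h2_free W hΔ hlam hodd n
  haveI hfin : ∀ n, Module.Finite (ZMod (lam ^ n)) (Submodule.torsionBy ℤ
      ((W.map (Int.castRingHom ℚ)).toAffine⁄(AlgebraicClosure ℚ)).Point ((lam ^ n : ℕ) : ℤ)) :=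
    fun n => h2_finite W hΔ hlam hodd n
  have hIS : IsHausdorff (IsLocalRing.maximalIdeal O) O := inferInstance
  -- the enlarged exceptional set
  have hρ' : ChlFrob ρ.ρ (S ∪ insert lam W.Δ.natAbs.primeFactors) W.apOfModel :=
    lkw_chlFrob_mono ρ.ρ Finset.subset_union_left W.apOfModel hρ
  have h := chl_W_const (W.map (Int.castRingHom ℚ)) lam hlam.ne_zero hlamO ρ
    (fun n hn => h2_finrank W hΔ hlam hodd n hn)
    (S ∪ insert lam W.Δ.natAbs.primeFactors) W.apOfModel hρ'
    (fun n hn ℓ hℓ hℓS A' hA' σ' hσ' => by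
      have hℓ1 : ℓ ∉ insert lam W.Δ.natAbs.primeFactors :=
        fun hmem => hℓS (Finset.mem_union_right _ hmem)
      have hℓlam : ℓ ≠ lam := fun e => hℓ1 (e ▸ Finset.mem_insert_self _ _)
      have hℓgood : W.IsGoodPrimeFor ℓ :=
        lkw_good_of_not_mem W hΔ hℓ (fun hmem => hℓ1 (Finset.mem_insert_of_mem hmem))
      exact hH2 ℓ hℓ hℓlam hℓgood n (hfree n) (hfin n) A' hA' σ' hσ')
    σ (W.apOfModel r) (r : ℤ)
    (fun n hn => by
      rw [hH2 r hr hrlam hgood n (hfree n) (hfin n) A hA σ hσ, Int.cast_natCast])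
  rw [h, Int.cast_natCast]

/-- **LINK (3a) from the Hasse package**: `StpFrobAt W lam` for every odd prime `lam`, from
(Q) + (KB) on the reductions of `W` at its good primes. -/
theorem lkw_frob_of_hasse (W : WeierstrassCurve ℤ) {lam : ℕ} (hlam : lam.Prime) (hodd : lam ≠ 2)
    (hH : ∀ ℓ : ℕ, ℓ.Prime → W.IsGoodPrimeFor ℓ →
      ∀ (κ : Type) [Field κ] [CharP κ ℓ] (f : κ →+* κ), (∀ x, f x = x ^ ℓ) →
        HasseOn W ℓ κ f (W.apOfModel ℓ)) :
    StpFrobAt W lam :=
  lkw_frob_of_h2 W hlam hodd fun ℓ hℓ hℓlam hgood n hfree hfin A hA σ hσ =>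
    haveI := hfree
    haveI := hfin
    h2_final W hℓ hgood (W.apOfModel ℓ) (hH ℓ hℓ hgood) hlam hodd (Ne.symm hℓlam) A hA σ hσ n

end Fermat.Agent.S58lib

end
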