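/-
Item 84 (S58), piece QF2 (helper10): the binary quadratic form of Frobenius.

For a function `d : Γ → ℤ` with the parallelogram law (`QfaPar d`, `QuadAlg.lean`), an
endomorphism `φ` with `d ∘ φ = ℓ d`, and `P` with `d P = 1`, `d (φ P - P) = N`, put
`a = ℓ + 1 - N`.  Then
* `qf2_form`  : `d (m P + n φ P) = m² + a m n + ℓ n²`;
* `qf2_QF`    : `d (m P - φ P) = m² - a m + ℓ`;
* `qf2_hasse` : `a² ≤ 4 ℓ` if `d ≥ 0`;
* `qf2_pos`   : `0 < m² - a m + ℓ` for a prime `ℓ` if `d ≥ 0`;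
* `qf2_two`   : `d (2 P) = 4`.
Declarations are prefixed `qf2_`.  No sorry.
-/
import Mathlib
import Fermat.Agent.S58lib.QuadAlg

set_option autoImplicit false

namespace Fermat.Agent.S58lib

variable {Γ : Type*} [AddCommGroup Γ] {d : Γ → ℤ}

/-- the pairing of `φ P` and `P` -/
theorem qf2_pairing (h : QfaPar d) (φ : Γ →+ Γ) (ℓ N : ℤ) (hφ : ∀ Q, d (φ Q) = ℓ * d Q)
    (P : Γ) (hP : d P = 1) (hN : d (φ P - P) = N) : qfaB d P (φ P) = ℓ + 1 - N := by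
  have hΦ : d (φ P) = ℓ := by rw [hφ, hP, mul_one]
  have p1 := h (φ P) P
  rw [qfaB_comm]
  unfold qfaB
  linarith

/-- **the general binary form** -/
theorem qf2_form (h : QfaPar d) (φ : Γ →+ Γ) (ℓ N : ℤ) (hφ : ∀ Q, d (φ Q) = ℓ * d Q)
    (P : Γ) (hP : d P = 1) (hN : d (φ P - P) = N) (m n : ℤ) :
    d (m • P + n • φ P) = m ^ 2 + (ℓ + 1 - N) * m * n + ℓ * n ^ 2 := by
  have hΦ : d (φ P) = ℓ := by rw [hφ, hP, mul_one]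
  rw [qfa_add d, qfa_zsmul h, qfa_zsmul h, qfaB_zsmul_left h, qfaB_zsmul_right h,
    qf2_pairing h φ ℓ N hφ P hP hN, hP, hΦ]
  ring

/-- **(QF)** -/
theorem qf2_QF (h : QfaPar d) (φ : Γ →+ Γ) (ℓ N : ℤ) (hφ : ∀ Q, d (φ Q) = ℓ * d Q)
    (P : Γ) (hP : d P = 1) (hN : d (φ P - P) = N) (m : ℤ) :
    d (m • P - φ P) = m ^ 2 - (ℓ + 1 - N) * m + ℓ := by
  have e : m • P - φ P = m • P + (-1 : ℤ) • φ P := by
    rw [neg_smul, one_smul, sub_eq_add_neg]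
  rw [e, qf2_form h φ ℓ N hφ P hP hN]
  ring

/-- **Hasse**: `a² ≤ 4 ℓ` -/
theorem qf2_hasse (h : QfaPar d) (hd : ∀ Q, 0 ≤ d Q) (φ : Γ →+ Γ) (ℓ N : ℤ)
    (hφ : ∀ Q, d (φ Q) = ℓ * d Q) (P : Γ) (hP : d P = 1) (hN : d (φ P - P) = N) :
    (ℓ + 1 - N) ^ 2 ≤ 4 * ℓ := by
  have h1 := hd ((-(ℓ + 1 - N)) • P + (2 : ℤ) • φ P)
  rw [qf2_form h φ ℓ N hφ P hP hN] at h1
  nlinarith [h1]

/-- strict positivity of `m² - a m + ℓ` for a prime `ℓ` -/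
theorem qf2_pos (h : QfaPar d) (hd : ∀ Q, 0 ≤ d Q) (φ : Γ →+ Γ) (ℓ' : ℕ) (hℓ' : ℓ'.Prime)
    (N : ℤ) (hφ : ∀ Q, d (φ Q) = (ℓ' : ℤ) * d Q) (P : Γ) (hP : d P = 1)
    (hN : d (φ P - P) = N) (m : ℤ) :
    0 < m ^ 2 - ((ℓ' : ℤ) + 1 - N) * m + ℓ' := by
  have h0 : 0 ≤ m ^ 2 - ((ℓ' : ℤ) + 1 - N) * m + ℓ' := by
    rw [← qf2_QF h φ (ℓ' : ℤ) N hφ P hP hN m]
    exact hd _
  have hH := qf2_hasse h hd φ (ℓ' : ℤ) N hφ P hP hN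
  rcases h0.lt_or_eq with hlt | heq
  · exact hlt
  · exfalso
    -- `4 f(m) = (2m - a)² + (4ℓ - a²) = 0`
    have e1 : (2 * m - ((ℓ' : ℤ) + 1 - N)) ^ 2 + (4 * (ℓ' : ℤ) - ((ℓ' : ℤ) + 1 - N) ^ 2) = 0 := by
      linear_combination (-4 : ℤ) * heq
    have e2 : (2 * m - ((ℓ' : ℤ) + 1 - N)) ^ 2 = 0 := by
      have := sq_nonneg (2 * m - ((ℓ' : ℤ) + 1 - N))
      nlinarith
    have e3 : 2 * m - ((ℓ' : ℤ) + 1 - N) = 0 := by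
      exact pow_eq_zero_iff (two_ne_zero) |>.mp e2
    have e4 : (ℓ' : ℤ) = m ^ 2 := by
      have e5 : ((ℓ' : ℤ) + 1 - N) = 2 * m := by linarith
      rw [e5] at heq
      linarith
    have e6 : ℓ' = m.natAbs ^ 2 := by
      have : ((m.natAbs ^ 2 : ℕ) : ℤ) = m ^ 2 := by
        rw [Nat.cast_pow, Int.natCast_natAbs, sq_abs]
      exact_mod_cast e4.trans this.symm
    rw [e6] at hℓ'
    exact Nat.Prime.not_prime_pow (le_refl 2) hℓ'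

/-- `d (2 P) = 4` -/
theorem qf2_two (h : QfaPar d) (P : Γ) (hP : d P = 1) : d ((2 : ℤ) • P) = 4 := by
  rw [qfa_zsmul h, hP]
  norm_num

end Fermat.Agent.S58lib
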