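import Mathlib
import Fermat.Prelude.Def_WeierstrassCurve_ConductorLevel
import Fermat.Prelude.Def_FLTPrelim_Modularity
import Fermat.Agent.S58lib.Stab

/-!
# Item 84 (S58), piece StepZero (helper18): the arithmetic of the levels

Pure arithmetic around the statement S58 (`W` semistable, modular of a cube-free level `N`
divisible by the bad primes):

* `sz_N_ne_zero`, `sz_delta_ne_zero`: `N ≠ 0` and `Δ ≠ 0`;
* `sz_factorization_le_two`, `sz_factorization_eq_two`, `sz_squarefree`: a divisor `M` of a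
  cube-free `N` has exponents `≤ 2`, `= 2` at `q` if `q² ∣ M`, and is squarefree if no exponent
  is `2`;
* `sz_dvd_conductorLevel`: a squarefree `M` whose primes are bad divides the conductor level;
* `sz_good_of_not_dvd`, `sz_not_dvd_of_good`, `sz_bad_iff`: good primes and the conductor level;
* `sz_isModularModelOfLevel`, `sz_final`: **step 8**: a normalised eigenform `f₀` of a level
  `M ∣ W.conductorLevel` with `a_r(f₀) = a_r(W)` at the good primes `r ∤ M` makes `W` modular
  of its conductor level (stabilisation: `stb_isModularModelOfLevel_of_dvd`);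
* `sz_main`: the end of the proof of S58 from a minimal level `M` which is squarefree with bad
  primes only.
-/

set_option autoImplicit false

namespace Fermat.Agent.S58lib

open CuspForm CongruenceSubgroup ModularFormClass

/-- a cube-free level is nonzero -/
theorem sz_N_ne_zero (N : ℕ) (hN3 : ∀ q : ℕ, q.Prime → ¬ q ^ 3 ∣ N) : N ≠ 0 := by
  rintro rfl
  exact hN3 2 Nat.prime_two (dvd_zero _)

/-- the discriminant is nonzero: otherwise every prime divides the cube-free level `N` -/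
theorem sz_delta_ne_zero (W : WeierstrassCurve ℤ) (N : ℕ)
    (hbad : ∀ ℓ : ℕ, ℓ.Prime → (ℓ : ℤ) ∣ W.Δ → ℓ ∣ N)
    (hN3 : ∀ q : ℕ, q.Prime → ¬ q ^ 3 ∣ N) : W.Δ ≠ 0 := by
  intro h0
  have hN0 : N ≠ 0 := sz_N_ne_zero N hN3
  obtain ⟨p, hpN, hp⟩ := Nat.exists_infinite_primes (N + 1)
  have hdvd : p ∣ N := hbad p hp (by rw [h0]; exact dvd_zero _)
  have hle : p ≤ N := Nat.le_of_dvd (Nat.pos_of_ne_zero hN0) hdvd
  omega

/-- the exponents of a cube-free number are `≤ 2` -/
theorem sz_factorization_le_two {N q : ℕ} (hq : q.Prime) (hN0 : N ≠ 0) (hN3 : ¬ q ^ 3 ∣ N) :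
    N.factorization q ≤ 2 := by
  by_contra h
  have h3 : 3 ≤ N.factorization q := by omega
  exact hN3 ((hq.pow_dvd_iff_le_factorization hN0).2 h3)

/-- the exponents of a divisor of a cube-free number are `≤ 2` -/
theorem sz_factorization_le_two_of_dvd {M N q : ℕ} (hq : q.Prime) (hMN : M ∣ N) (hN0 : N ≠ 0)
    (hN3 : ¬ q ^ 3 ∣ N) : M.factorization q ≤ 2 := by
  have hM0 : M ≠ 0 := fun h => hN0 (by rw [h, zero_dvd_iff] at hMN; exact hMN)
  exact sz_factorization_le_two hq hM0 fun h => hN3 (dvd_trans h hMN)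

/-- `q² ∣ M ∣ N`, `N` cube-free at `q`: the exponent of `q` in `M` is exactly `2` -/
theorem sz_factorization_eq_two {M N q : ℕ} (hq : q.Prime) (hMN : M ∣ N) (hN0 : N ≠ 0)
    (hN3 : ¬ q ^ 3 ∣ N) (hq2 : q ^ 2 ∣ M) : M.factorization q = 2 := by
  have hM0 : M ≠ 0 := fun h => hN0 (by rw [h, zero_dvd_iff] at hMN; exact hMN)
  have h1 : M.factorization q ≤ 2 := sz_factorization_le_two_of_dvd hq hMN hN0 hN3
  have h2 : 2 ≤ M.factorization q := (hq.pow_dvd_iff_le_factorization hM0).1 hq2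
  omega

/-- the exponent of `q` in `M` is `2` iff `q² ∣ M` (for `M ∣ N`, `N` cube-free at `q`) -/
theorem sz_factorization_eq_two_iff {M N q : ℕ} (hq : q.Prime) (hMN : M ∣ N) (hN0 : N ≠ 0)
    (hN3 : ¬ q ^ 3 ∣ N) : M.factorization q = 2 ↔ q ^ 2 ∣ M := by
  have hM0 : M ≠ 0 := fun h => hN0 (by rw [h, zero_dvd_iff] at hMN; exact hMN)
  refine ⟨fun h => (hq.pow_dvd_iff_le_factorization hM0).2 h.ge,
    sz_factorization_eq_two hq hMN hN0 hN3⟩

/-- a divisor of a cube-free number with no exponent `2` is squarefree -/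
theorem sz_squarefree {M N : ℕ} (hMN : M ∣ N) (hN3 : ∀ q : ℕ, q.Prime → ¬ q ^ 3 ∣ N)
    (h2 : ∀ q : ℕ, q.Prime → M.factorization q ≠ 2) : Squarefree M := by
  have hN0 : N ≠ 0 := sz_N_ne_zero N hN3
  have hM0 : M ≠ 0 := fun h => hN0 (by rw [h, zero_dvd_iff] at hMN; exact hMN)
  rw [Nat.squarefree_iff_factorization_le_one hM0]
  intro q
  by_cases hq : q.Prime
  · have h1 := sz_factorization_le_two_of_dvd hq hMN hN0 (hN3 q hq)
    have h3 := h2 q hq
    omega
  · rw [Nat.factorization_eq_zero_of_not_prime M hq]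
    exact Nat.zero_le 1

/-- a divisor of a cube-free number divisible by no square of a prime is squarefree -/
theorem sz_squarefree_of_not_sq_dvd {M : ℕ} (hM0 : M ≠ 0)
    (h2 : ∀ q : ℕ, q.Prime → ¬ q ^ 2 ∣ M) : Squarefree M := by
  rw [Nat.squarefree_iff_factorization_le_one hM0]
  intro q
  by_cases hq : q.Prime
  · by_contra h
    have h3 : 2 ≤ M.factorization q := by omega
    exact h2 q hq ((hq.pow_dvd_iff_le_factorization hM0).2 h3)
  · rw [Nat.factorization_eq_zero_of_not_prime M hq]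
    exact Nat.zero_le 1

/-- a squarefree number all of whose primes are bad divides the conductor level -/
theorem sz_dvd_conductorLevel (W : WeierstrassCurve ℤ) (hΔ : W.Δ ≠ 0) {M : ℕ}
    (hsq : Squarefree M) (hbadM : ∀ q : ℕ, q.Prime → q ∣ M → (q : ℤ) ∣ W.Δ) :
    M ∣ W.conductorLevel := by
  have hM0 : M ≠ 0 := hsq.ne_zero
  have hC0 : W.conductorLevel ≠ 0 := W.conductorLevel_pos.ne'
  rw [← Nat.factorization_le_iff_dvd hM0 hC0]
  intro q
  by_cases hq : q.Prime
  · by_cases hqM : q ∣ M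
    · have h1 : M.factorization q ≤ 1 :=
        (Nat.squarefree_iff_factorization_le_one hM0).1 hsq q
      have h2 : q ∣ W.conductorLevel :=
        (W.prime_dvd_conductorLevel_iff hΔ hq).2 (hbadM q hq hqM)
      have h3 : 1 ≤ W.conductorLevel.factorization q := by
        have := (hq.pow_dvd_iff_le_factorization hC0).1 (by rwa [pow_one])
        exact this
      exact h1.trans h3
    · rw [Nat.factorization_eq_zero_of_not_dvd hqM]
      exact Nat.zero_le _
  · rw [Nat.factorization_eq_zero_of_not_prime M hq]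
    exact Nat.zero_le _

/-- a prime not dividing the conductor level is good -/
theorem sz_good_of_not_dvd (W : WeierstrassCurve ℤ) (hΔ : W.Δ ≠ 0) {r : ℕ} (hr : r.Prime)
    (h : ¬ r ∣ W.conductorLevel) : W.IsGoodPrimeFor r :=
  fun hd => h ((W.prime_dvd_conductorLevel_iff hΔ hr).2 hd)

/-- a good prime does not divide the conductor level -/
theorem sz_not_dvd_of_good (W : WeierstrassCurve ℤ) (hΔ : W.Δ ≠ 0) {r : ℕ} (hr : r.Prime)
    (h : W.IsGoodPrimeFor r) : ¬ r ∣ W.conductorLevel :=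
  fun hd => h ((W.prime_dvd_conductorLevel_iff hΔ hr).1 hd)

/-- a prime is bad iff it divides the conductor level -/
theorem sz_bad_iff (W : WeierstrassCurve ℤ) (hΔ : W.Δ ≠ 0) {r : ℕ} (hr : r.Prime) :
    ¬ W.IsGoodPrimeFor r ↔ r ∣ W.conductorLevel := by
  rw [W.prime_dvd_conductorLevel_iff hΔ hr]
  exact not_not

/-- the conductor level divides every level divisible by the bad primes -/
theorem sz_conductorLevel_dvd (W : WeierstrassCurve ℤ) (hΔ : W.Δ ≠ 0) {N : ℕ} (hN0 : N ≠ 0)
    (hbad : ∀ ℓ : ℕ, ℓ.Prime → (ℓ : ℤ) ∣ W.Δ → ℓ ∣ N) : W.conductorLevel ∣ N := by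
  have hC0 : W.conductorLevel ≠ 0 := W.conductorLevel_pos.ne'
  rw [← Nat.factorization_le_iff_dvd hC0 hN0]
  intro q
  by_cases hq : q.Prime
  · by_cases hqC : q ∣ W.conductorLevel
    · have h1 : W.conductorLevel.factorization q ≤ 1 :=
        (Nat.squarefree_iff_factorization_le_one hC0).1 W.squarefree_conductorLevel q
      have h2 : q ∣ N := hbad q hq ((W.prime_dvd_conductorLevel_iff hΔ hq).1 hqC)
      have h3 : 1 ≤ N.factorization q := by
        have := (hq.pow_dvd_iff_le_factorization hN0).1 (by rwa [pow_one])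
        exact this
      exact h1.trans h3
    · rw [Nat.factorization_eq_zero_of_not_dvd hqC]
      exact Nat.zero_le _
  · rw [Nat.factorization_eq_zero_of_not_prime _ hq]
    exact Nat.zero_le _

/-- a normalised eigenform of level `M` with the `a_r` of `W` at the good primes `r ∤ M` makes
`W` modular of level `M` (the definition) -/
theorem sz_isModularModelOfLevel (W : WeierstrassCurve ℤ) {M : ℕ}
    (f₀ : CuspForm (Gamma0 M) 2) (hf₀ : f₀.IsNormalizedEigenform)
    (h : ∀ r : ℕ, r.Prime → W.IsGoodPrimeFor r → ¬ r ∣ M →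
      qCoeff f₀ r = (W.apOfModel r : ℂ)) : W.IsModularModelOfLevel M :=
  ⟨f₀, hf₀, h⟩

/-- **step 8**: a normalised eigenform `f₀` of a level `M ∣ W.conductorLevel` with
`a_r(f₀) = a_r(W)` at the good primes `r ∤ M` makes `W` modular of its conductor level. -/
theorem sz_final (W : WeierstrassCurve ℤ) {M : ℕ} (hM : M ∣ W.conductorLevel)
    (f₀ : CuspForm (Gamma0 M) 2) (hf₀ : f₀.IsNormalizedEigenform)
    (h : ∀ r : ℕ, r.Prime → W.IsGoodPrimeFor r → ¬ r ∣ M →
      qCoeff f₀ r = (W.apOfModel r : ℂ)) : W.IsModularModelOfLevel W.conductorLevel :=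
  stb_isModularModelOfLevel_of_dvd W hM W.conductorLevel_pos.ne'
    (sz_isModularModelOfLevel W f₀ hf₀ h)

/-- step 8, in the form "`a_r(f₀) = a_r(W)` at EVERY good prime" -/
theorem sz_final' (W : WeierstrassCurve ℤ) {M : ℕ} (hM : M ∣ W.conductorLevel)
    (f₀ : CuspForm (Gamma0 M) 2) (hf₀ : f₀.IsNormalizedEigenform)
    (h : ∀ r : ℕ, r.Prime → W.IsGoodPrimeFor r → qCoeff f₀ r = (W.apOfModel r : ℂ)) :
    W.IsModularModelOfLevel W.conductorLevel :=
  sz_final W hM f₀ hf₀ fun r hr hg _ => h r hr hg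

/-- **the end of the proof of S58**: a normalised eigenform `f₀` of a level `M ∣ N` (`N`
cube-free), with no prime of exponent `2` in `M` (step 2), whose primes are bad for `W` (step 3)
and with `a_r(f₀) = a_r(W)` at the good primes (step 5), makes `W` modular of its conductor
level. -/
theorem sz_main (W : WeierstrassCurve ℤ) (N : ℕ)
    (hbad : ∀ ℓ : ℕ, ℓ.Prime → (ℓ : ℤ) ∣ W.Δ → ℓ ∣ N)
    (hN3 : ∀ q : ℕ, q.Prime → ¬ q ^ 3 ∣ N) {M : ℕ} (hMN : M ∣ N)
    (f₀ : CuspForm (Gamma0 M) 2) (hf₀ : f₀.IsNormalizedEigenform)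
    (h2 : ∀ q : ℕ, q.Prime → M.factorization q ≠ 2)
    (h3 : ∀ q : ℕ, q.Prime → q ∣ M → ¬ W.IsGoodPrimeFor q)
    (h5 : ∀ r : ℕ, r.Prime → W.IsGoodPrimeFor r → ¬ r ∣ M →
      qCoeff f₀ r = (W.apOfModel r : ℂ)) : W.IsModularModelOfLevel W.conductorLevel := by
  have hΔ : W.Δ ≠ 0 := sz_delta_ne_zero W N hbad hN3
  have hsq : Squarefree M := sz_squarefree hMN hN3 h2
  have hM : M ∣ W.conductorLevel :=
    sz_dvd_conductorLevel W hΔ hsq fun q hq hqM => not_not.mp (h3 q hq hqM)
  exact sz_final W hM f₀ hf₀ h5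

end Fermat.Agent.S58lib
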